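import Mathlib.RingTheory.IntegralDomain
import Mathlib.LinearAlgebra.Matrix.GeneralLinearGroup.Defs
import Mathlib.LinearAlgebra.Matrix.ToLinearEquiv
import Mathlib.RingTheory.RootsOfUnity.Complex
import Fermat.Prelude.Def_Deformations_MatrixRepresentation

/-!
# Finite groups of `2 × 2` complex matrices

Rigidity of trace and determinant, and irreducibility from the mean square of the trace.
-/

set_option autoImplicit false

noncomputable section

open Matrix

namespace FermatLib.Galois.DS

/-- An element of finite order with the trace and determinant of the identity is the identity. -/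
theorem eq_one_of_trace_det {M : Matrix (Fin 2) (Fin 2) ℂ} {m : ℕ} (hm : 0 < m) (hM : M ^ m = 1)
    (ht : M.trace = 2) (hd : M.det = 1) : M = 1 := by
  have hsq : (M - 1) * (M - 1) = 0 := by
    rw [Matrix.trace_fin_two] at ht
    rw [Matrix.det_fin_two] at hd
    ext i j
    fin_cases i <;> fin_cases j <;>
      simp [Matrix.mul_apply, Fin.sum_univ_two]
    · linear_combination (M 0 0) * ht - hd
    · linear_combination (M 0 1) * ht
    · linear_combination (M 1 0) * ht
    · linear_combination (M 1 1) * ht - hd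
  have hpow : ∀ n : ℕ, M ^ n = 1 + (n : ℂ) • (M - 1) := by
    intro n
    induction n with
    | zero => simp
    | succ n ih =>
      rw [pow_succ, ih]
      calc (1 + (n : ℂ) • (M - 1)) * M
          = (1 + (n : ℂ) • (M - 1)) * ((M - 1) + 1) := by rw [sub_add_cancel]
        _ = (M - 1) + 1 + ((n : ℂ) • ((M - 1) * (M - 1)) + (n : ℂ) • (M - 1)) := by
          rw [add_mul, one_mul, smul_mul_assoc, mul_add, mul_one, smul_add]
        _ = 1 + ((n + 1 : ℕ) : ℂ) • (M - 1) := by
          rw [hsq, smul_zero, zero_add, Nat.cast_add, Nat.cast_one, add_smul, one_smul]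
          abel
  have h := hpow m
  rw [hM, left_eq_add, smul_eq_zero] at h
  exact sub_eq_zero.mp (h.resolve_left (Nat.cast_ne_zero.mpr hm.ne'))

/-- A finite group with an invariant line has mean square trace at least two. -/
theorem two_mul_card_le_sum_trace_sq (G : Subgroup (GL (Fin 2) ℂ)) [Fintype G] (v : Fin 2 → ℂ)
    (hv : v ≠ 0) (hline : ∀ g : G, ∃ c : ℂ,
      ((g : GL (Fin 2) ℂ) : Matrix (Fin 2) (Fin 2) ℂ) *ᵥ v = c • v) :
    2 * (Nat.card G : ℝ) ≤
      ∑ g : G, ‖((g : GL (Fin 2) ℂ) : Matrix (Fin 2) (Fin 2) ℂ).trace‖ ^ 2 := by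
  classical
  choose c hc using hline
  have huniq : ∀ {x y : ℂ}, x • v = y • v → x = y := fun h => smul_left_injective ℂ hv h
  have hc1 : c 1 = 1 := huniq (by rw [← hc 1]; simp)
  have hcmul : ∀ g h, c (g * h) = c g * c h := fun g h => huniq (by
    rw [← hc, Subgroup.coe_mul, Units.val_mul, ← Matrix.mulVec_mulVec, hc, Matrix.mulVec_smul, hc,
      smul_smul, mul_comm])
  let χ₁ : G →* ℂ := { toFun := c, map_one' := hc1, map_mul' := hcmul }
  have hc0 : ∀ g, c g ≠ 0 := fun g h0 => by
    have := hcmul g g⁻¹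
    rw [mul_inv_cancel, hc1, h0, zero_mul] at this
    exact one_ne_zero this
  let dt : G →* ℂ := ((Matrix.detMonoidHom (n := Fin 2) (R := ℂ)).comp
    (Units.coeHom _)).comp G.subtype
  let χ : G →* ℂ :=
    { toFun := fun g => dt g / (c g * c g)
      map_one' := by simp [hc1]
      map_mul' := fun g h => by
        rw [map_mul, hcmul]
        field_simp }
  have htr : ∀ g : G, ((g : GL (Fin 2) ℂ) : Matrix (Fin 2) (Fin 2) ℂ).trace = c g * (1 + χ g) := by
    intro g
    set M := ((g : GL (Fin 2) ℂ) : Matrix (Fin 2) (Fin 2) ℂ)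
    have hdet : (M - c g • (1 : Matrix (Fin 2) (Fin 2) ℂ)).det = 0 :=
      Matrix.exists_mulVec_eq_zero_iff.mp ⟨v, hv, by
        rw [Matrix.sub_mulVec, Matrix.smul_mulVec, Matrix.one_mulVec, hc, sub_self]⟩
    simp [Matrix.det_fin_two] at hdet
    show M.trace = c g * (1 + M.det / (c g * c g))
    rw [Matrix.trace_fin_two, Matrix.det_fin_two]
    field_simp [hc0 g]
    linear_combination -hdet
  have hnorm : ∀ (f : G →* ℂ) (g : G), ‖f g‖ = 1 := fun f g =>
    Complex.norm_eq_one_of_pow_eq_one
      (by rw [← map_pow, pow_card_eq_one, map_one]) Fintype.card_ne_zero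
  have hterm : ∀ g : G, ‖((g : GL (Fin 2) ℂ) : Matrix (Fin 2) (Fin 2) ℂ).trace‖ ^ 2 =
      2 + 2 * (χ g).re := by
    intro g
    rw [htr, norm_mul, show c g = χ₁ g from rfl, hnorm χ₁ g, one_mul, Complex.sq_norm,
      Complex.normSq_apply]
    have h2 : (χ g).re * (χ g).re + (χ g).im * (χ g).im = 1 := by
      rw [← Complex.normSq_apply, ← Complex.sq_norm, hnorm χ g, one_pow]
    simp only [Complex.add_re, Complex.one_re, Complex.add_im, Complex.one_im, zero_add]
    linarith [show (1 + (χ g).re) * (1 + (χ g).re) = 1 + 2 * (χ g).re + (χ g).re * (χ g).re by ring]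
  rw [Finset.sum_congr rfl fun g _ => hterm g, Finset.sum_add_distrib, Finset.sum_const,
    Finset.card_univ, nsmul_eq_mul, ← Finset.mul_sum, ← Complex.re_sum, Nat.card_eq_fintype_card,
    sum_hom_units χ]
  split_ifs <;> simp <;> linarith [(Nat.cast_nonneg (Fintype.card G) : (0 : ℝ) ≤ _)]

/-- A representation with small mean square trace on its finite image is irreducible. -/
theorem isIrreducible_of_sum_trace_sq_le {Γ : Type} [Group Γ] (ρ : Γ →* GL (Fin 2) ℂ)
    [Fintype ρ.range] (h : ∑ g : ρ.range,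
      ‖((g : GL (Fin 2) ℂ) : Matrix (Fin 2) (Fin 2) ℂ).trace‖ ^ 2 ≤ Nat.card ρ.range) :
    (Deformation.matrixRepresentation ρ).IsIrreducible := by
  have hnt : Nontrivial (Subrepresentation (Deformation.matrixRepresentation ρ)) := by
    refine ⟨⊥, ⊤, fun hbt => ?_⟩
    exact bot_ne_top (α := Submodule ℂ (Fin 2 → ℂ)) (congrArg Subrepresentation.toSubmodule hbt)
  refine @IsSimpleOrder.mk _ _ _ hnt fun U => ?_
  by_contra hU
  rw [not_or] at hU
  obtain ⟨h0, h1⟩ := hU
  have hb : U.toSubmodule ≠ ⊥ := fun hh => h0 (Subrepresentation.toSubmodule_injective hh)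
  have ht : U.toSubmodule ≠ ⊤ := fun hh => h1 (Subrepresentation.toSubmodule_injective hh)
  obtain ⟨v, hvU, hv⟩ := Submodule.exists_mem_ne_zero_of_ne_bot hb
  have hle : Submodule.span ℂ {v} ≤ U.toSubmodule := (Submodule.span_singleton_le_iff_mem _ _).mpr hvU
  have hfr : Module.finrank ℂ U.toSubmodule ≤ 1 := by
    have := Submodule.finrank_lt ht
    simp only [Module.finrank_fin_fun] at this
    omega
  have heq : Submodule.span ℂ {v} = U.toSubmodule :=
    Submodule.eq_of_le_of_finrank_le hle (by rw [finrank_span_singleton hv]; exact hfr)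
  have hline : ∀ g : ρ.range, ∃ c : ℂ,
      ((g : GL (Fin 2) ℂ) : Matrix (Fin 2) (Fin 2) ℂ) *ᵥ v = c • v := by
    rintro ⟨_, γ, rfl⟩
    have hmem := U.apply_mem_toSubmodule γ hvU
    rw [← heq, Submodule.mem_span_singleton] at hmem
    obtain ⟨c, hc⟩ := hmem
    rw [Deformation.matrixRepresentation_apply, Matrix.mulVecLin_apply] at hc
    exact ⟨c, hc.symm⟩
  have h2 := two_mul_card_le_sum_trace_sq ρ.range v hv hline
  have hpos : (0 : ℝ) < Nat.card ρ.range := Nat.cast_pos.mpr Nat.card_pos
  linarith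

end FermatLib.Galois.DS

end
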