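import Fermat.Agent.Galois.DS.AssemblyCandidate
import Fermat.Agent.Galois.DS.AssemblyLinear

/-!
# The Artin representation from residual representations (Deligne–Serre, §8)
-/

set_option autoImplicit false
set_option linter.style.haveILetI false

noncomputable section

open scoped MatrixGroups

namespace FermatLib.Galois.DS

local notation "Qbar" => AlgebraicClosure ℚ
local notation "Γℚ" => (AlgebraicClosure ℚ ≃ₐ[ℚ] AlgebraicClosure ℚ)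
local notation "Zb" => integralClosure ℤ ℂ
local notation "M2C" => Matrix (Fin 2) (Fin 2) ℂ

/-- For each finite set of algebraic integers, congruence in large characteristic is equality. -/
theorem exists_bound_red_eq (s : Finset Zb) :
    ∃ B : ℕ, ∀ ℓ : ℕ, ℓ.Prime → B < ℓ → ∀ {k : Type} [Field k] [CharP k ℓ] (red : Zb →+* k),
      ∀ x ∈ s, ∀ y ∈ s, red x = red y → x = y := by
  classical
  choose B hB using fun d : {d : Zb // d ≠ 0} => exists_bound_red_ne_zero d.2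
  let D : Finset {d : Zb // d ≠ 0} := ((s ×ˢ s).image fun xy => xy.1 - xy.2).subtype _
  refine ⟨D.sup B, fun ℓ hℓ hlt k _ _ red x hx y hy hxy => ?_⟩
  by_contra hne
  have hd : x - y ≠ 0 := sub_ne_zero.mpr hne
  have hmem : (⟨x - y, hd⟩ : {d : Zb // d ≠ 0}) ∈ D :=
    Finset.mem_subtype.mpr (Finset.mem_image.mpr ⟨(x, y), Finset.mem_product.mpr ⟨hx, hy⟩, rfl⟩)
  exact hB ⟨x - y, hd⟩ ℓ hℓ (lt_of_le_of_lt (Finset.le_sup hmem) hlt) red
    (by rw [map_sub, hxy, sub_self])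

theorem factors_prod {H H' : Type} [Group H] [Group H'] {ρ : Γℚ →* H} {ρ' : Γℚ →* H'}
    (h : GaloisFactorsThroughFiniteLevel ρ) (h' : GaloisFactorsThroughFiniteLevel ρ') :
    GaloisFactorsThroughFiniteLevel (ρ.prod ρ') := by
  obtain ⟨L, hL, hρ⟩ := h
  obtain ⟨L', hL', hρ'⟩ := h'
  haveI := hL
  haveI := hL'
  exact ⟨L ⊔ L', inferInstance, fun σ hσ => Prod.ext
    (hρ σ fun x hx => hσ x ((le_sup_left : L ≤ L ⊔ L') hx))
    (hρ' σ fun x hx => hσ x ((le_sup_right : L' ≤ L ⊔ L') hx))⟩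

/-- **The Artin representation.** -/
theorem exists_artinRep (N : ℕ) (hN : N ≠ 0) (R : Subring ℂ) [Module.Finite ℤ R] (a e : ℕ → R)
    (E₀ : Finset R) (he : ∀ p : ℕ, p.Prime → ¬ p ∣ N → e p ∈ E₀)
    (hbound : ∀ σ : R →+* ℂ, ∀ T : ℝ, 0 ≤ T → PrimeSumBound N a σ T)
    (hres : ∃ B : ℕ, ∀ ℓ : ℕ, ∀ [Fact ℓ.Prime], B < ℓ → ∀ red : R →+* ZMod ℓ,
      HasResidualRep N ℓ a e red) :
    ∃ ρ : Γℚ →* GL (Fin 2) ℂ, GaloisFactorsThroughFiniteLevel ρ ∧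
      (Deformation.matrixRepresentation ρ).IsIrreducible ∧
      ∀ p : ℕ, p.Prime → ¬ p ∣ N →
        ∀ A : ValuationSubring Qbar, A.LiesOverPrime p →
          (∀ σ ∈ A.inertiaSubgroupIn ℚ, ρ σ = 1) ∧
          ∀ σ : Γℚ, A.IsFrobeniusAt σ p →
            ((ρ σ : GL (Fin 2) ℂ) : M2C).trace = (a p : ℂ) ∧
            ((ρ σ : GL (Fin 2) ℂ) : M2C).det = (e p : ℂ) := by
  classical
  obtain ⟨m, hm, hcand⟩ := exists_candidates hN a e E₀ he hbound hres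
  set μ : Finset Zb := Polynomial.nthRootsFinset m (1 : Zb)
  have hμ : ∀ {z : Zb}, z ^ m = 1 → z ∈ μ := fun h => (Polynomial.mem_nthRootsFinset hm 1).mpr h
  set Zs : Finset Zb := ((μ ×ˢ μ).image fun z => z.1 + z.2) ∪ ((μ ×ˢ μ).image fun z => z.1 * z.2)
  have hsum_mem : ∀ {z w : Zb}, z ^ m = 1 → w ^ m = 1 → z + w ∈ Zs := fun {z w} hz hw =>
    Finset.mem_union_left _ (Finset.mem_image.mpr ⟨(z, w), Finset.mem_product.mpr ⟨hμ hz, hμ hw⟩, rfl⟩)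
  have hmul_mem : ∀ {z w : Zb}, z ^ m = 1 → w ^ m = 1 → z * w ∈ Zs := fun {z w} hz hw =>
    Finset.mem_union_right _ (Finset.mem_image.mpr ⟨(z, w), Finset.mem_product.mpr ⟨hμ hz, hμ hw⟩, rfl⟩)
  -- the eigenvalues are sums of two roots of unity
  have haZ : ∀ p : ℕ, p.Prime → ¬ p ∣ N →
      toZbar R (a p) ∈ Zs ∧ toZbar R (e p) ∈ Zs := by
    intro p hp hpN
    obtain ⟨B, hB⟩ := exists_bound_red_eq (Zs ∪ {toZbar R (a p), toZbar R (e p)})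
    obtain ⟨ℓ, hℓ, hℓB, ρ, -, -, k, _, _, red, hred⟩ := hcand (max B p)
    obtain ⟨A, hA⟩ := FermatLib.Basic.exists_liesOverPrime hp
    obtain ⟨σ, hσ⟩ := FermatLib.Basic.exists_isFrobeniusAt hp A hA
    have hpℓ : ¬ p ∣ N * ℓ := fun hd => by
      rcases hp.dvd_mul.mp hd with h | h
      · exact hpN h
      · have := (Nat.prime_dvd_prime_iff_eq hp hℓ).mp h
        omega
    obtain ⟨z₁, z₂, h₁, h₂, -, -, hrt, hrd⟩ := (hred p hp hpℓ A hA).2 σ hσ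
    have hlt : B < ℓ := by omega
    have e1 := hB ℓ hℓ hlt red (z₁ + z₂) (Finset.mem_union_left _ (hsum_mem h₁ h₂))
      (toZbar R (a p)) (Finset.mem_union_right _ (by simp)) hrt
    have e2 := hB ℓ hℓ hlt red (z₁ * z₂) (Finset.mem_union_left _ (hmul_mem h₁ h₂))
      (toZbar R (e p)) (Finset.mem_union_right _ (by simp)) hrd
    exact ⟨e1 ▸ hsum_mem h₁ h₂, e2 ▸ hmul_mem h₁ h₂⟩
  -- two candidates in large characteristic realise the eigenvalues exactly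
  obtain ⟨B₁, hB₁⟩ := exists_bound_red_eq Zs
  obtain ⟨ℓ₀, hℓ₀, hℓ₀B, ρ, hρ, hρm, k, _, _, red, hred⟩ := hcand (max B₁ N)
  obtain ⟨ℓ₁, hℓ₁, hℓ₁B, ρ', hρ', -, k', _, _, red', hred'⟩ := hcand (max B₁ ℓ₀)
  have hexact : ∀ {ℓ : ℕ} (_ : ℓ.Prime) (_ : B₁ < ℓ) {k : Type} [Field k] [CharP k ℓ]
      (red : Zb →+* k) {r : Γℚ →* GL (Fin 2) ℂ} {p : ℕ} (_ : p.Prime) (_ : ¬ p ∣ N) {σ : Γℚ},
      (∃ z₁ z₂ : Zb, z₁ ^ m = 1 ∧ z₂ ^ m = 1 ∧
        ((r σ : GL (Fin 2) ℂ) : M2C).trace = (z₁ : ℂ) + z₂ ∧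
        ((r σ : GL (Fin 2) ℂ) : M2C).det = (z₁ : ℂ) * z₂ ∧
        red (z₁ + z₂) = red (toZbar R (a p)) ∧ red (z₁ * z₂) = red (toZbar R (e p))) →
      ((r σ : GL (Fin 2) ℂ) : M2C).trace = (a p : ℂ) ∧
        ((r σ : GL (Fin 2) ℂ) : M2C).det = (e p : ℂ) := by
    rintro ℓ hℓ hlt k _ _ red r p hp hpN σ ⟨z₁, z₂, h₁, h₂, ht, hd, hrt, hrd⟩
    have e1 := hB₁ ℓ hℓ hlt red _ (hsum_mem h₁ h₂) _ (haZ p hp hpN).1 hrt
    have e2 := hB₁ ℓ hℓ hlt red _ (hmul_mem h₁ h₂) _ (haZ p hp hpN).2 hrd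
    refine ⟨ht.trans ?_, hd.trans ?_⟩
    · rw [← coe_toZbar (a p), ← e1]; rfl
    · rw [← coe_toZbar (e p), ← e2]; rfl
  have hnd : ∀ {p ℓ : ℕ}, p.Prime → ¬ p ∣ N → ℓ.Prime → p ≠ ℓ → ¬ p ∣ N * ℓ :=
    fun hp hpN hℓ hne hd => (hp.dvd_mul.mp hd).elim hpN
      fun h => hne ((Nat.prime_dvd_prime_iff_eq hp hℓ).mp h)
  have hsame : ∀ γ : Γℚ, ((ρ γ : GL (Fin 2) ℂ) : M2C).trace = ((ρ' γ : GL (Fin 2) ℂ) : M2C).trace ∧
      ((ρ γ : GL (Fin 2) ℂ) : M2C).det = ((ρ' γ : GL (Fin 2) ℂ) : M2C).det := by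
    intro γ
    obtain ⟨p, hp, hpS, A, hA, σ, hσ, heq⟩ := exists_frobenius_eq (factors_prod hρ hρ') γ
      ((N * ℓ₀ * ℓ₁).primeFactors)
    have hne : ∀ d : ℕ, d ∣ N * ℓ₀ * ℓ₁ → ¬ p ∣ d := fun d hd hpd =>
      hpS (Nat.mem_primeFactors.mpr ⟨hp, hpd.trans hd,
        mul_ne_zero (mul_ne_zero hN hℓ₀.ne_zero) hℓ₁.ne_zero⟩)
    have hpN : ¬ p ∣ N := hne N ((dvd_mul_right _ _).mul_right _)
    have h0 := hexact hℓ₀ (by omega) red hp hpN
      ((hred p hp (hne _ (dvd_mul_right _ _)) A hA).2 σ hσ)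
    have h1 := hexact hℓ₁ (by omega) red' hp hpN ((hred' p hp
      (hne _ (mul_dvd_mul_right (dvd_mul_right _ _) _)) A hA).2 σ hσ)
    rw [show ρ γ = ρ σ from (congrArg Prod.fst heq).symm,
      show ρ' γ = ρ' σ from (congrArg Prod.snd heq).symm]
    exact ⟨h0.1.trans h1.1.symm, h0.2.trans h1.2.symm⟩
  have hmain : ∀ p : ℕ, p.Prime → ¬ p ∣ N →
      ∀ A : ValuationSubring Qbar, A.LiesOverPrime p →
        (∀ σ ∈ A.inertiaSubgroupIn ℚ, ρ σ = 1) ∧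
        ∀ σ : Γℚ, A.IsFrobeniusAt σ p →
          ((ρ σ : GL (Fin 2) ℂ) : M2C).trace = (a p : ℂ) ∧
          ((ρ σ : GL (Fin 2) ℂ) : M2C).det = (e p : ℂ) := by
    intro p hp hpN A hA
    by_cases hp0 : p = ℓ₀
    · have h1 := hred' p hp (hnd hp hpN hℓ₁ (by omega)) A hA
      refine ⟨fun σ hσ => ?_, fun σ hσ => ?_⟩
      · have ht := (hsame σ).1
        have hd := (hsame σ).2
        rw [h1.1 σ hσ, Units.val_one] at ht hd
        rw [Matrix.trace_one, Fintype.card_fin] at ht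
        rw [Matrix.det_one] at hd
        refine Units.ext (eq_one_of_trace_det hm ?_ (by simpa using ht) hd)
        rw [← Units.val_pow_eq_pow_val, hρm, Units.val_one]
      · obtain ⟨ht, hd⟩ := hexact hℓ₁ (by omega) red' hp hpN (h1.2 σ hσ)
        exact ⟨(hsame σ).1.trans ht, (hsame σ).2.trans hd⟩
    · have h0 := hred p hp (hnd hp hpN hℓ₀ hp0) A hA
      exact ⟨h0.1, fun σ hσ => hexact hℓ₀ (by omega) red hp hpN (h0.2 σ hσ)⟩
  refine ⟨ρ, hρ, ?_, hmain⟩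
  -- irreducibility from the Rankin bound
  haveI := finite_range_of_factors hρ
  haveI : Fintype ρ.range := Fintype.ofFinite _
  obtain ⟨C, hC⟩ := hbound R.subtype 4 (by norm_num)
  refine isIrreducible_of_sum_trace_sq_le ρ ?_
  have htr4 : ∀ g : GL (Fin 2) ℂ, g ∈ ρ.range → ‖(g : M2C).trace‖ ^ 2 ≤ 4 := by
    rintro _ ⟨γ, rfl⟩
    obtain ⟨z₁, z₂, h₁, h₂, ht, -⟩ := exists_eigenvalues_of_pow_eq_one
      (M := ((ρ γ : GL (Fin 2) ℂ) : M2C)) (m := m)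
      (by rw [← Units.val_pow_eq_pow_val, hρm, Units.val_one])
    have hle : ‖((ρ γ : GL (Fin 2) ℂ) : M2C).trace‖ ≤ 2 := by
      rw [ht]
      refine (norm_add_le _ _).trans_eq ?_
      rw [Complex.norm_eq_one_of_pow_eq_one h₁ hm.ne', Complex.norm_eq_one_of_pow_eq_one h₂ hm.ne']
      norm_num
    nlinarith [norm_nonneg ((ρ γ : GL (Fin 2) ℂ) : M2C).trace]
  have key := sum_range_le_of_primeSum_le hρ (fun g => min (‖(g : M2C).trace‖ ^ 2) 4)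
    (fun g => le_min (sq_nonneg _) (by norm_num))
    (fun g h => by simp only [Units.val_mul, Matrix.trace_units_conj])
    (fun p => if p.Prime ∧ ¬ p ∣ N then min (‖(a p : ℂ)‖ ^ 2) 4 else 0)
    (fun p => by split_ifs; exacts [le_min (sq_nonneg _) (by norm_num), le_rfl])
    N.primeFactors (fun p hp hpS A hA σ hσ => by
      have hpN : ¬ p ∣ N := fun hd => hpS (Nat.mem_primeFactors.mpr ⟨hp, hd, hN⟩)
      simp only [if_pos (And.intro hp hpN), ((hmain p hp hpN A hA).2 σ hσ).1])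
    (κ := 1) (C := C) (fun s hs1 hs2 P hP => by
      have hPN : ∀ p ∈ P, p.Prime ∧ ¬ p ∣ N := fun p hp =>
        ⟨(hP p hp).1, fun hd => (hP p hp).2 (Nat.mem_primeFactors.mpr ⟨(hP p hp).1, hd, hN⟩)⟩
      rw [one_mul]
      refine le_trans (le_of_eq (Finset.sum_congr rfl fun p hp => ?_)) (hC s hs1 hs2 P hPN)
      rw [if_pos (hPN p hp)]
      rfl)
  rw [one_mul] at key
  refine le_trans (le_of_eq (Finset.sum_congr rfl fun g _ => ?_)) key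
  rw [min_eq_left (htr4 g g.2)]

end FermatLib.Galois.DS

end
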