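import Mathlib.GroupTheory.Index
import Fermat.Prelude.Def_GaloisRep_Residual
import Fermat.Agent.Galois.Chebotarev
import Fermat.Agent.Galois.PlaceFiniteLevel

/-!
# Averages over the image from sums over primes

If `W` is a class function on the image of a representation of finite level, read off at primes
as `b p`, and `∑ b p p^(-s) ≤ κ log (1/(s-1)) + O(1)`, then the average of `W` is at most `κ`.
-/

set_option autoImplicit false

noncomputable section

open Filter
open scoped Topology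

namespace FermatLib.Galois.DS

open FermatLib.Galois.Chebotarev

local notation "Qbar" => AlgebraicClosure ℚ
local notation "Γℚ" => (AlgebraicClosure ℚ ≃ₐ[ℚ] AlgebraicClosure ℚ)

variable {H : Type} [Group H]

theorem normal_qbar : Normal ℚ Qbar :=
  normal_iff.mpr fun x => ⟨((AlgebraicClosure.isAlgebraic ℚ).isAlgebraic x).isIntegral,
    IsAlgClosed.splits _⟩

/-- A representation of finite level factors through a finite Galois extension. -/
theorem exists_galois_factor {ρ : Γℚ →* H} (hρ : GaloisFactorsThroughFiniteLevel ρ) :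
    ∃ F : IntermediateField ℚ Qbar, ∃ _ : NumberField F, ∃ _ : IsGalois ℚ F,
      ∃ ρ' : (F ≃ₐ[ℚ] F) →* H, ∀ σ : Γℚ, ρ' (AlgEquiv.restrictNormalHom F σ) = ρ σ := by
  obtain ⟨L, hL, hρL⟩ := hρ
  have := normal_qbar
  obtain ⟨F, hLF, hnum, hgal⟩ := FermatLib.Galois.Density.exists_galois_level L
  have hsurj : Function.Surjective (AlgEquiv.restrictNormalHom F : Γℚ →* F ≃ₐ[ℚ] F) :=
    AlgEquiv.restrictNormalHom_surjective (F := ℚ) (K₁ := F) Qbar
  refine ⟨F, hnum, hgal, (AlgEquiv.restrictNormalHom F : Γℚ →* F ≃ₐ[ℚ] F).liftOfSurjective hsurj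
    ⟨ρ, fun σ hσ => hρL σ fun x hx => ?_⟩, fun σ => MonoidHom.liftOfRightInverse_comp_apply _ _ _ _ σ⟩
  have h2 := AlgEquiv.restrictNormal_commutes σ F ⟨x, hLF hx⟩
  rw [MonoidHom.mem_ker] at hσ
  change algebraMap F Qbar (AlgEquiv.restrictNormalHom F σ ⟨x, hLF hx⟩) = _ at h2
  rw [hσ] at h2
  exact h2.symm

/-- The image of a representation of finite level is finite. -/
theorem finite_range_of_factors {ρ : Γℚ →* H} (hρ : GaloisFactorsThroughFiniteLevel ρ) :
    Finite ρ.range := by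
  obtain ⟨F, _, _, ρ', hρ'⟩ := exists_galois_factor hρ
  refine Set.Finite.to_subtype ((Set.finite_range ρ').subset ?_)
  rintro _ ⟨σ, rfl⟩
  exact ⟨_, hρ' σ⟩

theorem sum_indicator_le_tsum_add {P : Set Nat.Primes} (T₀ : Finset Nat.Primes) {s : ℝ}
    (hs : 1 < s) :
    primeSum P s ≤ (∑' p : Nat.Primes,
      (P \ (T₀ : Set Nat.Primes)).indicator (fun p : Nat.Primes => ((p : ℕ) : ℝ) ^ (-s)) p) +
      T₀.card := by
  have hsum : Summable fun p : Nat.Primes => ((p : ℕ) : ℝ) ^ (-s) :=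
    Nat.Primes.summable_rpow.mpr (by linarith)
  have h0 : ∀ p : Nat.Primes, (0 : ℝ) ≤ ((p : ℕ) : ℝ) ^ (-s) := fun p =>
    Real.rpow_nonneg (Nat.cast_nonneg _) _
  rw [primeSum, tsum_subtype P (fun p : Nat.Primes => ((p : ℕ) : ℝ) ^ (-s))]
  calc ∑' p, P.indicator (fun p : Nat.Primes => ((p : ℕ) : ℝ) ^ (-s)) p
      ≤ ∑' p, ((P \ (T₀ : Set Nat.Primes)).indicator (fun p : Nat.Primes => ((p : ℕ) : ℝ) ^ (-s)) p
          + (T₀ : Set Nat.Primes).indicator (fun p : Nat.Primes => ((p : ℕ) : ℝ) ^ (-s)) p) := by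
        refine Summable.tsum_le_tsum (fun p => ?_) (hsum.indicator _)
          ((hsum.indicator _).add (hsum.indicator _))
        by_cases hT : p ∈ T₀ <;> by_cases hP : p ∈ P <;>
          simp [hT, hP, h0 p]
    _ ≤ _ := by
        rw [(hsum.indicator _).tsum_add (hsum.indicator _)]
        refine add_le_add le_rfl ?_
        rw [tsum_eq_sum (s := T₀) (fun p hp => by simp [hp])]
        refine (Finset.sum_le_sum fun p hp => ?_).trans (by simp : ∑ _p ∈ T₀, (1 : ℝ) ≤ _)
        rw [Set.indicator_of_mem (Finset.mem_coe.mpr hp)]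
        exact Real.rpow_le_one_of_one_le_of_nonpos (by exact_mod_cast p.2.one_le) (by linarith)

/-- **Averages from sums over primes.** -/
theorem sum_range_le_of_primeSum_le {ρ : Γℚ →* H} (hρ : GaloisFactorsThroughFiniteLevel ρ)
    [Fintype ρ.range] (W : H → ℝ) (hW0 : ∀ h, 0 ≤ W h) (hWc : ∀ g h, W (g * h * g⁻¹) = W h)
    (b : ℕ → ℝ) (hb0 : ∀ p, 0 ≤ b p) (S : Finset ℕ)
    (hb : ∀ p : ℕ, p.Prime → p ∉ S → ∀ A : ValuationSubring Qbar, A.LiesOverPrime p →
      ∀ σ : Γℚ, A.IsFrobeniusAt σ p → W (ρ σ) = b p)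
    {κ C : ℝ} (hsum : ∀ s : ℝ, 1 < s → s ≤ 2 → ∀ P : Finset ℕ,
      (∀ p ∈ P, p.Prime ∧ p ∉ S) → ∑ p ∈ P, b p * (p : ℝ) ^ (-s) ≤ κ * Real.log (1 / (s - 1)) + C) :
    ∑ h : ρ.range, W h ≤ κ * Nat.card ρ.range := by
  classical
  have := normal_qbar
  obtain ⟨F, hnum, hgal, ρ', hρ'⟩ := exists_galois_factor hρ
  let X : ℝ → Set (F ≃ₐ[ℚ] F) := fun v => {g | W (ρ' g) = v}
  have hX : ∀ v, ∀ g ∈ X v, ∀ γ : F ≃ₐ[ℚ] F, γ * g * γ⁻¹ ∈ X v := fun v g hg γ => by
    show W (ρ' (γ * g * γ⁻¹)) = v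
    rw [map_mul, map_mul, map_inv, hWc]
    exact hg
  let vals : Finset ℝ := Finset.univ.image fun g : F ≃ₐ[ℚ] F => W (ρ' g)
  set n : ℕ := Nat.card (F ≃ₐ[ℚ] F) with hn
  let T₀ : Finset Nat.Primes := S.subtype Nat.Prime
  have hval : ∀ v, ∀ p ∈ frobeniusPrimes F (X v), p ∉ T₀ → v = b p := by
    rintro v p ⟨g, hg, Q, hQ, hpQ, -, hf⟩ hpT
    obtain ⟨A, hA, τ, hτ, hag⟩ := FermatLib.Galois.exists_isFrobeniusAt_of_isArithFrobAt F p.2 Q hpQ hf
    have hres : AlgEquiv.restrictNormalHom F τ = g := AlgEquiv.ext fun x => Subtype.ext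
      ((AlgEquiv.restrictNormal_commutes τ F x).trans (hag x))
    rw [← hb p p.2 (fun h => hpT (Finset.mem_subtype.mpr h)) A hA τ hτ, ← hρ' τ, hres]
    exact hg.symm
  have hineq : ∀ s : ℝ, 1 < s → s ≤ 2 → ∑ v ∈ vals, v * primeSum (frobeniusPrimes F (X v)) s ≤
      κ * Real.log (1 / (s - 1)) + C + ∑ v ∈ vals, v * T₀.card := by
    intro s hs1 hs2
    set r : Nat.Primes → ℝ := fun p => ((p : ℕ) : ℝ) ^ (-s)
    have hr : Summable r := Nat.Primes.summable_rpow.mpr (by linarith)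
    have hr0 : ∀ p, 0 ≤ r p := fun p => Real.rpow_nonneg (Nat.cast_nonneg _) _
    have hv0 : ∀ v ∈ vals, 0 ≤ v := fun v hv => by
      obtain ⟨g, -, rfl⟩ := Finset.mem_image.mp hv
      exact hW0 _
    have h1 : ∑ v ∈ vals, v * primeSum (frobeniusPrimes F (X v)) s ≤
        ∑ v ∈ vals, v * ((∑' p, (frobeniusPrimes F (X v) \ (T₀ : Set Nat.Primes)).indicator r p)
          + T₀.card) := Finset.sum_le_sum fun v hv =>
      mul_le_mul_of_nonneg_left (sum_indicator_le_tsum_add T₀ hs1) (hv0 v hv)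
    refine h1.trans ?_
    simp only [mul_add, Finset.sum_add_distrib]
    refine add_le_add ?_ le_rfl
    simp only [← tsum_mul_left]
    rw [← Summable.tsum_finsetSum fun v _ => (hr.indicator _).mul_left v]
    have hC : 0 ≤ κ * Real.log (1 / (s - 1)) + C := by simpa using hsum s hs1 hs2 ∅ (by simp)
    refine Real.tsum_le_of_sum_le (fun p => ?_) (fun u => ?_)
    · exact Finset.sum_nonneg fun v hv =>
        mul_nonneg (hv0 v hv) (Set.indicator_nonneg (fun p _ => hr0 p) p)
    · let P : Finset ℕ := (u.filter fun p => p ∉ T₀).image fun p : Nat.Primes => (p : ℕ)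
      refine le_trans ?_ (hsum s hs1 hs2 P ?_)
      · rw [show P = (u.filter fun p => p ∉ T₀).image (fun p : Nat.Primes => (p : ℕ)) from rfl, Finset.sum_image (g := fun p : Nat.Primes => (p : ℕ)) fun a _ b _ h => Subtype.ext h, Finset.sum_filter]
        refine Finset.sum_le_sum fun p _ => ?_
        by_cases hpT : p ∈ T₀
        · simp [hpT]
        rw [if_pos hpT]
        calc ∑ v ∈ vals, v * (frobeniusPrimes F (X v) \ (T₀ : Set Nat.Primes)).indicator r p
            ≤ ∑ v ∈ vals, (if b p = v then b p * r p else 0) := by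
              refine Finset.sum_le_sum fun v _ => ?_
              by_cases hp : p ∈ frobeniusPrimes F (X v) \ (T₀ : Set Nat.Primes)
              · rw [Set.indicator_of_mem hp, ← hval v p hp.1 hpT, if_pos rfl]
              · rw [Set.indicator_of_notMem hp, mul_zero]
                split_ifs
                exacts [mul_nonneg (hb0 _) (hr0 p), le_rfl]
          _ ≤ b p * r p := by
              rw [Finset.sum_ite_eq]
              split_ifs
              exacts [le_rfl, mul_nonneg (hb0 _) (hr0 p)]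
      · intro q hq
        obtain ⟨p, hp, rfl⟩ := Finset.mem_image.mp hq
        exact ⟨p.2, fun h => (Finset.mem_filter.mp hp).2 (Finset.mem_subtype.mpr h)⟩
  -- let `s → 1⁺`
  have hlim : Tendsto (fun s : ℝ => ∑ v ∈ vals, v * (primeSum (frobeniusPrimes F (X v)) s /
      Real.log (1 / (s - 1)))) (𝓝[>] 1) (𝓝 (∑ v ∈ vals, v * ((Nat.card (X v) : ℝ) / n))) :=
    tendsto_finsetSum vals fun v _ => (FermatLib.Galois.chebotarev_tendsto F (X v) (hX v)).const_mul v
  have hlog : Tendsto (fun s : ℝ => Real.log (1 / (s - 1))) (𝓝[>] 1) atTop := by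
    refine FermatLib.Galois.Chebotarev.tendsto_neg_log_sub_one.congr fun s => ?_
    rw [one_div, Real.log_inv]
  have hrhs : Tendsto (fun s : ℝ => κ + (C + ∑ v ∈ vals, v * T₀.card) / Real.log (1 / (s - 1)))
      (𝓝[>] 1) (𝓝 κ) := by
    simpa using (tendsto_const_nhds (x := κ)).add
      ((tendsto_const_nhds (x := C + ∑ v ∈ vals, v * (T₀.card : ℝ))).div_atTop hlog)
  have hle : ∑ v ∈ vals, v * ((Nat.card (X v) : ℝ) / n) ≤ κ := by
    refine le_of_tendsto_of_tendsto hlim hrhs ?_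
    filter_upwards [self_mem_nhdsWithin, hlog.eventually_gt_atTop 0,
      nhdsWithin_le_nhds (Iic_mem_nhds (show (1 : ℝ) < 2 by norm_num))] with s (hs : 1 < s) hl hs2
    simp only [← mul_div_assoc, ← Finset.sum_div]
    rw [div_le_iff₀ hl, add_mul, div_mul_cancel₀ _ hl.ne']
    linarith [hineq s hs hs2]
  -- the average over the Galois group is the average over the image
  have hn0 : (0 : ℝ) < n := Nat.cast_pos.mpr Nat.card_pos
  have hsumG : ∑ g : F ≃ₐ[ℚ] F, W (ρ' g) ≤ κ * n := by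
    simp only [← mul_div_assoc, ← Finset.sum_div] at hle
    rw [div_le_iff₀ hn0] at hle
    refine le_of_eq_of_le ?_ hle
    rw [← Finset.sum_fiberwise_of_maps_to (t := vals) (g := fun g => W (ρ' g))
      fun g _ => Finset.mem_image_of_mem _ (Finset.mem_univ g)]
    refine Finset.sum_congr rfl fun v _ => ?_
    rw [Finset.sum_congr rfl fun g hg => (Finset.mem_filter.mp hg).2, Finset.sum_const,
      nsmul_eq_mul, mul_comm, Nat.card_eq_fintype_card, Fintype.card_subtype]
    rfl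
  have hrange : ∀ x, x ∈ ρ.range ↔ x ∈ ρ'.range := fun x => by
    constructor
    · rintro ⟨σ, rfl⟩; exact ⟨_, hρ' σ⟩
    · rintro ⟨g, rfl⟩
      obtain ⟨σ, rfl⟩ := AlgEquiv.restrictNormalHom_surjective (F := ℚ) (K₁ := F) Qbar g
      exact ⟨σ, (hρ' σ).symm⟩
  let φ : (F ≃ₐ[ℚ] F) →* ρ.range := ρ'.codRestrict ρ.range fun g => (hrange _).mpr ⟨g, rfl⟩
  have hφ : Function.Surjective φ := fun x => by
    obtain ⟨g, hg⟩ := (hrange _).mp x.2
    exact ⟨g, Subtype.ext hg⟩
  set k := (Finset.univ.filter fun g => φ g = 1).card with hk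
  have hfib : ∀ x : ρ.range, (Finset.univ.filter fun g => φ g = x).card = k := fun x =>
    MonoidHom.card_fiber_eq_of_mem_range φ (hφ x) (hφ 1)
  have hsumφ : ∑ g : F ≃ₐ[ℚ] F, W (ρ' g) = k * ∑ h : ρ.range, W h := by
    rw [← Finset.sum_fiberwise (Finset.univ : Finset (F ≃ₐ[ℚ] F)) φ, Finset.mul_sum]
    refine Finset.sum_congr rfl fun x _ => ?_
    rw [Finset.sum_congr rfl fun g hg => (congrArg W
      (show ρ' g = (x : H) from congrArg Subtype.val (Finset.mem_filter.mp hg).2)),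
      Finset.sum_const, nsmul_eq_mul, hfib]
  have hnk : n = k * Nat.card ρ.range := by
    rw [hn, Nat.card_eq_fintype_card, Nat.card_eq_fintype_card, ← Finset.card_univ,
      Finset.card_eq_sum_card_fiberwise (f := φ) (t := Finset.univ) fun g _ => Finset.mem_univ _,
      Finset.sum_congr rfl fun x _ => hfib x, Finset.sum_const, Finset.card_univ, smul_eq_mul,
      mul_comm]
  rw [hsumφ, hnk, Nat.cast_mul, mul_left_comm] at hsumG
  refine le_of_mul_le_mul_left hsumG ?_
  rcases Nat.eq_zero_or_pos k with h | h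
  · rw [hnk, h, zero_mul, Nat.cast_zero] at hn0
    exact absurd hn0 (lt_irrefl 0)
  · exact Nat.cast_pos.mpr h

end FermatLib.Galois.DS

end
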