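import Mathlib.NumberTheory.Padics.RingHoms
import Mathlib.LinearAlgebra.Matrix.GeneralLinearGroup.Defs
import Mathlib.Tactic.NoncommRing

/-!
# Lifting representations of order prime to `ℓ` to `ℤ_ℓ`

A representation of a finite group of order prime to `ℓ` on `𝔽_ℓ²` lifts to `ℤ_ℓ²` by successive
averaging.
-/

set_option autoImplicit false

noncomputable section

open Matrix

namespace FermatLib.Galois.DS

variable {ℓ : ℕ} [Fact ℓ.Prime]

local notation "MZ" => Matrix (Fin 2) (Fin 2) ℤ_[ℓ]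
local notation "π₀" => RingHom.mapMatrix (m := Fin 2) (PadicInt.toZMod (p := ℓ))

theorem natCast_dvd_matrix_iff (n : ℕ) (X : MZ) :
    ((ℓ : MZ) ^ n) ∣ X ↔ ∀ i j, (ℓ : ℤ_[ℓ]) ^ n ∣ X i j := by
  have hc : ((ℓ : MZ) ^ n) = Matrix.diagonal fun _ => (ℓ : ℤ_[ℓ]) ^ n := by
    rw [← Matrix.diagonal_natCast, Matrix.diagonal_pow]
    rfl
  constructor
  · rintro ⟨Y, rfl⟩ i j
    exact ⟨Y i j, by rw [hc, Matrix.diagonal_mul]⟩
  · intro h
    choose Y hY using h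
    exact ⟨Matrix.of Y, Matrix.ext fun i j => by rw [hc, Matrix.diagonal_mul]; exact hY i j⟩

theorem toZMod_eq_zero_iff_dvd (x : ℤ_[ℓ]) : PadicInt.toZMod x = 0 ↔ (ℓ : ℤ_[ℓ]) ∣ x := by
  rw [← RingHom.mem_ker, PadicInt.ker_toZMod, PadicInt.maximalIdeal_eq_span_p,
    Ideal.mem_span_singleton]

theorem mapMatrix_eq_zero_iff_dvd (X : MZ) : π₀ X = 0 ↔ (ℓ : MZ) ∣ X := by
  rw [← pow_one (ℓ : MZ), natCast_dvd_matrix_iff]
  simp only [pow_one, ← toZMod_eq_zero_iff_dvd]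
  exact Matrix.ext_iff.symm

theorem dvd_mul_left_natCast {n : ℕ} {X : MZ} (h : (ℓ : MZ) ^ n ∣ X) (Y : MZ) :
    (ℓ : MZ) ^ n ∣ Y * X := by
  obtain ⟨Z, rfl⟩ := h
  exact ⟨Y * Z, by rw [← mul_assoc, ← mul_assoc, ((Nat.cast_commute ℓ Y).pow_left n).eq]⟩

variable {G : Type*} [Group G] [Fintype G]

/-- The defect of multiplicativity. -/
def liftDefect (φ : G → MZ) (g h : G) : MZ := φ g * φ h - φ (g * h)

/-- The averaged correction of an approximate homomorphism. -/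
def liftSum (φ : G → MZ) (g : G) : MZ := ∑ h, liftDefect φ g h * φ h⁻¹

theorem dvd_liftSum_combination (ρ : G →* Matrix (Fin 2) (Fin 2) (ZMod ℓ)) (φ : G → MZ)
    (hφ : ∀ g, π₀ (φ g) = ρ g) {n : ℕ} (hn : 1 ≤ n)
    (hc : ∀ g h, (ℓ : MZ) ^ n ∣ liftDefect φ g h) (g h : G) :
    (ℓ : MZ) ^ (n + 1) ∣ (Fintype.card G : MZ) * liftDefect φ g h
      - φ g * liftSum φ h - liftSum φ g * φ h + liftSum φ (g * h) := by
  set c := liftDefect φ with hcdef
  have hcoc : ∀ k, φ g * c h k - c (g * h) k + c g (h * k) - c g h * φ k = 0 := fun k => by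
    simp only [hcdef, liftDefect, mul_assoc g h k]
    noncomm_ring
  have hsum : φ g * liftSum φ h - liftSum φ (g * h) + ∑ k, c g (h * k) * φ k⁻¹
      - c g h * ∑ k, φ k * φ k⁻¹ = 0 := by
    have h0 : ∑ k, (φ g * c h k - c (g * h) k + c g (h * k) - c g h * φ k) * φ k⁻¹ = 0 :=
      Finset.sum_eq_zero fun k _ => by rw [hcoc k, zero_mul]
    rw [← h0, liftSum, liftSum, Finset.mul_sum, Finset.mul_sum]
    simp only [sub_mul, add_mul, mul_assoc, Finset.sum_sub_distrib, Finset.sum_add_distrib, hcdef]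
  have hre : ∑ k, c g (h * k) * φ k⁻¹ =
      liftSum φ g * φ h - ∑ m, c g m * c m⁻¹ h := by
    rw [liftSum, Finset.sum_mul, ← Finset.sum_sub_distrib]
    refine (Fintype.sum_equiv (Equiv.mulLeft h) _ _ fun k => ?_)
    simp only [Equiv.coe_mulLeft, hcdef, liftDefect, _root_.mul_inv_rev, mul_assoc, inv_mul_cancel,
      mul_one]
    noncomm_ring
  have hdiag : (ℓ : MZ) ∣ (∑ k, φ k * φ k⁻¹) - (Fintype.card G : MZ) := by
    rw [← mapMatrix_eq_zero_iff_dvd, map_sub, map_sum, map_natCast, sub_eq_zero]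
    simp [map_mul, hφ, ← map_mul ρ]
  have hsq : (ℓ : MZ) ^ (n + 1) ∣ ∑ m, c g m * c m⁻¹ h := by
    refine Finset.dvd_sum fun m _ => ?_
    obtain ⟨Y, hY⟩ := hc g m
    obtain ⟨Z, hZ⟩ := dvd_mul_left_natCast (hc m⁻¹ h) Y
    rw [hY, mul_assoc, hZ, ← mul_assoc, ← pow_add]
    exact dvd_mul_of_dvd_left (pow_dvd_pow _ (by omega)) _
  have hlast : (ℓ : MZ) ^ (n + 1) ∣ c g h * ((∑ k, φ k * φ k⁻¹) - (Fintype.card G : MZ)) := by
    obtain ⟨Y, hY⟩ := hdiag
    obtain ⟨Z, hZ⟩ := hc g h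
    rw [hY, hZ, mul_assoc, ← mul_assoc Z, ← (Nat.cast_commute ℓ Z).eq, mul_assoc, ← mul_assoc,
      ← pow_succ]
    exact dvd_mul_right _ _
  convert (dvd_add hsq hlast).neg_right using 1
  rw [hre] at hsum
  rw [mul_sub, (Nat.cast_commute (Fintype.card G) (c g h)).eq]
  rw [← sub_eq_zero]
  refine Eq.trans ?_ (neg_eq_zero.mpr hsum)
  abel

/-- One step of the averaging. -/
theorem exists_lift_step (ρ : G →* Matrix (Fin 2) (Fin 2) (ZMod ℓ)) (hm : ¬ ℓ ∣ Fintype.card G)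
    (φ : G → MZ) (hφ : ∀ g, π₀ (φ g) = ρ g) {n : ℕ} (hn : 1 ≤ n)
    (hc : ∀ g h, (ℓ : MZ) ^ n ∣ liftDefect φ g h) :
    ∃ φ' : G → MZ, (∀ g, π₀ (φ' g) = ρ g) ∧ (∀ g, (ℓ : MZ) ^ n ∣ φ' g - φ g) ∧
      ∀ g h, (ℓ : MZ) ^ (n + 1) ∣ liftDefect φ' g h := by
  have hu : IsUnit (Fintype.card G : ℤ_[ℓ]) := by
    by_contra hnu
    have hmem := (IsLocalRing.mem_maximalIdeal _).mpr hnu
    rw [← PadicInt.ker_toZMod, RingHom.mem_ker, map_natCast, ZMod.natCast_eq_zero_iff] at hmem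
    exact hm hmem
  have huM : IsUnit (Fintype.card G : MZ) := by
    have := hu.map (algebraMap ℤ_[ℓ] MZ)
    rwa [map_natCast] at this
  obtain ⟨v, hv⟩ := huM
  set S := liftSum φ
  have hS : ∀ g, (ℓ : MZ) ^ n ∣ S g := fun g =>
    Finset.dvd_sum fun h _ => dvd_mul_of_dvd_left (hc g h) _
  set u : G → MZ := fun g => (↑v⁻¹ : MZ) * S g with hudef
  have hu' : ∀ g, (ℓ : MZ) ^ n ∣ u g := fun g => dvd_mul_left_natCast (hS g) _
  refine ⟨fun g => φ g - u g, fun g => ?_, fun g => ?_, fun g h => ?_⟩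
  · rw [map_sub, hφ, (mapMatrix_eq_zero_iff_dvd _).mpr ((dvd_pow_self _ (by omega)).trans (hu' g)),
      sub_zero]
  · simpa using (hu' g).neg_right
  · have hv2 : Commute (↑v⁻¹ : MZ) (φ g) :=
      (hv ▸ Nat.cast_commute (Fintype.card G) (φ g) : Commute (v : MZ) (φ g)).units_inv_left
    have h1 : liftDefect (fun g => φ g - u g) g h =
        (↑v⁻¹ : MZ) * ((Fintype.card G : MZ) * liftDefect φ g h
          - φ g * S h - S g * φ h + S (g * h)) + u g * u h := by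
      have e1 : (↑v⁻¹ : MZ) * ((Fintype.card G : MZ) * liftDefect φ g h) = liftDefect φ g h := by
        rw [← mul_assoc, ← hv, Units.inv_mul, one_mul]
      have e2 : (↑v⁻¹ : MZ) * (φ g * S h) = φ g * u h := by
        rw [← mul_assoc, hv2.eq, mul_assoc]
      rw [mul_add, mul_sub, mul_sub, e1, e2, ← mul_assoc (↑v⁻¹ : MZ) (S g)]
      simp only [liftDefect, hudef]
      noncomm_ring
    rw [h1]
    refine dvd_add (dvd_mul_left_natCast (dvd_liftSum_combination ρ φ hφ hn hc g h) _) ?_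
    obtain ⟨Y, hY⟩ := hu' g
    obtain ⟨Z, hZ⟩ := dvd_mul_left_natCast (hu' h) Y
    rw [hY, mul_assoc, hZ, ← mul_assoc, ← pow_add]
    exact dvd_mul_of_dvd_left (pow_dvd_pow _ (by omega)) _

/-- A representation of order prime to `ℓ` lifts to `ℤ_ℓ`. -/
theorem exists_padicLift (ρ : G →* Matrix (Fin 2) (Fin 2) (ZMod ℓ))
    (hm : ¬ ℓ ∣ Fintype.card G) :
    ∃ τ : G →* MZ, ∀ g, π₀ (τ g) = ρ g := by
  classical
  let P : ℕ → Type _ := fun n => {φ : G → MZ //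
    (∀ g, π₀ (φ g) = ρ g) ∧ ∀ g h, (ℓ : MZ) ^ (n + 1) ∣ liftDefect φ g h}
  have h0 : Nonempty (P 0) := by
    choose s hs using fun x : ZMod ℓ => ZMod.natCast_zmod_surjective x
    have hπ : ∀ g, π₀ ((ρ g).map fun x => (s x : ℤ_[ℓ])) = ρ g := fun g =>
      Matrix.ext fun i j => by simp [RingHom.mapMatrix_apply, hs]
    refine ⟨⟨fun g => (ρ g).map fun x => (s x : ℤ_[ℓ]), hπ, fun g h => ?_⟩⟩
    rw [pow_one, ← mapMatrix_eq_zero_iff_dvd, liftDefect, map_sub, map_mul, hπ, hπ, hπ, map_mul,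
      sub_self]
  choose nxt hn1 hn2 hn3 using fun (n : ℕ) (φ : P n) =>
    exists_lift_step ρ hm φ.1 φ.2.1 (Nat.le_add_left 1 n) φ.2.2
  let seq : (n : ℕ) → P n :=
    fun n => n.rec h0.some fun n φ => ⟨nxt n φ, hn1 n φ, hn3 n φ⟩
  have hseq : ∀ n g, (ℓ : MZ) ^ (n + 1) ∣ (seq (n + 1)).1 g - (seq n).1 g := fun n g =>
    hn2 n (seq n) g
  set I : Ideal ℤ_[ℓ] := IsLocalRing.maximalIdeal ℤ_[ℓ] with hI
  have hIn : ∀ (n : ℕ) (x y : ℤ_[ℓ]),
      x ≡ y [SMOD (I ^ n • ⊤ : Submodule ℤ_[ℓ] ℤ_[ℓ])] ↔ (ℓ : ℤ_[ℓ]) ^ n ∣ x - y := by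
    intro n x y
    rw [SModEq.sub_mem, hI, smul_eq_mul, Ideal.mul_top, PadicInt.maximalIdeal_eq_span_p,
      Ideal.span_singleton_pow, Ideal.mem_span_singleton]
  have hcauchy : ∀ g i j {m n : ℕ}, m ≤ n →
      (ℓ : ℤ_[ℓ]) ^ m ∣ (seq m).1 g i j - (seq n).1 g i j := by
    intro g i j m n hmn
    induction n, hmn using Nat.le_induction with
    | base => simp
    | succ n hmn ih =>
      have h := (natCast_dvd_matrix_iff _ _).mp (hseq n g) i j
      rw [Matrix.sub_apply] at h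
      have := dvd_sub ih ((pow_dvd_pow _ (show m ≤ n + 1 by omega)).trans h)
      simpa using this
  have hlim : ∀ g i j, ∃ L : ℤ_[ℓ], ∀ n, (ℓ : ℤ_[ℓ]) ^ n ∣ (seq n).1 g i j - L := fun g i j => by
    obtain ⟨L, hL⟩ := IsPrecomplete.prec (I := I) inferInstance
      (f := fun n => (seq n).1 g i j) fun h => (hIn _ _ _).mpr (hcauchy g i j h)
    exact ⟨L, fun n => (hIn _ _ _).mp (hL n)⟩
  choose L hL using hlim
  have hLseq : ∀ n g, (ℓ : MZ) ^ n ∣ (seq n).1 g - Matrix.of (L g) := fun n g =>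
    (natCast_dvd_matrix_iff _ _).mpr fun i j => hL g i j n
  have hmul : ∀ g h, Matrix.of (L g) * Matrix.of (L h) = Matrix.of (L (g * h)) := by
    intro g h
    rw [← sub_eq_zero]
    have hdiv : ∀ n, (ℓ : MZ) ^ n ∣ Matrix.of (L g) * Matrix.of (L h) - Matrix.of (L (g * h)) := by
      intro n
      have h1 := (pow_dvd_pow _ n.le_succ).trans ((seq n).2.2 g h)
      have h2 := dvd_mul_of_dvd_left (hLseq n g) ((seq n).1 h)
      have h3 := dvd_mul_left_natCast (hLseq n h) (Matrix.of (L g))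
      have h4 := hLseq n (g * h)
      have := dvd_add (dvd_sub (dvd_sub h1 h2) h3) h4
      convert this using 1
      simp only [liftDefect]
      noncomm_ring
    refine Matrix.ext fun i j => ?_
    by_contra hne
    obtain ⟨m, hm'⟩ := FiniteMultiplicity.of_not_isUnit (PadicInt.p_nonunit (p := ℓ)) hne
    exact hm' ((natCast_dvd_matrix_iff _ _).mp (hdiv (m + 1)) i j)
  have hπ : ∀ g, π₀ (Matrix.of (L g)) = ρ g := fun g => by
    have h := (mapMatrix_eq_zero_iff_dvd _).mpr (pow_one (ℓ : MZ) ▸ hLseq 1 g)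
    rw [map_sub, (seq 1).2.1 g, sub_eq_zero] at h
    exact h.symm
  have h1 : Matrix.of (L 1) = 1 := by
    have hidem := hmul 1 1
    rw [mul_one] at hidem
    have hunit : IsUnit (Matrix.of (L (1 : G))) := by
      rw [Matrix.isUnit_iff_isUnit_det]
      by_contra hnu
      have hmem := (IsLocalRing.mem_maximalIdeal _).mpr hnu
      rw [← PadicInt.ker_toZMod, RingHom.mem_ker, RingHom.map_det, hπ, map_one,
        Matrix.det_one] at hmem
      exact one_ne_zero hmem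
    exact hunit.mul_left_cancel (hidem.trans (mul_one _).symm)
  exact ⟨{ toFun := fun g => Matrix.of (L g), map_one' := h1,
           map_mul' := fun g h => (hmul g h).symm }, hπ⟩

end FermatLib.Galois.DS

end
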