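import Mathlib.Topology.Algebra.Module.Cardinality
import Mathlib.Analysis.Complex.Cardinality
import Mathlib.RingTheory.Polynomial.Cyclotomic.Roots
import Mathlib.RingTheory.RootsOfUnity.Complex
import Mathlib.RingTheory.Ideal.GoingUp
import Fermat.Agent.Galois.DS.AssemblyLiftPadic
import Fermat.Agent.Curve.Descent.AutFixed

/-!
# Lifting to characteristic zero compatibly with a reduction of algebraic integers
-/

set_option autoImplicit false
set_option linter.style.haveILetI false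

noncomputable section

open Matrix Cardinal
open scoped Cardinal

namespace FermatLib.Galois.DS

/-- Over an algebraically closed field, a ring map extends to an integral extension. -/
theorem exists_ringHom_extend_integral {A B k : Type*} [CommRing A] [CommRing B] [Algebra A B]
    [Field k] [IsAlgClosed k] [Algebra.IsIntegral A B]
    (hinj : Function.Injective (algebraMap A B)) (χ : A →+* k) :
    ∃ ψ : B →+* k, ψ.comp (algebraMap A B) = χ := by
  have : (RingHom.ker χ).IsPrime := RingHom.ker_isPrime χ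
  obtain ⟨Q, -, hQ, hQP⟩ := Ideal.exists_ideal_over_prime_of_isIntegral (RingHom.ker χ) (⊥ : Ideal B)
    (by rw [← RingHom.ker_eq_comap_bot, (RingHom.injective_iff_ker_eq_bot _).1 hinj]; exact bot_le)
  have : Q.LiesOver (RingHom.ker χ) := ⟨hQP.symm⟩
  let : Algebra (A ⧸ RingHom.ker χ) k := (RingHom.kerLift χ).toAlgebra
  have : Module.IsTorsionFree (A ⧸ RingHom.ker χ) k := by
    have : FaithfulSMul (A ⧸ RingHom.ker χ) k :=
      (faithfulSMul_iff_algebraMap_injective _ _).2 (RingHom.kerLift_injective χ)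
    infer_instance
  have : Algebra.IsIntegral (A ⧸ RingHom.ker χ) (B ⧸ Q) := inferInstance
  refine ⟨(IsAlgClosed.lift (R := A ⧸ RingHom.ker χ) (S := B ⧸ Q) (M := k)).toRingHom.comp
    (Ideal.Quotient.mk Q), RingHom.ext fun a => ?_⟩
  have h := (IsAlgClosed.lift (R := A ⧸ RingHom.ker χ) (S := B ⧸ Q) (M := k)).commutes
    (Ideal.Quotient.mk (RingHom.ker χ) a)
  simpa [Ideal.Quotient.algebraMap_mk_of_liesOver, RingHom.algebraMap_toAlgebra] using h

variable {ℓ : ℕ} [Fact ℓ.Prime]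

/-- `ℤ_ℓ` embeds in `ℂ`. -/
theorem exists_padicInt_embedding : ∃ ι : ℤ_[ℓ] →+* ℂ, Function.Injective ι := by
  let Ω := AlgebraicClosure ℚ_[ℓ]
  have hinj : Function.Injective fun (x : ℤ_[ℓ]) (n : ℕ) => (PadicInt.toZModPow n x).val :=
    fun x y h => PadicInt.ext_of_toZModPow.mp fun n =>
      haveI : NeZero (ℓ ^ n) := ⟨pow_ne_zero _ (Fact.out (p := ℓ.Prime)).ne_zero⟩
      ZMod.val_injective _ (congrFun h n)
  have hZ : #ℤ_[ℓ] ≤ 𝔠 := (Cardinal.mk_le_of_injective hinj).trans_eq (by simp)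
  have hQ : #ℚ_[ℓ] ≤ 𝔠 := by
    have hsurj : Function.Surjective
        (fun x : ℤ_[ℓ] × ℤ_[ℓ] => (x.1 : ℚ_[ℓ]) / (x.2 : ℚ_[ℓ])) := fun q => by
      obtain ⟨a, b, -, hab⟩ := IsFractionRing.div_surjective (A := ℤ_[ℓ]) q
      exact ⟨(a, b), hab⟩
    refine (Cardinal.mk_le_of_surjective hsurj).trans ?_
    rw [Cardinal.mk_prod, Cardinal.lift_id]
    exact (mul_le_mul' hZ hZ).trans_eq Cardinal.continuum_mul_self
  have hΩle : #Ω ≤ 𝔠 :=
    (Algebra.IsAlgebraic.cardinalMk_le_max ℚ_[ℓ] Ω).trans (max_le hQ Cardinal.aleph0_le_continuum)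
  have hΩge : 𝔠 ≤ #Ω := (continuum_le_cardinal_of_nontriviallyNormedField ℚ_[ℓ]).trans
    (Cardinal.mk_le_of_injective (algebraMap ℚ_[ℓ] Ω).injective)
  have hΩ : #Ω = 𝔠 := le_antisymm hΩle hΩge
  have hne : Nonempty (Ω ≃ ℂ) := Cardinal.eq.mp (hΩ.trans Cardinal.mk_complex.symm)
  obtain ⟨e⟩ := IsAlgClosed.ringEquiv_of_equiv_of_charZero (K := Ω) (L := ℂ)
    (hΩ ▸ Cardinal.aleph0_lt_continuum) hne
  exact ⟨(e : Ω →+* ℂ).comp ((algebraMap ℚ_[ℓ] Ω).comp PadicInt.Coe.ringHom),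
    e.injective.comp ((algebraMap ℚ_[ℓ] Ω).injective.comp Subtype.val_injective)⟩

/-- The eigenvalues of a `2 × 2` matrix of finite order. -/
theorem exists_eigenvalues_of_pow_eq_one {M : Matrix (Fin 2) (Fin 2) ℂ} {m : ℕ} (hM : M ^ m = 1) :
    ∃ z₁ z₂ : ℂ, z₁ ^ m = 1 ∧ z₂ ^ m = 1 ∧ M.trace = z₁ + z₂ ∧ M.det = z₁ * z₂ := by
  obtain ⟨z, hz⟩ : ∃ z : ℂ, z ^ 2 - M.trace * z + M.det = 0 := by
    obtain ⟨z, hz⟩ := IsAlgClosed.exists_root
      (Polynomial.X ^ 2 - Polynomial.C M.trace * Polynomial.X + Polynomial.C M.det)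
      (by
        have : (Polynomial.X ^ 2 - Polynomial.C M.trace * Polynomial.X +
          Polynomial.C M.det).degree = 2 := by compute_degree!
        rw [this]; decide)
    exact ⟨z, by simpa using hz⟩
  have key : ∀ x : ℂ, x ^ 2 - M.trace * x + M.det = 0 → x ^ m = 1 := by
    intro x hx
    have hdet : (M - x • (1 : Matrix (Fin 2) (Fin 2) ℂ)).det = 0 := by
      rw [Matrix.trace_fin_two, Matrix.det_fin_two] at hx
      simp [Matrix.det_fin_two]
      linear_combination hx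
    obtain ⟨v, hv0, hv⟩ := Matrix.exists_mulVec_eq_zero_iff.mpr hdet
    rw [Matrix.sub_mulVec, Matrix.smul_mulVec, Matrix.one_mulVec, sub_eq_zero] at hv
    have hpow : ∀ k : ℕ, (M ^ k) *ᵥ v = x ^ k • v := fun k => by
      induction k with
      | zero => simp
      | succ k ih => rw [pow_succ', ← Matrix.mulVec_mulVec, ih, Matrix.mulVec_smul, hv, smul_smul,
          ← pow_succ]
    have := hpow m
    rw [hM, Matrix.one_mulVec] at this
    exact smul_left_injective ℂ hv0 (this.symm.trans (one_smul ℂ v).symm)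
  refine ⟨z, M.trace - z, key z hz, key _ ?_, by ring, ?_⟩
  · linear_combination hz
  · linear_combination hz

/-- An automorphism of `ℂ` realises a given exponent on roots of unity. -/
theorem exists_complex_aut_pow {m : ℕ} [NeZero m] {ζ : ℂ} (hζ : IsPrimitiveRoot ζ m) {j : ℕ}
    (hj : j.Coprime m) : ∃ σ : ℂ →+* ℂ, σ ζ = ζ ^ j := by
  obtain ⟨a, ha⟩ : ∃ a : AlgebraicClosure ℚ, complexEmbedding a = ζ := by
    obtain ⟨b, hb⟩ := HasEnoughRootsOfUnity.exists_primitiveRoot (AlgebraicClosure ℚ) m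
    obtain ⟨i, -, hi⟩ :=
      (hb.map_of_injective complexEmbedding.injective).eq_pow_of_pow_eq_one hζ.pow_eq_one
    exact ⟨b ^ i, (map_pow complexEmbedding b i).trans hi⟩
  have ha' : IsPrimitiveRoot a m :=
    IsPrimitiveRoot.of_map_of_injective (ha ▸ hζ) complexEmbedding.injective
  have halg : IsAlgebraic ℚ a :=
    (ha'.isIntegral (NeZero.pos m)).tower_top.isAlgebraic
  haveI : Algebra.IsAlgebraic ℚ (AlgebraicClosure ℚ) := AlgebraicClosure.isAlgebraic ℚ
  haveI : Normal ℚ (AlgebraicClosure ℚ) := normal_iff.mpr fun x =>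
    ⟨(Algebra.IsAlgebraic.isAlgebraic (R := ℚ) x).isIntegral, IsAlgClosed.splits _⟩
  obtain ⟨τ, hτ⟩ := minpoly.exists_algEquiv_of_root' (K := ℚ) (x := a ^ j) (y := a) halg (by
      rw [← Polynomial.cyclotomic_eq_minpoly_rat ha' (NeZero.pos m), Polynomial.aeval_def,
        ← Polynomial.eval_map, Polynomial.map_cyclotomic]
      exact Polynomial.isRoot_cyclotomic_iff.mpr (ha'.pow_of_coprime j hj))
  obtain ⟨σ, hσ⟩ := FermatLib.Curve.exists_complexAlgEquiv_extends τ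
  refine ⟨(σ : ℂ →ₐ[ℚ] ℂ).toRingHom, ?_⟩
  show σ ζ = _
  rw [← ha, hσ, hτ, map_pow]

theorem isPrimitiveRoot_map_of_natCast_ne_zero {R k : Type*} [CommRing R] [IsDomain R] [Field k]
    {m : ℕ} [NeZero m] [NeZero (m : k)] {z : R} (hz : IsPrimitiveRoot z m) (f : R →+* k) :
    IsPrimitiveRoot (f z) m := by
  have h := (hz.isRoot_cyclotomic (NeZero.pos m)).map (f := f)
  rw [Polynomial.map_cyclotomic] at h
  exact Polynomial.isRoot_cyclotomic_iff.mp h

/-- **Lifting to characteristic zero**, compatibly with a reduction of algebraic integers. -/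
theorem exists_complexLift {G : Type*} [Group G] [Finite G] (ρ : G →* GL (Fin 2) (ZMod ℓ))
    (hm : ¬ ℓ ∣ Nat.card G) {k : Type*} [Field k] [IsAlgClosed k] [CharP k ℓ]
    (red : integralClosure ℤ ℂ →+* k) :
    ∃ τ : G →* GL (Fin 2) ℂ, ∀ g, ∃ z₁ z₂ : integralClosure ℤ ℂ,
      z₁ ^ Nat.card G = 1 ∧ z₂ ^ Nat.card G = 1 ∧
      (τ g : Matrix (Fin 2) (Fin 2) ℂ).trace = (z₁ : ℂ) + z₂ ∧
      (τ g : Matrix (Fin 2) (Fin 2) ℂ).det = (z₁ : ℂ) * z₂ ∧
      red (z₁ + z₂) = ZMod.castHom dvd_rfl k (ρ g : Matrix (Fin 2) (Fin 2) (ZMod ℓ)).trace ∧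
      red (z₁ * z₂) = ZMod.castHom dvd_rfl k (ρ g : Matrix (Fin 2) (Fin 2) (ZMod ℓ)).det := by
  classical
  haveI := Fintype.ofFinite G
  obtain ⟨T, hT⟩ := exists_padicLift ((Units.coeHom _).comp ρ)
    (by rwa [← Nat.card_eq_fintype_card])
  obtain ⟨ι, hι⟩ := exists_padicInt_embedding (ℓ := ℓ)
  set m := Nat.card G with hmdef
  haveI : NeZero m := ⟨Nat.card_pos.ne'⟩
  set ζ : ℂ := Complex.exp (2 * Real.pi * Complex.I / m) with hζdef
  have hζ : IsPrimitiveRoot ζ m := Complex.isPrimitiveRoot_exp m (NeZero.ne m)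
  have hζint : IsIntegral ℤ ζ := hζ.isIntegral (NeZero.pos m)
  haveI : NeZero (m : k) := ⟨fun h => hm ((CharP.cast_eq_zero_iff k ℓ m).mp h)⟩
  letI : Algebra ℤ_[ℓ] ℂ := ι.toAlgebra
  set S := Algebra.adjoin ℤ_[ℓ] ({ζ} : Set ℂ)
  have hζS : ζ ∈ S := Algebra.subset_adjoin rfl
  haveI : Algebra.IsIntegral ℤ_[ℓ] S := Algebra.IsIntegral.adjoin (fun x hx => by
    rw [Set.mem_singleton_iff.mp hx]
    exact hζint.tower_top)
  obtain ⟨red1, hred1⟩ := exists_ringHom_extend_integral (B := S)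
    (fun a b h => hι (congrArg Subtype.val h))
    ((ZMod.castHom dvd_rfl k).comp (PadicInt.toZMod (p := ℓ)))
  set ζS : S := ⟨ζ, hζS⟩
  set ζO : integralClosure ℤ ℂ := ⟨ζ, hζint⟩
  have hr : IsPrimitiveRoot (red1 ζS) m := isPrimitiveRoot_map_of_natCast_ne_zero
    (IsPrimitiveRoot.of_map_of_injective (f := S.val) hζ Subtype.val_injective) red1
  have hr0 : IsPrimitiveRoot (red ζO) m := isPrimitiveRoot_map_of_natCast_ne_zero
    (IsPrimitiveRoot.of_map_of_injective (f := (integralClosure ℤ ℂ).val) hζ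
      Subtype.val_injective) red
  obtain ⟨j, -, hj, hjr⟩ := hr0.isPrimitiveRoot_iff.mp hr
  obtain ⟨σ, hσ⟩ := exists_complex_aut_pow hζ hj
  let F : Matrix (Fin 2) (Fin 2) ℤ_[ℓ] →+* Matrix (Fin 2) (Fin 2) ℂ := (σ.comp ι).mapMatrix
  let τ : G →* GL (Fin 2) ℂ := (F.toMonoidHom.comp T).toHomUnits
  refine ⟨τ, fun g => ?_⟩
  have hpow : (ι.mapMatrix (T g)) ^ m = 1 := by
    rw [← map_pow, ← map_pow, hmdef, pow_card_eq_one', map_one, map_one]
  obtain ⟨x, y, hx, hy, htr, hdet⟩ := exists_eigenvalues_of_pow_eq_one hpow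
  obtain ⟨a, -, rfl⟩ := hζ.eq_pow_of_pow_eq_one hx
  obtain ⟨b, -, rfl⟩ := hζ.eq_pow_of_pow_eq_one hy
  rw [RingHom.mapMatrix_apply, ← AddMonoidHom.map_trace] at htr
  rw [← RingHom.map_det] at hdet
  have hρg : ((ρ g : GL (Fin 2) (ZMod ℓ)) : Matrix (Fin 2) (Fin 2) (ZMod ℓ)) =
      (PadicInt.toZMod (p := ℓ)).mapMatrix (T g) := (hT g).symm
  have hredtr : ZMod.castHom dvd_rfl k (ρ g : Matrix (Fin 2) (Fin 2) (ZMod ℓ)).trace =
      red1 ζS ^ a + red1 ζS ^ b := by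
    rw [← map_pow, ← map_pow, ← map_add,
      show ζS ^ a + ζS ^ b = algebraMap ℤ_[ℓ] S (T g).trace from Subtype.ext htr.symm,
      ← RingHom.comp_apply red1, hred1, RingHom.comp_apply]
    congr 1
    rw [hρg, RingHom.mapMatrix_apply, ← AddMonoidHom.map_trace]
  have hreddet : ZMod.castHom dvd_rfl k (ρ g : Matrix (Fin 2) (Fin 2) (ZMod ℓ)).det =
      red1 ζS ^ a * red1 ζS ^ b := by
    rw [← map_pow, ← map_pow, ← map_mul,
      show ζS ^ a * ζS ^ b = algebraMap ℤ_[ℓ] S (T g).det from Subtype.ext hdet.symm,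
      ← RingHom.comp_apply red1, hred1, RingHom.comp_apply]
    congr 1
    rw [hρg, ← RingHom.map_det]
  have hτ : (τ g : Matrix (Fin 2) (Fin 2) ℂ) = (T g).map (σ.comp ι) := rfl
  refine ⟨(ζO ^ j) ^ a, (ζO ^ j) ^ b, ?_, ?_, ?_, ?_, ?_, ?_⟩
  · refine Subtype.ext ?_
    simp [ζO, ← pow_mul, mul_comm _ m, pow_mul ζ m, hζ.pow_eq_one]
  · refine Subtype.ext ?_
    simp [ζO, ← pow_mul, mul_comm _ m, pow_mul ζ m, hζ.pow_eq_one]
  · rw [hτ, ← AddMonoidHom.map_trace, RingHom.comp_apply, htr, map_add, map_pow, map_pow, hσ]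
    rfl
  · rw [hτ, ← RingHom.mapMatrix_apply, ← RingHom.map_det, RingHom.comp_apply, hdet, map_mul,
      map_pow, map_pow, hσ]
    rfl
  · rw [hredtr, map_add]; simp only [map_pow, hjr]
  · rw [hreddet, map_mul]; simp only [map_pow, hjr]

end FermatLib.Galois.DS

end
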