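import Mathlib.NumberTheory.NumberField.InfinitePlace.Embeddings
import Mathlib.FieldTheory.PrimitiveElement
import Mathlib.FieldTheory.IsAlgClosed.AlgebraicClosure
import Mathlib.RingTheory.Algebraic.Integral
import Mathlib.FieldTheory.Minpoly.IsIntegrallyClosed
import Mathlib.RingTheory.Int.Basic
import Mathlib.RingTheory.IntegralClosure.Algebra.Basic
import Fermat.Agent.Galois.DS.AssemblyLift

/-!
# Orders in number fields inside `ℂ`

A subring of `ℂ` which is finite over `ℤ` has finitely many elements with bounded conjugates,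
and maps to `ℤ/ℓ` for infinitely many primes `ℓ`.
-/

set_option autoImplicit false
set_option linter.style.haveILetI false

noncomputable section

open Polynomial

namespace FermatLib.Galois.DS

/-- A non constant integral polynomial has roots modulo arbitrarily large primes. -/
theorem exists_prime_dvd_eval (h : ℤ[X]) (hdeg : 0 < h.natDegree) (B : ℕ) :
    ∃ ℓ : ℕ, ℓ.Prime ∧ B < ℓ ∧ ∃ c : ℤ, (ℓ : ℤ) ∣ h.eval c := by
  by_cases h0 : h.eval 0 = 0
  · obtain ⟨ℓ, hℓB, hℓ⟩ := Nat.exists_infinite_primes (B + 1)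
    exact ⟨ℓ, hℓ, hℓB, 0, by rw [h0]; exact dvd_zero _⟩
  set c₀ := h.eval 0 with hc₀
  set Q : ℤ := (B.factorial : ℤ) with hQ
  have hQ0 : Q ≠ 0 := by rw [hQ]; exact_mod_cast B.factorial_ne_zero
  obtain ⟨g, hg⟩ : (X : ℤ[X]) ∣ h - C c₀ := by
    rw [X_dvd_iff, coeff_sub, coeff_C_zero, hc₀, coeff_zero_eq_eval_zero, sub_self]
  have hne : ∀ e : ℤ, h - C e ≠ 0 := fun e he => by
    rw [sub_eq_zero.mp he, natDegree_C] at hdeg
    exact lt_irrefl 0 hdeg
  have hfin : {x : ℤ | h.eval (c₀ * Q * x) = c₀ ∨ h.eval (c₀ * Q * x) = -c₀}.Finite := by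
    refine (((finite_setOfPred_isRoot (hne c₀)).union (finite_setOfPred_isRoot (hne (-c₀)))).preimage
      fun a _ b _ hab => mul_left_cancel₀ (mul_ne_zero h0 hQ0) hab).subset fun x hx => ?_
    rcases hx with hx | hx
    · exact Or.inl (by simp [IsRoot, hx])
    · exact Or.inr (by simp [IsRoot, hx])
  obtain ⟨x, hx⟩ := hfin.exists_notMem
  set u : ℤ := 1 + Q * x * g.eval (c₀ * Q * x) with hu
  have heval : h.eval (c₀ * Q * x) = c₀ * u := by
    have h1 : h = C c₀ + X * g := by rw [← hg]; ring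
    conv_lhs => rw [h1]
    simp only [eval_add, eval_C, eval_mul, eval_X, hu]
    ring
  have hu1 : u.natAbs ≠ 1 := fun h1 => hx (by
    rcases Int.natAbs_eq_iff.mp h1 with h2 | h2
    · exact Or.inl (by rw [heval, h2]; simp)
    · exact Or.inr (by rw [heval, h2]; simp))
  obtain ⟨ℓ, hℓ, hℓu⟩ := Nat.exists_prime_and_dvd hu1
  refine ⟨ℓ, hℓ, ?_, c₀ * Q * x, by rw [heval]; exact (Int.natCast_dvd.mpr hℓu).mul_left _⟩
  by_contra hle
  have hdQ : (ℓ : ℤ) ∣ Q * x * g.eval (c₀ * Q * x) := dvd_mul_of_dvd_left (dvd_mul_of_dvd_left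
    (Int.natCast_dvd_natCast.mpr (Nat.dvd_factorial hℓ.pos (not_lt.mp hle))) _) _
  have := dvd_sub (Int.natCast_dvd.mpr hℓu) hdQ
  rw [hu, add_sub_cancel_right] at this
  exact hℓ.not_dvd_one (Int.natCast_dvd_natCast.mp (by simpa using this))

variable (R : Subring ℂ) [Module.Finite ℤ R]

theorem isIntegral_of_mem_finite {x : ℂ} (hx : x ∈ R) : IsIntegral ℤ x :=
  (IsIntegral.of_finite ℤ (⟨x, hx⟩ : R)).map (R.subtype.toIntAlgHom)

/-- A finite generating set of the additive group of `R`. -/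
theorem exists_finset_span :
    ∃ s : Finset ℂ, (∀ x ∈ s, x ∈ R) ∧ ∀ x ∈ R, x ∈ Submodule.span ℤ (s : Set ℂ) := by
  classical
  obtain ⟨s, hs⟩ := (Module.finite_def.mp (inferInstance : Module.Finite ℤ R))
  refine ⟨s.image Subtype.val, fun x hx => ?_, fun x hx => ?_⟩
  · obtain ⟨y, -, rfl⟩ := Finset.mem_image.mp hx
    exact y.2
  · have h := Submodule.mem_map_of_mem (f := R.subtype.toAddMonoidHom.toIntLinearMap)
      (hs ▸ Submodule.mem_top : (⟨x, hx⟩ : R) ∈ Submodule.span ℤ (s : Set R))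
    rw [Submodule.map_span] at h
    rw [Finset.coe_image]
    exact h

theorem finiteDimensional_adjoin_subring :
    FiniteDimensional ℚ (IntermediateField.adjoin ℚ (R : Set ℂ)) := by
  obtain ⟨s, hsR, hs⟩ := exists_finset_span R
  haveI : FiniteDimensional ℚ (IntermediateField.adjoin ℚ (s : Set ℂ)) :=
    IntermediateField.finiteDimensional_adjoin fun x hx =>
      (isIntegral_of_mem_finite R (hsR x hx)).tower_top
  have heq : IntermediateField.adjoin ℚ (R : Set ℂ) = IntermediateField.adjoin ℚ (s : Set ℂ) := by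
    refine le_antisymm (IntermediateField.adjoin_le_iff.mpr fun x hx => ?_)
      (IntermediateField.adjoin.mono ℚ _ _ fun x hx => hsR x hx)
    exact (Submodule.span_le (p := ((IntermediateField.adjoin ℚ (s : Set ℂ)).toSubalgebra.restrictScalars
      ℤ).toSubmodule)).mpr (fun y hy => IntermediateField.subset_adjoin ℚ _ hy) (hs x hx)
  rw [heq]
  infer_instance

/-- Finitely many elements of `R` have all conjugates bounded. -/
theorem exists_embeddings_finite :
    ∃ E : Finset (R →+* ℂ), ∀ T : ℝ, {x : R | ∀ σ ∈ E, ‖σ x‖ ^ 2 ≤ T}.Finite := by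
  classical
  haveI := finiteDimensional_adjoin_subring R
  set K := IntermediateField.adjoin ℚ (R : Set ℂ)
  haveI : NumberField K := ⟨⟩
  let j : R →+* K := R.subtype.codRestrict K.toSubfield.toSubring fun x =>
    IntermediateField.subset_adjoin ℚ _ x.2
  refine ⟨Finset.univ.image fun φ : K →+* ℂ => φ.comp j, fun T => ?_⟩
  have hj : Function.Injective j := fun a b h => Subtype.ext (congrArg (fun z : K => (z : ℂ)) h)
  refine ((NumberField.Embeddings.finite_of_norm_le K ℂ (Real.sqrt T)).preimage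
    hj.injOn).subset fun x hx => ⟨?_, fun φ => ?_⟩
  · exact (IsIntegral.of_finite ℤ x).map j.toIntAlgHom
  · exact Real.le_sqrt_of_sq_le (hx _ (Finset.mem_image_of_mem _ (Finset.mem_univ φ)))

/-- `R` maps to `ℤ/ℓ` for arbitrarily large primes `ℓ`. -/
theorem exists_large_prime_reduction (B : ℕ) :
    ∃ ℓ : ℕ, ℓ.Prime ∧ B < ℓ ∧ Nonempty (R →+* ZMod ℓ) := by
  classical
  haveI := finiteDimensional_adjoin_subring R
  set K := IntermediateField.adjoin ℚ (R : Set ℂ)
  obtain ⟨α₀, hα₀⟩ := Field.exists_primitive_element ℚ K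
  have halg : IsAlgebraic ℤ (α₀ : K) :=
    (IsFractionRing.isAlgebraic_iff ℤ ℚ K).mpr (Algebra.IsAlgebraic.isAlgebraic α₀)
  obtain ⟨y, hy, hyint⟩ := halg.exists_integral_multiple
  set α : ℂ := ((y • α₀ : K) : ℂ)
  have hα : IsIntegral ℤ α := hyint.map K.val.toRingHom.toIntAlgHom
  -- every element of `R` becomes an element of `ℤ[α]` after scaling
  have hmem : ∀ r ∈ R, ∃ d : ℕ, d ≠ 0 ∧ (d : ℂ) * r ∈ Algebra.adjoin ℤ ({α} : Set ℂ) := by
    intro r hr
    have hrK : (⟨r, IntermediateField.subset_adjoin ℚ _ hr⟩ : K) ∈ IntermediateField.adjoin ℚ {α₀} :=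
      hα₀ ▸ IntermediateField.mem_top
    have hr' : r ∈ IntermediateField.adjoin ℚ ({α} : Set ℂ) := by
      have h1 : (α₀ : ℂ) ∈ IntermediateField.adjoin ℚ ({α} : Set ℂ) := by
        have h2 : (α₀ : ℂ) = ((y : ℚ)⁻¹) • α := by
          simp only [α, zsmul_eq_mul, Rat.smul_def, Rat.cast_inv, Rat.cast_intCast]
          push_cast
          rw [inv_mul_cancel_left₀ (Int.cast_ne_zero.mpr hy)]
        rw [h2]
        exact IntermediateField.smul_mem _ (IntermediateField.mem_adjoin_simple_self ℚ α)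
      have h3 : IntermediateField.lift (IntermediateField.adjoin ℚ ({α₀} : Set K)) ≤
          IntermediateField.adjoin ℚ ({α} : Set ℂ) := by
        rw [IntermediateField.lift_adjoin_simple]
        exact IntermediateField.adjoin_simple_le_iff.mpr h1
      exact h3 ⟨_, hrK, rfl⟩
    have hαalg : IsAlgebraic ℚ α := hα.tower_top.isAlgebraic
    rw [← IntermediateField.mem_toSubalgebra,
      IntermediateField.adjoin_simple_toSubalgebra_of_isAlgebraic hαalg,
      Algebra.adjoin_singleton_eq_range_aeval] at hr'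
    obtain ⟨q, rfl⟩ := hr'
    obtain ⟨b, hbM, hb⟩ := IsLocalization.integerNormalization_spec (nonZeroDivisors ℤ) q
    refine ⟨b.natAbs, Int.natAbs_ne_zero.mpr (nonZeroDivisors.ne_zero hbM), ?_⟩
    have h4 : ((b : ℤ) : ℂ) * aeval α q ∈ Algebra.adjoin ℤ ({α} : Set ℂ) := by
      rw [Algebra.adjoin_singleton_eq_range_aeval]
      refine ⟨IsLocalization.integerNormalization (nonZeroDivisors ℤ) q, ?_⟩
      show aeval α (IsLocalization.integerNormalization (nonZeroDivisors ℤ) q) = _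
      rw [← aeval_map_algebraMap ℚ, hb]
      simp [zsmul_eq_mul]
    show (((b : ℤ).natAbs : ℕ) : ℂ) * _ ∈ _
    rcases Int.natAbs_eq (b : ℤ) with h5 | h5
    · rw [h5] at h4
      simpa using h4
    · rw [h5] at h4
      simpa using neg_mem h4
  obtain ⟨s, hsR, hs⟩ := exists_finset_span R
  choose d hd0 hd using hmem
  set D : ℕ := ∏ x ∈ s.attach, d x.1 (hsR x.1 x.2) with hD
  have hDmem : ∀ r ∈ R, (D : ℂ) * r ∈ Algebra.adjoin ℤ ({α} : Set ℂ) := by
    intro r hr
    have h := hs r hr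
    clear hr
    induction h using Submodule.span_induction with
    | mem z hz =>
      rw [hD, ← Finset.mul_prod_erase _ _ (Finset.mem_attach s ⟨z, hz⟩)]
      push_cast
      rw [mul_comm (d z (hsR z hz) : ℂ), mul_assoc]
      exact mul_mem (prod_mem fun x _ => natCast_mem _ _) (hd z _)
    | zero => simp
    | add z w hz hw ihz ihw => rw [mul_add]; exact add_mem ihz ihw
    | smul n z hz ih => rw [mul_smul_comm]; exact zsmul_mem ih n
  obtain ⟨ℓ, hℓ, hℓB, c, hc⟩ := exists_prime_dvd_eval (minpoly ℤ α) (minpoly.natDegree_pos hα)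
    (B + D)
  haveI := Fact.mk hℓ
  set k := AlgebraicClosure (ZMod ℓ)
  set ι : ZMod ℓ →+* k := algebraMap (ZMod ℓ) k
  let A := Algebra.adjoin ℤ ({α} : Set ℂ)
  let φ₀ : A →+* ZMod ℓ := (AdjoinRoot.lift (Int.castRingHom (ZMod ℓ)) (c : ZMod ℓ) (by
    rw [← eq_intCast (Int.castRingHom (ZMod ℓ)) c, Polynomial.eval₂_at_apply, eq_intCast]
    exact (ZMod.intCast_zmod_eq_zero_iff_dvd _ _).mpr hc)).comp
      (minpoly.equivAdjoin hα).symm.toRingEquiv.toRingHom
  have hAint : ∀ x ∈ A, IsIntegral ℤ x := fun x hx =>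
    Algebra.adjoin_le (S := integralClosure ℤ ℂ) (Set.singleton_subset_iff.mpr hα) hx
  letI : Algebra A (integralClosure ℤ ℂ) := (Subalgebra.inclusion
    (show A ≤ integralClosure ℤ ℂ from hAint)).toRingHom.toAlgebra
  haveI : Algebra.IsIntegral A (integralClosure ℤ ℂ) :=
    ⟨fun x => IsIntegral.tower_top (R := ℤ) (Algebra.IsIntegral.isIntegral x)⟩
  obtain ⟨Φ, hΦ⟩ := exists_ringHom_extend_integral (B := integralClosure ℤ ℂ)
    (Subalgebra.inclusion_injective _) (ι.comp φ₀)
  let incl : R →+* integralClosure ℤ ℂ := R.subtype.codRestrict (integralClosure ℤ ℂ).toSubring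
    fun x => isIntegral_of_mem_finite R x.2
  have hD0 : (D : ZMod ℓ) ≠ 0 := by
    rw [Ne, ZMod.natCast_eq_zero_iff]
    refine fun hdvd => absurd (Nat.le_of_dvd (Nat.pos_of_ne_zero ?_) hdvd) (by omega)
    exact Finset.prod_ne_zero_iff.mpr fun x _ => hd0 _ _
  have hrange : ∀ r : R, Φ (incl r) ∈ ι.range := by
    intro r
    refine ⟨(D : ZMod ℓ)⁻¹ * φ₀ ⟨(D : ℂ) * r, hDmem r r.2⟩, ?_⟩
    have h := RingHom.congr_fun hΦ ⟨(D : ℂ) * r, hDmem r r.2⟩
    rw [RingHom.comp_apply, RingHom.comp_apply] at h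
    rw [map_mul, map_inv₀, ← h,
      show algebraMap A (integralClosure ℤ ℂ) ⟨(D : ℂ) * r, hDmem r r.2⟩ = (D : integralClosure ℤ ℂ) * incl r
        from Subtype.ext rfl,
      map_mul, map_natCast, map_natCast, inv_mul_cancel_left₀]
    intro h0
    exact hD0 (ι.injective (by rw [map_natCast, h0, map_zero]))
  let e : ZMod ℓ ≃+* ι.range := RingEquiv.ofBijective ι.rangeRestrict
    ⟨fun a b h => ι.injective (congrArg Subtype.val h), ι.rangeRestrict_surjective⟩
  exact ⟨ℓ, hℓ, by omega, ⟨e.symm.toRingHom.comp ((Φ.comp incl).codRestrict ι.range hrange)⟩⟩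

end FermatLib.Galois.DS

end
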