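import Fermat.Agent.Galois.DS.GroupBound
import Fermat.Agent.Galois.DS.AssemblyLift
import Fermat.Agent.Galois.DS.AssemblyDensity
import Fermat.Agent.Galois.DS.AssemblyFinite

/-!
# Candidates for the complex representation

Residual representations with uniformly bounded image lift to complex representations with
Frobenius traces congruent to the eigenvalues.
-/

set_option autoImplicit false
set_option linter.style.haveILetI false

noncomputable section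

open scoped MatrixGroups

namespace FermatLib.Galois.DS

local notation "Qbar" => AlgebraicClosure ℚ
local notation "Γℚ" => (AlgebraicClosure ℚ ≃ₐ[ℚ] AlgebraicClosure ℚ)
local notation "Zb" => integralClosure ℤ ℂ

/-- At finite level every value is taken at a Frobenius element outside a finite set. -/
theorem exists_frobenius_eq {H : Type} [Group H] {ρ : Γℚ →* H}
    (hρ : GaloisFactorsThroughFiniteLevel ρ) (γ : Γℚ) (S : Finset ℕ) :
    ∃ p : ℕ, p.Prime ∧ p ∉ S ∧ ∃ A : ValuationSubring Qbar, A.LiesOverPrime p ∧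
      ∃ σ : Γℚ, A.IsFrobeniusAt σ p ∧ ρ σ = ρ γ := by
  obtain ⟨L, hL, hρL⟩ := hρ
  obtain ⟨p, hp, hpS, A, hA, σ, hσ, hag⟩ := FermatLib.Galois.exists_isFrobeniusAt_eqOn L γ S
  refine ⟨p, hp, hpS, A, hA, σ, hσ, ?_⟩
  have h1 : ρ (σ⁻¹ * γ) = 1 := hρL _ fun x hx => by
    rw [AlgEquiv.mul_apply, ← hag x hx, ← AlgEquiv.mul_apply, inv_mul_cancel, AlgEquiv.one_apply]
  rw [map_mul, map_inv, inv_mul_eq_one] at h1
  exact h1

/-- A nonzero algebraic integer is nonzero in all large characteristics. -/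
theorem exists_bound_red_ne_zero {x : Zb} (hx : x ≠ 0) :
    ∃ B : ℕ, ∀ ℓ : ℕ, ℓ.Prime → B < ℓ → ∀ {k : Type} [Field k] [CharP k ℓ] (red : Zb →+* k),
      red x ≠ 0 := by
  obtain ⟨q, hq, hq0⟩ := (Algebra.IsIntegral.isIntegral (R := ℤ) x).isAlgebraic.exists_nonzero_coeff_and_aeval_eq_zero
    (mem_nonZeroDivisors_of_ne_zero hx)
  refine ⟨(q.coeff 0).natAbs, fun ℓ hℓ hB k _ _ red h0 => ?_⟩
  have h : Polynomial.aeval (red x) q = 0 := by
    rw [show red x = red.toIntAlgHom x from rfl, Polynomial.aeval_algHom_apply, hq0, map_zero]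
  rw [h0, ← Polynomial.coeff_zero_eq_aeval_zero', eq_intCast,
    CharP.intCast_eq_zero_iff k ℓ] at h
  exact absurd (Nat.le_of_dvd (Int.natAbs_pos.mpr hq) (Int.natCast_dvd.mp h)) (not_le.mpr hB)

variable {N : ℕ} {R : Subring ℂ}

/-- The Rankin hypothesis at an embedding. -/
def PrimeSumBound (N : ℕ) (a : ℕ → R) (σ : R →+* ℂ) (T : ℝ) : Prop :=
  ∃ C : ℝ, ∀ s : ℝ, 1 < s → s ≤ 2 → ∀ P : Finset ℕ, (∀ p ∈ P, p.Prime ∧ ¬ p ∣ N) →
    ∑ p ∈ P, min (‖σ (a p)‖ ^ 2) T * (p : ℝ) ^ (-s) ≤ Real.log (1 / (s - 1)) + C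

/-- Residual representations for the eigenvalues `a`, `e` at `ℓ`. -/
def HasResidualRep (N ℓ : ℕ) [Fact ℓ.Prime] (a e : ℕ → R) (red : R →+* ZMod ℓ) : Prop :=
  ∃ ρ : Γℚ →* GL (Fin 2) (ZMod ℓ), GaloisFactorsThroughFiniteLevel ρ ∧
    IsSemisimpleSubgroup ρ.range ∧
    ∀ p : ℕ, p.Prime → ¬ p ∣ N * ℓ →
      ∀ A : ValuationSubring Qbar, A.LiesOverPrime p →
        (∀ σ ∈ A.inertiaSubgroupIn ℚ, ρ σ = 1) ∧
        ∀ σ : Γℚ, A.IsFrobeniusAt σ p →
          ((ρ σ : GL (Fin 2) (ZMod ℓ)) : Matrix (Fin 2) (Fin 2) (ZMod ℓ)).trace = red (a p) ∧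
          ((ρ σ : GL (Fin 2) (ZMod ℓ)) : Matrix (Fin 2) (Fin 2) (ZMod ℓ)).det = red (e p)

theorem isIntegral_subring [Module.Finite ℤ R] (x : R) : (x : ℂ) ∈ integralClosure ℤ ℂ :=
  isIntegral_of_mem_finite R x.2

/-- The inclusion of `R` in the algebraic integers. -/
def toZbar (R : Subring ℂ) [Module.Finite ℤ R] : R →+* Zb :=
  R.subtype.codRestrict (integralClosure ℤ ℂ).toSubring isIntegral_subring

theorem coe_toZbar [Module.Finite ℤ R] (x : R) : ((toZbar R x : Zb) : ℂ) = x := rfl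

/-- A candidate representation modulo a reduction in characteristic `ℓ`. -/
def IsCandidate [Module.Finite ℤ R] (N m ℓ : ℕ) (a e : ℕ → R) (ρ : Γℚ →* GL (Fin 2) ℂ) : Prop :=
  GaloisFactorsThroughFiniteLevel ρ ∧
  (∀ γ, (ρ γ) ^ m = 1) ∧
  ∃ (k : Type) (_ : Field k) (_ : CharP k ℓ) (red : Zb →+* k),
    ∀ p : ℕ, p.Prime → ¬ p ∣ N * ℓ →
      ∀ A : ValuationSubring Qbar, A.LiesOverPrime p →
        (∀ σ ∈ A.inertiaSubgroupIn ℚ, ρ σ = 1) ∧
        ∀ σ : Γℚ, A.IsFrobeniusAt σ p → ∃ z₁ z₂ : Zb, z₁ ^ m = 1 ∧ z₂ ^ m = 1 ∧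
          ((ρ σ : GL (Fin 2) ℂ) : Matrix (Fin 2) (Fin 2) ℂ).trace = (z₁ : ℂ) + z₂ ∧
          ((ρ σ : GL (Fin 2) ℂ) : Matrix (Fin 2) (Fin 2) ℂ).det = (z₁ : ℂ) * z₂ ∧
          red (z₁ + z₂) = red (toZbar R (a p)) ∧ red (z₁ * z₂) = red (toZbar R (e p))

theorem isCandidate_of_card_le [Module.Finite ℤ R] {ℓ : ℕ} [Fact ℓ.Prime] (N : ℕ) (a e : ℕ → R)
    (φ : R →+* ZMod ℓ) {ρ : Γℚ →* GL (Fin 2) (ZMod ℓ)} (hρ : GaloisFactorsThroughFiniteLevel ρ)
    (hfrob : ∀ p : ℕ, p.Prime → ¬ p ∣ N * ℓ →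
      ∀ A : ValuationSubring Qbar, A.LiesOverPrime p →
        (∀ σ ∈ A.inertiaSubgroupIn ℚ, ρ σ = 1) ∧
        ∀ σ : Γℚ, A.IsFrobeniusAt σ p →
          ((ρ σ : GL (Fin 2) (ZMod ℓ)) : Matrix (Fin 2) (Fin 2) (ZMod ℓ)).trace = φ (a p) ∧
          ((ρ σ : GL (Fin 2) (ZMod ℓ)) : Matrix (Fin 2) (Fin 2) (ZMod ℓ)).det = φ (e p))
    {A₀ : ℕ} (hA₀ : Nat.card ρ.range ≤ A₀) (hℓ : A₀ < ℓ) :
    ∃ ρC : Γℚ →* GL (Fin 2) ℂ, IsCandidate N A₀.factorial ℓ a e ρC := by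
  haveI := finite_range_of_factors hρ
  letI : Algebra R Zb := (toZbar R).toAlgebra
  haveI : Algebra.IsIntegral R Zb :=
    ⟨fun x => IsIntegral.tower_top (R := ℤ) (Algebra.IsIntegral.isIntegral x)⟩
  obtain ⟨red, hred⟩ := exists_ringHom_extend_integral (A := R) (B := Zb)
    (fun x y h => Subtype.ext (congrArg (fun z : Zb => (z : ℂ)) h))
    ((ZMod.castHom dvd_rfl (AlgebraicClosure (ZMod ℓ))).comp φ)
  have hcard : 0 < Nat.card ρ.range := Nat.card_pos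
  obtain ⟨τ, hτ⟩ := exists_complexLift (Subgroup.subtype ρ.range)
    (fun h => absurd (Nat.le_of_dvd hcard h) (by omega)) red
  have hredR : ∀ x : R, red (toZbar R x) = ZMod.castHom dvd_rfl (AlgebraicClosure (ZMod ℓ)) (φ x) :=
    fun x => RingHom.congr_fun hred x
  have hdvd : Nat.card ρ.range ∣ A₀.factorial := Nat.dvd_factorial hcard hA₀
  refine ⟨τ.comp ρ.rangeRestrict, ?_, fun γ => ?_, AlgebraicClosure (ZMod ℓ), inferInstance,
    inferInstance, red, fun p hp hpN A hA => ⟨fun σ hσ => ?_, fun σ hσ => ?_⟩⟩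
  · obtain ⟨L, hL, hρL⟩ := hρ
    refine ⟨L, hL, fun σ hσ => ?_⟩
    rw [MonoidHom.comp_apply, show ρ.rangeRestrict σ = 1 from Subtype.ext (hρL σ hσ), map_one]
  · obtain ⟨c, hc⟩ := hdvd
    rw [MonoidHom.comp_apply, ← map_pow, hc, pow_mul, pow_card_eq_one', one_pow, map_one]
  · rw [MonoidHom.comp_apply, show ρ.rangeRestrict σ = 1 from Subtype.ext ((hfrob p hp hpN A hA).1 σ hσ),
      map_one]
  · obtain ⟨z₁, z₂, h₁, h₂, htr, hdet, hrt, hrd⟩ := hτ (ρ.rangeRestrict σ)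
    obtain ⟨hft, hfd⟩ := (hfrob p hp hpN A hA).2 σ hσ
    obtain ⟨c, hc⟩ := hdvd
    refine ⟨z₁, z₂, by rw [hc, pow_mul, h₁, one_pow], by rw [hc, pow_mul, h₂, one_pow], htr, hdet,
      ?_, ?_⟩
    · rw [hrt, hredR, ← hft]
      rfl
    · rw [hrd, hredR, ← hfd]
      rfl

/-- **Candidates exist for arbitrarily large `ℓ`**, with image killed by a fixed `m`. -/
theorem exists_candidates [Module.Finite ℤ R] (hN : N ≠ 0) (a e : ℕ → R) (E₀ : Finset R)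
    (he : ∀ p : ℕ, p.Prime → ¬ p ∣ N → e p ∈ E₀)
    (hbound : ∀ σ : R →+* ℂ, ∀ T : ℝ, 0 ≤ T → PrimeSumBound N a σ T)
    (hres : ∃ B : ℕ, ∀ ℓ : ℕ, ∀ [Fact ℓ.Prime], B < ℓ → ∀ red : R →+* ZMod ℓ,
      HasResidualRep N ℓ a e red) :
    ∃ m : ℕ, 0 < m ∧ ∀ B : ℕ, ∃ ℓ : ℕ, ℓ.Prime ∧ B < ℓ ∧
      ∃ ρ : Γℚ →* GL (Fin 2) ℂ, IsCandidate N m ℓ a e ρ := by
  classical
  obtain ⟨E, hE⟩ := exists_embeddings_finite R
  set T : ℝ := 8 * (E.card + 1) with hT
  have hT0 : 0 < T := by positivity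
  set V := (hE T).toFinset
  obtain ⟨A₀, hA₀⟩ := exists_card_le (V ×ˢ E₀).card E₀.card
  obtain ⟨Bres, hBres⟩ := hres
  refine ⟨A₀.factorial, A₀.factorial_pos, fun B => ?_⟩
  obtain ⟨ℓ, hℓ, hℓB, ⟨φ⟩⟩ := exists_large_prime_reduction R (B + Bres + A₀)
  haveI := Fact.mk hℓ
  obtain ⟨ρ, hρ, hss, hfrob⟩ := hBres ℓ (by omega) φ
  haveI := finite_range_of_factors hρ
  haveI : Fintype ρ.range := Fintype.ofFinite _
  refine ⟨ℓ, hℓ, by omega, isCandidate_of_card_le N a e φ hρ hfrob ?_ (by omega)⟩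
  set S := (N * ℓ).primeFactors
  have hS : ∀ p : ℕ, p.Prime → p ∉ S → ¬ p ∣ N * ℓ := fun p hp hpS hd =>
    hpS (Nat.mem_primeFactors.mpr ⟨hp, hd, mul_ne_zero hN hℓ.ne_zero⟩)
  set P₀ : Finset (ZMod ℓ × ZMod ℓ) := (V ×ˢ E₀).image fun x => (φ x.1, φ x.2)
  set pr : GL (Fin 2) (ZMod ℓ) → ZMod ℓ × ZMod ℓ := fun g =>
    ((g : Matrix (Fin 2) (Fin 2) (ZMod ℓ)).trace, (g : Matrix (Fin 2) (Fin 2) (ZMod ℓ)).det)
  set W : GL (Fin 2) (ZMod ℓ) → ℝ := fun g => if pr g ∈ P₀ then 0 else 1 with hW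
  set b : ℕ → ℝ := fun p => if (φ (a p), φ (e p)) ∈ P₀ then 0 else 1 with hb
  choose Cσ hCσ using fun σ : R →+* ℂ => hbound σ T hT0.le
  -- the exceptional primes are rare
  have hsum : ∀ s : ℝ, 1 < s → s ≤ 2 → ∀ P : Finset ℕ, (∀ p ∈ P, p.Prime ∧ p ∉ S) →
      ∑ p ∈ P, b p * (p : ℝ) ^ (-s) ≤
        (E.card / T) * Real.log (1 / (s - 1)) + (∑ σ ∈ E, Cσ σ) / T := by
    intro s hs1 hs2 P hP
    have hPN : ∀ p ∈ P, p.Prime ∧ ¬ p ∣ N := fun p hp =>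
      ⟨(hP p hp).1, fun hd => hS p (hP p hp).1 (hP p hp).2 (hd.mul_right ℓ)⟩
    have hpt : ∀ p ∈ P, T * b p ≤ ∑ σ ∈ E, min (‖σ (a p)‖ ^ 2) T := by
      intro p hp
      by_cases hmem : (φ (a p), φ (e p)) ∈ P₀
      · rw [hb]
        simp only [if_pos hmem, mul_zero]
        exact Finset.sum_nonneg fun σ _ => le_min (sq_nonneg _) hT0.le
      · have hV : a p ∉ V := fun hV => hmem (Finset.mem_image.mpr
          ⟨(a p, e p), Finset.mem_product.mpr ⟨hV, he p (hPN p hp).1 (hPN p hp).2⟩, rfl⟩)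
        simp only [V, Set.Finite.mem_toFinset, Set.mem_ofPred_eq, not_forall, not_le] at hV
        obtain ⟨σ, hσE, hσ⟩ := hV
        rw [hb]
        simp only [if_neg hmem, mul_one]
        exact (le_min hσ.le le_rfl).trans (Finset.single_le_sum
          (f := fun σ : R →+* ℂ => min (‖σ (a p)‖ ^ 2) T)
          (fun σ _ => le_min (sq_nonneg _) hT0.le) hσE)
    have h1 : T * ∑ p ∈ P, b p * (p : ℝ) ^ (-s) ≤
        ∑ σ ∈ E, (Real.log (1 / (s - 1)) + Cσ σ) := by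
      calc T * ∑ p ∈ P, b p * (p : ℝ) ^ (-s)
          = ∑ p ∈ P, T * b p * (p : ℝ) ^ (-s) := by
            rw [Finset.mul_sum]; exact Finset.sum_congr rfl fun p _ => by ring
        _ ≤ ∑ p ∈ P, (∑ σ ∈ E, min (‖σ (a p)‖ ^ 2) T) * (p : ℝ) ^ (-s) :=
            Finset.sum_le_sum fun p hp =>
              mul_le_mul_of_nonneg_right (hpt p hp) (Real.rpow_nonneg (Nat.cast_nonneg _) _)
        _ = ∑ σ ∈ E, ∑ p ∈ P, min (‖σ (a p)‖ ^ 2) T * (p : ℝ) ^ (-s) := by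
            rw [Finset.sum_comm]; exact Finset.sum_congr rfl fun p _ => Finset.sum_mul _ _ _
        _ ≤ _ := Finset.sum_le_sum fun σ _ => hCσ σ s hs1 hs2 P hPN
    rw [Finset.sum_add_distrib, Finset.sum_const, nsmul_eq_mul] at h1
    rw [div_mul_eq_mul_div, ← add_div, le_div_iff₀ hT0, mul_comm]
    exact h1
  have hWc : ∀ g h, W (g * h * g⁻¹) = W h := fun g h => by
    simp only [hW, pr, Units.val_mul, Matrix.trace_units_conj, Matrix.det_units_conj]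
  have havg := sum_range_le_of_primeSum_le hρ W (fun g => by simp only [hW]; split_ifs <;> norm_num)
    hWc b (fun p => by simp only [hb]; split_ifs <;> norm_num) S (fun p hp hpS A hA σ hσ => by
      obtain ⟨h1, h2⟩ := (hfrob p hp (hS p hp hpS) A hA).2 σ hσ
      simp only [hW, hb, pr, h1, h2]) hsum
  refine hA₀ ℓ ρ.range ((Finset.univ.filter fun g : ρ.range => pr g ∈ P₀).image Subtype.val)
    (E₀.image φ) hss ?_ Finset.card_image_le ?_ ?_ ?_
  · rintro _ ⟨γ, rfl⟩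
    obtain ⟨p, hp, hpS, A, hA, σ, hσ, hσγ⟩ := exists_frobenius_eq hρ γ S
    rw [← hσγ, ((hfrob p hp (hS p hp hpS) A hA).2 σ hσ).2]
    exact Finset.mem_image_of_mem _ (he p hp fun hd => hS p hp hpS (hd.mul_right ℓ))
  · intro g hg
    obtain ⟨x, -, rfl⟩ := Finset.mem_image.mp hg
    exact x.2
  · rw [Finset.card_image_of_injective _ Subtype.val_injective]
    have hc := Finset.card_filter_add_card_filter_not (s := (Finset.univ : Finset ρ.range))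
      (fun g => pr g ∈ P₀)
    rw [Finset.card_univ, ← Nat.card_eq_fintype_card] at hc
    have hbad : ∑ h : ρ.range, W h =
        ((Finset.univ.filter fun g : ρ.range => ¬ pr g ∈ P₀).card : ℝ) := by
      simp only [hW]
      rw [Finset.sum_ite, Finset.sum_const_zero, zero_add, Finset.sum_const, nsmul_eq_mul, mul_one]
    have hκ : (E.card : ℝ) / T < 1 / 4 := by
      rw [div_lt_iff₀ hT0, hT]; linarith
    have hpos : (0 : ℝ) < Nat.card ρ.range := Nat.cast_pos.mpr Nat.card_pos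
    have hlt : 4 * ((Finset.univ.filter fun g : ρ.range => ¬ pr g ∈ P₀).card : ℝ) <
        Nat.card ρ.range := by
      rw [← hbad]
      nlinarith [mul_lt_mul_of_pos_right hκ hpos]
    have : 4 * (Finset.univ.filter fun g : ρ.range => ¬ pr g ∈ P₀).card < Nat.card ρ.range := by
      exact_mod_cast hlt
    omega
  · refine (Finset.card_le_card (t := P₀) fun x hx => ?_).trans Finset.card_image_le
    simp only [Finset.image_image, Finset.mem_image, Finset.mem_filter] at hx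
    obtain ⟨g, ⟨-, hg⟩, rfl⟩ := hx
    exact hg

end FermatLib.Galois.DS

end
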