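import Mathlib.NumberTheory.ModularForms.QExpansion
import Mathlib.NumberTheory.ModularForms.CongruenceSubgroups
import Mathlib.NumberTheory.ModularForms.ArithmeticSubgroups
import Fermat.Prelude.Def_FLTPrelim_Modularity
import Fermat.Prelude.Thm_UpperHalfPlane_qCoeff_heckeT
import Fermat.Prelude.Thm_UpperHalfPlane_qCoeff_heckeU
import Fermat.Prelude.Thm_ModularForm_periodic_heckeU_comp_ofComplex
import Fermat.Prelude.Thm_ModularForm_mdifferentiable_heckeU
import Fermat.Prelude.Thm_ModularForm_isBoundedAtImInfty_heckeU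
import Fermat.Prelude.Thm_ModularForm_periodic_heckeT_comp_ofComplex
import Fermat.Prelude.Thm_ModularForm_mdifferentiable_heckeT
import Fermat.Prelude.Thm_ModularForm_isBoundedAtImInfty_heckeT

/-!
# Weight one cusp forms as functions
-/

set_option autoImplicit false

noncomputable section

open UpperHalfPlane hiding I
open CongruenceSubgroup ModularFormClass
open scoped MatrixGroups ModularForm Manifold

namespace FermatLib.Galois.DS

/-- Holomorphic functions of period `1` bounded at `i∞`: they have a `q`-expansion. -/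
def qHolSpace : Submodule ℂ (ℍ → ℂ) where
  carrier := {F | Function.Periodic (F ∘ ofComplex) 1 ∧ MDiff F ∧ IsBoundedAtImInfty F}
  zero_mem' := ⟨fun z => by simp, mdifferentiable_const, zero_form_isBoundedAtImInfty⟩
  add_mem' := fun ⟨h1, h2, h3⟩ ⟨k1, k2, k3⟩ =>
    ⟨fun z => congrArg₂ (· + ·) (h1 z) (k1 z), h2.add k2, h3.add k3⟩
  smul_mem' := fun c _ ⟨h1, h2, h3⟩ =>
    ⟨fun z => congrArg (c • ·) (h1 z), h2.const_smul c, h3.const_mul_left c⟩

variable {F G : ℍ → ℂ}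

theorem analyticAt_of_mem_qHolSpace (hF : F ∈ qHolSpace) :
    AnalyticAt ℂ (cuspFunction 1 F) 0 :=
  analyticAt_cuspFunction_zero one_pos (by simpa using hF.1) hF.2.1 hF.2.2

theorem qCoeff_add_qHol (hF : F ∈ qHolSpace) (hG : G ∈ qHolSpace) (n : ℕ) :
    qCoeff (F + G) n = qCoeff F n + qCoeff G n := by
  simp [qCoeff, qExpansion_add (analyticAt_of_mem_qHolSpace hF) (analyticAt_of_mem_qHolSpace hG)]

theorem qCoeff_smul_qHol (hF : F ∈ qHolSpace) (c : ℂ) (n : ℕ) :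
    qCoeff (c • F) n = c * qCoeff F n := by
  simp [qCoeff, qExpansion_smul (analyticAt_of_mem_qHolSpace hF)]

theorem qCoeff_sub_qHol (hF : F ∈ qHolSpace) (hG : G ∈ qHolSpace) (n : ℕ) :
    qCoeff (F - G) n = qCoeff F n - qCoeff G n := by
  simp [qCoeff, qExpansion_sub (analyticAt_of_mem_qHolSpace hF) (analyticAt_of_mem_qHolSpace hG)]

theorem eq_zero_of_qCoeff (hF : F ∈ qHolSpace) (h : ∀ n, qCoeff F n = 0) : F = 0 :=
  (qExpansion_eq_zero_iff one_pos (by simpa using hF.1) hF.2.1 hF.2.2).mp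
    (PowerSeries.ext fun n => (h n).trans (map_zero _).symm)

theorem heckeU_mem_qHolSpace (hF : F ∈ qHolSpace) (k : ℤ) (p : ℕ) :
    ModularForm.heckeU k p F ∈ qHolSpace :=
  ⟨ModularForm.periodic_heckeU_comp_ofComplex hF.1 k p,
    ModularForm.mdifferentiable_heckeU hF.2.1 k p,
    ModularForm.isBoundedAtImInfty_heckeU hF.2.2 k p⟩

theorem heckeT_mem_qHolSpace (hF : F ∈ qHolSpace) (k : ℤ) (p : ℕ) :
    ModularForm.heckeT k p F ∈ qHolSpace :=
  ⟨ModularForm.periodic_heckeT_comp_ofComplex hF.1 k p,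
    ModularForm.mdifferentiable_heckeT hF.2.1 k p,
    ModularForm.isBoundedAtImInfty_heckeT hF.2.2 k p⟩

theorem slash_heckeDiag_eq_sub (k : ℤ) (m : ℕ) :
    F ∣[k] ModularForm.heckeDiagMatrix m = ModularForm.heckeT k m F - ModularForm.heckeU k m F := by
  rw [ModularForm.heckeT_eq_heckeU_add, add_sub_cancel_left]

theorem slash_heckeDiag_mem_qHolSpace (hF : F ∈ qHolSpace) (k : ℤ) (m : ℕ) :
    F ∣[k] ModularForm.heckeDiagMatrix m ∈ qHolSpace := by
  rw [slash_heckeDiag_eq_sub]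
  exact sub_mem (heckeT_mem_qHolSpace hF k m) (heckeU_mem_qHolSpace hF k m)

/-- Coefficients of `τ ↦ F (m τ)`. -/
theorem qCoeff_slash_heckeDiag (hF : F ∈ qHolSpace) (k : ℤ) {m : ℕ} (hm : m ≠ 0) (n : ℕ) :
    qCoeff (F ∣[k] ModularForm.heckeDiagMatrix m) n =
      if m ∣ n then (m : ℂ) ^ (k - 1) * qCoeff F (n / m) else 0 := by
  rw [slash_heckeDiag_eq_sub, qCoeff_sub_qHol (heckeT_mem_qHolSpace hF k m)
    (heckeU_mem_qHolSpace hF k m), UpperHalfPlane.qCoeff_heckeT hF.1 hF.2.1 hF.2.2 k hm,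
    UpperHalfPlane.qCoeff_heckeU hF.1 hF.2.1 hF.2.2 k hm, ModularForm.coeffHeckeT,
    ModularForm.coeffHeckeU, add_sub_cancel_left]

/-- Weight one cusp forms on `Γ₁(M)`. -/
def cuspOneSpace (M : ℕ) : Submodule ℂ (ℍ → ℂ) where
  carrier := {F | MDiff F ∧ (∀ γ ∈ Gamma1 M, F ∣[(1 : ℤ)] γ = F) ∧
    ∀ A : SL(2, ℤ), IsZeroAtImInfty (F ∣[(1 : ℤ)] A)}
  zero_mem' := ⟨mdifferentiable_const, fun _ _ => SlashAction.zero_slash _ _, fun A => by
    rw [SlashAction.zero_slash]; exact Filter.zero_zeroAtFilter _⟩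
  add_mem' := fun ⟨h1, h2, h3⟩ ⟨k1, k2, k3⟩ =>
    ⟨h1.add k1, fun γ hγ => by rw [SlashAction.add_slash, h2 γ hγ, k2 γ hγ], fun A => by
      rw [SlashAction.add_slash]; exact (h3 A).add (k3 A)⟩
  smul_mem' := fun c _ ⟨h1, h2, h3⟩ =>
    ⟨h1.const_smul c, fun γ hγ => by rw [ModularForm.SL_smul_slash, h2 γ hγ], fun A => by
      rw [ModularForm.SL_smul_slash]; exact Filter.ZeroAtFilter.smul c (h3 A)⟩

variable {M : ℕ} [NeZero M]

/-- A member of `cuspOneSpace` as a cusp form. -/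
def toCuspOne (hF : F ∈ cuspOneSpace M) : CuspForm (Gamma1 M) 1 where
  toFun := F
  slash_action_eq' := by
    rintro g ⟨γ, hγ, rfl⟩
    exact hF.2.1 γ hγ
  holo' := hF.1
  zero_at_cusps' := by
    intro c hc
    rw [Subgroup.IsArithmetic.isCusp_iff_isCusp_SL2Z] at hc
    rw [OnePoint.isZeroAt_iff_forall_SL2Z hc]
    exact fun γ _ => hF.2.2 γ

@[simp] theorem coe_toCuspOne (hF : F ∈ cuspOneSpace M) : ⇑(toCuspOne hF) = F := rfl

theorem cuspForm_mem_cuspOneSpace (f : CuspForm (Gamma1 M) 1) : (f : ℍ → ℂ) ∈ cuspOneSpace M :=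
  ⟨CuspFormClass.holo f, fun γ hγ => f.slash_action_eq' _ ⟨γ, hγ, rfl⟩,
    fun A => CuspFormClass.zero_at_infty_slash f A⟩

theorem qHol_of_cuspOne (hF : F ∈ cuspOneSpace M) : F ∈ qHolSpace := by
  refine ⟨?_, hF.1, ?_⟩
  · have h := SlashInvariantFormClass.periodic_comp_ofComplex (toCuspOne hF)
      (show (1 : ℝ) ∈ ((Gamma1 M : Subgroup SL(2, ℤ)) : Subgroup (GL (Fin 2) ℝ)).strictPeriods by simp)
    rw [Complex.ofReal_one] at h
    exact h
  · have h := hF.2.2 1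
    rw [SlashAction.slash_one] at h
    exact h.boundedAtFilter

theorem qCoeff_zero_cuspOne (hF : F ∈ cuspOneSpace M) : qCoeff F 0 = 0 := by
  have h := hF.2.2 1
  rw [SlashAction.slash_one] at h
  have hq := qHol_of_cuspOne hF
  rw [qCoeff, UpperHalfPlane.qExpansion_coeff_zero one_pos (analyticAt_of_mem_qHolSpace hq)
    (by simpa using hq.1)]
  exact h.valueAtInfty_eq_zero

end FermatLib.Galois.DS

end
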