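import Fermat.Agent.Modular.JScale

/-!
# The leading term at `i∞`

A nonzero periodic function meromorphic at `i∞` is `q^k u(q)` near `i∞`, `k` the order of its
expansion and `u` analytic at `0` with `u 0` the leading coefficient.
-/

set_option autoImplicit false

noncomputable section

open UpperHalfPlane hiding I
open Filter
open scoped Manifold Topology

namespace FermatLib.Galois.DS

open FermatLib.Modular

local notation "Δ" => ModularForm.discriminant
local notation "qq" => Function.Periodic.qParam (1 : ℝ)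

theorem coeff_iteratedDeriv {G : ℍ → ℂ} (n : ℕ) :
    (HahnSeries.ofPowerSeries ℤ ℂ (qExpansion 1 G)).coeff (n : ℤ) =
      (n.factorial : ℂ)⁻¹ * iteratedDeriv n (cuspFunction 1 G) 0 := by
  rw [HahnSeries.ofPowerSeries_apply_coeff, qExpansion_coeff]

/-- A bounded periodic function is `q^n u(q)` with `n` the order of its expansion. -/
theorem exists_leading_of_bounded {P : ℍ → ℂ} (hP : P ∈ qMero) (hb : IsBoundedAtImInfty P)
    (h0 : P ≠ 0) :
    ∃ (n : ℕ) (u : ℂ → ℂ), (qExpL P).order = n ∧ AnalyticAt ℂ u 0 ∧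
      u 0 = (qExpL P).coeff n ∧ u 0 ≠ 0 ∧
      ∀ᶠ τ : ℍ in atImInfty, P τ = qq (τ : ℂ) ^ n * u (qq (τ : ℂ)) := by
  have he := qExpL_of_bounded hP hb
  have hne : qExpL P ≠ 0 := fun h => h0 ((qExpL_eq_zero_iff hP).mp h)
  obtain ⟨n, hn⟩ : ∃ n : ℕ, (qExpL P).order = n := Int.eq_ofNat_of_zero_le <| by
    by_contra hneg
    refine (HahnSeries.coeff_order_eq_zero.not.mpr hne) ?_
    rw [he, ModularCurve.ofPowerSeries_coeff_of_neg]
    rw [← he]; omega
  have hcn : (qExpL P).coeff n ≠ 0 := hn ▸ HahnSeries.coeff_order_eq_zero.not.mpr hne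
  have hlt : ∀ i < n, iteratedDeriv i (cuspFunction 1 P) 0 = 0 := fun i hi => by
    have h1 := HahnSeries.coeff_eq_zero_of_lt_order (x := qExpL P) (i := (i : ℤ))
      (by rw [hn]; omega)
    rw [he, coeff_iteratedDeriv, mul_eq_zero] at h1
    exact h1.resolve_left (inv_ne_zero (Nat.cast_ne_zero.mpr i.factorial_ne_zero))
  have hnn : iteratedDeriv n (cuspFunction 1 P) 0 ≠ 0 := by
    rw [he, coeff_iteratedDeriv] at hcn
    exact right_ne_zero_of_mul hcn
  have ha := analyticAt_cuspFunction_of_mem hP hb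
  obtain ⟨u, hu, hu0, heq⟩ := ha.analyticOrderAt_eq_natCast.mp
    ((analyticOrderAt_eq_nat_iff_iteratedDeriv_eq_zero ha).mpr ⟨hlt, hnn⟩)
  have hval : u 0 = (qExpL P).coeff n := by
    have heq' : cuspFunction 1 P =ᶠ[𝓝 0] fun z => z ^ n * u z := by
      filter_upwards [heq] with z hz
      rw [hz, sub_zero, smul_eq_mul]
    rw [he, coeff_iteratedDeriv, heq'.iteratedDeriv_eq n]
    have hfac : iteratedDeriv n (fun z => z ^ n * u z) 0 = (n.factorial : ℂ) * u 0 := by
      rw [show (fun z => z ^ n * u z) = (id : ℂ → ℂ) ^ n * u from rfl,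
        iteratedDeriv_mul ((analyticAt_id.pow n).contDiffAt) hu.contDiffAt]
      rw [show ((id : ℂ → ℂ) ^ n) = fun z : ℂ => z ^ n from rfl]
      rw [Finset.sum_eq_single n]
      · simp [Nat.descFactorial_self]
      · intro i hi hne'
        rw [iteratedDeriv_eq_iterate, iter_deriv_pow']
        have : i < n := lt_of_le_of_ne (Finset.mem_range_succ_iff.mp hi) hne'
        simp [zero_pow (Nat.sub_ne_zero_of_lt this)]
      · intro h; simp at h
    rw [hfac, ← mul_assoc, inv_mul_cancel₀ (Nat.cast_ne_zero.mpr n.factorial_ne_zero), one_mul]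
  refine ⟨n, u, hn, hu, hval, hu0, ?_⟩
  filter_upwards [(qParam_tendsto_atImInfty one_pos).eventually heq] with τ hτ
  rw [← eq_cuspFunction τ one_ne_zero (periodic_comp_ofComplex_of_vadd hP.1), hτ, sub_zero,
    smul_eq_mul]

theorem order_qExpDelta : qExpDelta.order = 1 := by
  obtain ⟨n, u, hn, -, -, -, -⟩ := exists_leading_of_bounded discriminant_mem_qMero
    ModularForm.discriminant_isZeroAtImInfty.isBoundedAtImInfty
    (fun h => ModularForm.discriminant_ne_zero UpperHalfPlane.I (congrFun h _))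
  have h1 : qExpDelta.coeff (1 : ℕ) ≠ 0 := by
    rw [qExpDelta, HahnSeries.ofPowerSeries_apply_coeff,
      ModularForm.discriminant_qExpansion_coeff_one]
    exact one_ne_zero
  refine le_antisymm (HahnSeries.order_le_of_coeff_ne_zero h1) ?_
  by_contra hlt
  push Not at hlt
  rw [show qExpDelta = qExpL (Δ : ℍ → ℂ) from (qExpL_of_bounded discriminant_mem_qMero
    ModularForm.discriminant_isZeroAtImInfty.isBoundedAtImInfty).symm, hn] at hlt
  rw [qExpDelta, ← qExpL_of_bounded discriminant_mem_qMero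
    ModularForm.discriminant_isZeroAtImInfty.isBoundedAtImInfty] at h1
  have hn0 : n = 0 := by omega
  have hne : qExpL (Δ : ℍ → ℂ) ≠ 0 := fun h => h1 (by rw [h]; rfl)
  have h0 := HahnSeries.coeff_order_eq_zero.not.mpr hne
  rw [hn, hn0, qExpL_of_bounded discriminant_mem_qMero
    ModularForm.discriminant_isZeroAtImInfty.isBoundedAtImInfty,
    HahnSeries.ofPowerSeries_apply_coeff] at h0
  refine h0 ?_
  rw [UpperHalfPlane.qExpansion_coeff_zero one_pos
    (analyticAt_cuspFunction_of_mem discriminant_mem_qMero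
      ModularForm.discriminant_isZeroAtImInfty.isBoundedAtImInfty)
    (periodic_comp_ofComplex_of_vadd discriminant_mem_qMero.1)]
  exact UpperHalfPlane.IsZeroAtImInfty.valueAtInfty_eq_zero ModularForm.discriminant_isZeroAtImInfty

/-- **Leading term.** -/
theorem exists_leading {G : ℍ → ℂ} (hG : G ∈ qMero) (h0 : G ≠ 0) :
    ∃ u : ℂ → ℂ, AnalyticAt ℂ u 0 ∧ u 0 = (qExpL G).coeff (qExpL G).order ∧ u 0 ≠ 0 ∧
      ∀ᶠ τ : ℍ in atImInfty, G τ = qq (τ : ℂ) ^ (qExpL G).order * u (qq (τ : ℂ)) := by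
  obtain ⟨m, hm⟩ := hG.2.2
  have hP := mul_mem hG (pow_mem discriminant_mem_qMero m)
  have hΔne : (Δ : ℍ → ℂ) ≠ 0 := fun h => ModularForm.discriminant_ne_zero UpperHalfPlane.I (congrFun h _)
  have hP0 : G * (Δ : ℍ → ℂ) ^ m ≠ 0 := by
    intro h
    refine h0 (funext fun τ => ?_)
    have := congrFun h τ
    simpa [ModularForm.discriminant_ne_zero τ] using this
  obtain ⟨n, uP, hn, huP, huP0, huP0', heP⟩ := exists_leading_of_bounded hP hm hP0
  obtain ⟨d, uD, hd, huD, huDval, huD0', heD⟩ := exists_leading_of_bounded discriminant_mem_qMero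
    ModularForm.discriminant_isZeroAtImInfty.isBoundedAtImInfty hΔne
  have hd1 : (d : ℤ) = 1 := by
    rw [← hd, qExpL_of_bounded discriminant_mem_qMero
      ModularForm.discriminant_isZeroAtImInfty.isBoundedAtImInfty]
    exact order_qExpDelta
  have hd1' : d = 1 := by omega
  subst hd1'
  set k := (qExpL G).order with hk
  have hD0 : qExpDelta ^ m ≠ 0 := pow_ne_zero m qExpDelta_ne_zero
  have hG0' : qExpL G ≠ 0 := fun h => h0 ((qExpL_eq_zero_iff hG).mp h)
  have heq : qExpL (G * (Δ : ℍ → ℂ) ^ m) = qExpL G * qExpDelta ^ m := by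
    rw [qExpL_mul_pow hG hm, qExpL_of_bounded hP hm]
  have hnk : (n : ℤ) = k + m := by
    rw [← hn, heq, HahnSeries.order_mul hG0' hD0, HahnSeries.order_pow, order_qExpDelta]
    simp [hk]
  set v : ℂ → ℂ := fun z => uP z / uD z ^ m with hv
  have hva : AnalyticAt ℂ v 0 := huP.div (huD.pow m) (pow_ne_zero m huD0')
  have hev : ∀ᶠ τ : ℍ in atImInfty, G τ = qq (τ : ℂ) ^ k * v (qq (τ : ℂ)) := by
    filter_upwards [heP, heD, (qParam_tendsto_atImInfty one_pos).eventually
      (huD.continuousAt.eventually_ne huD0')] with τ hτ hτD hne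
    have hq : qq (τ : ℂ) ≠ 0 := Function.Periodic.qParam_ne_zero _
    have hΔτ := ModularForm.discriminant_ne_zero τ
    rw [show k = (n : ℤ) - (m : ℤ) by omega, zpow_sub₀ hq, zpow_natCast, zpow_natCast, hv]
    simp only [Pi.mul_apply, Pi.pow_apply] at hτ
    rw [hτD, pow_one, mul_pow] at hτ
    field_simp
    linear_combination hτ
  refine ⟨v, hva, ?_, div_ne_zero huP0' (pow_ne_zero m huD0'), hev⟩
  -- the value at `0`
  have hlead : (qExpL (G * (Δ : ℍ → ℂ) ^ m)).coeff n = (qExpL G).coeff k * uD 0 ^ m := by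
    have hD1 : uD 0 = qExpDelta.leadingCoeff := by
      rw [huDval, qExpL_of_bounded discriminant_mem_qMero
        ModularForm.discriminant_isZeroAtImInfty.isBoundedAtImInfty,
        HahnSeries.leadingCoeff_eq (x := qExpDelta), order_qExpDelta]
      rfl
    have hpow : ∀ i : ℕ, (qExpDelta ^ i).leadingCoeff = qExpDelta.leadingCoeff ^ i := by
      intro i
      induction i with
      | zero => simp
      | succ i ih => rw [pow_succ, HahnSeries.leadingCoeff_mul, ih, pow_succ]
    rw [heq, hnk, hD1, ← hpow, ← HahnSeries.leadingCoeff_eq (x := qExpL G),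
      ← HahnSeries.leadingCoeff_mul, HahnSeries.leadingCoeff_eq, HahnSeries.order_mul hG0' hD0,
      HahnSeries.order_pow, order_qExpDelta]
    simp [hk]
  show uP 0 / uD 0 ^ m = _
  rw [huP0, hlead, mul_div_assoc, div_self (pow_ne_zero m huD0'), mul_one]

end FermatLib.Galois.DS

end
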