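import Mathlib.NumberTheory.ModularForms.CongruenceSubgroups
import Mathlib.Analysis.Analytic.Order
import Fermat.Agent.Modular.JScale
import Fermat.Agent.Modular.WeakModular
import Fermat.Prelude.Def_ModularForm_HeckeOperator
import Fermat.Prelude.Def_ModularCurve_LaurentCoeff

/-!
# The ring of weakly modular functions of level `Γ₁(M)` (Deligne–Serre)

`modRing M` is the ring of `Γ₁(M)`-invariant holomorphic functions meromorphic at the cusps,
`cuspExp M A` the expansion at the cusp `A ∞` in the parameter `q^(1/M)`, and `intRing M O` the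
subring of functions all of whose expansions have coefficients in `O`.
-/

set_option autoImplicit false

noncomputable section

open UpperHalfPlane CongruenceSubgroup ModularCurve
open scoped MatrixGroups ModularForm Manifold

namespace FermatLib.Galois.DS

open FermatLib.Modular

variable (M : ℕ) [NeZero M]

/-- `Γ₁(M)`-invariant holomorphic functions on `ℍ`, meromorphic at every cusp. -/
abbrev modRing : Subalgebra ℂ (ℍ → ℂ) := weakMod (Gamma1 M)

omit [NeZero M] in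
theorem modularGroup_T_mem_Gamma1 : ModularGroup.T ∈ Gamma1 M := by
  rw [Gamma1_mem]
  simp [ModularGroup.T]

omit [NeZero M] in
theorem T_pow_conj_mem_Gamma1 (A : SL(2, ℤ)) :
    A * ModularGroup.T ^ (M : ℤ) * A⁻¹ ∈ Gamma1 M := by
  have hle : Gamma M ≤ Gamma1 M := fun γ hγ => by
    rw [Gamma_mem] at hγ
    rw [Gamma1_mem]
    exact ⟨hγ.1, hγ.2.2.2, hγ.2.2.1⟩
  refine hle ((Gamma_normal M).conj_mem _ ?_ A)
  rw [Gamma_mem, ModularGroup.coe_T_zpow]
  simp

theorem coe_T_zpow_smul (n : ℤ) (τ : ℍ) :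
    ((ModularGroup.T ^ n • τ : ℍ) : ℂ) = (τ : ℂ) + n := by
  rw [UpperHalfPlane.coe_specialLinearGroup_apply]
  simp [ModularGroup.coe_T_zpow]

/-- `τ ↦ G (A (M τ))`. -/
def cuspFun (A : SL(2, ℤ)) (G : ℍ → ℂ) : ℍ → ℂ :=
  fun τ => G (A • (ModularForm.heckeDiagMatrix M • τ))

theorem cuspFun_mem_qMero (A : SL(2, ℤ)) {G : ℍ → ℂ} (hG : G ∈ modRing M) :
    cuspFun M A G ∈ qMero := by
  obtain ⟨hd, hinv, hc⟩ := mem_weakMod.mp hG
  refine mem_qMero.mpr ⟨fun τ => ?_, ?_, ?_⟩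
  · have h1 : ModularForm.heckeDiagMatrix M • ((1 : ℝ) +ᵥ τ) =
        ModularGroup.T ^ (M : ℤ) • (ModularForm.heckeDiagMatrix M • τ) := by
      apply UpperHalfPlane.ext
      rw [coe_T_zpow_smul, ModularForm.coe_heckeDiagMatrix_smul (NeZero.ne M),
        ModularForm.coe_heckeDiagMatrix_smul (NeZero.ne M), UpperHalfPlane.coe_vadd]
      push_cast
      ring
    simp only [cuspFun]
    rw [h1, ← mul_smul, ← hinv _ (T_pow_conj_mem_Gamma1 M A) (A • _), ← mul_smul,
      inv_mul_cancel_right]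
  · have hA : MDiff fun τ => G (A • τ) := by
      have h := hd.comp (UpperHalfPlane.mdifferentiable_smul (g := (A : GL (Fin 2) ℝ))
        (by simp))
      exact h
    exact hA.comp (UpperHalfPlane.mdifferentiable_smul (ModularForm.det_heckeDiagMatrix_pos M))
  · obtain ⟨m, hm⟩ := hc A
    have hM : (0 : ℝ) < M := by exact_mod_cast Nat.pos_of_ne_zero (NeZero.ne M)
    refine ⟨M * m, ?_⟩
    have h := isBoundedAtImInfty_comp_triangular hm hM one_pos (b := 0) (k := M) (by simp)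
    have heq : ModularForm.heckeDiagMatrix M = ModularForm.upperTriangularGL (M : ℝ) 0 1
        (mul_pos hM one_pos).ne' := by
      rw [ModularForm.heckeDiagMatrix, dif_neg (NeZero.ne M)]
    show IsBoundedAtImInfty ((fun τ => G (A • (ModularForm.heckeDiagMatrix M • τ))) * _)
    simp only [heq]
    exact h

omit [NeZero M] in
/-- The `q`-expansion at `∞`. -/
def qExp1 : modRing M →ₐ[ℂ] LaurentSeries ℂ :=
  qExpLHom.comp (Subalgebra.inclusion (weakMod_le_qMero (modularGroup_T_mem_Gamma1 M)))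

omit [NeZero M] in
theorem qExp1_apply (G : modRing M) : qExp1 M G = qExpL (G : ℍ → ℂ) := rfl

omit [NeZero M] in
theorem qExp1_injective : Function.Injective (qExp1 M) :=
  qExpLHom_injective.comp
    (Subalgebra.inclusion_injective (weakMod_le_qMero (modularGroup_T_mem_Gamma1 M)))

/-- The expansion at the cusp `A ∞` in `t = q^(1/M)`. -/
def cuspExp (A : SL(2, ℤ)) : modRing M →ₐ[ℂ] LaurentSeries ℂ :=
  qExpLHom.comp
    { toFun := fun G => ⟨cuspFun M A (G : ℍ → ℂ), cuspFun_mem_qMero M A G.2⟩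
      map_one' := rfl
      map_mul' := fun _ _ => rfl
      map_zero' := rfl
      map_add' := fun _ _ => rfl
      commutes' := fun _ => rfl }

theorem cuspExp_apply (A : SL(2, ℤ)) (G : modRing M) :
    cuspExp M A G = qExpL (cuspFun M A (G : ℍ → ℂ)) := rfl

theorem cuspExp_injective (A : SL(2, ℤ)) : Function.Injective (cuspExp M A) := by
  refine qExpLHom_injective.comp ?_
  intro G G' h
  refine Subtype.ext (funext fun τ => ?_)
  have h' := congrFun (congrArg Subtype.val h)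
    ((ModularForm.heckeDiagMatrix M)⁻¹ • (A⁻¹ • τ))
  change (G : ℍ → ℂ) (A • ModularForm.heckeDiagMatrix M • (ModularForm.heckeDiagMatrix M)⁻¹ • A⁻¹ • τ)
    = (G' : ℍ → ℂ) (A • ModularForm.heckeDiagMatrix M • (ModularForm.heckeDiagMatrix M)⁻¹ • A⁻¹ • τ) at h'
  rwa [smul_inv_smul, smul_inv_smul] at h'

/-- The order of vanishing at a point of `ℍ`. -/
def ordAt (G : ℍ → ℂ) (τ : ℍ) : ℕ :=
  analyticOrderNatAt (G ∘ ofComplex) (τ : ℂ)

/-- Functions all whose cusp expansions have coefficients in `O`. -/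
def intRing (O : Subring ℂ) : Subalgebra O (modRing M) where
  carrier := {G | ∀ A : SL(2, ℤ), cuspExp M A G ∈ (coeffMap O.subtype).range}
  mul_mem' := fun ha hb A => by rw [map_mul]; exact mul_mem (ha A) (hb A)
  one_mem' := fun A => by rw [map_one]; exact one_mem _
  add_mem' := fun ha hb A => by rw [map_add]; exact add_mem (ha A) (hb A)
  zero_mem' := fun A => by rw [map_zero]; exact zero_mem _
  algebraMap_mem' := fun c A => by
    refine ⟨HahnSeries.single 0 c, ?_⟩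
    rw [coeffMap_single, show algebraMap O (modRing M) c = algebraMap ℂ (modRing M) (c : ℂ) from rfl,
      AlgHom.commutes, algebraMap_laurentSeries_eq_single]
    rfl

theorem mem_intRing_iff (O : Subring ℂ) (G : modRing M) :
    G ∈ intRing M O ↔ ∀ (A : SL(2, ℤ)) (n : ℤ), (cuspExp M A G).coeff n ∈ O := by
  refine forall_congr' fun A => ⟨?_, fun h => ?_⟩
  · rintro ⟨x, hx⟩ n
    rw [← hx, coeffMap_coeff]
    exact (x.coeff n).2
  · refine ⟨⟨fun n => ⟨_, h n⟩, (cuspExp M A G).isPWO_support.mono fun n hn => ?_⟩, ?_⟩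
    · rw [HahnSeries.mem_support]
      intro h0
      exact hn (Subtype.ext h0)
    · ext n
      rfl

/-- The cusp `A ∞` is equivalent to `∞` under `± Γ₁(M)`. -/
def IsInftyCusp (A : SL(2, ℤ)) : Prop :=
  (M : ℤ) ∣ A 1 0 ∧ ((M : ℤ) ∣ A 0 0 - 1 ∨ (M : ℤ) ∣ A 0 0 + 1)

omit [NeZero M] in
/-- `Γ₀(M)` normalises `Γ₁(M)`. -/
theorem conj_mem_Gamma1 {γ δ : SL(2, ℤ)} (hγ : γ ∈ Gamma0 M) (hδ : δ ∈ Gamma1 M) :
    γ * δ * γ⁻¹ ∈ Gamma1 M := by
  rw [Gamma0_mem] at hγ
  rw [Gamma1_mem] at hδ ⊢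
  obtain ⟨h00, h11, h10⟩ := hδ
  have hd : (γ 0 0 : ZMod M) * γ 1 1 = 1 := by
    have h := congrArg (fun n : ℤ => (n : ZMod M)) (Matrix.SpecialLinearGroup.det_coe γ)
    rw [Matrix.det_fin_two] at h
    push_cast at h
    rwa [hγ, mul_zero, sub_zero] at h
  simp only [Matrix.SpecialLinearGroup.coe_mul, Matrix.SpecialLinearGroup.coe_inv,
    Matrix.adjugate_fin_two, Matrix.mul_apply, Fin.sum_univ_two, Matrix.of_apply,
    Matrix.cons_val', Matrix.cons_val_zero, Matrix.cons_val_one, Matrix.cons_val_fin_one]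
  push_cast
  refine ⟨?_, ?_, ?_⟩
  · linear_combination (γ 0 0 : ZMod M) * γ 1 1 * h00 + (γ 0 1 : ZMod M) * γ 1 1 * h10 + hd
      - ((γ 0 0 : ZMod M) * δ 0 1 + (γ 0 1 : ZMod M) * δ 1 1) * hγ
  · linear_combination (γ 0 0 : ZMod M) * γ 1 1 * h11 - (γ 0 1 : ZMod M) * γ 1 1 * h10 + hd
      + ((γ 0 0 : ZMod M) * δ 0 1 - (γ 0 1 : ZMod M) * δ 0 0) * hγ
  · linear_combination (γ 1 1 : ZMod M) * γ 1 1 * h10
      + ((δ 0 0 : ZMod M) * γ 1 1 - (γ 1 0 : ZMod M) * δ 0 1 - (γ 1 1 : ZMod M) * δ 1 1) * hγ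

omit [NeZero M] in
theorem comp_smul_mem_modRing {γ : SL(2, ℤ)} (hγ : γ ∈ Gamma0 M) {G : ℍ → ℂ}
    (hG : G ∈ modRing M) : (fun τ => G (γ • τ)) ∈ modRing M := by
  obtain ⟨hd, hinv, hc⟩ := mem_weakMod.mp hG
  refine mem_weakMod.mpr ⟨?_, fun δ hδ τ => ?_, fun δ => ?_⟩
  · have h := hd.comp (UpperHalfPlane.mdifferentiable_smul (g := (γ : GL (Fin 2) ℝ)) (by simp))
    exact h
  · rw [← hinv _ (conj_mem_Gamma1 M hγ hδ) (γ • τ), ← mul_smul, ← mul_smul, inv_mul_cancel_right]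
  · obtain ⟨m, hm⟩ := hc (γ * δ)
    exact ⟨m, by simpa only [mul_smul] using hm⟩

/-- The diamond operator `G ↦ G ∘ γ`, `γ ∈ Γ₀(M)`. -/
def diamondFn (γ : Gamma0 M) : modRing M →ₐ[ℂ] modRing M where
  toFun G := ⟨fun τ => (G : ℍ → ℂ) ((γ : SL(2, ℤ)) • τ), comp_smul_mem_modRing M γ.2 G.2⟩
  map_one' := rfl
  map_mul' := fun _ _ => rfl
  map_zero' := rfl
  map_add' := fun _ _ => rfl
  commutes' := fun _ => rfl

/-- `G'` is the `σ`-conjugate of `G` (coefficientwise at `∞`). -/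
def IsConjFn (σ : ℂ ≃+* ℂ) (G G' : modRing M) : Prop :=
  qExp1 M G' = coeffMap (σ : ℂ →+* ℂ) (qExp1 M G)

end FermatLib.Galois.DS

end
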