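import Mathlib.Analysis.Analytic.IsolatedZeros
import Mathlib.NumberTheory.ModularForms.LevelOne.Basic
import Fermat.Agent.Galois.DS.LevelRing
import Fermat.Agent.Galois.DS.Leading

/-!
# Orders, divisibility and finiteness in `modRing M`
-/

set_option autoImplicit false
set_option linter.unusedSectionVars false
set_option linter.style.haveILetI false

noncomputable section

open UpperHalfPlane hiding I
open Filter CongruenceSubgroup ModularCurve Asymptotics
open scoped MatrixGroups ModularForm Manifold Topology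

namespace FermatLib.Galois.DS

open FermatLib.Modular

local notation "Δ" => ModularForm.discriminant
local notation "qq" => Function.Periodic.qParam (1 : ℝ)

theorem isZeroAtImInfty_of_order_pos {G : ℍ → ℂ} (hG : G ∈ qMero)
    (h : 0 < (qExpL G).order) : IsZeroAtImInfty G := by
  rcases eq_or_ne G 0 with rfl | h0
  · exact Filter.zero_zeroAtFilter _
  obtain ⟨u, hu, -, -, hev⟩ := exists_leading hG h0
  obtain ⟨n, hn⟩ := Int.eq_ofNat_of_zero_le h.le
  have hn0 : n ≠ 0 := by omega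
  have hlim : Tendsto (fun τ : ℍ => qq (τ : ℂ) ^ n * u (qq (τ : ℂ))) atImInfty (𝓝 ((0 : ℂ) ^ n * u 0)) :=
    ((qParam_tendsto_atImInfty one_pos).pow n).mul
      (hu.continuousAt.tendsto.comp (qParam_tendsto_atImInfty one_pos))
  rw [zero_pow hn0, zero_mul] at hlim
  refine hlim.congr' ?_
  filter_upwards [hev] with τ hτ
  rw [hτ, hn, zpow_natCast]

theorem analyticAt_comp_ofComplex {G : ℍ → ℂ} (hG : MDiff G) (τ : ℍ) :
    AnalyticAt ℂ (G ∘ ofComplex) (τ : ℂ) :=
  (UpperHalfPlane.mdifferentiable_iff.mp hG).analyticAt (isOpen_upperHalfPlaneSet.mem_nhds τ.im_pos)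

theorem analyticOrderAt_ne_top_of_ne_zero {G : ℍ → ℂ} (hG : MDiff G) (h0 : G ≠ 0) (τ : ℍ) :
    analyticOrderAt (G ∘ ofComplex) (τ : ℂ) ≠ ⊤ := by
  have han : AnalyticOnNhd ℂ (G ∘ ofComplex) {z : ℂ | 0 < z.im} :=
    (UpperHalfPlane.mdifferentiable_iff.mp hG).analyticOnNhd isOpen_upperHalfPlaneSet
  obtain ⟨σ, hσ⟩ : ∃ σ, G σ ≠ 0 := Function.ne_iff.mp h0
  refine han.analyticOrderAt_ne_top_of_isPreconnected
    (convex_halfSpace_im_gt 0).isPreconnected σ.im_pos τ.im_pos ?_
  rw [analyticOrderAt_eq_zero.mpr (Or.inr (by simpa using hσ))]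
  exact ENat.zero_ne_top

theorem ordAt_mul {G H : ℍ → ℂ} (hG : MDiff G) (hH : MDiff H) (hG0 : G ≠ 0) (hH0 : H ≠ 0)
    (τ : ℍ) : ordAt (G * H) τ = ordAt G τ + ordAt H τ :=
  analyticOrderNatAt_mul (analyticAt_comp_ofComplex hG τ) (analyticAt_comp_ofComplex hH τ)
    (analyticOrderAt_ne_top_of_ne_zero hG hG0 τ) (analyticOrderAt_ne_top_of_ne_zero hH hH0 τ)

theorem ordAt_eq_zero_of_ne_zero {G : ℍ → ℂ} {τ : ℍ} (h : G τ ≠ 0) : ordAt G τ = 0 := by
  rw [ordAt, analyticOrderNatAt, analyticOrderAt_eq_zero.mpr (Or.inr (by simpa using h))]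
  rfl

variable (M : ℕ) [NeZero M]

theorem mdiff_modRing (G : modRing M) : MDiff (G : ℍ → ℂ) := (mem_weakMod.mp G.2).1

theorem coe_ne_zero_iff {G : modRing M} : (G : ℍ → ℂ) ≠ 0 ↔ G ≠ 0 :=
  ⟨fun h h' => h (by rw [h']; rfl), fun h h' => h (Subtype.ext h')⟩

instance isDomain_modRing : IsDomain (modRing M) :=
  (qExp1_injective M).isDomain (qExp1 M).toRingHom

theorem cuspFun_eq_of_isInftyCusp {A : SL(2, ℤ)} (hA : IsInftyCusp M A) {G : ℍ → ℂ}
    (hG : G ∈ modRing M) : cuspFun M A G = fun τ => G (ModularForm.heckeDiagMatrix M • τ) := by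
  obtain ⟨hc, ha⟩ := hA
  have hc' : (A 1 0 : ZMod M) = 0 := (ZMod.intCast_zmod_eq_zero_iff_dvd _ _).mpr hc
  have hd : (A 0 0 : ZMod M) * A 1 1 = 1 := by
    have h := congrArg (fun n : ℤ => (n : ZMod M)) (Matrix.SpecialLinearGroup.det_coe A)
    rw [Matrix.det_fin_two] at h
    push_cast at h
    rwa [hc', mul_zero, sub_zero] at h
  funext τ
  rcases ha with ha | ha
  · have ha' : (A 0 0 : ZMod M) = 1 := by
      have := (ZMod.intCast_zmod_eq_zero_iff_dvd _ _).mpr ha
      push_cast at this; linear_combination this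
    exact (mem_weakMod.mp hG).2.1 A (by
      rw [Gamma1_mem]; exact ⟨ha', by simpa [ha'] using hd, hc'⟩) _
  · have ha' : (A 0 0 : ZMod M) = -1 := by
      have := (ZMod.intCast_zmod_eq_zero_iff_dvd _ _).mpr ha
      push_cast at this; linear_combination this
    have hneg : -A ∈ Gamma1 M := by
      rw [Gamma1_mem]
      refine ⟨by simp [ha'], ?_, by simp [hc']⟩
      rw [ha'] at hd
      simp only [Matrix.SpecialLinearGroup.coe_neg, Matrix.neg_apply, Int.cast_neg]
      linear_combination hd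
    have h := (mem_weakMod.mp hG).2.1 (-A) hneg (ModularForm.heckeDiagMatrix M • τ)
    rw [ModularGroup.SL_neg_smul] at h
    exact h

/-- At a cusp equivalent to `∞` the expansion is the one at `∞` in `q^(1/M)`. -/
theorem cuspExp_eq_of_isInftyCusp {A : SL(2, ℤ)} (hA : IsInftyCusp M A) (G : modRing M) :
    cuspExp M A G = qExpand ℂ M (qExp1 M G) := by
  rw [cuspExp_apply, cuspFun_eq_of_isInftyCusp M hA G.2, qExp1_apply,
    qExpL_comp_diag (weakMod_le_qMero (modularGroup_T_mem_Gamma1 M) G.2)]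

theorem isInftyCusp_one : IsInftyCusp M 1 := by simp [IsInftyCusp]

/-- **Sturm-type vanishing**: bounded poles everywhere and high order at `∞` force zero. -/
theorem exists_eq_zero_of_order (n : ℕ) : ∃ B : ℕ, ∀ G : modRing M,
    (∀ (A : SL(2, ℤ)) (i : ℤ), i < -(n : ℤ) → (cuspExp M A G).coeff i = 0) →
    (∀ i : ℤ, i < (B : ℤ) → (qExp1 M G).coeff i = 0) → G = 0 := by
  classical
  haveI : Fintype (SL(2, ℤ) ⧸ Gamma1 M) := Subgroup.fintypeQuotientOfFiniteIndex
  refine ⟨n * Fintype.card (SL(2, ℤ) ⧸ Gamma1 M) + 1, fun G hA hB => ?_⟩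
  by_contra hG
  set F : SL(2, ℤ) ⧸ Gamma1 M → ℍ → ℂ := fun c τ => (G : ℍ → ℂ) (c.out⁻¹ • τ) with hF
  have hFinv : ∀ (g : SL(2, ℤ)) (c : SL(2, ℤ) ⧸ Gamma1 M) (τ : ℍ),
      F (g • c) (g • τ) = F c τ := by
    intro g c τ
    obtain ⟨h, hh⟩ := QuotientGroup.mk_out_eq_mul (Gamma1 M) (g * c.out)
    have e1 : (g • c).out = g * c.out * h := by
      rw [← hh]
      conv_lhs => rw [← QuotientGroup.out_eq' c]
      rfl
    simp only [hF, e1, mul_inv_rev, mul_smul, inv_smul_smul]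
    rw [(mem_weakMod.mp G.2).2.1 _ (inv_mem h.2)]
  set P : ℍ → ℂ := fun τ => ∏ c, F c τ with hP
  have hPinv : ∀ g : SL(2, ℤ), ∀ τ, P (g • τ) = P τ := fun g τ =>
    (Fintype.prod_equiv (MulAction.toPerm g) _ _ fun c => (hFinv g c τ).symm).symm
  have hFd : ∀ c, MDiff (F c) := fun c => (mdiff_modRing M G).comp
    (UpperHalfPlane.mdifferentiable_smul (g := ((c.out⁻¹ : SL(2, ℤ)) : GL (Fin 2) ℝ)) (by simp))
  have hPd : MDiff P := by
    have := MDifferentiable.prod (t := Finset.univ) (f := fun c => F c)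
      (I := modelWithCornersSelf ℂ ℂ) (fun c _ => hFd c)
    simpa [hP, Finset.prod_fn] using this
  -- the scaled product
  set E : ℍ → ℂ := fun τ => P (ModularForm.heckeDiagMatrix M • τ) with hE
  have hEeq : E = ∏ c : SL(2, ℤ) ⧸ Gamma1 M, cuspFun M c.out⁻¹ (G : ℍ → ℂ) := by
    funext τ; simp [hE, hP, hF, cuspFun, Finset.prod_apply]
  have hEmem : E ∈ qMero := hEeq ▸ prod_mem fun c _ => cuspFun_mem_qMero M _ G.2
  have hEL : qExpL E = ∏ c : SL(2, ℤ) ⧸ Gamma1 M, cuspExp M c.out⁻¹ G := by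
    have h1 : (⟨E, hEmem⟩ : qMero) =
        ∏ c : SL(2, ℤ) ⧸ Gamma1 M, ⟨cuspFun M c.out⁻¹ (G : ℍ → ℂ), cuspFun_mem_qMero M _ G.2⟩ :=
      Subtype.ext (by simpa using hEeq)
    have := congrArg qExpLHom h1
    simpa [map_prod, cuspExp_apply] using this
  have hne : ∀ A, cuspExp M A G ≠ 0 := fun A h =>
    hG (cuspExp_injective M A (by rw [h, map_zero]))
  have hord : 0 < (qExpL E).order := by
    rw [hEL]
    have hsum : ∀ s : Finset (SL(2, ℤ) ⧸ Gamma1 M),
        (∏ c ∈ s, cuspExp M c.out⁻¹ G).order = ∑ c ∈ s, (cuspExp M c.out⁻¹ G).order := by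
      intro s
      induction s using Finset.induction_on with
      | empty => simp
      | insert c s hcs ih =>
        rw [Finset.prod_insert hcs, HahnSeries.order_mul (hne _)
          (Finset.prod_ne_zero_iff.mpr fun d _ => hne _), ih, Finset.sum_insert hcs]
    rw [hsum, ← Finset.add_sum_erase _ _ (Finset.mem_univ ((1 : SL(2, ℤ)) : SL(2, ℤ) ⧸ Gamma1 M))]
    have hlow : ∀ A, -(n : ℤ) ≤ (cuspExp M A G).order := fun A => le_of_not_gt fun hlt =>
      HahnSeries.coeff_order_eq_zero.not.mpr (hne A) (hA A _ hlt)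
    have h1 : ((M : ℤ) * ((n * Fintype.card (SL(2, ℤ) ⧸ Gamma1 M) + 1 : ℕ) : ℤ)) ≤
        (cuspExp M ((1 : SL(2, ℤ)) : SL(2, ℤ) ⧸ Gamma1 M).out⁻¹ G).order := by
      obtain ⟨h, hh⟩ := QuotientGroup.mk_out_eq_mul (Gamma1 M) (1 : SL(2, ℤ))
      rw [hh, one_mul]
      have hcusp : IsInftyCusp M ((h : SL(2, ℤ))⁻¹) := by
        have hm := inv_mem h.2
        rw [Gamma1_mem] at hm
        refine ⟨(ZMod.intCast_zmod_eq_zero_iff_dvd _ _).mp hm.2.2, Or.inl ?_⟩
        rw [← ZMod.intCast_zmod_eq_zero_iff_dvd]; push_cast; rw [hm.1, sub_self]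
      rw [cuspExp_eq_of_isInftyCusp M hcusp]
      have hq : qExp1 M G ≠ 0 := fun h0 => hG (qExp1_injective M (by rw [h0, map_zero]))
      have hqe : qExpand ℂ M (qExp1 M G) ≠ 0 := (map_ne_zero_iff _ (qExpand_injective M)).mpr hq
      by_contra hlt
      push Not at hlt
      refine HahnSeries.coeff_order_eq_zero.not.mpr hqe ?_
      by_cases hdvd : (M : ℤ) ∣ (qExpand ℂ M (qExp1 M G)).order
      · obtain ⟨i, hi⟩ := hdvd
        rw [hi, qExpand_coeff_mul]
        refine hB i (lt_of_mul_lt_mul_left (a := (M : ℤ)) ?_ (by positivity))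
        rw [← hi]; exact hlt
      · exact qExpand_coeff_of_not_dvd M _ hdvd
    have h2 : -((n : ℤ) * (Fintype.card (SL(2, ℤ) ⧸ Gamma1 M))) ≤
        ∑ c ∈ Finset.univ.erase ((1 : SL(2, ℤ)) : SL(2, ℤ) ⧸ Gamma1 M),
          (cuspExp M c.out⁻¹ G).order := by
      refine le_trans ?_ (Finset.card_nsmul_le_sum _ _ (-(n : ℤ)) fun c _ => hlow _)
      have : (Finset.univ.erase ((1 : SL(2, ℤ)) : SL(2, ℤ) ⧸ Gamma1 M)).card ≤
          Fintype.card (SL(2, ℤ) ⧸ Gamma1 M) := Finset.card_le_univ _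
      rw [nsmul_eq_mul, mul_neg, neg_le_neg_iff, mul_comm (n : ℤ)]
      exact mul_le_mul_of_nonneg_right (by exact_mod_cast this) (by positivity)
    have hM1 : (1 : ℤ) ≤ M := by exact_mod_cast Nat.pos_of_ne_zero (NeZero.ne M)
    have h3 : ((n * Fintype.card (SL(2, ℤ) ⧸ Gamma1 M) + 1 : ℕ) : ℤ) ≤
        (M : ℤ) * ((n * Fintype.card (SL(2, ℤ) ⧸ Gamma1 M) + 1 : ℕ) : ℤ) :=
      le_mul_of_one_le_left (by positivity) hM1
    push_cast at h1 h3
    linarith
  have hzero : IsZeroAtImInfty P := by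
    have h1 := isZeroAtImInfty_of_order_pos hEmem hord
    have hM : (0 : ℝ) < M := by exact_mod_cast Nat.pos_of_ne_zero (NeZero.ne M)
    refine (h1.comp (tendsto_upperTriangularGL_smul (a := 1) (b := 0) (e := M) one_pos hM)).congr
      fun τ => ?_
    simp only [Function.comp_apply, hE]
    congr 1
    apply UpperHalfPlane.ext
    rw [ModularForm.coe_heckeDiagMatrix_smul (NeZero.ne M), coe_upperTriangularGL_smul one_pos hM]
    push_cast
    rw [one_mul, add_zero, mul_div_cancel₀ _ (Nat.cast_ne_zero.mpr (NeZero.ne M))]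
  let f : CuspForm 𝒮ℒ 0 :=
    { toFun := P
      slash_action_eq' := fun g hg => by
        obtain ⟨γ, rfl⟩ := hg
        show P ∣[(0 : ℤ)] γ = P
        funext τ
        rw [ModularForm.SL_slash_apply, neg_zero, zpow_zero, mul_one, hPinv]
      holo' := hPd
      zero_at_cusps' := fun hc => by
        rw [Subgroup.IsArithmetic.isCusp_iff_isCusp_SL2Z] at hc
        rw [OnePoint.isZeroAt_iff_forall_SL2Z hc]
        intro γ _
        convert hzero using 1
        funext τ
        rw [ModularForm.SL_slash_apply, neg_zero, zpow_zero, mul_one, hPinv] }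
  haveI : ModularFormClass (CuspForm 𝒮ℒ 0) 𝒮ℒ 0 := inferInstance
  obtain ⟨c₀, hc₀⟩ := ModularFormClass.levelOne_weight_zero_const f
  have hc0 : c₀ = 0 := by
    refine tendsto_nhds_unique ?_ hzero
    rw [show P = Function.const ℍ c₀ from hc₀]
    exact tendsto_const_nhds
  have hf0 : ∀ τ, P τ = 0 := fun τ => by
    rw [show P = Function.const ℍ c₀ from hc₀, hc0]; rfl
  have : qExpL E = 0 := by
    rw [show E = 0 from funext fun τ => hf0 _, qExpL_zero]
  rw [hEL, Finset.prod_eq_zero_iff] at this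
  obtain ⟨c, -, hc⟩ := this
  exact hne _ hc

theorem coeff_map_smul (φ : modRing M →ₐ[ℂ] LaurentSeries ℂ) (c : ℂ) (G : modRing M) (i : ℤ) :
    (φ (c • G)).coeff i = c * (φ G).coeff i := by
  rw [Algebra.smul_def, map_mul, AlgHom.commutes, algebraMap_laurentSeries_eq_single,
    HahnSeries.coeff_single_zero_mul]

/-- Functions with bounded poles form a finite-dimensional space. -/
def polarSpace (n : ℕ) : Submodule ℂ (modRing M) where
  carrier := {G | ∀ (A : SL(2, ℤ)) (i : ℤ), i < -(n : ℤ) → (cuspExp M A G).coeff i = 0}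
  add_mem' := fun ha hb A i hi => by simp [ha A i hi, hb A i hi]
  zero_mem' := fun A i _ => by rw [map_zero]; rfl
  smul_mem' := fun c G hG A i hi => by rw [coeff_map_smul, hG A i hi, mul_zero]

theorem mem_polarSpace {n : ℕ} {G : modRing M} :
    G ∈ polarSpace M n ↔ ∀ (A : SL(2, ℤ)) (i : ℤ), i < -(n : ℤ) → (cuspExp M A G).coeff i = 0 :=
  Iff.rfl

/-- Finitely many coefficients at `∞` determine a function with bounded poles. -/
theorem exists_coeff_injective (n : ℕ) : ∃ B : ℕ, ∀ G ∈ polarSpace M n,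
    (∀ i ∈ Finset.Ico (-(n : ℤ)) B, (qExp1 M G).coeff i = 0) → G = 0 := by
  obtain ⟨B, hB⟩ := exists_eq_zero_of_order M n
  refine ⟨B, fun G hG h => hB G hG fun i hi => ?_⟩
  rcases lt_or_ge i (-(n : ℤ)) with hlt | hge
  · have h1 := hG 1 ((M : ℤ) * i) (by
      have hM1 : (1 : ℤ) ≤ M := by exact_mod_cast Nat.pos_of_ne_zero (NeZero.ne M)
      nlinarith)
    rwa [cuspExp_eq_of_isInftyCusp M (isInftyCusp_one M), qExpand_coeff_mul] at h1
  · exact h i (Finset.mem_Ico.mpr ⟨hge, hi⟩)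

instance finiteDimensional_polarSpace (n : ℕ) : FiniteDimensional ℂ (polarSpace M n) := by
  obtain ⟨B, hB⟩ := exists_coeff_injective M n
  let φ : polarSpace M n →ₗ[ℂ] (Finset.Ico (-(n : ℤ)) B → ℂ) :=
    { toFun := fun G i => (qExp1 M (G : modRing M)).coeff i
      map_add' := fun G H => by funext i; simp
      map_smul' := fun c G => by
        funext i
        show (qExp1 M ((c • G : polarSpace M n) : modRing M)).coeff i = _
        rw [Submodule.coe_smul, coeff_map_smul]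
        rfl }
  refine Module.Finite.of_injective φ fun G H h => ?_
  refine Subtype.ext (sub_eq_zero.mp (hB _ (Submodule.sub_mem _ G.2 H.2) fun i hi => ?_))
  rw [map_sub, HahnSeries.coeff_sub, sub_eq_zero]
  exact congrFun h ⟨i, hi⟩

end FermatLib.Galois.DS

end
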