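import Mathlib.Analysis.SpecialFunctions.Complex.CircleAddChar
import Mathlib.Analysis.SpecialFunctions.Complex.Analytic
import Fermat.Agent.Modular.Kummer.HolRoot
import Fermat.Agent.Galois.DS.ModRingBasic

/-!
# `ℓ`-th roots of functions on the upper half plane: uniqueness and behaviour at `i∞`
-/

set_option autoImplicit false
set_option linter.unusedSectionVars false

noncomputable section

open UpperHalfPlane hiding I
open Filter Complex Topology
open scoped Manifold MatrixGroups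

namespace FermatLib.Galois.DS

open FermatLib.Modular FermatLib.Modular.Kummer

variable {ℓ : ℕ} [NeZero ℓ]

theorem exists_stdAddChar_eq {x : ℂ} (hx : x ^ ℓ = 1) :
    ∃ a : ZMod ℓ, ZMod.stdAddChar a = x := by
  obtain ⟨i, -, hi⟩ := (Complex.isPrimitiveRoot_exp ℓ (NeZero.ne ℓ)).eq_pow_of_pow_eq_one hx
  refine ⟨((i : ℤ) : ZMod ℓ), ?_⟩
  rw [ZMod.stdAddChar_coe, ← hi, ← Complex.exp_nat_mul]
  congr 1
  push_cast
  ring

theorem stdAddChar_pow_self (a : ZMod ℓ) : ZMod.stdAddChar a ^ ℓ = (1 : ℂ) := by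
  rw [← AddChar.map_nsmul_eq_pow]
  simp

/-- Two holomorphic `ℓ`-th roots of the same nonzero function differ by a root of unity. -/
theorem exists_stdAddChar_mul_of_pow_eq {r s : ℍ → ℂ} (hr : MDiff r) (hs : MDiff s) (hr0 : r ≠ 0)
    (h : ∀ τ, r τ ^ ℓ = s τ ^ ℓ) : ∃ a : ZMod ℓ, ∀ τ, s τ = ZMod.stdAddChar a * r τ := by
  obtain ⟨σ, hσ⟩ := Function.ne_iff.mp hr0
  obtain ⟨ζ, hζ, hsr⟩ := exists_eq_const_mul_of_pow_eq isOpen_uhpSet isPreconnected_uhpSet
    (UpperHalfPlane.mdifferentiable_iff.mp hr) (UpperHalfPlane.mdifferentiable_iff.mp hs)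
    (NeZero.ne ℓ) (fun z hz => by simp [ofComplex_apply_of_im_pos (show 0 < z.im from hz), h])
    ⟨σ, σ.im_pos, by simpa using hσ⟩
  obtain ⟨a, ha⟩ := exists_stdAddChar_eq hζ
  exact ⟨a, fun τ => by simpa [ha] using hsr τ τ.im_pos⟩

/-- A root with divisible orders exists. -/
theorem exists_root {g : ℍ → ℂ} (hg : MDiff g) (h0 : g ≠ 0) (hdvd : ∀ τ, ℓ ∣ ordAt g τ) :
    ∃ h : ℍ → ℂ, MDiff h ∧ ∀ τ, h τ ^ ℓ = g τ := by
  obtain ⟨σ, hσ⟩ := Function.ne_iff.mp h0
  obtain ⟨r, hr, hrp⟩ := exists_root_uhpSet (h := g ∘ ofComplex)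
    (UpperHalfPlane.mdifferentiable_iff.mp hg) ⟨σ, σ.im_pos, by simpa using hσ⟩ (NeZero.ne ℓ)
    (fun a ha => hdvd ⟨a, ha⟩)
  refine ⟨fun τ => r τ, UpperHalfPlane.mdifferentiable_iff.mpr ?_, fun τ => by
    simpa using hrp τ τ.im_pos⟩
  refine hr.congr fun z hz => ?_
  simp [ofComplex_apply_of_im_pos (show 0 < z.im from hz)]

/-- A root of `q^K w(q)` is `exp(2πi K τ/ℓ)` times something with a nonzero limit. -/
theorem exists_tendsto_root {u : ℍ → ℂ} (hu : MDiff u) {K : ℤ} {w : ℂ → ℂ}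
    (hw : ContinuousAt w 0) (hw0 : w 0 ≠ 0)
    (hev : ∀ᶠ τ : ℍ in atImInfty, u τ ^ ℓ =
      Function.Periodic.qParam (1 : ℝ) (τ : ℂ) ^ K * w (Function.Periodic.qParam (1 : ℝ) (τ : ℂ))) :
    ∃ r : ℂ, r ≠ 0 ∧ Tendsto (fun τ : ℍ => u τ / exp (2 * Real.pi * Complex.I * K * τ / ℓ))
      atImInfty (𝓝 r) := by
  have hℓ : (ℓ : ℂ) ≠ 0 := Nat.cast_ne_zero.mpr (NeZero.ne ℓ)
  set R : ℍ → ℂ := fun τ => u τ / exp (2 * Real.pi * Complex.I * K * τ / ℓ) with hR
  have hexp : ∀ τ : ℍ, exp (2 * Real.pi * Complex.I * K * τ / ℓ) ^ ℓ =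
      Function.Periodic.qParam (1 : ℝ) (τ : ℂ) ^ K := by
    intro τ
    rw [Function.Periodic.qParam, ← exp_nat_mul, ← exp_int_mul]
    congr 1
    push_cast
    field_simp
  have hRpow : ∀ᶠ τ : ℍ in atImInfty,
      R τ ^ ℓ = w (Function.Periodic.qParam (1 : ℝ) (τ : ℂ)) := by
    filter_upwards [hev] with τ hτ
    rw [hR, div_pow, hτ, hexp, mul_div_cancel_left₀ _
      (zpow_ne_zero _ (Function.Periodic.qParam_ne_zero _))]
  obtain ⟨c₀, hc₀⟩ := IsAlgClosed.exists_pow_nat_eq (w 0) (Nat.pos_of_ne_zero (NeZero.ne ℓ))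
  have hc₀' : c₀ ≠ 0 := fun h => hw0 (by rw [← hc₀, h, zero_pow (NeZero.ne ℓ)])
  have hwlim : Tendsto (fun τ : ℍ => w (Function.Periodic.qParam (1 : ℝ) (τ : ℂ)) / w 0)
      atImInfty (𝓝 1) := by
    have := (hw.tendsto.comp (qParam_tendsto_atImInfty one_pos)).div_const (w 0)
    rwa [div_self hw0] at this
  have hev2 := hRpow.and (hwlim.eventually (Complex.isOpen_slitPlane.mem_nhds Complex.one_mem_slitPlane))
  rw [atImInfty, eventually_comap, eventually_atTop] at hev2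
  obtain ⟨Y, hY⟩ := hev2
  -- the ratio to the explicit root is a root of unity, locally constant
  set S : ℂ → ℂ := fun z => R (ofComplex z) /
    (c₀ * exp (Complex.log (w (Function.Periodic.qParam (1 : ℝ) (ofComplex z : ℂ)) / w 0) / ℓ))
    with hS
  set U : Set ℂ := {z | max Y 0 < z.im}
  have hU : ∀ z ∈ U, 0 < z.im := fun z hz => lt_of_le_of_lt (le_max_right Y 0) hz
  have hfacts : ∀ z ∈ U, R (ofComplex z) ^ ℓ = w (Function.Periodic.qParam (1 : ℝ) (ofComplex z : ℂ)) ∧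
      w (Function.Periodic.qParam (1 : ℝ) (ofComplex z : ℂ)) / w 0 ∈ Complex.slitPlane := fun z hz =>
    hY _ (le_of_lt (lt_of_le_of_lt (le_max_left Y 0) hz)) _
      (by rw [ofComplex_apply_of_im_pos (hU z hz)]; rfl)
  have hSroot : ∀ z ∈ U, S z ^ ℓ = 1 := by
    intro z hz
    obtain ⟨h1, h2⟩ := hfacts z hz
    have h3 := Complex.slitPlane_ne_zero h2
    rw [hS, div_pow, h1, mul_pow, hc₀, ← exp_nat_mul, mul_div_cancel₀ _ hℓ, exp_log h3,
      mul_div_cancel₀ _ hw0, div_self]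
    intro h
    rw [h, zero_div] at h3
    exact h3 rfl
  have hScont : ContinuousOn (fun z => (R (ofComplex z)) ^ 1) U := by
    simp only [pow_one]
    have h1 : ContinuousOn (u ∘ ofComplex) U :=
      ((UpperHalfPlane.mdifferentiable_iff.mp hu).continuousOn).mono hU
    refine (h1.div (Continuous.continuousOn (f := fun z : ℂ => exp (2 * Real.pi * Complex.I * K * z / ℓ))
      (by fun_prop)) fun z _ => exp_ne_zero _).congr fun z hz => ?_
    simp [hR, ofComplex_apply_of_im_pos (hU z hz)]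
  have hwc : ∀ z ∈ U, ContinuousWithinAt
      (fun z : ℂ => w (Function.Periodic.qParam (1 : ℝ) (ofComplex z : ℂ)) / w 0) U z := by
    intro z hz
    have h1 : ContinuousWithinAt (fun z : ℂ => R (ofComplex z) ^ ℓ / w 0) U z := by
      have := (hScont z hz)
      simp only [pow_one] at this
      exact (this.pow ℓ).div_const _
    exact h1.congr (fun y hy => by rw [(hfacts y hy).1]) (by rw [(hfacts z hz).1])
  have hSc : ContinuousOn S U := by
    intro z hz
    have hR' := hScont z hz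
    simp only [pow_one] at hR'
    refine hR'.div (continuousWithinAt_const.mul ?_) (mul_ne_zero hc₀' (exp_ne_zero _))
    exact (((hwc z hz).clog (hfacts z hz).2).div_const _).cexp
  have hfin : {x : ℂ | x ^ ℓ = 1}.Finite := by
    have h1 : (Polynomial.X ^ ℓ - Polynomial.C (1 : ℂ)) ≠ 0 :=
      Polynomial.X_pow_sub_C_ne_zero (Nat.pos_of_ne_zero (NeZero.ne ℓ)) 1
    refine (Polynomial.finite_setOfPred_isRoot h1).subset ?_
    intro x hx
    have hx' : x ^ ℓ = 1 := hx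
    simp [Polynomial.IsRoot, hx']
  have hpre : IsPreconnected U := (convex_halfSpace_im_gt (max Y 0)).isPreconnected
  set z₀ : ℂ := ((max Y 0 + 1 : ℝ) : ℂ) * Complex.I
  have hz₀ : z₀ ∈ U := by
    show max Y 0 < z₀.im
    simp [z₀]
  have hconst : ∀ z ∈ U, S z = S z₀ := by
    intro z hz
    exact hpre.constant_of_mapsTo (T := {x : ℂ | x ^ ℓ = 1}) hfin.isDiscrete hSc
      (fun y hy => hSroot y hy) hz hz₀
  refine ⟨S z₀ * c₀, mul_ne_zero (fun h => ?_) hc₀', ?_⟩
  · have := hSroot z₀ hz₀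
    rw [h, zero_pow (NeZero.ne ℓ)] at this
    exact zero_ne_one this
  have hlim : Tendsto (fun τ : ℍ => S z₀ * (c₀ * exp (Complex.log
      (w (Function.Periodic.qParam (1 : ℝ) (τ : ℂ)) / w 0) / ℓ))) atImInfty (𝓝 (S z₀ * c₀)) := by
    have h1 := (((continuousAt_clog Complex.one_mem_slitPlane).tendsto.comp hwlim).div_const
      (ℓ : ℂ)).cexp
    rw [Complex.log_one, zero_div, exp_zero] at h1
    simpa using (h1.const_mul c₀).const_mul (S z₀)
  refine hlim.congr' ?_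
  rw [atImInfty, EventuallyEq, eventually_comap, eventually_atTop]
  refine ⟨max Y 0 + 1, fun y hy τ hτ => ?_⟩
  have hmem : (τ : ℂ) ∈ U := by
    show max Y 0 < (τ : ℂ).im
    rw [UpperHalfPlane.coe_im, hτ]
    linarith
  rw [← hconst _ hmem]
  simp only [hS, ofComplex_apply]
  rw [div_mul_cancel₀]
  exact mul_ne_zero hc₀' (exp_ne_zero _)

end FermatLib.Galois.DS

end
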