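import Fermat.Agent.Modular.WeightedEisenstein
import Fermat.Agent.Modular.SL2Conj
import Fermat.Agent.Galois.DS.ModRingBasic

/-!
# A nonzero form of weight twelve with a character on `Γ₁(M)`
-/

set_option autoImplicit false
set_option linter.unusedSectionVars false

noncomputable section

open UpperHalfPlane Filter Topology CongruenceSubgroup Matrix
open scoped MatrixGroups ModularForm Manifold

namespace FermatLib.Galois.DS

open FermatLib.Modular

variable {M : ℕ} (ψ : Gamma1 M →* ℂˣ)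

/-- `ψ` is trivial on elements of trace `2`. -/
def KillsUnipotents : Prop :=
  ∀ γ : Gamma1 M, ((γ : SL(2, ℤ)) : Matrix (Fin 2) (Fin 2) ℤ).trace = 2 → ψ γ = 1

theorem eq_of_bottomRow {γ γ' : Gamma1 M} (hψ : KillsUnipotents ψ)
    (h : (γ : SL(2, ℤ)).1 1 = (γ' : SL(2, ℤ)).1 1) : ψ γ = ψ γ' := by
  set U : SL(2, ℤ) := ((γ' * γ⁻¹ : Gamma1 M) : SL(2, ℤ)) with hU
  have hrow : U.1 1 = (1 : Matrix (Fin 2) (Fin 2) ℤ) 1 := by
    have h1 : (γ : SL(2, ℤ)).1 * ((γ : SL(2, ℤ))⁻¹).1 = 1 :=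
      congrArg Subtype.val (mul_inv_cancel (γ : SL(2, ℤ)))
    rw [← h1]
    funext j
    show ((γ' : SL(2, ℤ)).1 * ((γ : SL(2, ℤ))⁻¹).1) 1 j = _
    simp only [Matrix.mul_apply, h]
  have h10 : U.1 1 0 = 0 := by rw [hrow]; rfl
  have h11 : U.1 1 1 = 1 := by rw [hrow]; rfl
  have hdet := U.2
  rw [Matrix.det_fin_two, h10, h11, mul_zero, sub_zero, mul_one] at hdet
  have : ψ (γ' * γ⁻¹) = 1 := hψ _ (by
    show U.1.trace = 2
    rw [Matrix.trace_fin_two, hdet, h11]; norm_num)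
  rw [map_mul, map_inv, mul_inv_eq_one] at this
  exact this.symm

/-- `conj ψ` as a function of the bottom row, extended by zero. -/
def rowWeight (v : Fin 2 → ℤ) : ℂ :=
  open Classical in
  if h : ∃ γ : Gamma1 M, (γ : SL(2, ℤ)).1 1 = v then ((ψ h.choose)⁻¹ : ℂˣ) else 0

theorem rowWeight_bottomRow (hψ : KillsUnipotents ψ) (γ : Gamma1 M) :
    rowWeight ψ ((γ : SL(2, ℤ)).1 1) = ((ψ γ)⁻¹ : ℂˣ) := by
  have h : ∃ γ' : Gamma1 M, (γ' : SL(2, ℤ)).1 1 = (γ : SL(2, ℤ)).1 1 := ⟨γ, rfl⟩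
  rw [rowWeight, dif_pos h, eq_of_bottomRow ψ hψ h.choose_spec]

theorem norm_rowWeight_le (hu : ∀ γ, ‖(ψ γ : ℂ)‖ = 1) (v : Fin 2 → ℤ) : ‖rowWeight ψ v‖ ≤ 1 := by
  rw [rowWeight]
  split_ifs with h
  · rw [← map_inv, hu]
  · simp

theorem rowWeight_vecMul (hψ : KillsUnipotents ψ) (γ : Gamma1 M) (v : Fin 2 → ℤ) :
    rowWeight ψ (v ᵥ* ((γ : SL(2, ℤ))⁻¹).1) = (ψ γ : ℂ) * rowWeight ψ v := by
  have hrow : ∀ g A : SL(2, ℤ), g.1 1 ᵥ* A.1 = (g * A).1 1 := fun g A => by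
    funext j
    simp [Matrix.vecMul, dotProduct, Matrix.mul_apply]
  by_cases h : ∃ δ : Gamma1 M, (δ : SL(2, ℤ)).1 1 = v
  · obtain ⟨δ, rfl⟩ := h
    rw [hrow,
      show (δ : SL(2, ℤ)) * (γ : SL(2, ℤ))⁻¹ = ((δ * γ⁻¹ : Gamma1 M) : SL(2, ℤ)) from rfl,
      rowWeight_bottomRow ψ hψ, rowWeight_bottomRow ψ hψ, ← Units.val_mul, map_mul, map_inv,
      _root_.mul_inv_rev, inv_inv]
  · have h' : ¬ ∃ δ : Gamma1 M, (δ : SL(2, ℤ)).1 1 = v ᵥ* ((γ : SL(2, ℤ))⁻¹).1 := by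
      rintro ⟨δ, hδ⟩
      refine h ⟨δ * γ, ?_⟩
      have hγ : ((γ : SL(2, ℤ))⁻¹).1 * (γ : SL(2, ℤ)).1 = 1 :=
        congrArg Subtype.val (inv_mul_cancel (γ : SL(2, ℤ)))
      rw [Subgroup.coe_mul, ← hrow, hδ, vecMul_vecMul, hγ, vecMul_one]
    rw [rowWeight, rowWeight, dif_neg h, dif_neg h', mul_zero]

/-- The Eisenstein series of weight twelve with character `ψ`. -/
def charEis : ℍ → ℂ := weightedEis (rowWeight ψ) 12

theorem charEis_slash (hψ : KillsUnipotents ψ) (γ : Gamma1 M) :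
    charEis ψ ∣[(12 : ℤ)] (γ : SL(2, ℤ)) = (ψ γ : ℂ) • charEis ψ := by
  rw [charEis, weightedEis_slash]
  funext z
  simp only [weightedEis, Pi.smul_apply, smul_eq_mul, rowWeight_vecMul ψ hψ γ, mul_assoc,
    tsum_mul_left]

theorem mdifferentiable_charEis (hu : ∀ γ, ‖(ψ γ : ℂ)‖ = 1) : MDiff (charEis ψ) :=
  mdifferentiable_weightedEis (norm_rowWeight_le ψ hu) (by norm_num)

theorem isBoundedAtImInfty_charEis_slash (hu : ∀ γ, ‖(ψ γ : ℂ)‖ = 1) (A : SL(2, ℤ)) :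
    IsBoundedAtImInfty (charEis ψ ∣[(12 : ℤ)] A) := by
  rw [charEis, weightedEis_slash]
  exact isBoundedAtImInfty_weightedEis (fun v ↦ norm_rowWeight_le ψ hu _) (by norm_num)

theorem charEis_ne_zero (hM : 3 ≤ M) (hψ : KillsUnipotents ψ) (hu : ∀ γ, ‖(ψ γ : ℂ)‖ = 1) :
    charEis ψ ≠ 0 := by
  intro h
  have ht := tendsto_weightedEis_I_mul (norm_rowWeight_le ψ hu) (show (3 : ℤ) ≤ 12 by norm_num)
  rw [show weightedEis (rowWeight ψ) 12 = 0 from h] at ht
  rw [tsum_eq_single ![0, 1]] at ht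
  · have e1 : rowWeight ψ ![0, 1] = 1 := by
      have : ((1 : Gamma1 M) : SL(2, ℤ)).1 1 = ![0, 1] := by
        funext j; fin_cases j <;> rfl
      rw [← this, rowWeight_bottomRow ψ hψ, map_one, inv_one, Units.val_one]
    simp only [Matrix.cons_val_zero, if_true, e1, Matrix.cons_val_one, Int.cast_one, one_mul,
      _root_.one_zpow] at ht
    exact zero_ne_one (tendsto_nhds_unique (tendsto_const_nhds (x := (0 : ℂ))) ht)
  · intro v hv
    split_ifs with h0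
    · rw [rowWeight, dif_neg ?_, zero_mul]
      rintro ⟨γ, hγ⟩
      have hm := γ.2
      rw [Gamma1_mem] at hm
      have hdet := (γ : SL(2, ℤ)).2
      rw [Matrix.det_fin_two, hγ, h0, mul_zero, sub_zero] at hdet
      rcases Int.eq_one_or_neg_one_of_mul_eq_one (mul_comm (v 1) _ ▸ hdet) with h1 | h1
      · exact hv (by funext j; fin_cases j <;> simp [h0, h1])
      · have h11 : ((γ : SL(2, ℤ)) 1 1 : ZMod M) = 1 := hm.2.1
        rw [show (γ : SL(2, ℤ)) 1 1 = v 1 from congrFun hγ 1, h1] at h11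
        push_cast at h11
        have h2 : ((2 : ℕ) : ZMod M) = 0 := by push_cast; linear_combination -h11
        have := Nat.le_of_dvd two_pos ((ZMod.natCast_eq_zero_iff 2 M).mp h2)
        omega
    · rfl

/-- The multiplicative function `E / Δ` with character `ψ`. -/
def charFun : ℍ → ℂ := fun τ => charEis ψ τ / ModularForm.discriminant τ

theorem charFun_smul (hψ : KillsUnipotents ψ) (γ : Gamma1 M) (τ : ℍ) :
    charFun ψ ((γ : SL(2, ℤ)) • τ) = (ψ γ : ℂ) * charFun ψ τ := by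
  have hd : UpperHalfPlane.denom (γ : SL(2, ℤ)) τ ≠ 0 := UpperHalfPlane.denom_ne_zero _ τ
  have hΔ := slash_SL_apply_eq (slash_SL_eq_self CuspForm.discriminant (γ : SL(2, ℤ))) τ
  rw [CuspForm.coe_discriminant] at hΔ
  have hE := congrFun (charEis_slash ψ hψ γ) τ
  rw [ModularForm.SL_slash_apply, Pi.smul_apply, smul_eq_mul, _root_.zpow_neg,
    mul_inv_eq_iff_eq_mul₀ (zpow_ne_zero _ hd)] at hE
  simp only [charFun, hE, hΔ]
  field_simp [zpow_ne_zero, ModularForm.discriminant_ne_zero τ]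

theorem mdifferentiable_charFun (hu : ∀ γ, ‖(ψ γ : ℂ)‖ = 1) : MDiff (charFun ψ) :=
  (mdifferentiable_charEis ψ hu).div CuspForm.discriminant.holo' ModularForm.discriminant_ne_zero

theorem charFun_ne_zero (hM : 3 ≤ M) (hψ : KillsUnipotents ψ) (hu : ∀ γ, ‖(ψ γ : ℂ)‖ = 1) :
    charFun ψ ≠ 0 := by
  intro h
  refine charEis_ne_zero ψ hM hψ hu (funext fun τ => ?_)
  simpa [charFun, ModularForm.discriminant_ne_zero τ] using congrFun h τ

theorem isBoundedAtImInfty_charFun (hu : ∀ γ, ‖(ψ γ : ℂ)‖ = 1) (A : SL(2, ℤ)) :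
    IsBoundedAtImInfty ((fun τ => charFun ψ (A • τ)) * ModularForm.discriminant) := by
  refine (isBoundedAtImInfty_charEis_slash ψ hu A).congr' ?_ Filter.EventuallyEq.rfl
  refine Eventually.of_forall fun τ => ?_
  have hd : UpperHalfPlane.denom A τ ≠ 0 := UpperHalfPlane.denom_ne_zero _ τ
  have hΔ := slash_SL_apply_eq (slash_SL_eq_self CuspForm.discriminant A) τ
  rw [CuspForm.coe_discriminant] at hΔ
  simp only [Pi.mul_apply, charFun, hΔ, ModularForm.SL_slash_apply, _root_.zpow_neg]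
  field_simp [zpow_ne_zero, ModularForm.discriminant_ne_zero τ]

end FermatLib.Galois.DS

end
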