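import Fermat.Prelude.Def_ModularCurve_PeriodMap
import Fermat.Agent.Modular.SL2Conj
import Fermat.Agent.Modular.Kummer.Twisted
import Fermat.Agent.Galois.DS.KummerRoot
import Fermat.Agent.Galois.DS.TwistedGamma1

/-!
# Kummer classes of weakly modular functions of level `Γ₁(M)`

`HasClass g φ`: an `ℓ`-th root of `g` transforms by `γ ↦ ζ_ℓ ^ (φ γ)`.
-/

set_option autoImplicit false
set_option linter.unusedSectionVars false

noncomputable section

open UpperHalfPlane hiding I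
open Filter Complex Topology CongruenceSubgroup ModularCurve Asymptotics
open scoped Manifold MatrixGroups ModularForm

namespace FermatLib.Galois.DS

open FermatLib.Modular

local notation "qq" => Function.Periodic.qParam (1 : ℝ)

section Order

theorem le_order_of_isBigO {G : ℍ → ℂ} (hG : G ∈ qMero) (h0 : G ≠ 0) {m : ℤ}
    (h : (fun τ : ℍ => G τ / qq (τ : ℂ) ^ m) =O[atImInfty] (1 : ℍ → ℂ)) :
    m ≤ (qExpL G).order := by
  by_contra hlt
  push Not at hlt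
  obtain ⟨u, hu, -, hu0, hev⟩ := exists_leading hG h0
  set K := (qExpL G).order
  obtain ⟨d, hd⟩ := Int.eq_ofNat_of_zero_le (show 0 ≤ m - K by omega)
  have hd0 : d ≠ 0 := by omega
  have hlim : Tendsto (fun τ : ℍ => u (qq (τ : ℂ))) atImInfty (𝓝 (u 0)) :=
    hu.continuousAt.tendsto.comp (qParam_tendsto_atImInfty one_pos)
  have hq : Tendsto (fun τ : ℍ => qq (τ : ℂ) ^ d) atImInfty (𝓝 0) := by
    have := (qParam_tendsto_atImInfty one_pos).pow d
    rwa [zero_pow hd0] at this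
  have h1 : Tendsto (fun τ : ℍ => qq (τ : ℂ) ^ d * (G τ / qq (τ : ℂ) ^ m)) atImInfty (𝓝 0) := by
    have h2 : (fun τ : ℍ => qq (τ : ℂ) ^ d) =o[atImInfty] (1 : ℍ → ℂ) :=
      (isLittleO_one_iff ℂ).mpr hq
    have h3 := h2.mul_isBigO h
    simp only [Pi.one_apply, mul_one] at h3
    exact (isLittleO_one_iff ℂ).mp h3
  refine hu0 (tendsto_nhds_unique hlim (h1.congr' ?_))
  filter_upwards [hev] with τ hτ
  have hq0 : qq (τ : ℂ) ≠ 0 := Function.Periodic.qParam_ne_zero _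
  rw [hτ, ← zpow_natCast (qq (τ : ℂ)) d, ← hd, zpow_sub₀ hq0]
  field_simp

theorem lt_order_of_tendsto_zero {G : ℍ → ℂ} (hG : G ∈ qMero) (h0 : G ≠ 0) {m : ℤ}
    (h : Tendsto (fun τ : ℍ => G τ / qq (τ : ℂ) ^ m) atImInfty (𝓝 0)) :
    m < (qExpL G).order := by
  refine lt_of_le_of_ne (le_order_of_isBigO hG h0 (h.isBigO_one ℂ)) fun hm => ?_
  obtain ⟨u, hu, -, hu0, hev⟩ := exists_leading hG h0
  have hlim : Tendsto (fun τ : ℍ => u (qq (τ : ℂ))) atImInfty (𝓝 (u 0)) :=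
    hu.continuousAt.tendsto.comp (qParam_tendsto_atImInfty one_pos)
  refine hu0 (tendsto_nhds_unique hlim (h.congr' ?_))
  filter_upwards [hev] with τ hτ
  rw [hτ, ← hm, mul_div_cancel_left₀ _ (zpow_ne_zero _ (Function.Periodic.qParam_ne_zero _))]

theorem tendsto_heckeDiagMatrix {M : ℕ} [NeZero M] :
    Tendsto (fun τ : ℍ => ModularForm.heckeDiagMatrix M • τ) atImInfty atImInfty := by
  rw [atImInfty, tendsto_comap_iff]
  have hM : (0 : ℝ) < M := by exact_mod_cast Nat.pos_of_ne_zero (NeZero.ne M)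
  refine ((tendsto_const_mul_atTop_of_pos hM).mpr tendsto_comap).congr fun τ => ?_
  show (M : ℝ) * τ.im = (ModularForm.heckeDiagMatrix M • τ).im
  rw [← UpperHalfPlane.coe_im (_ • τ), ModularForm.coe_heckeDiagMatrix_smul (NeZero.ne M)]
  simp

end Order

variable (M : ℕ) [NeZero M] (ℓ : ℕ) [Fact ℓ.Prime]

/-- Parabolic homomorphisms `Γ₁(M) → ℤ/ℓ`. -/
abbrev ParHom : Submodule (ZMod ℓ) (Additive (Gamma1 M) →+ ZMod ℓ) :=
  Period.parabolicHoms (ZMod ℓ) (Gamma1 M) (ZMod ℓ)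

/-- An `ℓ`-th root of `g` transforms by the additive character `φ`. -/
def HasClass (g : modRing M) (φ : Additive (Gamma1 M) →+ ZMod ℓ) : Prop :=
  g ≠ 0 ∧ ∃ h : ℍ → ℂ, MDiff h ∧
    (∀ (γ : Gamma1 M) (τ : ℍ),
      h ((γ : SL(2, ℤ)) • τ) = ZMod.stdAddChar (φ (Additive.ofMul γ)) * h τ) ∧
    ∀ τ, h τ ^ ℓ = (g : ℍ → ℂ) τ

/-- Orders divisible by `ℓ` in `ℍ`, and by `ℓ` times the width factor at the cusps. -/
def IsAdmissible (g : modRing M) : Prop :=
  g ≠ 0 ∧ (∀ τ, ℓ ∣ ordAt (g : ℍ → ℂ) τ) ∧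
    ∀ A : SL(2, ℤ), ((ℓ * Int.gcd (A 1 0) M : ℕ) : ℤ) ∣ (cuspExp M A g).order

variable {M ℓ}

theorem root_ne_zero {g : modRing M} (hg : g ≠ 0) {h : ℍ → ℂ}
    (hp : ∀ τ, h τ ^ ℓ = (g : ℍ → ℂ) τ) : h ≠ 0 := fun h0 =>
  (coe_ne_zero_iff M).mpr hg (funext fun τ => by
    rw [← hp, h0, Pi.zero_apply, zero_pow (Fact.out : ℓ.Prime).ne_zero])

theorem HasClass.unique {g : modRing M} {φ φ' : Additive (Gamma1 M) →+ ZMod ℓ}
    (h₁ : HasClass M ℓ g φ) (h₂ : HasClass M ℓ g φ') : φ = φ' := by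
  obtain ⟨hg, r, hr, hrt, hrp⟩ := h₁
  obtain ⟨-, s, hs, hst, hsp⟩ := h₂
  obtain ⟨a, ha⟩ := exists_stdAddChar_mul_of_pow_eq hr hs (root_ne_zero hg hrp)
    (fun τ => by rw [hrp, hsp])
  obtain ⟨σ, hσ⟩ := Function.ne_iff.mp (root_ne_zero hg hrp)
  refine AddMonoidHom.ext fun γ => ?_
  refine ZMod.injective_stdAddChar (mul_right_cancel₀ (b := r σ) hσ ?_)
  have h1 := hst (Additive.toMul γ) σ
  rw [ha, ha, hrt, ofMul_toMul] at h1
  refine mul_left_cancel₀ (a := ZMod.stdAddChar a) (fun h0 => ?_) (h1.trans (by ring))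
  have := stdAddChar_pow_self (ℓ := ℓ) a
  rw [h0, zero_pow (Fact.out : ℓ.Prime).ne_zero] at this
  exact zero_ne_one this

theorem HasClass.mul {g g' : modRing M} {φ φ' : Additive (Gamma1 M) →+ ZMod ℓ}
    (h₁ : HasClass M ℓ g φ) (h₂ : HasClass M ℓ g' φ') : HasClass M ℓ (g * g') (φ + φ') := by
  obtain ⟨hg, r, hr, hrt, hrp⟩ := h₁
  obtain ⟨hg', s, hs, hst, hsp⟩ := h₂
  refine ⟨mul_ne_zero hg hg', fun τ => r τ * s τ, hr.mul hs, fun γ τ => ?_, fun τ => ?_⟩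
  · simp only [hrt, hst, AddMonoidHom.add_apply, AddChar.map_add_eq_mul]
    ring
  · rw [mul_pow, hrp, hsp]
    rfl

theorem hasClass_pow_self {k : modRing M} (hk : k ≠ 0) : HasClass M ℓ (k ^ ℓ) 0 :=
  ⟨pow_ne_zero _ hk, k, mdiff_modRing M k, fun γ τ => by
    rw [AddMonoidHom.zero_apply, AddChar.map_zero_eq_one, one_mul]
    exact (mem_weakMod.mp k.2).2.1 _ γ.2 τ, fun _ => rfl⟩

theorem hasClass_algebraMap {c : ℂ} (hc : c ≠ 0) :
    HasClass M ℓ (algebraMap ℂ (modRing M) c) 0 := by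
  obtain ⟨d, hd⟩ := IsAlgClosed.exists_pow_nat_eq c (Fact.out : ℓ.Prime).pos
  have h0 : algebraMap ℂ (modRing M) c ≠ 0 :=
    (map_ne_zero_iff _ (algebraMap ℂ (modRing M)).injective).mpr hc
  refine ⟨h0, fun _ => d, mdifferentiable_const, fun γ τ => by simp, fun τ => hd⟩

theorem HasClass.pow {g : modRing M} {φ : Additive (Gamma1 M) →+ ZMod ℓ}
    (h : HasClass M ℓ g φ) (n : ℕ) : HasClass M ℓ (g ^ n) (n • φ) := by
  induction n with
  | zero => simpa using hasClass_pow_self (ℓ := ℓ) (one_ne_zero (α := modRing M))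
  | succ n ih => rw [pow_succ, succ_nsmul]; exact ih.mul h

theorem HasClass.smul {g : modRing M} {φ : Additive (Gamma1 M) →+ ZMod ℓ}
    (h : HasClass M ℓ g φ) {c : ℂ} (hc : c ≠ 0) : HasClass M ℓ (c • g) φ := by
  rw [Algebra.smul_def, ← zero_add φ]
  exact (hasClass_algebraMap hc).mul h

/-- A root with trivial character lies in `modRing M`. -/
theorem HasClass.exists_pow_eq {g : modRing M} (h : HasClass M ℓ g 0) :
    ∃ k : modRing M, k ^ ℓ = g := by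
  obtain ⟨hg, r, hr, hrt, hrp⟩ := h
  refine ⟨⟨r, mem_weakMod.mpr ⟨hr, fun γ hγ τ => ?_, fun A => ?_⟩⟩,
    Subtype.ext (funext hrp)⟩
  · simpa using hrt ⟨γ, hγ⟩ τ
  · obtain ⟨m, hm⟩ := (mem_weakMod.mp g.2).2.2 A
    refine ⟨m, Kummer.isBoundedAtImInfty_of_pow (Fact.out : ℓ.Prime).ne_zero ?_⟩
    have hΔ : IsBoundedAtImInfty (ModularForm.discriminant ^ ((ℓ - 1) * m) : ℍ → ℂ) := by
      have h1 := ModularForm.discriminant_isZeroAtImInfty.isBoundedAtImInfty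
      induction (ℓ - 1) * m with
      | zero => rw [pow_zero]; exact const_boundedAtFilter _ (1 : ℂ)
      | succ n ih => rw [pow_succ]; exact ih.mul h1
    refine (hm.mul hΔ).congr' (Eventually.of_forall fun τ => ?_) EventuallyEq.rfl
    have hℓ : ℓ * m = m + (ℓ - 1) * m := by
      nth_rewrite 1 [← Nat.sub_add_cancel (Fact.out : ℓ.Prime).one_le]
      ring
    simp only [Pi.mul_apply, Pi.pow_apply, mul_pow, hrp, ← pow_mul, mul_comm m ℓ, hℓ, pow_add]
    ring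

theorem exists_hasClass {g : modRing M} (hg : g ≠ 0)
    (hd : ∀ τ, ℓ ∣ ordAt (g : ℍ → ℂ) τ) : ∃ φ, HasClass M ℓ g φ := by
  have hgf := (coe_ne_zero_iff M).mpr hg
  obtain ⟨r, hr, hrp⟩ := exists_root (mdiff_modRing M g) hgf hd
  have hr0 := root_ne_zero hg hrp
  have hex : ∀ γ : Gamma1 M, ∃ a : ZMod ℓ,
      ∀ τ, r ((γ : SL(2, ℤ)) • τ) = ZMod.stdAddChar a * r τ := fun γ => by
    refine exists_stdAddChar_mul_of_pow_eq hr (hr.comp (UpperHalfPlane.mdifferentiable_smul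
      (g := ((γ : SL(2, ℤ)) : GL (Fin 2) ℝ)) (by simp))) hr0 fun τ => ?_
    rw [hrp]
    exact ((mem_weakMod.mp g.2).2.1 _ γ.2 τ).symm.trans (hrp _).symm
  choose a ha using hex
  obtain ⟨σ, hσ⟩ := Function.ne_iff.mp hr0
  have hadd : ∀ γ δ : Gamma1 M, a (γ * δ) = a γ + a δ := fun γ δ => by
    refine ZMod.injective_stdAddChar (mul_right_cancel₀ (b := r σ) hσ ?_)
    rw [← ha, AddChar.map_add_eq_mul, mul_assoc, ← ha, ← ha, Subgroup.coe_mul, mul_smul]
  exact ⟨AddMonoidHom.mk' (fun γ => a (Additive.toMul γ)) fun γ δ => hadd _ _, hg, r, hr,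
    fun γ τ => ha γ τ, hrp⟩

theorem HasClass.ordAt_dvd {g : modRing M} {φ : Additive (Gamma1 M) →+ ZMod ℓ}
    (h : HasClass M ℓ g φ) (τ : ℍ) : ℓ ∣ ordAt (g : ℍ → ℂ) τ := by
  obtain ⟨hg, r, hr, -, hrp⟩ := h
  refine ⟨ordAt r τ, ?_⟩
  rw [show (g : ℍ → ℂ) = r ^ ℓ from funext fun τ => (hrp τ).symm, ordAt,
    show (r ^ ℓ) ∘ ofComplex = (r ∘ ofComplex) ^ ℓ from rfl,
    analyticOrderNatAt_pow (analyticAt_comp_ofComplex hr τ)]
  rfl

section Cusp

omit [NeZero M] in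
theorem coe_conj_T_zpow (A : SL(2, ℤ)) (n : ℤ) :
    ((A * ModularGroup.T ^ n * A⁻¹ : SL(2, ℤ)) : Matrix (Fin 2) (Fin 2) ℤ) =
      !![1 - n * A 0 0 * A 1 0, n * A 0 0 * A 0 0; -(n * A 1 0 * A 1 0),
        1 + n * A 0 0 * A 1 0] := by
  have hdet := Matrix.SpecialLinearGroup.det_coe A
  rw [Matrix.det_fin_two] at hdet
  rw [Matrix.SpecialLinearGroup.coe_mul, Matrix.SpecialLinearGroup.coe_mul,
    ModularGroup.coe_T_zpow, Matrix.SpecialLinearGroup.coe_inv, Matrix.adjugate_fin_two]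
  ext i j
  fin_cases i <;> fin_cases j <;> simp [Matrix.mul_apply, Fin.sum_univ_two] <;>
    first | linear_combination hdet | ring

theorem dvd_mul_of_conj_mem {A : SL(2, ℤ)} {n : ℤ}
    (h : A * ModularGroup.T ^ n * A⁻¹ ∈ Gamma1 M) : (M : ℤ) ∣ n * A 1 0 := by
  rw [Gamma1_mem] at h
  obtain ⟨h00, -, h10⟩ := h
  rw [coe_conj_T_zpow] at h00 h10
  simp only [Matrix.of_apply, Matrix.cons_val', Matrix.cons_val_zero, Matrix.cons_val_one,
    Matrix.cons_val_fin_one, Int.cast_sub, Int.cast_neg, Int.cast_mul, Int.cast_one,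
    neg_eq_zero, sub_eq_self] at h00 h10
  have hdet := Matrix.SpecialLinearGroup.det_coe A
  rw [Matrix.det_fin_two] at hdet
  have hdet' : (A 0 0 : ZMod M) * A 1 1 - A 0 1 * A 1 0 = 1 := by
    exact_mod_cast congrArg (Int.cast : ℤ → ZMod M) hdet
  rw [← ZMod.intCast_zmod_eq_zero_iff_dvd]
  push_cast
  linear_combination (A 1 1 : ZMod M) * h00 - (A 0 1 : ZMod M) * h10
    - (n : ZMod M) * A 1 0 * hdet'

omit [NeZero M] in
theorem conj_mem_of_dvd {A : SL(2, ℤ)} {n : ℤ} (h : (M : ℤ) ∣ n * A 1 0) :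
    A * ModularGroup.T ^ n * A⁻¹ ∈ Gamma1 M := by
  have h0 := (ZMod.intCast_zmod_eq_zero_iff_dvd _ _).mpr h
  push_cast at h0
  rw [Gamma1_mem, coe_conj_T_zpow]
  simp only [Matrix.of_apply, Matrix.cons_val', Matrix.cons_val_zero, Matrix.cons_val_one,
    Matrix.cons_val_fin_one, Int.cast_sub, Int.cast_neg, Int.cast_mul, Int.cast_one, Int.cast_add]
  refine ⟨?_, ?_, ?_⟩
  · linear_combination -(A 0 0 : ZMod M) * h0
  · linear_combination (A 0 0 : ZMod M) * h0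
  · linear_combination -(A 1 0 : ZMod M) * h0

theorem cuspFun_ne_zero (A : SL(2, ℤ)) {g : modRing M} (hg : g ≠ 0) :
    cuspFun M A (g : ℍ → ℂ) ≠ 0 := fun h => by
  refine hg (cuspExp_injective M A ?_)
  rw [map_zero, cuspExp_apply, qExpL_eq_zero_iff (cuspFun_mem_qMero M A g.2)]
  exact h

theorem mdiff_cuspFun (A : SL(2, ℤ)) {h : ℍ → ℂ} (hh : MDiff h) : MDiff (cuspFun M A h) :=
  (hh.comp (UpperHalfPlane.mdifferentiable_smul (g := (A : GL (Fin 2) ℝ)) (by simp))).comp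
    (UpperHalfPlane.mdifferentiable_smul (ModularForm.det_heckeDiagMatrix_pos M))

/-- The root near a cusp. -/
theorem HasClass.exists_tendsto {g : modRing M} (hg : g ≠ 0) {h : ℍ → ℂ} (hh : MDiff h)
    (hp : ∀ τ, h τ ^ ℓ = (g : ℍ → ℂ) τ) (A : SL(2, ℤ)) :
    ∃ r : ℂ, r ≠ 0 ∧ Tendsto (fun τ : ℍ => cuspFun M A h τ /
      exp (2 * Real.pi * Complex.I * (cuspExp M A g).order * τ / ℓ)) atImInfty (𝓝 r) := by
  obtain ⟨u, hu, -, hu0, hev⟩ := exists_leading (cuspFun_mem_qMero M A g.2) (cuspFun_ne_zero A hg)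
  exact exists_tendsto_root (mdiff_cuspFun A hh) hu.continuousAt hu0
    (hev.mono fun τ hτ => (hp _).trans hτ)

/-- The value of a class on a parabolic element. -/
theorem HasClass.stdAddChar_eq {g : modRing M} {φ : Additive (Gamma1 M) →+ ZMod ℓ}
    (h : HasClass M ℓ g φ) (A : SL(2, ℤ)) {n : ℤ} {γ : Gamma1 M}
    (hγ : (γ : SL(2, ℤ)) = A * ModularGroup.T ^ n * A⁻¹) :
    (ZMod.stdAddChar (φ (Additive.ofMul γ)) : ℂ) =
      exp (2 * Real.pi * Complex.I * (cuspExp M A g).order * n / (M * ℓ)) := by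
  obtain ⟨hg, r, hr, hrt, hrp⟩ := h
  obtain ⟨c, hc, hlim⟩ := HasClass.exists_tendsto hg hr hrp A
  set K := (cuspExp M A g).order
  set χ : ℂ := ZMod.stdAddChar (φ (Additive.ofMul γ))
  have hshift : Tendsto (fun τ : ℍ => ((n : ℝ) / M) +ᵥ τ) atImInfty atImInfty := by
    rw [atImInfty, tendsto_comap_iff]
    exact tendsto_comap.congr fun τ => by simp
  have h1 := hlim.comp hshift
  have hkey : ∀ τ : ℍ, cuspFun M A r (((n : ℝ) / M) +ᵥ τ) = χ * cuspFun M A r τ := fun τ => by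
    have hM : (M : ℂ) ≠ 0 := Nat.cast_ne_zero.mpr (NeZero.ne M)
    have h2 : ModularForm.heckeDiagMatrix M • (((n : ℝ) / M) +ᵥ τ) =
        ModularGroup.T ^ n • (ModularForm.heckeDiagMatrix M • τ) := by
      apply UpperHalfPlane.ext
      rw [coe_T_zpow_smul, ModularForm.coe_heckeDiagMatrix_smul (NeZero.ne M),
        ModularForm.coe_heckeDiagMatrix_smul (NeZero.ne M), UpperHalfPlane.coe_vadd]
      push_cast
      field_simp
      ring
    simp only [cuspFun, h2, ← mul_smul]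
    rw [show A * ModularGroup.T ^ n = (γ : SL(2, ℤ)) * A by rw [hγ]; group, mul_smul, hrt]
  set e := exp (2 * Real.pi * Complex.I * K * n / (M * ℓ))
  have hR : (fun τ : ℍ => cuspFun M A r τ / exp (2 * Real.pi * Complex.I * K * τ / ℓ)) ∘
      (fun τ : ℍ => ((n : ℝ) / M) +ᵥ τ) = fun τ : ℍ =>
        χ / e * (cuspFun M A r τ / exp (2 * Real.pi * Complex.I * K * τ / ℓ)) := by
    funext τ
    have : exp (2 * Real.pi * Complex.I * K * ((((n : ℝ) / M) +ᵥ τ : ℍ) : ℂ) / ℓ) =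
        e * exp (2 * Real.pi * Complex.I * K * τ / ℓ) := by
      rw [← exp_add, UpperHalfPlane.coe_vadd]
      congr 1
      push_cast
      ring
    simp only [Function.comp_apply, hkey, this]
    field_simp
  rw [hR] at h1
  have h3 := tendsto_nhds_unique h1 (hlim.const_mul (χ / e))
  have h4 : χ / e = 1 := mul_right_cancel₀ hc (by rw [one_mul]; exact h3.symm)
  rwa [div_eq_one_iff_eq (exp_ne_zero _)] at h4

theorem trace_eq_two_of_mem (hM5 : 5 ≤ M) {γ : SL(2, ℤ)} (hγ : γ ∈ Gamma1 M)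
    (h : (γ : Matrix (Fin 2) (Fin 2) ℤ).trace ^ 2 = 4) :
    (γ : Matrix (Fin 2) (Fin 2) ℤ).trace = 2 := by
  rcases sq_eq_sq_iff_eq_or_eq_neg.mp (h.trans (by norm_num : (4 : ℤ) = 2 ^ 2)) with h2 | h2
  · exact h2
  exfalso
  rw [Gamma1_mem] at hγ
  have h3 : (((γ : Matrix (Fin 2) (Fin 2) ℤ).trace : ℤ) : ZMod M) = 2 := by
    rw [Matrix.trace_fin_two]; push_cast; rw [hγ.1, hγ.2.1]; norm_num
  rw [h2] at h3
  have h4 : ((4 : ℕ) : ZMod M) = 0 := by push_cast at h3 ⊢; linear_combination -h3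
  have := Nat.le_of_dvd (by norm_num) ((ZMod.natCast_eq_zero_iff 4 M).mp h4)
  omega

/-- **Parabolic classes are the admissible functions.** -/
theorem HasClass.mem_parHom_iff (hM5 : 5 ≤ M) {g : modRing M}
    {φ : Additive (Gamma1 M) →+ ZMod ℓ} (h : HasClass M ℓ g φ) :
    φ ∈ ParHom M ℓ ↔ IsAdmissible M ℓ g := by
  have hℓ0 : (ℓ : ℂ) ≠ 0 := Nat.cast_ne_zero.mpr (Fact.out : ℓ.Prime).ne_zero
  have hM0 : (M : ℂ) ≠ 0 := Nat.cast_ne_zero.mpr (NeZero.ne M)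
  rw [Period.mem_parabolicHoms_iff]
  constructor
  · intro hp
    refine ⟨h.1, h.ordAt_dvd, fun A => ?_⟩
    set d := Int.gcd (A 1 0) M with hd
    have hdpos : 0 < d := Int.gcd_pos_of_ne_zero_right _ (by exact_mod_cast NeZero.ne M)
    obtain ⟨w, hw⟩ : (d : ℤ) ∣ (M : ℤ) := Int.gcd_dvd_right _ _
    obtain ⟨c, hc⟩ : (d : ℤ) ∣ A 1 0 := Int.gcd_dvd_left _ _
    have hmem : A * ModularGroup.T ^ w * A⁻¹ ∈ Gamma1 M :=
      conj_mem_of_dvd ⟨c, by rw [hc, hw]; ring⟩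
    have h1 := h.stdAddChar_eq A (γ := ⟨_, hmem⟩) rfl
    have htr : (((⟨_, hmem⟩ : Gamma1 M) : SL(2, ℤ)) : Matrix (Fin 2) (Fin 2) ℤ).trace ^ 2 = 4 := by
      show ((A * ModularGroup.T ^ w * A⁻¹ : SL(2, ℤ)) : Matrix (Fin 2) (Fin 2) ℤ).trace ^ 2 = 4
      rw [coe_conj_T_zpow, Matrix.trace_fin_two_of]
      ring
    rw [hp _ htr, AddChar.map_zero_eq_one, eq_comm, exp_eq_one_iff] at h1
    obtain ⟨k, hk⟩ := h1
    refine ⟨k, ?_⟩
    have hwC : (M : ℂ) = (d : ℂ) * (w : ℂ) := by exact_mod_cast congrArg (Int.cast : ℤ → ℂ) hw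
    have hw0 : (w : ℂ) ≠ 0 := fun h0 => hM0 (by rw [hwC, h0, mul_zero])
    have hd0 : (d : ℂ) ≠ 0 := Nat.cast_ne_zero.mpr hdpos.ne'
    rw [hwC] at hk
    field_simp at hk
    have h2 : ((cuspExp M A g).order : ℂ) = ((ℓ * d : ℕ) : ℂ) * k := by
      push_cast
      linear_combination hk
    exact_mod_cast h2
  · rintro ⟨-, -, hadm⟩ γ htr
    obtain ⟨A, n, hA⟩ :=
      exists_eq_conj_T_zpow_of_trace_eq_two (trace_eq_two_of_mem hM5 γ.2 htr)
    have hdvd := dvd_mul_of_conj_mem (M := M) (hA ▸ γ.2)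
    set d := Int.gcd (A 1 0) M with hd
    obtain ⟨k, hk⟩ : ∃ k : ℤ, n * d = (M : ℤ) * k := by
      have : (M : ℤ) ∣ n * d := by
        rw [hd, Int.gcd_eq_gcd_ab, mul_add, ← mul_assoc]
        exact dvd_add (dvd_mul_of_dvd_left hdvd _) (Dvd.dvd.mul_left (dvd_mul_right _ _) n)
      exact this
    obtain ⟨j, hj⟩ := hadm A
    refine ZMod.injective_stdAddChar ?_
    rw [h.stdAddChar_eq A hA, AddChar.map_zero_eq_one, exp_eq_one_iff]
    refine ⟨j * k, ?_⟩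
    have hjC : ((cuspExp M A g).order : ℂ) = (ℓ : ℂ) * d * j := by
      rw [hj]; push_cast; ring
    have hkC : (n : ℂ) * d = (M : ℂ) * k := by exact_mod_cast congrArg (Int.cast : ℤ → ℂ) hk
    rw [hjC]
    push_cast
    field_simp
    linear_combination (j : ℂ) * hkC

/-- A class from an admissible function. -/
theorem exists_parHom_hasClass (hM5 : 5 ≤ M) {g : modRing M} (hg : IsAdmissible M ℓ g) :
    ∃ φ : ParHom M ℓ, HasClass M ℓ g φ := by
  obtain ⟨φ, hφ⟩ := exists_hasClass hg.1 hg.2.1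
  exact ⟨⟨φ, (hφ.mem_parHom_iff hM5).mpr hg⟩, hφ⟩

end Cusp

/-- The unit-valued character of `φ`. -/
def classChar (φ : Additive (Gamma1 M) →+ ZMod ℓ) : Gamma1 M →* ℂˣ :=
  MonoidHom.toHomUnits
    { toFun := fun γ => ZMod.stdAddChar (φ (Additive.ofMul γ))
      map_one' := by simp
      map_mul' := fun γ δ => by simp [AddChar.map_add_eq_mul] }

theorem coe_classChar (φ : Additive (Gamma1 M) →+ ZMod ℓ) (γ : Gamma1 M) :
    (classChar φ γ : ℂ) = ZMod.stdAddChar (φ (Additive.ofMul γ)) := rfl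

/-- **Every parabolic homomorphism is a class**, with poles bounded by `ℓ M`. -/
theorem exists_hasClass_of_mem (hM5 : 5 ≤ M) {φ : Additive (Gamma1 M) →+ ZMod ℓ}
    (hφ : φ ∈ ParHom M ℓ) :
    ∃ g : modRing M, HasClass M ℓ g φ ∧ g ∈ polarSpace M (ℓ * M) := by
  set ψ := classChar φ with hψdef
  have hk : KillsUnipotents ψ := fun γ hγ => Units.ext (by
    rw [coe_classChar, (Period.mem_parabolicHoms_iff.mp hφ) γ (by rw [hγ]; norm_num),
      AddChar.map_zero_eq_one, Units.val_one])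
  have hℓ := (Fact.out : ℓ.Prime).ne_zero
  have hu : ∀ γ, ‖(ψ γ : ℂ)‖ = 1 := fun γ =>
    norm_eq_one_of_pow_eq_one (by rw [coe_classChar]; exact stdAddChar_pow_self _) hℓ
  have hb : ∀ A : SL(2, ℤ), IsBoundedAtImInfty
      ((fun τ => charFun ψ (A • τ) ^ ℓ) * (ModularForm.discriminant : ℍ → ℂ) ^ ℓ) := fun A => by
    have h1 := isBoundedAtImInfty_charFun ψ hu A
    have : ∀ n : ℕ, IsBoundedAtImInfty
        (((fun τ => charFun ψ (A • τ)) * (ModularForm.discriminant : ℍ → ℂ)) ^ n) := fun n => by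
      induction n with
      | zero => exact const_boundedAtFilter _ (1 : ℂ)
      | succ n ih => rw [pow_succ]; exact ih.mul h1
    refine (this ℓ).congr' (Eventually.of_forall fun τ => ?_) EventuallyEq.rfl
    simp [mul_pow]
  have hmem : (fun τ => charFun ψ τ ^ ℓ) ∈ modRing M := by
    refine mem_weakMod.mpr ⟨(mdifferentiable_charFun ψ hu).pow ℓ, fun γ hγ τ => ?_,
      fun A => ⟨ℓ, hb A⟩⟩
    show charFun ψ (γ • τ) ^ ℓ = charFun ψ τ ^ ℓ
    rw [charFun_smul ψ hk ⟨γ, hγ⟩, mul_pow, coe_classChar, stdAddChar_pow_self, one_mul]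
  have hne : (⟨_, hmem⟩ : modRing M) ≠ 0 := by
    refine (coe_ne_zero_iff M).mp fun h => charFun_ne_zero ψ (by omega) hk hu (funext fun τ => ?_)
    exact pow_eq_zero_iff hℓ |>.mp (congrFun h τ)
  refine ⟨⟨_, hmem⟩, ⟨hne, charFun ψ, mdifferentiable_charFun ψ hu,
    fun γ τ => charFun_smul ψ hk γ τ, fun τ => rfl⟩, fun A i hi => ?_⟩
  refine HahnSeries.coeff_eq_zero_of_lt_order (lt_of_lt_of_le hi ?_)
  refine le_order_of_isBigO (cuspFun_mem_qMero M A hmem) (cuspFun_ne_zero A hne) ?_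
  -- compare `Δ (M τ)` with `q ^ M`
  obtain ⟨n, u, hn, hua, -, hu0, hev⟩ := exists_leading_of_bounded discriminant_mem_qMero
    ModularForm.discriminant_isZeroAtImInfty.isBoundedAtImInfty
    (fun h => ModularForm.discriminant_ne_zero UpperHalfPlane.I (congrFun h _))
  rw [qExpL_of_bounded discriminant_mem_qMero
    ModularForm.discriminant_isZeroAtImInfty.isBoundedAtImInfty] at hn
  have hn1 : n = 1 := by
    have := order_qExpDelta
    rw [qExpDelta] at this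
    omega
  subst hn1
  have hD := tendsto_heckeDiagMatrix (M := M)
  have hlimu : Tendsto (fun τ : ℍ => (u (qq ((ModularForm.heckeDiagMatrix M • τ : ℍ) : ℂ)) ^ ℓ)⁻¹)
      atImInfty (𝓝 (u 0 ^ ℓ)⁻¹) :=
    ((hua.continuousAt.tendsto.comp ((qParam_tendsto_atImInfty one_pos).comp hD)).pow ℓ).inv₀
      (pow_ne_zero _ hu0)
  have h2 : (fun τ : ℍ => ((fun τ => charFun ψ (A • τ) ^ ℓ) * ModularForm.discriminant ^ ℓ)
      (ModularForm.heckeDiagMatrix M • τ)) =O[atImInfty] (1 : ℍ → ℂ) := by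
    have h3 := (hb A).comp_tendsto hD
    exact isBigO_norm_right.mp (h3.norm_right.congr' EventuallyEq.rfl
      (Eventually.of_forall fun τ => by simp))
  refine ((h2.mul (hlimu.isBigO_one ℂ)).congr' ?_ (Eventually.of_forall fun τ => by simp))
  filter_upwards [hD.eventually hev,
    (hua.continuousAt.tendsto.comp ((qParam_tendsto_atImInfty one_pos).comp hD)).eventually_ne hu0]
    with τ hτ hne'
  have hq : qq ((ModularForm.heckeDiagMatrix M • τ : ℍ) : ℂ) = qq (τ : ℂ) ^ M := by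
    rw [ModularForm.coe_heckeDiagMatrix_smul (NeZero.ne M), Function.Periodic.qParam,
      Function.Periodic.qParam, ← exp_nat_mul]
    congr 1
    push_cast
    ring
  have hq0 : qq (τ : ℂ) ≠ 0 := Function.Periodic.qParam_ne_zero _
  have hne'' : u (qq ((ModularForm.heckeDiagMatrix M • τ : ℍ) : ℂ)) ≠ 0 := hne'
  simp only [Pi.mul_apply, Pi.pow_apply, cuspFun, hτ, pow_one, mul_pow, zpow_neg, zpow_natCast,
    div_inv_eq_mul]
  rw [hq] at hne'' ⊢
  field_simp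
  ring

end FermatLib.Galois.DS

end
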