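import Mathlib.GroupTheory.Schreier
import Mathlib.LinearAlgebra.Matrix.FixedDetMatrices
import Fermat.Agent.Galois.DS.KummerClass

/-!
# The distinguished function in a Kummer class

Among the functions of a class with bounded poles away from `∞`, exactly one has maximal order
at `∞` and leading coefficient one.
-/

set_option autoImplicit false
set_option linter.unusedSectionVars false

noncomputable section

open UpperHalfPlane hiding I
open Filter Complex Topology CongruenceSubgroup ModularCurve Asymptotics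
open scoped Manifold MatrixGroups ModularForm

namespace FermatLib.Galois.DS

open FermatLib.Modular

local notation "qq" => Function.Periodic.qParam (1 : ℝ)

variable (M : ℕ) [NeZero M] (ℓ : ℕ) [Fact ℓ.Prime]

/-- Poles bounded by `ℓ M` away from the cusp `∞`. -/
def IsBoundedRep (g : modRing M) : Prop :=
  ∀ A : SL(2, ℤ), ¬ IsInftyCusp M A → ∀ i : ℤ, i < -((ℓ * M : ℕ) : ℤ) →
    (cuspExp M A g).coeff i = 0

/-- The distinguished member of a class. -/
def IsMaxRep (φ : Additive (Gamma1 M) →+ ZMod ℓ) (g : modRing M) : Prop :=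
  HasClass M ℓ g φ ∧ IsBoundedRep M ℓ g ∧ (qExp1 M g).leadingCoeff = 1 ∧
    ∀ g' : modRing M, HasClass M ℓ g' φ → IsBoundedRep M ℓ g' →
      (qExp1 M g').order ≤ (qExp1 M g).order

variable {M ℓ}

theorem qExp1_ne_zero {g : modRing M} (hg : g ≠ 0) : qExp1 M g ≠ 0 := fun h =>
  hg (qExp1_injective M (by rw [h, map_zero]))

theorem cuspExp_ne_zero {g : modRing M} (hg : g ≠ 0) (A : SL(2, ℤ)) : cuspExp M A g ≠ 0 :=
  fun h => hg (cuspExp_injective M A (by rw [h, map_zero]))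

theorem qExp1_smul (c : ℂ) (g : modRing M) :
    qExp1 M (c • g) = HahnSeries.single 0 c * qExp1 M g := by
  rw [Algebra.smul_def, map_mul, AlgHom.commutes, algebraMap_laurentSeries_eq_single]

theorem order_qExp1_smul {c : ℂ} (hc : c ≠ 0) {g : modRing M} (hg : g ≠ 0) :
    (qExp1 M (c • g)).order = (qExp1 M g).order := by
  rw [qExp1_smul, HahnSeries.order_mul (HahnSeries.single_ne_zero hc) (qExp1_ne_zero hg),
    HahnSeries.order_single hc, zero_add]

theorem IsBoundedRep.smul {g : modRing M} (h : IsBoundedRep M ℓ g) (c : ℂ) :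
    IsBoundedRep M ℓ (c • g) := fun A hA i hi => by
  rw [coeff_map_smul, h A hA i hi, mul_zero]

theorem le_order_of_forall_coeff {x : LaurentSeries ℂ} (hx : x ≠ 0) {n : ℤ}
    (h : ∀ i < n, x.coeff i = 0) : n ≤ x.order := by
  by_contra hlt
  exact HahnSeries.coeff_order_eq_zero.not.mpr hx (h _ (not_le.mp hlt))

theorem IsBoundedRep.le_order {g : modRing M} (h : IsBoundedRep M ℓ g) (hg : g ≠ 0)
    {A : SL(2, ℤ)} (hA : ¬ IsInftyCusp M A) :
    -((ℓ * M : ℕ) : ℤ) ≤ (cuspExp M A g).order :=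
  le_order_of_forall_coeff (cuspExp_ne_zero hg A) (h A hA)

/-- The orders at `∞` in a class are bounded above. -/
theorem exists_order_le (n : ℕ) : ∃ B : ℤ, ∀ g : modRing M, g ≠ 0 →
    (∀ A : SL(2, ℤ), ¬ IsInftyCusp M A → ∀ i : ℤ, i < -(n : ℤ) → (cuspExp M A g).coeff i = 0) →
    (qExp1 M g).order ≤ B := by
  obtain ⟨B, hB⟩ := exists_eq_zero_of_order M n
  refine ⟨B, fun g hg hpole => ?_⟩
  by_contra hlt
  refine hg (hB g (fun A i hi => ?_) fun i hi =>
    HahnSeries.coeff_eq_zero_of_lt_order (lt_trans hi (not_le.mp hlt)))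
  by_cases hA : IsInftyCusp M A
  · rw [cuspExp_eq_of_isInftyCusp M hA]
    by_cases hdvd : (M : ℤ) ∣ i
    · obtain ⟨j, rfl⟩ := hdvd
      rw [qExpand_coeff_mul]
      refine HahnSeries.coeff_eq_zero_of_lt_order ?_
      have hM1 : (1 : ℤ) ≤ M := by exact_mod_cast Nat.pos_of_ne_zero (NeZero.ne M)
      nlinarith [not_le.mp hlt]
    · exact qExpand_coeff_of_not_dvd M _ hdvd
  · exact hpole A hA i hi

theorem exists_isMaxRep (hM5 : 5 ≤ M) {φ : Additive (Gamma1 M) →+ ZMod ℓ}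
    (hφ : φ ∈ ParHom M ℓ) : ∃ g, IsMaxRep M ℓ φ g := by
  obtain ⟨g₀, hg₀, hb₀⟩ := exists_hasClass_of_mem hM5 hφ
  obtain ⟨B, hB⟩ := exists_order_le (M := M) (ℓ * M)
  obtain ⟨d, ⟨g, hg, hgb, rfl⟩, hmax⟩ := Int.exists_greatest_of_bdd
    (P := fun d => ∃ g, HasClass M ℓ g φ ∧ IsBoundedRep M ℓ g ∧ (qExp1 M g).order = d)
    ⟨B, fun d ⟨g, hg, hgb, hd⟩ => hd ▸ hB g hg.1 hgb⟩
    ⟨_, g₀, hg₀, fun A _ => (mem_polarSpace M).mp hb₀ A, rfl⟩
  have hc : (qExp1 M g).leadingCoeff ≠ 0 :=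
    HahnSeries.leadingCoeff_ne_zero.mpr (qExp1_ne_zero hg.1)
  refine ⟨(qExp1 M g).leadingCoeff⁻¹ • g, hg.smul (inv_ne_zero hc), hgb.smul _, ?_,
    fun g' hg' hgb' => ?_⟩
  · rw [qExp1_smul, HahnSeries.leadingCoeff_mul, HahnSeries.leadingCoeff_of_single,
      inv_mul_cancel₀ hc]
  · rw [order_qExp1_smul (inv_ne_zero hc) hg.1]
    exact hmax _ ⟨g', hg', hgb', rfl⟩

section Root

theorem norm_exp_cusp_le_one {j : ℤ} (hj : 0 ≤ j) (τ : ℍ) :
    ‖exp (2 * Real.pi * Complex.I * j * τ / ℓ)‖ ≤ 1 := by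
  rw [Complex.norm_exp, Real.exp_le_one_iff]
  have h1 : (2 * (Real.pi : ℂ) * Complex.I * j * τ / ℓ).re = -(2 * Real.pi * j * τ.im / ℓ) := by
    simp [Complex.div_natCast_re, Complex.mul_re, Complex.mul_im]
    ring
  rw [h1, neg_nonpos]
  have : (0 : ℝ) ≤ (j : ℝ) := by exact_mod_cast hj
  have := τ.im_pos
  positivity

theorem exp_cusp_add (j k : ℤ) (τ : ℍ) :
    exp (2 * Real.pi * Complex.I * ((j + k : ℤ) : ℂ) * τ / ℓ) =
      exp (2 * Real.pi * Complex.I * j * τ / ℓ) * exp (2 * Real.pi * Complex.I * k * τ / ℓ) := by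
  rw [← exp_add]; push_cast; ring_nf

theorem exp_cusp_pow (j : ℤ) (τ : ℍ) :
    exp (2 * Real.pi * Complex.I * j * τ / ℓ) ^ ℓ = qq (τ : ℂ) ^ j := by
  have hℓ : (ℓ : ℂ) ≠ 0 := Nat.cast_ne_zero.mpr (Fact.out : ℓ.Prime).ne_zero
  rw [Function.Periodic.qParam, ← exp_nat_mul, ← exp_int_mul]
  congr 1
  push_cast
  field_simp

/-- A root is meromorphic at every cusp. -/
theorem exists_bounded_root {g : modRing M} {h : ℍ → ℂ}
    (hp : ∀ τ, h τ ^ ℓ = (g : ℍ → ℂ) τ) (A : SL(2, ℤ)) :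
    ∃ m : ℕ, ∀ m', m ≤ m' →
      IsBoundedAtImInfty ((fun τ => h (A • τ)) * (ModularForm.discriminant : ℍ → ℂ) ^ m') := by
  obtain ⟨m, hm⟩ := (mem_weakMod.mp g.2).2.2 A
  refine ⟨m, fun m' hm' => Kummer.isBoundedAtImInfty_of_pow (Fact.out : ℓ.Prime).ne_zero ?_⟩
  have hle : m ≤ ℓ * m' := hm'.trans (Nat.le_mul_of_pos_left _ (Fact.out : ℓ.Prime).pos)
  have hΔ : ∀ k : ℕ, IsBoundedAtImInfty ((ModularForm.discriminant : ℍ → ℂ) ^ k) := fun k => by
    induction k with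
    | zero => rw [pow_zero]; exact const_boundedAtFilter _ (1 : ℂ)
    | succ n ih =>
      rw [pow_succ]; exact ih.mul ModularForm.discriminant_isZeroAtImInfty.isBoundedAtImInfty
  refine (hm.mul (hΔ (ℓ * m' - m))).congr' (Eventually.of_forall fun τ => ?_) EventuallyEq.rfl
  simp only [Pi.mul_apply, Pi.pow_apply, mul_pow, hp, mul_assoc, ← pow_add,
    Nat.add_sub_cancel' hle, ← pow_mul, mul_comm m' ℓ]

theorem sub_smul_root_mem {g₁ g₂ : modRing M} {φ : Additive (Gamma1 M) →+ ZMod ℓ} {h₁ h₂ : ℍ → ℂ}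
    (h₁d : MDiff h₁) (h₂d : MDiff h₂)
    (h₁t : ∀ (γ : Gamma1 M) (τ : ℍ),
      h₁ ((γ : SL(2, ℤ)) • τ) = ZMod.stdAddChar (φ (Additive.ofMul γ)) * h₁ τ)
    (h₂t : ∀ (γ : Gamma1 M) (τ : ℍ),
      h₂ ((γ : SL(2, ℤ)) • τ) = ZMod.stdAddChar (φ (Additive.ofMul γ)) * h₂ τ)
    (h₁p : ∀ τ, h₁ τ ^ ℓ = (g₁ : ℍ → ℂ) τ) (h₂p : ∀ τ, h₂ τ ^ ℓ = (g₂ : ℍ → ℂ) τ) (c : ℂ) :
    (fun τ => (h₁ τ - c * h₂ τ) ^ ℓ) ∈ modRing M := by
  refine mem_weakMod.mpr ⟨(h₁d.sub (mdifferentiable_const.mul h₂d)).pow ℓ, fun γ hγ τ => ?_,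
    fun A => ?_⟩
  · show (h₁ (γ • τ) - c * h₂ (γ • τ)) ^ ℓ = _
    rw [h₁t ⟨γ, hγ⟩, h₂t ⟨γ, hγ⟩, ← mul_one ((h₁ τ - c * h₂ τ) ^ ℓ),
      ← stdAddChar_pow_self (φ (Additive.ofMul (⟨γ, hγ⟩ : Gamma1 M))), ← mul_pow]
    ring
  · obtain ⟨m₁, hm₁⟩ := exists_bounded_root h₁p A
    obtain ⟨m₂, hm₂⟩ := exists_bounded_root h₂p A
    set m := max m₁ m₂
    refine ⟨m * ℓ, ?_⟩
    have hb : IsBoundedAtImInfty
        ((fun τ => h₁ (A • τ) - c * h₂ (A • τ)) * (ModularForm.discriminant : ℍ → ℂ) ^ m) := by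
      have := (hm₁ m (le_max_left _ _)).sub ((hm₂ m (le_max_right _ _)).const_mul_left c)
      refine this.congr' (Eventually.of_forall fun τ => ?_) EventuallyEq.rfl
      simp only [Pi.mul_apply, Pi.pow_apply]
      ring
    have hpow : ∀ n : ℕ, IsBoundedAtImInfty (((fun τ => h₁ (A • τ) - c * h₂ (A • τ)) *
        (ModularForm.discriminant : ℍ → ℂ) ^ m) ^ n) := fun n => by
      induction n with
      | zero => rw [pow_zero]; exact const_boundedAtFilter _ (1 : ℂ)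
      | succ n ih => rw [pow_succ]; exact ih.mul hb
    refine (hpow ℓ).congr' (Eventually.of_forall fun τ => ?_) EventuallyEq.rfl
    simp [mul_pow, pow_mul]

/-- The root at `∞`, with the leading coefficient. -/
theorem exists_tendsto_root_infty {g : modRing M} (hg : g ≠ 0) {h : ℍ → ℂ} (hh : MDiff h)
    (hp : ∀ τ, h τ ^ ℓ = (g : ℍ → ℂ) τ) :
    ∃ r : ℂ, r ^ ℓ = (qExp1 M g).leadingCoeff ∧ Tendsto (fun τ : ℍ => h τ /
      exp (2 * Real.pi * Complex.I * (qExp1 M g).order * τ / ℓ)) atImInfty (𝓝 r) := by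
  have hmem := weakMod_le_qMero (modularGroup_T_mem_Gamma1 M) g.2
  obtain ⟨u, hu, hval, hu0, hev⟩ := exists_leading hmem ((coe_ne_zero_iff M).mpr hg)
  obtain ⟨r, -, hr⟩ := exists_tendsto_root hh hu.continuousAt hu0
    (hev.mono fun τ hτ => (hp τ).trans hτ)
  refine ⟨r, ?_, hr⟩
  have hlim : Tendsto (fun τ : ℍ => u (qq (τ : ℂ))) atImInfty (𝓝 (u 0)) :=
    hu.continuousAt.tendsto.comp (qParam_tendsto_atImInfty one_pos)
  rw [HahnSeries.leadingCoeff_eq, qExp1_apply, ← hval]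
  refine tendsto_nhds_unique ((hr.pow ℓ).congr' ?_) hlim
  filter_upwards [hev] with τ hτ
  rw [div_pow, hp, exp_cusp_pow, hτ]
  exact mul_div_cancel_left₀ _ (zpow_ne_zero _ (Function.Periodic.qParam_ne_zero _))

/-- **Uniqueness of the distinguished member.** -/
theorem IsMaxRep.eq {φ : Additive (Gamma1 M) →+ ZMod ℓ} {g₁ g₂ : modRing M}
    (h₁ : IsMaxRep M ℓ φ g₁) (h₂ : IsMaxRep M ℓ φ g₂) : g₁ = g₂ := by
  obtain ⟨⟨hg₁, r, hr, hrt, hrp⟩, hb₁, hl₁, hm₁⟩ := h₁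
  obtain ⟨⟨hg₂, s, hs, hst, hsp⟩, hb₂, hl₂, hm₂⟩ := h₂
  have hK : (qExp1 M g₁).order = (qExp1 M g₂).order :=
    le_antisymm (hm₂ _ ⟨hg₁, r, hr, hrt, hrp⟩ hb₁) (hm₁ _ ⟨hg₂, s, hs, hst, hsp⟩ hb₂)
  obtain ⟨a, ha, hlima⟩ := exists_tendsto_root_infty hg₁ hr hrp
  obtain ⟨b, hb, hlimb⟩ := exists_tendsto_root_infty hg₂ hs hsp
  rw [hl₁] at ha
  rw [hl₂] at hb
  have hℓ := (Fact.out : ℓ.Prime).ne_zero
  have hb0 : b ≠ 0 := fun h => by rw [h, zero_pow hℓ] at hb; exact zero_ne_one hb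
  set c := a / b
  have hc : c ^ ℓ = 1 := by rw [div_pow, ha, hb, div_one]
  set h : ℍ → ℂ := fun τ => r τ - c * s τ with hdef
  by_cases h0 : h = 0
  · refine Subtype.ext (funext fun τ => ?_)
    have hτ : r τ = c * s τ := sub_eq_zero.mp (congrFun h0 τ)
    rw [← hrp, hτ, mul_pow, hc, one_mul, hsp]
  exfalso
  have hmem := sub_smul_root_mem hr hs hrt hst hrp hsp c
  set g : modRing M := ⟨_, hmem⟩ with hgdef
  have hg : g ≠ 0 := fun hgz => h0 (funext fun τ =>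
    (pow_eq_zero_iff hℓ).mp (congrFun (congrArg Subtype.val hgz) τ))
  have hclass : HasClass M ℓ g φ :=
    ⟨hg, h, hr.sub (mdifferentiable_const.mul hs), fun γ τ => by
      simp only [hdef, hrt, hst]; ring, fun τ => rfl⟩
  have hbound : IsBoundedRep M ℓ g := fun A hA i hi => by
    refine HahnSeries.coeff_eq_zero_of_lt_order (lt_of_lt_of_le hi ?_)
    refine le_order_of_isBigO (cuspFun_mem_qMero M A hmem) (cuspFun_ne_zero A hg) ?_
    set n : ℤ := -((ℓ * M : ℕ) : ℤ) with hn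
    have hroot : ∀ (g' : modRing M) (h' : ℍ → ℂ), g' ≠ 0 → MDiff h' →
        (∀ τ, h' τ ^ ℓ = (g' : ℍ → ℂ) τ) → IsBoundedRep M ℓ g' →
        (fun τ : ℍ => cuspFun M A h' τ / exp (2 * Real.pi * Complex.I * n * τ / ℓ))
          =O[atImInfty] (1 : ℍ → ℂ) := by
      intro g' h' hg' hh' hp' hb'
      obtain ⟨t, -, ht⟩ := HasClass.exists_tendsto hg' hh' hp' A
      obtain ⟨j, hj⟩ : ∃ j : ℤ, (cuspExp M A g').order = j + n :=
        ⟨_, (sub_add_cancel _ n).symm⟩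
      have hj0 : 0 ≤ j := by have := hb'.le_order hg' hA; rw [hn] at hj; omega
      have h1 : (fun τ : ℍ => exp (2 * Real.pi * Complex.I * j * τ / ℓ))
          =O[atImInfty] (1 : ℍ → ℂ) :=
        IsBigO.of_bound 1 (Eventually.of_forall fun τ => by
          simpa using norm_exp_cusp_le_one hj0 τ)
      refine ((ht.isBigO_one ℂ).mul h1).congr' (Eventually.of_forall fun τ => ?_)
        (Eventually.of_forall fun τ => by simp)
      simp only [hj, exp_cusp_add]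
      have e1 := exp_ne_zero (2 * Real.pi * Complex.I * j * τ / ℓ)
      have e2 := exp_ne_zero (2 * Real.pi * Complex.I * n * τ / ℓ)
      field_simp
    have h3 := (hroot g₁ r hg₁ hr hrp hb₁).sub ((hroot g₂ s hg₂ hs hsp hb₂).const_mul_left c)
    refine (h3.pow ℓ).congr' (Eventually.of_forall fun τ => ?_)
      (Eventually.of_forall fun τ => by simp)
    rw [show r = fun τ => r τ from rfl]
    simp only [cuspFun, ← exp_cusp_pow (ℓ := ℓ) n τ, ← div_pow, sub_div, mul_div_assoc]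
  have hlt : (qExp1 M g₁).order < (qExp1 M g).order := by
    refine lt_order_of_tendsto_zero (weakMod_le_qMero (modularGroup_T_mem_Gamma1 M) hmem)
      ((coe_ne_zero_iff M).mpr hg) ?_
    rw [← hK] at hlimb
    have h3 := (hlima.sub (hlimb.const_mul c)).pow ℓ
    rw [show a - c * b = 0 by simp [c, div_mul_cancel₀ _ hb0], zero_pow hℓ] at h3
    refine h3.congr fun τ => ?_
    rw [← exp_cusp_pow (ℓ := ℓ), ← div_pow, sub_div, mul_div_assoc c]
  exact absurd (hm₁ g hclass hbound) (not_le.mpr hlt)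

end Root

/-- There are finitely many classes. -/
theorem finite_parHom : Finite (ParHom M ℓ) := by
  have hfg : Group.FG SL(2, ℤ) := ⟨⟨{ModularGroup.S, ModularGroup.T}, by
    rw [Finset.coe_insert, Finset.coe_singleton]
    exact SpecialLinearGroup.SL2Z_generators⟩⟩
  have hΓ : Group.FG (Gamma1 M) := inferInstance
  obtain ⟨s, hs⟩ := hΓ.out
  refine Finite.of_injective
    (fun (φ : ParHom M ℓ) (x : s) => (φ : Additive (Gamma1 M) →+ ZMod ℓ) (Additive.ofMul (x : Gamma1 M)))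
    fun φ ψ h => Subtype.ext (AddMonoidHom.ext fun γ => ?_)
  have : Additive.toMul γ ∈ Subgroup.closure (s : Set (Gamma1 M)) := hs ▸ Subgroup.mem_top _
  have key : ∀ x : Gamma1 M, x ∈ Subgroup.closure (s : Set (Gamma1 M)) →
      (φ : Additive (Gamma1 M) →+ ZMod ℓ) (Additive.ofMul x) =
        (ψ : Additive (Gamma1 M) →+ ZMod ℓ) (Additive.ofMul x) := by
    intro x hx
    induction hx using Subgroup.closure_induction with
    | mem x hx => exact congrFun h ⟨x, hx⟩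
    | one => simp
    | mul x y _ _ hx hy => simp [hx, hy]
    | inv x _ hx => simp [hx]
  exact key _ this

end FermatLib.Galois.DS

end
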