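import Fermat.Agent.Galois.DS.PrimeLocal

/-!
# Primes away from the special fibre are points
-/

set_option autoImplicit false
set_option linter.unusedSectionVars false

noncomputable section

open Complex UpperHalfPlane Function ModularCurve CongruenceSubgroup
open scoped MatrixGroups Manifold

namespace FermatLib.Galois.DS

open FermatLib.Igusa

variable {M m : ℕ} [NeZero M] [NeZero m] {R : Type*} [CommRing R] {φ : R →+* ℂ}
variable (D : BaseData m) (hmM : m ∣ M) (hM : 1 < M) (hR : IsLevelCoeff φ M)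

/-- The coordinate as an element of `intSub`. -/
def coordI : intSub M φ := ⟨D.coord hmM, (unitU_mem_baseSub hR D hmM _).1⟩

theorem coe_eval_coordI (Q : Polynomial R) :
    ((Q.eval₂ (cstI φ) (coordI D hmM hR) : intSub M φ) : modRing M) =
      Q.eval₂ (cst M φ) (D.coord hmM) := by
  rw [← (intSub M φ).subtype_apply, Polynomial.hom_eval₂]
  rfl

include D hmM hR in
/-- A base element, up to a unit, is a polynomial in the coordinate. -/
theorem exists_eval_coordI {z : intSub M φ} (hz : (z : modRing M) ∈ baseSub M φ m) :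
    ∃ (Q : Polynomial R) (e e' : intSub M φ),
      e * e' = 1 ∧ z * e = Q.eval₂ (cstI φ) (coordI D hmM hR) := by
  obtain ⟨Q, k, hQ⟩ := exists_eq_eval_mul hR D hmM hz
  let U : intSub M φ := ∏ i, ⟨D.unitU hmM i, (unitU_mem_baseSub hR D hmM i).1⟩
  let V : intSub M φ := ∏ i, ⟨D.unitV hmM i, (unitV_mem_baseSub hR D hmM i).1⟩
  have hUV : U ^ k * V ^ k = 1 := by
    simp only [U, V, ← mul_pow, ← Finset.prod_mul_distrib]
    refine (congrArg (· ^ k) (Finset.prod_eq_one fun i _ => Subtype.ext ?_)).trans (one_pow k)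
    exact D.unitU_mul_unitV hmM i
  refine ⟨Q, U ^ k, V ^ k, hUV, Subtype.ext ?_⟩
  rw [coe_eval_coordI]
  have hVc : ((V ^ k : intSub M φ) : modRing M) = (∏ i, D.unitV hmM i) ^ k := by
    simp [V]
  have h1 : ((U ^ k : intSub M φ) : modRing M) * ((V ^ k : intSub M φ) : modRing M) = 1 :=
    congrArg Subtype.val hUV
  show (z : modRing M) * ((U ^ k : intSub M φ) : modRing M) = _
  rw [hQ, ← hVc, mul_assoc, mul_comm (((V ^ k : intSub M φ) : modRing M)), h1, mul_one]

/-- A domain algebraic over `R` embeds in `ℂ`. -/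
theorem exists_hom_ker_eq {A : Type*} [CommRing A] [IsDomain A] {S : Type*} [CommRing S]
    (hφ : Function.Injective φ) [IsDomain R] (ι : R →+* A) (hι : Function.Injective ι)
    (π : S →+* A) (hπ : Function.Surjective π) (b : A) (g : Polynomial R) (hg0 : g ≠ 0)
    (hgb : g.eval₂ ι b = 0) (B : Subring S)
    (hB : ∀ z ∈ B, ∃ n d : Polynomial R, d.eval₂ ι b ≠ 0 ∧ π z * d.eval₂ ι b = n.eval₂ ι b)
    (x : S) (Φ : Polynomial B) (hΦ : Φ.Monic) (hΦx : Φ.eval₂ B.subtype x = 0)
    (hgen : ∀ a : S, ∃ Q : Polynomial B, Q.eval₂ B.subtype x = a) :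
    ∃ ψ : A →+* ℂ, Function.Injective ψ ∧ ∀ r, ψ (ι r) = φ r := by
  let K := FractionRing R
  let L := FractionRing A
  have hιL : Function.Injective ((algebraMap A L).comp ι) :=
    (IsFractionRing.injective A L).comp hι
  let : Algebra K L := (IsFractionRing.lift (A := R) hιL).toAlgebra
  let : Algebra K ℂ := (IsFractionRing.lift (A := R) hφ).toAlgebra
  let qL : S →+* L := (algebraMap A L).comp π
  set bL : L := algebraMap A L b
  have hc : ∀ r : R, algebraMap K L (algebraMap R K r) = algebraMap A L (ι r) := fun r =>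
    IsFractionRing.lift_algebraMap hιL r
  set E := algebraicClosure K L
  have hev : ∀ Q : Polynomial R,
      algebraMap A L (Q.eval₂ ι b) = (Q.map (algebraMap R K)).eval₂ (algebraMap K L) bL := fun Q => by
    rw [Polynomial.hom_eval₂, Polynomial.eval₂_map]
    exact congrArg (fun f => Q.eval₂ f bL) (RingHom.ext fun r => (hc r).symm)
  have hbE : bL ∈ E := mem_algebraicClosure_iff.mpr ⟨g.map (algebraMap R K),
    (Polynomial.map_ne_zero_iff (IsFractionRing.injective R K)).mpr hg0, by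
      rw [Polynomial.aeval_def, ← hev, hgb, map_zero]⟩
  have hQE : ∀ Q : Polynomial R, algebraMap A L (Q.eval₂ ι b) ∈ E := fun Q => by
    rw [hev, Polynomial.eval₂_eq_sum_range]
    exact sum_mem fun i _ => mul_mem (E.algebraMap_mem _) (pow_mem hbE i)
  have hBE : ∀ z ∈ B, qL z ∈ E := fun z hz => by
    obtain ⟨n, d, hd, hzd⟩ := hB z hz
    have hd' : algebraMap A L (d.eval₂ ι b) ≠ 0 :=
      (map_ne_zero_iff _ (IsFractionRing.injective A L)).mpr hd
    rw [show qL z = algebraMap A L (n.eval₂ ι b) / algebraMap A L (d.eval₂ ι b) by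
      rw [eq_div_iff hd', ← hzd, map_mul]
      rfl]
    exact div_mem (hQE n) (hQE d)
  let j : B →+* E := (qL.comp B.subtype).codRestrict E fun z => hBE z z.2
  have hj : (algebraMap E L).comp j = qL.comp B.subtype := rfl
  have hxE : qL x ∈ E := by
    have hint : IsIntegral E (qL x) := ⟨Φ.map j, hΦ.map j, by
      rw [Polynomial.eval₂_map, hj, ← Polynomial.hom_eval₂, hΦx, map_zero]⟩
    have : Algebra.IsAlgebraic K E := algebraicClosure.isAlgebraic K L
    have : Algebra.IsIntegral K E := Algebra.IsAlgebraic.isIntegral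
    exact mem_algebraicClosure_iff.mpr (isIntegral_trans (qL x) hint).isAlgebraic
  have hallE : ∀ a : S, qL a ∈ E := fun a => by
    obtain ⟨Q, rfl⟩ := hgen a
    rw [Polynomial.hom_eval₂, Polynomial.eval₂_eq_sum_range]
    exact sum_mem fun i _ => mul_mem (hBE _ (Q.coeff i).2) (pow_mem hxE i)
  have halg : Algebra.IsAlgebraic K L := by
    refine ⟨fun z => ?_⟩
    obtain ⟨n, d, -, rfl⟩ := IsFractionRing.div_surjective (A := A) z
    obtain ⟨n, rfl⟩ := hπ n
    obtain ⟨d, rfl⟩ := hπ d
    exact mem_algebraicClosure_iff.mp (div_mem (hallE n) (hallE d))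
  let σ : L →ₐ[K] ℂ := IsAlgClosed.lift
  refine ⟨σ.toRingHom.comp (algebraMap A L),
    σ.toRingHom.injective.comp (IsFractionRing.injective A L), fun r => ?_⟩
  show σ (algebraMap A L (ι r)) = φ r
  rw [← hc, σ.commutes]
  exact IsFractionRing.lift_algebraMap hφ r

/-- Divisibility up to elements outside a prime passes to the span. -/
theorem exists_dvd_mul_of_mem_span {S : Type*} [CommRing S] (P : Ideal S) [P.IsPrime] (T : Set S)
    (u : S) (h : ∀ z ∈ T, ∃ t ∉ P, u ∣ t * z) {y : S} (hy : y ∈ Ideal.span T) :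
    ∃ t ∉ P, u ∣ t * y := by
  refine Submodule.span_induction (p := fun y _ => ∃ t ∉ P, u ∣ t * y) ?_ ?_ ?_ ?_ hy
  · exact fun z hz => h z hz
  · exact ⟨1, fun h => (inferInstance : P.IsPrime).ne_top ((Ideal.eq_top_iff_one P).mpr h), by simp⟩
  · rintro y z - - ⟨t, ht, hty⟩ ⟨t', ht', htz⟩
    refine ⟨t * t', fun h => ?_, ?_⟩
    · rcases (inferInstance : P.IsPrime).mem_or_mem h with h' | h'
      exacts [ht h', ht' h']
    · rw [mul_add]
      exact dvd_add (by rw [mul_right_comm]; exact hty.mul_right _)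
        (by rw [mul_assoc]; exact htz.mul_left _)
  · rintro c y - ⟨t, ht, hty⟩
    exact ⟨t, ht, by rw [smul_eq_mul, mul_left_comm]; exact hty.mul_left _⟩

/-- Division by a polynomial of minimal degree in a prime. -/
theorem exists_dvd_mul_of_minimal {S : Type*} [CommRing S] (P : Ideal S) [P.IsPrime]
    (ev : Polynomial R →+* S) (hPR : ∀ r : R, ev (Polynomial.C r) ∈ P → r = 0) {g : Polynomial R}
    (hpos : 0 < g.natDegree) (hgP : ev g ∈ P)
    (hmin : ∀ r : Polynomial R, r.natDegree < g.natDegree → ev r ∈ P → r = 0)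
    {z e e' : S} (hee : e * e' = 1) {Q : Polynomial R} (hQ : z * e = ev Q) (hzP : z ∈ P) :
    ∃ t ∉ P, ev g ∣ t * z := by
  obtain ⟨k, q, r, hqr, hr⟩ := exists_pseudoDiv g hpos Q
  have h1 : ev (Polynomial.C g.leadingCoeff) ^ k * (z * e) = ev q * ev g + ev r := by
    rw [hQ, ← map_pow, ← map_mul, hqr, map_add, map_mul]
  have hr0 : r = 0 := hmin r hr (by
    rw [show ev r = ev (Polynomial.C g.leadingCoeff) ^ k * (z * e) - ev q * ev g by
      rw [h1, add_sub_cancel_left]]
    exact sub_mem (P.mul_mem_left _ (P.mul_mem_right _ hzP)) (P.mul_mem_left _ hgP))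
  rw [hr0, map_zero, add_zero] at h1
  refine ⟨ev (Polynomial.C g.leadingCoeff) ^ k, fun h' => ?_, ⟨ev q * e', ?_⟩⟩
  · have := Polynomial.leadingCoeff_eq_zero.mp
      (hPR _ ((inferInstance : P.IsPrime).mem_of_pow_mem k h'))
    rw [this, Polynomial.natDegree_zero] at hpos
    omega
  · linear_combination e' * h1 - ev (Polynomial.C g.leadingCoeff) ^ k * z * hee

include D hmM hM hR in
/-- A prime meeting no nonzero constant is a point, with a uniformiser from the base. -/
theorem exists_prime_point (P : Ideal (intSub M φ)) [P.IsPrime] (hP : P ≠ ⊥)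
    (hPR : ∀ r : R, cstI φ r ∈ P → r = 0) :
    ∃ (τ : ℍ) (u : intSub M φ), u ∈ P ∧ ordAt ((u : modRing M) : ℍ → ℂ) τ = 1 ∧
      (∀ a : intSub M φ, a ∈ P ↔ ((a : modRing M) : ℍ → ℂ) τ = 0) ∧
      ∀ a ∈ P, ∃ s ∉ P, u ∣ s * a := by
  classical
  have : IsDomain R := hR.injective.isDomain φ
  obtain ⟨a₀, ha₀, ha₀0⟩ := Submodule.exists_mem_ne_zero_of_ne_bot hP
  obtain ⟨N, G', hN, hNG, hN0⟩ := exists_norm D hmM hR ha₀0
  have hNP : N ∈ P := hNG ▸ P.mul_mem_right _ ha₀
  let evb : Polynomial R →+* intSub M φ := Polynomial.eval₂RingHom (cstI φ) (coordI D hmM hR)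
  have hbad : ∃ d : ℕ, ∃ g : Polynomial R, g.natDegree = d ∧ g ≠ 0 ∧ evb g ∈ P := by
    obtain ⟨Q, e, e', hee, hQ⟩ := exists_eval_coordI D hmM hR hN
    refine ⟨_, Q, rfl, fun h0 => hN0 ?_, ?_⟩
    · rw [h0, Polynomial.eval₂_zero] at hQ
      rw [show N = N * e * e' by rw [mul_assoc, hee, mul_one], hQ, zero_mul]
    · show Q.eval₂ (cstI φ) (coordI D hmM hR) ∈ P
      rw [← hQ]; exact P.mul_mem_right _ hNP
  obtain ⟨g, hgd, hg0, hgP⟩ := Nat.find_spec hbad
  have hmin : ∀ r : Polynomial R, r.natDegree < g.natDegree → evb r ∈ P → r = 0 := fun r hr hrP => by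
    by_contra h0
    exact Nat.find_min hbad (hgd ▸ hr) ⟨r, rfl, h0, hrP⟩
  have hpos : 0 < g.natDegree := by
    rcases Nat.eq_zero_or_pos g.natDegree with h0 | h0
    · rw [Polynomial.eq_C_of_natDegree_eq_zero h0] at hgP hg0
      refine absurd ?_ hg0
      rw [hPR (g.coeff 0) (by simpa [evb] using hgP), map_zero]
    · exact h0
  let ι : R →+* intSub M φ ⧸ P := (Ideal.Quotient.mk P).comp (cstI φ)
  have hι : Function.Injective ι := (injective_iff_map_eq_zero ι).mpr fun r hr =>
    hPR r (Ideal.Quotient.eq_zero_iff_mem.mp hr)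
  have hπev : ∀ Q : Polynomial R, Ideal.Quotient.mk P (evb Q) =
      Q.eval₂ ι (Ideal.Quotient.mk P (coordI D hmM hR)) := fun Q =>
    Polynomial.hom_eval₂ Q (cstI φ) (Ideal.Quotient.mk P) _
  choose c d hc hcd using fun i => exists_unitU_eq_affine hR D hmM i
  let B : Subring (intSub M φ) := (baseSub M φ m).comap (intSub M φ).subtype
  let x : intSub M φ := ⟨xEl D hmM hM, xEl_mem_intSub D hmM hM hR⟩
  obtain ⟨Φ, hmon, -, hΦb, hΦx, -, -⟩ := exists_coverPoly D hmM hM hR
  let jB : B →+* modRing M := (intSub M φ).subtype.comp B.subtype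
  have hlift : Φ ∈ Polynomial.lifts jB := by
    rw [Polynomial.lifts_iff_coeff_lifts]
    exact fun i => ⟨⟨⟨Φ.coeff i, (hΦb i).1⟩, hΦb i⟩, rfl⟩
  obtain ⟨ΦB, hΦmap, -, hmonB⟩ := Polynomial.lifts_and_degree_eq_and_monic hlift hmon
  have hev : ∀ Q : Polynomial B, ((Q.eval₂ B.subtype x : intSub M φ) : modRing M) =
      (Q.map jB).eval (xEl D hmM hM) := fun Q => by
    rw [Polynomial.eval_map]
    exact Polynomial.hom_eval₂ Q B.subtype (intSub M φ).subtype x
  have : IsDomain (intSub M φ ⧸ P) := Ideal.Quotient.isDomain P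
  obtain ⟨ψ, hψinj, hψc⟩ := exists_hom_ker_eq (φ := φ) hR.injective ι hι (Ideal.Quotient.mk P)
    Ideal.Quotient.mk_surjective (Ideal.Quotient.mk P (coordI D hmM hR)) g hg0
    (by rw [← hπev, Ideal.Quotient.eq_zero_iff_mem]; exact hgP) B
    (fun z hz => by
      obtain ⟨Q, k, hQ⟩ := exists_eq_eval_mul hR D hmM hz
      let U : intSub M φ := ∏ i, ⟨D.unitU hmM i, (unitU_mem_baseSub hR D hmM i).1⟩
      let V : intSub M φ := ∏ i, ⟨D.unitV hmM i, (unitV_mem_baseSub hR D hmM i).1⟩
      have hUV : U * V = 1 := by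
        simp only [U, V, ← Finset.prod_mul_distrib]
        exact Finset.prod_eq_one fun i _ => Subtype.ext (D.unitU_mul_unitV hmM i)
      have hU : evb ((∏ i, (Polynomial.C (c i) * Polynomial.X + Polynomial.C (d i))) ^ k) = U ^ k := by
        rw [map_pow, map_prod]
        refine congrArg (· ^ k) (Finset.prod_congr rfl fun i _ => Subtype.ext ?_)
        rw [show ((evb _ : intSub M φ) : modRing M) = _ from coe_eval_coordI D hmM hR _]
        show _ = D.unitU hmM i
        rw [hcd i]
        simp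
      refine ⟨Q, (∏ i, (Polynomial.C (c i) * Polynomial.X + Polynomial.C (d i))) ^ k, ?_, ?_⟩
      · rw [← hπev, hU, map_pow]
        refine pow_ne_zero k (left_ne_zero_of_mul_eq_one (b := Ideal.Quotient.mk P V) ?_)
        rw [← map_mul, hUV, map_one]
      · rw [← hπev, ← hπev, hU, ← map_mul]
        have hz' : z = evb Q * V ^ k := Subtype.ext (by
          rw [show (z : modRing M) = _ from hQ]
          push_cast
          rw [show ((evb Q : intSub M φ) : modRing M) = _ from coe_eval_coordI D hmM hR Q]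
          simp [V])
        rw [hz', mul_assoc, ← mul_pow, mul_comm V, hUV, one_pow, mul_one])
    x ΦB hmonB (Subtype.ext (by rw [hev, hΦmap, hΦx]; rfl)) (fun a => by
      obtain ⟨f, hf, hfa, -⟩ := exists_interp D hmM hM hR a.2
      refine ⟨∑ i ∈ Finset.range (Fintype.card (Orb M m)),
        Polynomial.monomial i (⟨⟨f i, (hf i).1⟩, hf i⟩ : B), Subtype.ext ?_⟩
      rw [hev, hfa, Polynomial.map_sum, Polynomial.eval_finsetSum]
      refine Finset.sum_congr rfl fun i _ => ?_
      rw [Polynomial.map_monomial, Polynomial.eval_monomial]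
      rfl)
  obtain ⟨τ, hτ⟩ := exists_point_of_hom D hmM hM hR (ψ.comp (Ideal.Quotient.mk P)) hψc
  have hiff : ∀ a : intSub M φ, a ∈ P ↔ ((a : modRing M) : ℍ → ℂ) τ = 0 := fun a => by
    rw [← hτ, RingHom.comp_apply, map_eq_zero_iff _ hψinj, Ideal.Quotient.eq_zero_iff_mem]
  have hevτ : ∀ Q : Polynomial R, evb Q ∈ P ↔ Q.eval₂ φ ((D.coord hmM : ℍ → ℂ) τ) = 0 := fun Q => by
    rw [hiff, show ((evb Q : intSub M φ) : modRing M) = _ from coe_eval_coordI D hmM hR Q,
      ← evalHom_apply, evalHom_eval_coord]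
  refine ⟨τ, evb g, hgP, ?_, hiff, fun a ha => ?_⟩
  · rw [show ((evb g : intSub M φ) : modRing M) = _ from coe_eval_coordI D hmM hR g]
    refine ordAt_eval_coord D hmM ((hevτ g).mp hgP) fun h0 => ?_
    have hder := hmin g.derivative (Polynomial.natDegree_derivative_lt (by omega)) ((hevτ _).mpr h0)
    have hCZ : CharZero R := ⟨fun p q h => by
      have h' := congrArg φ h
      simpa using h'⟩
    have := Polynomial.derivative_eq_zero.mp hder
    omega
  · obtain ⟨s, hs, hsa⟩ := exists_local_mem D hmM hM hR P ha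
    obtain ⟨t, ht, hty⟩ := exists_dvd_mul_of_mem_span P _ (evb g) (fun z hz => by
      obtain ⟨Q, e, e', hee, hQ⟩ := exists_eval_coordI D hmM hR hz.2
      exact exists_dvd_mul_of_minimal P evb
        (fun r hr => hPR r (by simpa [evb] using hr)) hpos hgP hmin hee hQ hz.1) hsa
    refine ⟨t * s, fun h' => ?_, by rwa [mul_assoc]⟩
    rcases (inferInstance : P.IsPrime).mem_or_mem h' with h'' | h''
    exacts [ht h'', hs h'']

end FermatLib.Galois.DS
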