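import Fermat.Agent.Galois.DS.ConjUnits
import Fermat.Agent.Galois.DS.PrimePoint

/-!
# Conjugation of cusps, points and diamond operators
-/

set_option autoImplicit false
set_option linter.unusedSectionVars false

noncomputable section

open Complex UpperHalfPlane Function ModularCurve CongruenceSubgroup
open scoped MatrixGroups Manifold

namespace FermatLib.Galois.DS

open FermatLib.Igusa

variable {M : ℕ} [NeZero M]

omit [NeZero M] in
/-- The rigid base. -/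
theorem exists_baseData (hM : 4 ∣ M ∨ 5 ∣ M) :
    ∃ (m : ℕ) (_ : NeZero m) (_ : BaseData m), m ∣ M ∧ (m = 4 ∨ m = 5) := by
  rcases hM with h | h
  · exact ⟨4, inferInstance, baseDataFour, h, Or.inl rfl⟩
  · exact ⟨5, inferInstance, baseDataFive, h, Or.inr rfl⟩

theorem exists_isConjFn' (hM : 4 ∣ M ∨ 5 ∣ M) (hM5 : 5 ≤ M) (σ : ℂ ≃+* ℂ) (G : modRing M) :
    ∃ G' : modRing M, IsConjFn M σ G G' := by
  obtain ⟨m, hm, D, hmM, -⟩ := exists_baseData hM
  obtain ⟨s, hs, hu⟩ := exists_conj_exponent (M := M) (σ : ℂ →+* ℂ)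
  obtain ⟨G', hG'⟩ := exists_conjAll D hmM (by omega) hs hu G
  exact ⟨G', hG'.isConjFn⟩

theorem gcd_conjMat {s : ℤ} (hu : IsUnit (s : ZMod M)) {A A' : SL(2, ℤ)}
    (h : IsConjMat M s A A') : Int.gcd (A' 1 0) M = Int.gcd (A 1 0) M := by
  obtain ⟨u, hu⟩ := hu
  obtain ⟨t, ht⟩ := ZMod.intCast_surjective (↑u⁻¹ : ZMod M)
  have h1 : (M : ℤ) ∣ A' 1 0 - s * A 1 0 := by
    rw [← ZMod.intCast_zmod_eq_zero_iff_dvd]; push_cast; rw [h.2.2.1, sub_self]
  have h2 : (M : ℤ) ∣ A 1 0 - t * A' 1 0 := by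
    rw [← ZMod.intCast_zmod_eq_zero_iff_dvd]; push_cast
    rw [h.2.2.1, ht, ← hu, ← mul_assoc, Units.inv_mul, one_mul, sub_self]
  refine Nat.dvd_antisymm (Int.dvd_gcd ?_ (Int.gcd_dvd_right _ _))
    (Int.dvd_gcd ?_ (Int.gcd_dvd_right _ _))
  · have := dvd_add ((Int.gcd_dvd_right (A' 1 0) M).trans h2)
      ((Int.gcd_dvd_left (A' 1 0) M).mul_left t)
    rwa [sub_add_cancel] at this
  · have := dvd_add ((Int.gcd_dvd_right (A 1 0) M).trans h1)
      ((Int.gcd_dvd_left (A 1 0) M).mul_left s)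
    rwa [sub_add_cancel] at this

theorem exists_cusp_conj' (hM : 4 ∣ M ∨ 5 ∣ M) (hM5 : 5 ≤ M) (σ : ℂ ≃+* ℂ) (A : SL(2, ℤ)) :
    ∃ A' : SL(2, ℤ), Int.gcd (A' 1 0) M = Int.gcd (A 1 0) M ∧
      (IsInftyCusp M A' ↔ IsInftyCusp M A) ∧
      ∀ G G' : modRing M, IsConjFn M σ G G' →
        cuspExp M A G' = coeffMap (σ : ℂ →+* ℂ) (cuspExp M A' G) := by
  obtain ⟨m, hm, D, hmM, -⟩ := exists_baseData hM
  obtain ⟨s, hs, hu⟩ := exists_conj_exponent (M := M) (σ : ℂ →+* ℂ)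
  obtain ⟨A', hA'⟩ := exists_isConjMat hu A
  refine ⟨A', gcd_conjMat hu hA', ?_,
    fun G G' h => conjAll_of_isConjFn D hmM (by omega) hs hu h A A' hA'⟩
  simp only [IsInftyCusp, ← ZMod.intCast_zmod_eq_zero_iff_dvd, Int.cast_sub, Int.cast_add,
    hA'.1, hA'.2.2.1, hu.mul_right_eq_zero]

theorem isConjFn_diamondFn' (hM : 4 ∣ M ∨ 5 ∣ M) (hM5 : 5 ≤ M) (σ : ℂ ≃+* ℂ) (γ : Gamma0 M)
    {G G' : modRing M} (h : IsConjFn M σ G G') :
    IsConjFn M σ (diamondFn M γ G) (diamondFn M γ G') := by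
  obtain ⟨m, hm, D, hmM, -⟩ := exists_baseData hM
  obtain ⟨s, hs, hu⟩ := exists_conj_exponent (M := M) (σ : ℂ →+* ℂ)
  obtain ⟨γ', hγ'⟩ := exists_isConjMat hu (γ : SL(2, ℤ))
  have h0 : (((γ : SL(2, ℤ)) 1 0 : ℤ) : ZMod M) = 0 := Gamma0_mem.mp γ.2
  have hdet := congrArg (Int.cast : ℤ → ZMod M)
    ((Matrix.det_fin_two _).symm.trans (γ : SL(2, ℤ)).2)
  push_cast at hdet
  have hδ : γ' * (γ : SL(2, ℤ))⁻¹ ∈ Gamma1 M := by
    obtain ⟨e00, -, e10, e11⟩ := hγ'
    rw [h0, mul_zero] at e10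
    rw [Gamma1_mem]
    simp only [Matrix.SpecialLinearGroup.coe_mul, Matrix.SpecialLinearGroup.coe_inv,
      Matrix.adjugate_fin_two, Matrix.mul_apply, Fin.sum_univ_two, Matrix.of_apply,
      Matrix.cons_val', Matrix.cons_val_zero, Matrix.cons_val_one, Matrix.cons_val_fin_one]
    push_cast
    rw [e00, e11, e10, h0]
    rw [h0, mul_zero, sub_zero] at hdet
    exact ⟨by linear_combination hdet, by linear_combination hdet, by simp⟩
  refine isConjFn_of_cuspExp_one ?_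
  rw [show cuspExp M 1 (diamondFn M γ G') = cuspExp M (γ : SL(2, ℤ)) G' from
      cuspExp_eq_of_forall_apply_eq M fun τ => by rw [one_smul]; rfl,
    conjAll_of_isConjFn D hmM (by omega) hs hu h _ γ' hγ']
  refine congrArg _ (cuspExp_eq_of_forall_apply_eq M fun τ => ?_)
  show _ = (G : ℍ → ℂ) ((γ : SL(2, ℤ)) • ((1 : SL(2, ℤ)) • τ))
  rw [one_smul, ← G.2.2.1 _ hδ ((γ : SL(2, ℤ)) • τ), ← mul_smul, inv_mul_cancel_right]

section Orders

theorem coe_ne_zero {G : modRing M} (hG : G ≠ 0) : (G : ℍ → ℂ) ≠ 0 :=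
  fun h => hG (Subtype.ext h)

theorem analyticOrderAt_ne_top {G : modRing M} (hG : G ≠ 0) (τ : ℍ) :
    analyticOrderAt ((G : ℍ → ℂ) ∘ ofComplex) (τ : ℂ) ≠ ⊤ := by
  obtain ⟨x, hx⟩ := Function.ne_iff.mp (coe_ne_zero hG)
  refine AnalyticOnNhd.analyticOrderAt_ne_top_of_isPreconnected (x := (x : ℂ))
    ((UpperHalfPlane.mdifferentiable_iff.mp G.2.1).analyticOnNhd isOpen_upperHalfPlaneSet)
    (convex_halfSpace_im_gt 0).isPreconnected x.im_pos τ.im_pos ?_
  rw [analyticOrderAt_eq_zero.mpr (Or.inr (by rw [comp_apply, ofComplex_apply]; exact hx))]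
  exact ENat.zero_ne_top

theorem ordAt_modRing_mul {G H : modRing M} (hG : G ≠ 0) (hH : H ≠ 0) (τ : ℍ) :
    ordAt ((G * H : modRing M) : ℍ → ℂ) τ = ordAt (G : ℍ → ℂ) τ + ordAt (H : ℍ → ℂ) τ :=
  analyticOrderNatAt_mul (analyticAt_ofComplex_comp G.2.1 τ) (analyticAt_ofComplex_comp H.2.1 τ)
    (analyticOrderAt_ne_top hG τ) (analyticOrderAt_ne_top hH τ)

theorem ordAt_eq_zero_iff {G : modRing M} (hG : G ≠ 0) (τ : ℍ) :
    ordAt (G : ℍ → ℂ) τ = 0 ↔ (G : ℍ → ℂ) τ ≠ 0 := by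
  have h := analyticOrderAt_ne_top hG τ
  rw [ordAt, analyticOrderNatAt, ENat.toNat_eq_zero, or_iff_left h, analyticOrderAt_eq_zero,
    or_iff_right (not_not.mpr (analyticAt_ofComplex_comp G.2.1 τ)), comp_apply, ofComplex_apply]

theorem ne_zero_of_apply_ne {G : modRing M} {τ : ℍ} (h : (G : ℍ → ℂ) τ ≠ 0) : G ≠ 0 :=
  fun h0 => h (by rw [h0]; rfl)

variable {m : ℕ} [NeZero m] (D : BaseData m) (hmM : m ∣ M) (hM : 1 < M)

/-- The coordinate minus its value at `τ`. -/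
def coordSub (τ : ℍ) : modRing M :=
  D.coord hmM - cst M (RingHom.id ℂ) ((D.coord hmM : ℍ → ℂ) τ)

theorem ordAt_coordSub (τ : ℍ) : ordAt (coordSub D hmM τ : ℍ → ℂ) τ = 1 := by
  have h := ordAt_eval_coord (φ := RingHom.id ℂ) D hmM (τ := τ)
    (P := Polynomial.X - Polynomial.C ((D.coord hmM : ℍ → ℂ) τ)) (by simp) (by simp)
  simpa [coordSub] using h

theorem coordSub_apply_self (τ : ℍ) : (coordSub D hmM τ : ℍ → ℂ) τ = 0 := by
  simp [coordSub, cst]

theorem coordSub_ne_zero (τ : ℍ) : coordSub D hmM τ ≠ 0 := fun h => by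
  have h1 := ordAt_coordSub D hmM τ
  have h2 : ((0 : modRing M) : ℍ → ℂ) ∘ ofComplex = fun _ => (0 : ℂ) := rfl
  rw [h, ordAt, h2, analyticOrderNatAt, analyticOrderAt_eq_top.mpr (by simp)] at h1
  simp at h1

include D hmM hM in
theorem exists_mul_eq_mul_coordSub {G : modRing M} {τ : ℍ} (hG : (G : ℍ → ℂ) τ = 0) :
    ∃ s t : modRing M, (s : ℍ → ℂ) τ ≠ 0 ∧ s * G = t * coordSub D hmM τ := by
  let ev : intSub M (RingHom.id ℂ) →+* ℂ := (evalHom τ).comp (intSub M (RingHom.id ℂ)).subtype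
  let P := RingHom.ker ev
  have : P.IsPrime := RingHom.ker_isPrime ev
  let evb : Polynomial ℂ →+* intSub M (RingHom.id ℂ) :=
    Polynomial.eval₂RingHom (cstI (RingHom.id ℂ)) (coordI D hmM (isLevelCoeff_id M))
  set p : Polynomial ℂ := Polynomial.X - Polynomial.C ((D.coord hmM : ℍ → ℂ) τ)
  obtain ⟨s, hs, hsa⟩ := exists_local_mem D hmM hM (isLevelCoeff_id M) P
    (a := ⟨G, mem_intSub_id M G⟩) hG
  obtain ⟨t, ht, ⟨w, hw⟩⟩ := exists_dvd_mul_of_mem_span P _ (evb p) (fun z hz => by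
    obtain ⟨Q, e, e', hee, hQ⟩ := exists_eval_coordI D hmM (isLevelCoeff_id M) hz.2
    have h0 : Q.eval ((D.coord hmM : ℍ → ℂ) τ) = 0 := by
      have h1 : ev (Q.eval₂ (cstI _) (coordI D hmM (isLevelCoeff_id M))) = 0 := by
        rw [← hQ, map_mul, show ev z = 0 from hz.1, zero_mul]
      rw [RingHom.comp_apply, Subring.subtype_apply, coe_eval_coordI, evalHom_eval_coord] at h1
      exact h1
    obtain ⟨q, hq⟩ := Polynomial.dvd_iff_isRoot.mpr h0
    refine ⟨1, fun h => one_ne_zero ((map_one ev).symm.trans h), evb q * e', ?_⟩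
    rw [one_mul, ← mul_assoc, ← map_mul, ← hq]
    exact (show z = z * e * e' by rw [mul_assoc, hee, mul_one]).trans (congrArg (· * e') hQ)) hsa
  refine ⟨(t : modRing M) * s, w, fun h => ?_, ?_⟩
  · rcases (inferInstance : P.IsPrime).mem_or_mem (x := t) (y := s) h with h | h
    exacts [ht h, hs h]
  · have h1 : ((evb p : intSub M (RingHom.id ℂ)) : modRing M) = coordSub D hmM τ := by
      rw [show ((evb p : intSub M (RingHom.id ℂ)) : modRing M) = _ from
        coe_eval_coordI D hmM (isLevelCoeff_id M) p]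
      simp [p, coordSub]
    have h2 := congrArg Subtype.val hw
    push_cast at h2
    rw [mul_assoc, h2, h1, mul_comm]

include D hmM hM in
theorem exists_point_conj_aux {σ : ℂ ≃+* ℂ} (c : modRing M → modRing M)
    (hc : ∀ G, IsConjFn M σ G (c G)) (c' : modRing M → modRing M)
    (hc' : ∀ G, IsConjFn M σ.symm G (c' G)) (τ : ℍ) :
    ∃ τ' : ℍ, ∀ G : modRing M, ordAt (c G : ℍ → ℂ) τ = ordAt (G : ℍ → ℂ) τ' := by
  have huniq : ∀ G G', IsConjFn M σ G G' → c G = G' := fun G G' h =>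
    qExp1_injective M ((hc G).trans h.symm)
  have hid : ∀ z : ℂ, c (cst M (RingHom.id ℂ) z) = cst M (RingHom.id ℂ) (σ z) := fun z =>
    huniq _ _ (ConjAll.isConjFn (conjAll_cst (σ : ℂ →+* ℂ) 1 z))
  have hmul : ∀ G H, c (G * H) = c G * c H := fun G H => huniq _ _ (by
    unfold IsConjFn
    rw [map_mul, hc G, hc H, map_mul (qExp1 M), map_mul])
  have hadd : ∀ G H, c (G + H) = c G + c H := fun G H => huniq _ _ (by
    unfold IsConjFn
    rw [map_add, hc G, hc H, map_add (qExp1 M), map_add])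
  let cH : modRing M →+* modRing M :=
    { toFun := c
      map_one' := by simpa using hid 1
      map_mul' := hmul
      map_zero' := by simpa using hid 0
      map_add' := hadd }
  have hinv : ∀ G, c (c' G) = G := fun G => huniq _ _ (by
    show qExp1 M G = _
    rw [hc' G]
    ext n
    simp)
  have hinj : Function.Injective cH := fun G H h => qExp1_injective M (by
    have h1 := congrArg (qExp1 M) h
    change qExp1 M (c G) = qExp1 M (c H) at h1
    rw [hc, hc] at h1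
    ext n
    simpa using congrArg (fun F : LaurentSeries ℂ => F.coeff n) h1)
  let ψ : intSub M (RingHom.id ℂ) →+* ℂ := (σ.symm : ℂ →+* ℂ).comp
    ((evalHom τ).comp (cH.comp (intSub M (RingHom.id ℂ)).subtype))
  obtain ⟨τ', hτ'⟩ := exists_point_of_hom D hmM hM (isLevelCoeff_id M) ψ fun r => by
    show σ.symm (evalHom τ (c (cst M (RingHom.id ℂ) r))) = r
    rw [hid]
    exact σ.symm_apply_apply r
  have hev : ∀ G : modRing M, (c G : ℍ → ℂ) τ = σ ((G : ℍ → ℂ) τ') := fun G =>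
    (σ.apply_symm_apply _).symm.trans (congrArg σ (hτ' ⟨G, mem_intSub_id M G⟩))
  have hz : ∀ G : modRing M, (c G : ℍ → ℂ) τ = 0 ↔ (G : ℍ → ℂ) τ' = 0 := fun G => by
    rw [hev, map_eq_zero_iff _ σ.injective]
  have hne : ∀ G : modRing M, G ≠ 0 → c G ≠ 0 := fun G hG h =>
    hG (hinj (h.trans (map_zero cH).symm))
  set u := coordSub D hmM τ'
  have hord : ∀ G : modRing M, G ≠ 0 → (G : ℍ → ℂ) τ' = 0 → ∃ t : modRing M, t ≠ 0 ∧
      ordAt (G : ℍ → ℂ) τ' = ordAt (t : ℍ → ℂ) τ' + 1 ∧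
      ordAt (c G : ℍ → ℂ) τ = ordAt (c t : ℍ → ℂ) τ + ordAt (c u : ℍ → ℂ) τ := by
    intro G hG hG0
    obtain ⟨s, t, hs, hst⟩ := exists_mul_eq_mul_coordSub D hmM hM hG0
    have hs0 := ne_zero_of_apply_ne hs
    have hu0 := coordSub_ne_zero D hmM τ'
    have ht0 : t ≠ 0 := fun h => by
      have := isDomain_modRing_cusp (M := M)
      rw [h, zero_mul] at hst
      exact mul_ne_zero hs0 hG hst
    refine ⟨t, ht0, ?_, ?_⟩
    · have h := congrArg (fun F : modRing M => ordAt (F : ℍ → ℂ) τ') hst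
      simp only [ordAt_modRing_mul hs0 hG, ordAt_modRing_mul ht0 hu0, (ordAt_eq_zero_iff hs0 τ').mpr hs] at h
      rw [show ordAt (u : ℍ → ℂ) τ' = 1 from ordAt_coordSub D hmM τ', zero_add] at h
      exact h
    · have h := congrArg (fun F : modRing M => ordAt (F : ℍ → ℂ) τ) (congrArg c hst)
      simp only [hmul, ordAt_modRing_mul (hne _ hs0) (hne _ hG), ordAt_modRing_mul (hne _ ht0) (hne _ hu0),
        (ordAt_eq_zero_iff (hne _ hs0) τ).mpr (mt (hz s).mp hs), zero_add] at h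
      exact h
  have hu1 : ordAt (c u : ℍ → ℂ) τ = 1 := by
    set W := c' (coordSub D hmM τ)
    have hW : c W = coordSub D hmM τ := hinv _
    have hW0 : (W : ℍ → ℂ) τ' = 0 := (hz W).mp (by rw [hW]; exact coordSub_apply_self D hmM τ)
    have hWne : W ≠ 0 := fun h => coordSub_ne_zero D hmM τ (by rw [← hW, h]; exact map_zero cH)
    obtain ⟨t, -, -, ht⟩ := hord W hWne hW0
    rw [hW, ordAt_coordSub] at ht
    have : ordAt (c u : ℍ → ℂ) τ ≠ 0 := fun h =>
      (ordAt_eq_zero_iff (hne _ (coordSub_ne_zero D hmM τ')) τ).mp h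
        ((hz u).mpr (coordSub_apply_self D hmM τ'))
    omega
  refine ⟨τ', fun G => ?_⟩
  rcases eq_or_ne G 0 with rfl | hG
  · rw [show c 0 = 0 from map_zero cH]
    simp [ordAt, analyticOrderNatAt, analyticOrderAt_eq_top.mpr, Function.comp_def]
  induction hn : ordAt (G : ℍ → ℂ) τ' generalizing G with
  | zero => exact (ordAt_eq_zero_iff (hne G hG) τ).mpr (mt (hz G).mp ((ordAt_eq_zero_iff hG τ').mp hn))
  | succ n ih =>
    have h0 : (G : ℍ → ℂ) τ' = 0 := by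
      by_contra h
      rw [(ordAt_eq_zero_iff hG τ').mpr h] at hn
      omega
    obtain ⟨t, ht, h1, h2⟩ := hord G hG h0
    rw [h2, hu1, ih t ht (by omega)]

end Orders

theorem exists_point_conj' (hM : 4 ∣ M ∨ 5 ∣ M) (hM5 : 5 ≤ M) (σ : ℂ ≃+* ℂ) (τ : ℍ) :
    ∃ τ' : ℍ, ∀ G G' : modRing M, IsConjFn M σ G G' →
      ordAt (G' : ℍ → ℂ) τ = ordAt (G : ℍ → ℂ) τ' := by
  obtain ⟨m, hm, D, hmM, -⟩ := exists_baseData hM
  choose c hc using exists_isConjFn' hM hM5 σ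
  choose c' hc' using exists_isConjFn' hM hM5 σ.symm
  obtain ⟨τ', h⟩ := exists_point_conj_aux D hmM (by omega) c hc c' hc' τ
  exact ⟨τ', fun G G' hG => by rw [← h, qExp1_injective M ((hc G).trans hG.symm)]⟩

end FermatLib.Galois.DS
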