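import Mathlib.RingTheory.DiscreteValuationRing.Basic
import Mathlib.RingTheory.AdicCompletion.Basic
import Mathlib.RingTheory.FiniteType
import Fermat.Agent.Galois.DS.LevelConj

/-!
# The integral structure of `modRing M` at a prime of good reduction
-/

set_option autoImplicit false
set_option linter.unusedSectionVars false

noncomputable section

open Complex UpperHalfPlane Function ModularCurve CongruenceSubgroup
open scoped MatrixGroups Manifold

namespace FermatLib.Galois.DS

open FermatLib.Igusa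

variable {M : ℕ} [NeZero M]

/-- `intRing` and `intSub` are the same ring. -/
def intEquiv (O : Subring ℂ) : intSub M O.subtype ≃+* intRing M O where
  toFun G := ⟨G.1, G.2⟩
  invFun G := ⟨G.1, G.2⟩
  map_mul' _ _ := rfl
  map_add' _ _ := rfl

theorem intEquiv_cstI (O : Subring ℂ) (r : O) :
    intEquiv (M := M) O (cstI O.subtype r) = algebraMap O (intRing M O) r := rfl

variable {m : ℕ} [NeZero m] {R : Type*} [CommRing R] {φ : R →+* ℂ}
variable (D : BaseData m) (hmM : m ∣ M) (hM : 1 < M) (hR : IsLevelCoeff φ M)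

include D hmM hM hR in
/-- `intSub` is generated by finitely many monomial functions. -/
theorem exists_eq_sum_monomial {G : modRing M} (hG : G ∈ intSub M φ) :
    ∃ (P : ℕ → Polynomial R) (k : ℕ → ℕ), G = ∑ i ∈ Finset.range (Fintype.card (Orb M m)),
      ∑ j ∈ Finset.range ((P i).natDegree + 1), cst M φ ((P i).coeff j) *
        (D.coord hmM ^ j * (∏ l, D.unitV hmM l) ^ k i * xEl D hmM hM ^ i) := by
  obtain ⟨q, hq, hG, -⟩ := exists_interp D hmM hM hR hG
  choose P k hP using fun i => exists_eq_eval_mul hR D hmM (hq i)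
  refine ⟨P, k, hG.trans (Finset.sum_congr rfl fun i _ => ?_)⟩
  rw [hP i, Polynomial.eval₂_eq_sum_range, Finset.sum_mul, Finset.sum_mul]
  exact Finset.sum_congr rfl fun j _ => by ring

include D hmM hM hR in
theorem monomial_mem_intSub (i j k : ℕ) :
    D.coord hmM ^ j * (∏ l, D.unitV hmM l) ^ k * xEl D hmM hM ^ i ∈ intSub M φ :=
  mul_mem (mul_mem (pow_mem (unitU_mem_baseSub hR D hmM _).1 j)
    (pow_mem (prod_mem fun l _ => (unitV_mem_baseSub hR D hmM l).1) k))
    (pow_mem (xEl_mem_intSub D hmM hM hR) i)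

include D hmM hM hR in
theorem mem_span_intSub (G : modRing M) :
    G ∈ Submodule.span ℂ (intSub M φ : Set (modRing M)) := by
  obtain ⟨P, k, hG⟩ := exists_eq_sum_monomial D hmM hM (isLevelCoeff_id M) (mem_intSub_id M G)
  rw [hG]
  refine Submodule.sum_mem _ fun i _ => Submodule.sum_mem _ fun j _ => ?_
  rw [show cst M (RingHom.id ℂ) ((P i).coeff j) = algebraMap ℂ (modRing M) ((P i).coeff j) from rfl,
    ← Algebra.smul_def]
  exact Submodule.smul_mem _ _ (Submodule.subset_span (monomial_mem_intSub D hmM hM hR i j (k i)))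

include D hmM hM hR in
/-- Descent of coefficients to a subfield. -/
theorem exists_descent (L : Subfield ℂ) (hφ : ∀ r, φ r ∈ L) {G : modRing M}
    (hG : ∀ n : ℤ, (qExp1 M G).coeff n ∈ L) :
    ∃ (N : ℕ) (c : Fin N → ℂ) (v : Fin N → modRing M), (∀ i, c i ∈ L) ∧
      (∀ i, v i ∈ intSub M φ) ∧ G = ∑ i, cst M (RingHom.id ℂ) (c i) * v i := by
  obtain ⟨N, c, v, hcv⟩ := Submodule.mem_span_set'.mp (mem_span_intSub D hmM hM hR G)
  obtain ⟨π, hπ⟩ := (Algebra.linearMap L ℂ).exists_leftInverse_of_injective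
    (LinearMap.ker_eq_bot.mpr Subtype.val_injective)
  have hπ' : ∀ z : L, π (z : ℂ) = z := fun z => LinearMap.congr_fun hπ z
  refine ⟨N, fun i => π (c i), fun i => v i, fun i => (π (c i)).2, fun i => (v i).2, ?_⟩
  have hcst : ∀ (a : ℂ) (y : modRing M), cst M (RingHom.id ℂ) a * y = a • y := fun a y =>
    (Algebra.smul_def a y).symm
  simp only [hcst]
  refine qExp1_injective M ?_
  ext n
  have hvn : ∀ i, (qExp1 M (v i : modRing M)).coeff n ∈ L := fun i => by
    obtain ⟨F, hF⟩ := (v i).2 1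
    have h := congrArg (fun F : LaurentSeries ℂ => F.coeff ((M : ℤ) * n)) hF
    simp only [cuspExp_one_eq, qExpand_coeff_mul, coeffMap_coeff] at h
    rw [← h]
    exact hφ _
  have key : ∀ d : Fin N → ℂ, (qExp1 M (∑ i, d i • (v i : modRing M))).coeff n =
      ∑ i, d i * (qExp1 M (v i : modRing M)).coeff n := fun d => by
    rw [map_sum, HahnSeries.coeff_sum]
    exact Finset.sum_congr rfl fun i _ => by
      rw [Algebra.smul_def, map_mul, AlgHom.commutes, algebraMap_laurentSeries_eq_single,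
        HahnSeries.coeff_single_mul, sub_zero]
  have h1 : π ((qExp1 M G).coeff n) = ∑ i, (⟨_, hvn i⟩ : L) • π (c i) := by
    rw [← hcv, key, map_sum]
    refine Finset.sum_congr rfl fun i _ => ?_
    rw [← map_smul, mul_comm]
    rfl
  rw [key]
  have h2 := congrArg (Subtype.val (p := (· ∈ L))) (hπ' ⟨_, hG n⟩)
  rw [h1] at h2
  push_cast at h2
  rw [← h2]
  exact Finset.sum_congr rfl fun i _ => mul_comm _ _

section Integral

variable (O : Subring ℂ) [IsDiscreteValuationRing O] {p : ℕ}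

theorem exists_smul_mem_intRing' (hM : 4 ∣ M ∨ 5 ∣ M) (hM5 : 5 ≤ M) (hp : p.Prime)
    (hpM : ¬ p ∣ M) (hpO : (p : O) ∈ IsLocalRing.maximalIdeal O)
    (hζ : Complex.exp (2 * Real.pi * Complex.I / M) ∈ O) (G : modRing M)
    (hG : ∀ n : ℤ, ∃ a b : O, b ≠ 0 ∧ (b : ℂ) * (qExp1 M G).coeff n = a) :
    ∃ c : O, c ≠ 0 ∧ c • G ∈ intRing M O := by
  obtain ⟨m, hm, D, hmM, -⟩ := exists_baseData hM
  have hR := isLevelCoeff_subtype M hp hpM hpO hζ
  let L : Subfield ℂ := Subfield.closure (O : Set ℂ)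
  have hL : ∀ z ∈ L, ∃ b : O, b ≠ 0 ∧ (b : ℂ) * z ∈ O := fun z hz => by
    obtain ⟨a, ha, b, hb, rfl⟩ := Subfield.mem_closure_iff.mp hz
    rw [Subring.closure_eq] at ha hb
    rcases eq_or_ne b 0 with rfl | hb0
    · exact ⟨1, one_ne_zero, by simp⟩
    · refine ⟨⟨b, hb⟩, fun h => hb0 (congrArg Subtype.val h), ?_⟩
      rwa [show b * (a / b) = a by field_simp]
  obtain ⟨N, c, v, hc, hv, hcv⟩ := exists_descent D hmM (by omega) hR L
    (fun r => Subfield.subset_closure r.2) (G := G) fun n => by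
      obtain ⟨a, b, hb, hab⟩ := hG n
      have hb' : (b : ℂ) ≠ 0 := fun h => hb (Subtype.ext h)
      rw [show (qExp1 M G).coeff n = (a : ℂ) / b by rw [← hab]; field_simp]
      exact div_mem (Subfield.subset_closure a.2) (Subfield.subset_closure b.2)
  choose b hb0 hb using fun i => hL _ (hc i)
  classical
  refine ⟨∏ i, b i, Finset.prod_ne_zero_iff.mpr fun i _ => hb0 i, ?_⟩
  rw [hcv, Finset.smul_sum]
  refine sum_mem fun i _ => ?_
  rw [Algebra.smul_def, ← mul_assoc, show algebraMap O (modRing M) (∏ l, b l) =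
    cst M (RingHom.id ℂ) ((∏ l, b l : O) : ℂ) from rfl, ← map_mul]
  refine mul_mem ?_ (hv i)
  have hmem : ((∏ l, b l : O) : ℂ) * c i ∈ O := by
    rw [← Finset.mul_prod_erase _ _ (Finset.mem_univ i), mul_comm (b i), Subring.coe_mul, mul_assoc]
    exact mul_mem (Finset.prod (Finset.univ.erase i) b).2 (hb i)
  exact cst_mem_intSub O.subtype ⟨_, hmem⟩

theorem finiteType_intRing' (hM : 4 ∣ M ∨ 5 ∣ M) (hM5 : 5 ≤ M) (hp : p.Prime)
    (hpM : ¬ p ∣ M) (hpO : (p : O) ∈ IsLocalRing.maximalIdeal O)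
    (hζ : Complex.exp (2 * Real.pi * Complex.I / M) ∈ O) :
    Algebra.FiniteType O (intRing M O) := by
  classical
  obtain ⟨m, hm, D, hmM, -⟩ := exists_baseData hM
  have hR := isLevelCoeff_subtype M hp hpM hpO hζ
  have h1M : 1 < M := by omega
  let gb : intRing M O := ⟨D.coord hmM, (unitU_mem_baseSub hR D hmM _).1⟩
  let gv : intRing M O := ⟨∏ l, D.unitV hmM l,
    (prod_mem fun l _ => (unitV_mem_baseSub hR D hmM l).1 :
      (∏ l, D.unitV hmM l) ∈ intSub M O.subtype)⟩
  let gx : intRing M O := ⟨xEl D hmM h1M, xEl_mem_intSub D hmM h1M hR⟩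
  refine ⟨⟨{gb, gv, gx}, eq_top_iff.mpr fun G _ => ?_⟩⟩
  set S := Algebra.adjoin O (({gb, gv, gx} : Finset (intRing M O)) : Set (intRing M O))
  obtain ⟨P, k, hG⟩ := exists_eq_sum_monomial D hmM h1M hR (G := (G : modRing M)) G.2
  have hmem : ∀ y ∈ ({gb, gv, gx} : Finset (intRing M O)), y ∈ S := fun y hy =>
    Algebra.subset_adjoin hy
  have key : G = ∑ i ∈ Finset.range (Fintype.card (Orb M m)),
      ∑ j ∈ Finset.range ((P i).natDegree + 1), algebraMap O (intRing M O) ((P i).coeff j) *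
        (gb ^ j * gv ^ k i * gx ^ i) := Subtype.ext (by rw [hG]; push_cast; rfl)
  rw [key]
  exact sum_mem fun i _ => sum_mem fun j _ => mul_mem (S.algebraMap_mem _)
    (mul_mem (mul_mem (pow_mem (hmem gb (by simp)) j) (pow_mem (hmem gv (by simp)) _))
      (pow_mem (hmem gx (by simp)) i))

theorem exists_two_generators' (hM : 4 ∣ M ∨ 5 ∣ M) (hM5 : 5 ≤ M) (hp : p.Prime)
    (hpM : ¬ p ∣ M) (hpO : (p : O) ∈ IsLocalRing.maximalIdeal O)
    (hζ : Complex.exp (2 * Real.pi * Complex.I / M) ∈ O) {ϖ : O} (hϖ : Irreducible ϖ)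
    (x : Ideal (intRing M O)) [x.IsMaximal] (hx : algebraMap O (intRing M O) ϖ ∈ x) :
    ∃ f ∈ x, ∀ a ∈ x, ∃ s ∉ x, s * a ∈ Ideal.span {algebraMap O (intRing M O) ϖ, f} := by
  obtain ⟨m, hm, D, hmM, -⟩ := exists_baseData hM
  have hR := isLevelCoeff_subtype M hp hpM hpO hζ
  have h1M : 1 < M := by omega
  set e := intEquiv (M := M) O
  let P : Ideal (intSub M O.subtype) := x.comap (e : intSub M O.subtype →+* intRing M O)
  have : P.IsPrime := Ideal.IsPrime.comap _
  let evb : Polynomial O →+* intSub M O.subtype :=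
    Polynomial.eval₂RingHom (cstI O.subtype) (coordI D hmM hR)
  let π : Polynomial O →+* Polynomial (IsLocalRing.ResidueField O) :=
    Polynomial.mapRingHom (IsLocalRing.residue O)
  have hπ : Function.Surjective π :=
    Polynomial.map_surjective _ IsLocalRing.residue_surjective
  obtain ⟨gbar, hgbar⟩ := (IsPrincipalIdealRing.principal ((P.comap evb).map π)).principal
  have hgmem : gbar ∈ (P.comap evb).map π := hgbar ▸ Submodule.mem_span_singleton_self gbar
  obtain ⟨g, hgI, hg⟩ := (Ideal.mem_map_iff_of_surjective π hπ).mp hgmem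
  refine ⟨e (evb g), hgI, fun a ha => ?_⟩
  set c : intRing M O := algebraMap O (intRing M O) ϖ
  obtain ⟨s, hs, hsa⟩ := exists_local_mem D hmM h1M hR P (a := e.symm a)
    (by show e (e.symm a) ∈ x; rwa [e.apply_symm_apply])
  refine ⟨e s, hs, ?_⟩
  have hle : basePart P m ≤
      (Ideal.span {c, e (evb g)}).comap (e : intSub M O.subtype →+* intRing M O) := by
    refine Ideal.span_le.mpr fun z hz => ?_
    obtain ⟨Q, e₁, e₂, hee, hQ⟩ := exists_eval_coordI D hmM hR hz.2
    have hQI : Q ∈ P.comap evb := by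
      show evb Q ∈ P
      rw [show evb Q = z * e₁ from hQ.symm]
      exact P.mul_mem_right _ hz.1
    have hQbar : π Q ∈ Ideal.span {gbar} := by
      have h := Ideal.mem_map_of_mem π hQI
      rw [hgbar] at h
      exact h
    obtain ⟨hbar, hhbar⟩ := Ideal.mem_span_singleton'.mp hQbar
    obtain ⟨h, rfl⟩ := hπ hbar
    obtain ⟨r, hr⟩ : Polynomial.C ϖ ∣ Q - h * g := by
      rw [Polynomial.C_dvd_iff_dvd_coeff]
      intro i
      rw [← Ideal.mem_span_singleton, ← hϖ.maximalIdeal_eq, ← IsLocalRing.residue_eq_zero_iff,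
        ← Polynomial.coeff_map]
      have h0 : π (Q - h * g) = 0 := by rw [map_sub, map_mul, hg, hhbar, sub_self]
      exact (congrArg (fun T => Polynomial.coeff T i) h0).trans (Polynomial.coeff_zero i)
    show e z ∈ Ideal.span {c, e (evb g)}
    rw [show z = e₂ * evb (h * g + Polynomial.C ϖ * r) by
      rw [← hr, add_sub_cancel, show evb Q = z * e₁ from hQ.symm, mul_comm z, ← mul_assoc,
        mul_comm e₂, hee, one_mul], map_mul, map_add, map_mul, map_mul, map_add, map_mul, map_mul]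
    refine Ideal.mul_mem_left _ _ (add_mem (Ideal.mul_mem_left _ _ (Ideal.subset_span (by simp)))
      (Ideal.mul_mem_right _ _ ?_))
    rw [show e (evb (Polynomial.C ϖ)) = c from
      (congrArg e (Polynomial.eval₂_C _ _)).trans (intEquiv_cstI O ϖ)]
    exact Ideal.subset_span (by simp)
  have h := hle hsa
  change e (s * e.symm a) ∈ _ at h
  rwa [map_mul, e.apply_symm_apply] at h

theorem exists_point_of_prime' (hM : 4 ∣ M ∨ 5 ∣ M) (hM5 : 5 ≤ M) (hp : p.Prime)
    (hpM : ¬ p ∣ M) (hpO : (p : O) ∈ IsLocalRing.maximalIdeal O)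
    (hζ : Complex.exp (2 * Real.pi * Complex.I / M) ∈ O) {ϖ : O} (hϖ : Irreducible ϖ)
    (P : Ideal (intRing M O)) [P.IsPrime] (hP : P ≠ ⊥) (hPϖ : algebraMap O (intRing M O) ϖ ∉ P) :
    ∃ (τ : ℍ) (u : intRing M O), u ∈ P ∧ ordAt ((u : modRing M) : ℍ → ℂ) τ = 1 ∧
      (∀ a : intRing M O, a ∈ P ↔ ((a : modRing M) : ℍ → ℂ) τ = 0) ∧
      ∀ a ∈ P, ∃ s ∉ P, u ∣ s * a := by
  obtain ⟨m, hm, D, hmM, -⟩ := exists_baseData hM
  have hR := isLevelCoeff_subtype M hp hpM hpO hζ
  set e := intEquiv (M := M) O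
  let P' : Ideal (intSub M O.subtype) := P.comap (e : intSub M O.subtype →+* intRing M O)
  have : P'.IsPrime := Ideal.IsPrime.comap _
  have hP' : P' ≠ ⊥ := by
    obtain ⟨a, ha, ha0⟩ := Submodule.exists_mem_ne_zero_of_ne_bot hP
    exact fun h => ha0 (e.symm.injective ((show e.symm a = 0 from
      (Submodule.mem_bot _).mp (h ▸ (show e.symm a ∈ P' by
        show e (e.symm a) ∈ P; rwa [e.apply_symm_apply]))).trans (map_zero e.symm).symm))
  obtain ⟨τ, u, hu, hord, hiff, hloc⟩ := exists_prime_point D hmM (by omega) hR P' hP' fun r hr => by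
    by_contra h0
    obtain ⟨n, u, rfl⟩ := IsDiscreteValuationRing.eq_unit_mul_pow_irreducible h0 hϖ
    change algebraMap O (intRing M O) _ ∈ P at hr
    rw [map_mul, map_pow] at hr
    rcases (inferInstance : P.IsPrime).mem_or_mem hr with h | h
    · exact (inferInstance : P.IsPrime).ne_top (P.eq_top_of_isUnit_mem h (u.isUnit.map _))
    · exact hPϖ ((inferInstance : P.IsPrime).mem_of_pow_mem n h)
  refine ⟨τ, e u, hu, hord, fun a => ?_, fun a ha => ?_⟩
  · have h := hiff (e.symm a)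
    rw [show e.symm a ∈ P' ↔ a ∈ P by
      show e (e.symm a) ∈ P ↔ _; rw [e.apply_symm_apply]] at h
    exact h
  · obtain ⟨s, hs, hsa⟩ := hloc (e.symm a) (by show e (e.symm a) ∈ P; rwa [e.apply_symm_apply])
    refine ⟨e s, hs, ?_⟩
    have h := map_dvd e hsa
    rwa [map_mul, e.apply_symm_apply] at h

end Integral

end FermatLib.Galois.DS
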