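import Mathlib.RingTheory.DiscreteValuationRing.Basic
import Mathlib.RingTheory.AdicCompletion.Basic
import Fermat.Agent.Galois.DS.LevelIntegral

/-!
# Functions with bounded poles modulo a constant
-/

set_option autoImplicit false
set_option linter.unusedSectionVars false

noncomputable section

open Complex UpperHalfPlane Function ModularCurve CongruenceSubgroup
open scoped MatrixGroups

namespace FermatLib.Galois.DS

open FermatLib.Igusa

variable {M m : ℕ} [NeZero M] [NeZero m] {R : Type*} [CommRing R] {φ : R →+* ℂ}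

/-- The expansion at a cusp with coefficients in `R`. -/
def expR (hφ : Injective φ) (A : SL(2, ℤ)) : intSub M φ →+* LaurentSeries R where
  toFun G := (G.2 A).choose
  map_one' := coeffMap_injective hφ ((((1 : intSub M φ)).2 A).choose_spec.trans
    (by rw [map_one]; exact map_one (cuspExp M A)))
  map_mul' G H := coeffMap_injective hφ (((G * H).2 A).choose_spec.trans
    (by rw [map_mul, (G.2 A).choose_spec, (H.2 A).choose_spec]; exact map_mul (cuspExp M A) _ _))
  map_zero' := coeffMap_injective hφ ((((0 : intSub M φ)).2 A).choose_spec.trans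
    (by rw [map_zero]; exact map_zero (cuspExp M A)))
  map_add' G H := coeffMap_injective hφ (((G + H).2 A).choose_spec.trans
    (by rw [map_add, (G.2 A).choose_spec, (H.2 A).choose_spec]; exact map_add (cuspExp M A) _ _))

theorem coeffMap_expR (hφ : Injective φ) (A : SL(2, ℤ)) (G : intSub M φ) :
    coeffMap φ (expR hφ A G) = cuspExp M A (G : modRing M) :=
  (G.2 A).choose_spec

theorem expR_eq (hφ : Injective φ) {A : SL(2, ℤ)} {G : intSub M φ} {F : LaurentSeries R}
    (h : cuspExp M A (G : modRing M) = coeffMap φ F) : expR hφ A G = F :=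
  coeffMap_injective hφ ((coeffMap_expR hφ A G).trans h)

theorem expR_cstI (hφ : Injective φ) (A : SL(2, ℤ)) (r : R) :
    expR (M := M) hφ A (cstI φ r) = HahnSeries.single 0 r :=
  expR_eq hφ (by rw [coeffMap_single]; exact cuspExp_cst φ A r)

/-- The expansion at a cusp modulo `c`. -/
def expMod (hφ : Injective φ) (c : R) (A : SL(2, ℤ)) :
    intSub M φ →+* LaurentSeries (R ⧸ Ideal.span {c}) :=
  (coeffMap (Ideal.Quotient.mk (Ideal.span {c}))).comp (expR hφ A)

/-- Poles of order at most `n` modulo `c`, at every cusp. -/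
def ModLE (hφ : Injective φ) (c : R) (n : ℕ) (G : intSub M φ) : Prop :=
  ∀ (A : SL(2, ℤ)) (i : ℤ), i < -(n : ℤ) → (expMod hφ c A G).coeff i = 0

theorem expMod_cstI_self (hφ : Injective φ) (c : R) (A : SL(2, ℤ)) :
    expMod (M := M) hφ c A (cstI φ c) = 0 := by
  rw [expMod, RingHom.comp_apply, expR_cstI, coeffMap_single,
    Ideal.Quotient.eq_zero_iff_mem.mpr (Ideal.mem_span_singleton_self c),
    HahnSeries.single_eq_zero]

theorem leadUnit_expMod (hφ : Injective φ) (c : R) {A : SL(2, ℤ)} {G : intSub M φ} {o : ℤ}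
    (h : LeadUnit (expR hφ A G) o) : LeadUnit (expMod hφ c A G) o := by
  refine ⟨fun k hk => ?_, ?_⟩
  · rw [expMod, RingHom.comp_apply, coeffMap_coeff, h.1 k hk, map_zero]
  · rw [expMod, RingHom.comp_apply, coeffMap_coeff]
    exact h.2.map _

theorem PoleLE.mul {A : SL(2, ℤ)} {G H : modRing M} {a b : ℤ} (hG : PoleLE M A G a)
    (hH : PoleLE M A H b) : PoleLE M A (G * H) (a + b) := fun i hi => by
  rw [map_mul]
  exact coeff_mul_eq_zero_of_lt hG hH (by omega)

theorem PoleLE.pow {A : SL(2, ℤ)} {G : modRing M} {a : ℤ} (hG : PoleLE M A G a) :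
    ∀ k : ℕ, PoleLE M A (G ^ k) (k * a)
  | 0 => fun i hi => by
    rw [pow_zero, map_one, HahnSeries.coeff_one, if_neg]
    simp at hi
    omega
  | k + 1 => by
    rw [pow_succ, show ((k + 1 : ℕ) : ℤ) * a = k * a + a by push_cast; ring]
    exact (PoleLE.pow hG k).mul hG

theorem PoleLE.mono {A : SL(2, ℤ)} {G : modRing M} {a b : ℤ} (hG : PoleLE M A G a) (h : a ≤ b) :
    PoleLE M A G b := fun i hi => hG i (by omega)

theorem PoleLE.sum {A : SL(2, ℤ)} {ι : Type*} (t : Finset ι) {G : ι → modRing M} {a : ℤ}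
    (h : ∀ i ∈ t, PoleLE M A (G i) a) : PoleLE M A (∑ i ∈ t, G i) a := fun j hj => by
  rw [map_sum, HahnSeries.coeff_sum, Finset.sum_eq_zero fun i hi => h i hi j hj]

theorem poleLE_cst (A : SL(2, ℤ)) (r : R) : PoleLE M A (cst M φ r) 0 := fun i hi => by
  rw [cuspExp_cst, HahnSeries.coeff_single_of_ne (by omega)]

theorem coeff_mul_lowest {F G : LaurentSeries R} (hF : ∀ k < (0 : ℤ), F.coeff k = 0)
    (hG : ∀ k < (0 : ℤ), G.coeff k = 0) : (F * G).coeff 0 = F.coeff 0 * G.coeff 0 := by
  rw [eq_single_mul_mk F hF, eq_single_mul_mk G hG, mul_mul_mul_comm,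
    HahnSeries.single_mul_single, one_mul, ← map_mul]
  simp only [HahnSeries.coeff_single_mul, one_mul, sub_self, add_zero]
  rw [show (0 : ℤ) = ((0 : ℕ) : ℤ) from rfl]
  simp only [HahnSeries.ofPowerSeries_apply_coeff, PowerSeries.coeff_zero_eq_constantCoeff_apply]
  rw [map_mul]

variable (D : BaseData m) (hmM : m ∣ M) (hM : 1 < M) (hR : IsLevelCoeff φ M)

/-- The units as elements of `intSub`. -/
def unitUI (i : Fin D.r) : intSub M φ := ⟨D.unitU hmM i, (unitU_mem_baseSub hR D hmM i).1⟩

/-- The inverse units as elements of `intSub`. -/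
def unitVI (i : Fin D.r) : intSub M φ := ⟨D.unitV hmM i, (unitV_mem_baseSub hR D hmM i).1⟩

theorem unitUI_mul_unitVI (i : Fin D.r) : unitUI D hmM hR i * unitVI D hmM hR i = 1 :=
  Subtype.ext (D.unitU_mul_unitV hmM i)

theorem leadUnit_expR_unitUI (i : Fin D.r) (A : SL(2, ℤ)) :
    LeadUnit (expR hR.injective A (unitUI D hmM hR i)) ((D.unit hmM i).ord A) := by
  obtain ⟨F, hF, hF'⟩ := exists_cuspExp_unitFn M hR (D.unit hmM i) (D.unit_invariant_M hmM i) A
  rwa [expR_eq hR.injective (G := unitUI D hmM hR i) hF]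

theorem leadUnit_expR_unitVI (i : Fin D.r) (A : SL(2, ℤ)) :
    LeadUnit (expR hR.injective A (unitVI D hmM hR i)) (-(D.unit hmM i).ord A) := by
  obtain ⟨F, hF, hF'⟩ := exists_cuspExp_unitFn M hR (D.unit hmM i).flip
    (fun γ hγ => (D.unit_invariant_M hmM i γ hγ).symm) A
  rw [UnitQuot.ord_flip] at hF'
  rwa [expR_eq hR.injective (G := unitVI D hmM hR i) hF]

include D hmM in
theorem unit_ord_nonneg (i : Fin D.r) {A : SL(2, ℤ)} (hA : ¬ IsBaseInf m A) :
    0 ≤ (D.unit hmM i).ord A := by
  rw [D.unit_ord hmM]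
  have h0 := D.ord_nonneg i _ _ (isPrimCol_col A) hA
  positivity

include hR in
/-- Every unit vanishes at some cusp. -/
theorem exists_cusp_unit_ord_pos (i : Fin D.r) :
    ∃ A : SL(2, ℤ), ¬ IsBaseInf m A ∧ 0 < (D.unit hmM i).ord A := by
  by_contra! hne
  have hzero : ∀ A, ¬ IsBaseInf m A → (D.unit hmM i).ord A = 0 := fun A hA =>
    le_antisymm (hne A hA) (unit_ord_nonneg D hmM i hA)
  have hVpole : ∀ (A : SL(2, ℤ)) (k : ℤ), -(D.unit hmM i).ord A ≥ -k →
      PoleLE M A (D.unitV hmM i) k := fun A k hk j hj => by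
    rw [show D.unitV hmM i = ((unitVI D hmM hR i : intSub M φ) : modRing M) from rfl,
      ← coeffMap_expR hR.injective, coeffMap_coeff, (leadUnit_expR_unitVI D hmM hR i A).1 j
        (by omega), map_zero]
  obtain ⟨P, hdeg, hP⟩ := exists_poly_of_poleLE hR D hmM (unitV_mem_baseSub hR D hmM i)
    (fun A hA => hVpole A 0 (by simp [hzero A hA])) (n := 0)
    (hVpole 1 _ (by rw [unit_ord_one D hmM i]; simp))
  obtain ⟨c, d, hc, hcd⟩ := exists_unitU_eq_affine hR D hmM i
  have key : (Polynomial.C c * Polynomial.X + Polynomial.C d) * P = Polynomial.C 1 :=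
    eval_coord_injective hR D hmM (by
      simp only [Polynomial.eval₂_mul, Polynomial.eval₂_add, Polynomial.eval₂_C,
        Polynomial.eval₂_X, Polynomial.eval₂_one, ← hcd, ← hP, map_one]
      exact D.unitU_mul_unitV hmM i)
  rw [Polynomial.eq_C_of_natDegree_le_zero hdeg] at key
  have h0 := congrArg (fun T => Polynomial.coeff T 1) key
  have h1 := congrArg (fun T => Polynomial.coeff T 0) key
  simp only [add_mul, Polynomial.coeff_add, Polynomial.coeff_mul_C, Polynomial.coeff_C_mul,
    Polynomial.coeff_X_one, Polynomial.coeff_X_zero, Polynomial.coeff_C_succ,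
    Polynomial.coeff_C_zero, mul_one, mul_zero, add_zero, zero_mul, zero_add] at h0 h1
  have : Nontrivial R := φ.domain_nontrivial
  rw [hc.mul_right_eq_zero] at h0
  rw [h0, mul_zero] at h1
  exact zero_ne_one h1

/-- `P(b) ∏ V^K`. -/
def baseVal (P : Polynomial R) (K : Fin D.r → ℕ) : intSub M φ :=
  P.eval₂ (cstI φ) (coordI D hmM hR) * ∏ i, unitVI D hmM hR i ^ K i

theorem baseVal_mul_units (P : Polynomial R) (K : Fin D.r → ℕ) :
    baseVal D hmM hR P K * ∏ i, unitUI D hmM hR i ^ K i =
      P.eval₂ (cstI φ) (coordI D hmM hR) := by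
  rw [baseVal, mul_assoc, ← Finset.prod_mul_distrib, Finset.prod_eq_one fun i _ => by
    rw [← mul_pow, mul_comm, unitUI_mul_unitVI, one_pow], mul_one]

include hR in
/-- A polynomial value with high vanishing order modulo `c` kills a root of a unit. -/
theorem dvd_eval_of_modLE {c : R} {n : ℕ} {P : Polynomial R} {K : Fin D.r → ℕ}
    (hG : ModLE hR.injective c n (baseVal D hmM hR P K)) {s : Fin D.r} (hs : n < K s) {a b : R}
    (hab : D.unitU hmM s = cst M φ a * D.coord hmM + cst M φ b) {β : R} (hβ : a * β + b = 0)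
    (ha : IsUnit a) : c ∣ P.eval β := by
  obtain ⟨A, hA, hpos⟩ := exists_cusp_unit_ord_pos D hmM hR s
  set B := expR hR.injective A (coordI D hmM hR)
  set π := Ideal.Quotient.mk (Ideal.span {c})
  have hB : ∀ k < (0 : ℤ), B.coeff k = 0 := fun k hk => by
    have h := (leadUnit_expR_unitUI D hmM hR D.main A).1 k
      (lt_of_lt_of_le hk (unit_ord_nonneg D hmM D.main hA))
    exact h
  have hBpow : ∀ j : ℕ, (∀ k < (0 : ℤ), (B ^ j).coeff k = 0) ∧ (B ^ j).coeff 0 = B.coeff 0 ^ j := by
    intro j
    induction j with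
    | zero => simp [HahnSeries.coeff_one]; intro k hk; omega
    | succ j ih =>
      refine ⟨fun k hk => by rw [pow_succ]; exact coeff_mul_eq_zero_of_lt ih.1 hB (by omega), ?_⟩
      rw [pow_succ, pow_succ, ← ih.2]
      exact coeff_mul_lowest ih.1 hB
  have hB0 : B.coeff 0 = β := by
    have h := (leadUnit_expR_unitUI D hmM hR s A).1 0 hpos
    rw [show unitUI D hmM hR s = cstI φ a * coordI D hmM hR + cstI φ b from Subtype.ext hab,
      map_add, map_mul, expR_cstI, expR_cstI, HahnSeries.coeff_add, HahnSeries.coeff_single_mul,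
      sub_zero, HahnSeries.coeff_single_same] at h
    exact ha.mul_left_cancel (add_right_cancel (h.trans hβ.symm))
  have hPB : (expR hR.injective A (P.eval₂ (cstI φ) (coordI D hmM hR))).coeff 0 = P.eval β := by
    rw [Polynomial.eval₂_eq_sum_range, map_sum, HahnSeries.coeff_sum,
      Polynomial.eval_eq_sum_range]
    refine Finset.sum_congr rfl fun j _ => ?_
    rw [map_mul, map_pow, expR_cstI, HahnSeries.coeff_single_mul, sub_zero, (hBpow j).2, hB0]
  have hord : (n : ℤ) < ∑ i, (K i : ℤ) * (D.unit hmM i).ord A := by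
    refine lt_of_lt_of_le ?_ (Finset.single_le_sum (f := fun i => (K i : ℤ) * (D.unit hmM i).ord A)
      (fun i _ => mul_nonneg (Int.natCast_nonneg _) (unit_ord_nonneg D hmM i hA))
      (Finset.mem_univ s))
    calc (n : ℤ) < K s := by exact_mod_cast hs
      _ ≤ _ := le_mul_of_one_le_right (Int.natCast_nonneg _) hpos
  have h0 : (expMod hR.injective c A (P.eval₂ (cstI φ) (coordI D hmM hR))).coeff 0 = 0 := by
    rw [← baseVal_mul_units D hmM hR P K, map_mul, map_prod]
    refine coeff_mul_eq_zero_of_lt (hG A) (b := ∑ i, (K i : ℤ) * (D.unit hmM i).ord A) ?_ (by omega)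
    refine (LeadUnit.prod Finset.univ fun i _ => ?_).1
    rw [map_pow]
    exact (leadUnit_expMod hR.injective c (leadUnit_expR_unitUI D hmM hR i A)).pow _
  rw [expMod, RingHom.comp_apply, coeffMap_coeff, hPB, Ideal.Quotient.eq_zero_iff_mem,
    Ideal.mem_span_singleton] at h0
  exact h0

include hR in
/-- Approximation on the base. -/
theorem exists_approx_base (n : ℕ) :
    ∃ n' : ℕ, ∀ (c : R) (P : Polynomial R) (K : Fin D.r → ℕ),
      ModLE hR.injective c n (baseVal D hmM hR P K) →
      ∃ H G₁ : intSub M φ, baseVal D hmM hR P K = H + cstI φ c * G₁ ∧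
        ∀ A, PoleLE M A (H : modRing M) n' := by
  classical
  obtain ⟨kb, hkb⟩ := exists_poleBound M (D.coord hmM)
  choose kv hkv using fun i => exists_poleBound M (D.unitV hmM i)
  set N : ℕ := n + D.r * n with hN
  refine ⟨N * kb + ∑ i, n * kv i, fun c P K hG => ?_⟩
  induction hsum : (∑ i, K i) using Nat.strong_induction_on generalizing P K with
  | _ w ih =>
  by_cases hbig : ∃ s, n < K s
  · obtain ⟨s, hs⟩ := hbig
    obtain ⟨a, b, ha, hab⟩ := exists_unitU_eq_affine hR D hmM s
    obtain ⟨ua, rfl⟩ := ha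
    set β : R := -(↑ua⁻¹ * b)
    have hβ : (ua : R) * β + b = 0 := by simp [β]
    obtain ⟨r, hr⟩ := dvd_eval_of_modLE D hmM hR hG hs hab hβ ua.isUnit
    obtain ⟨Q, hQ⟩ : ∃ Q, P - Polynomial.C (P.eval β) = (Polynomial.X - Polynomial.C β) * Q :=
      ⟨_, (Polynomial.mul_divByMonic_eq_iff_isRoot.mpr (by simp [Polynomial.IsRoot])).symm⟩
    set K' := Function.update K s (K s - 1)
    have hK : ∀ i, K i = K' i + if i = s then 1 else 0 := fun i => by
      rcases eq_or_ne i s with rfl | h
      · simp [K']; omega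
      · simp [K', h]
    have hprod : ∏ i, unitVI D hmM hR i ^ K i =
        (∏ i, unitVI D hmM hR i ^ K' i) * unitVI D hmM hR s := by
      simp only [hK, pow_add, Finset.prod_mul_distrib, pow_ite, pow_one, pow_zero,
        Finset.prod_ite_eq', Finset.mem_univ, if_true]
    have key : baseVal D hmM hR P K = baseVal D hmM hR (Polynomial.C (↑ua⁻¹ : R) * Q) K' +
        cstI φ c * (cstI φ r * ∏ i, unitVI D hmM hR i ^ K i) := by
      rw [← mul_assoc, ← map_mul, ← hr, baseVal]
      conv_lhs => rw [show P = (Polynomial.X - Polynomial.C β) * Q + Polynomial.C (P.eval β) by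
        rw [← hQ, sub_add_cancel]]
      rw [Polynomial.eval₂_add, add_mul, Polynomial.eval₂_C]
      congr 1
      rw [baseVal, Polynomial.eval₂_mul, Polynomial.eval₂_mul, Polynomial.eval₂_C, hprod]
      have hU : (Polynomial.X - Polynomial.C β).eval₂ (cstI φ) (coordI D hmM hR) =
          cstI φ (↑ua⁻¹ : R) * unitUI D hmM hR s := by
        rw [show unitUI D hmM hR s = cstI φ (ua : R) * coordI D hmM hR + cstI φ b from
          Subtype.ext hab, mul_add, ← mul_assoc, ← map_mul, Units.inv_mul, map_one, one_mul,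
          Polynomial.eval₂_sub, Polynomial.eval₂_X, Polynomial.eval₂_C, ← map_mul, sub_eq_add_neg,
          ← map_neg, neg_neg]
      rw [hU]
      linear_combination (cstI φ (↑ua⁻¹ : R) * Q.eval₂ (cstI φ) (coordI D hmM hR) *
        ∏ i, unitVI D hmM hR i ^ K' i) * unitUI_mul_unitVI D hmM hR s
    have hG' : ModLE hR.injective c n
        (baseVal D hmM hR (Polynomial.C (↑ua⁻¹ : R) * Q) K') := fun A i hi => by
      have h := hG A i hi
      rwa [key, map_add, map_mul, expMod_cstI_self, zero_mul, add_zero] at h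
    have hlt : ∑ i, K' i < w := by
      rw [← hsum]
      refine Finset.sum_lt_sum (fun i _ => by rw [hK i]; omega) ⟨s, Finset.mem_univ s, ?_⟩
      rw [hK s, if_pos rfl]
      omega
    obtain ⟨H, G₁, hHG, hH⟩ := ih _ hlt _ K' hG' rfl
    refine ⟨H, G₁ + cstI φ r * ∏ i, unitVI D hmM hR i ^ K i, ?_, hH⟩
    rw [key, hHG]; ring
  · push Not at hbig
    set π := Ideal.Quotient.mk (Ideal.span {c})
    have hcoef : ∀ j, N < j → c ∣ P.coeff j := by
      by_contra! hex
      obtain ⟨j, hj, hjc⟩ := hex
      have hne : P.map π ≠ 0 := fun h => hjc (by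
        have h1 := congrArg (fun T => Polynomial.coeff T j) h
        simp only [Polynomial.coeff_map, Polynomial.coeff_zero] at h1
        exact Ideal.mem_span_singleton.mp (Ideal.Quotient.eq_zero_iff_mem.mp h1))
      set d := (P.map π).natDegree
      have hjd : j ≤ d := Polynomial.le_natDegree_of_ne_zero (by
        rw [Polynomial.coeff_map]
        exact fun h => hjc (Ideal.mem_span_singleton.mp (Ideal.Quotient.eq_zero_iff_mem.mp h)))
      apply (Polynomial.leadingCoeff_ne_zero.mpr hne)
      set P₁ : Polynomial R := ∑ i ∈ Finset.range (d + 1), Polynomial.monomial i (P.coeff i)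
      have hP₁ : P₁.map π = P.map π := by
        conv_rhs => rw [(P.map π).as_sum_range]
        simp [P₁, Polynomial.map_sum, Polynomial.coeff_map, d]
      have hdeg : P₁.natDegree ≤ d := Polynomial.natDegree_sum_le_of_forall_le _ _ fun i hi =>
        (Polynomial.natDegree_monomial_le _).trans (by simpa using Finset.mem_range_succ_iff.mp hi)
      obtain ⟨e, he, hlead⟩ := exists_coord_lead hR D hmM
      have h1 := (hlead P₁ d hdeg).2
      rw [← coe_eval_coordI D hmM hR, ← coeffMap_expR hR.injective, coeffMap_coeff] at h1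
      have hev : expMod hR.injective c 1 (P₁.eval₂ (cstI φ) (coordI D hmM hR)) =
          expMod hR.injective c 1 (P.eval₂ (cstI φ) (coordI D hmM hR)) := by
        have hsub : (expMod (M := M) hR.injective c 1).comp (cstI φ) =
            (HahnSeries.C : R ⧸ Ideal.span {c} →+* _).comp π := RingHom.ext fun r => by
          rw [RingHom.comp_apply, expMod, RingHom.comp_apply, expR_cstI, coeffMap_single]
          rfl
        rw [Polynomial.hom_eval₂, Polynomial.hom_eval₂, hsub, ← Polynomial.eval₂_map,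
          ← Polynomial.eval₂_map, hP₁]
      have hzero : (expMod hR.injective c 1 (P.eval₂ (cstI φ) (coordI D hmM hR))).coeff
          (-((M : ℤ) * d)) = 0 := by
        rw [← baseVal_mul_units D hmM hR P K, map_mul, map_prod]
        refine coeff_mul_eq_zero_of_lt (hG 1) (b := ∑ i, (K i : ℤ) * -(M : ℤ)) ?_ ?_
        · refine (LeadUnit.prod Finset.univ fun i _ => ?_).1
          rw [map_pow, ← unit_ord_one D hmM i]
          exact (leadUnit_expMod hR.injective c (leadUnit_expR_unitUI D hmM hR i 1)).pow _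
        · rw [← Finset.sum_mul]
          have hK : ∑ i, (K i : ℤ) ≤ D.r * n := by
            refine (Finset.sum_le_card_nsmul _ _ (n : ℤ) fun i _ => by exact_mod_cast hbig i).trans ?_
            simp
          have hjN : (n : ℤ) + D.r * n < d := by exact_mod_cast lt_of_lt_of_le hj hjd
          have h1M : (1 : ℤ) ≤ M := by exact_mod_cast Nat.pos_of_ne_zero (NeZero.ne M)
          nlinarith
      rw [← hev, expMod, RingHom.comp_apply, coeffMap_coeff, hR.injective h1] at hzero
      rw [map_mul, (he.pow d).map π |>.mul_left_eq_zero, ← Polynomial.coeff_map, hP₁] at hzero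
      exact hzero
    choose r hr using fun j : {j // N < j} => hcoef j.1 j.2
    set r' : ℕ → R := fun j => if h : N < j then r ⟨j, h⟩ else 0
    set T : intSub M φ := ∏ i, unitVI D hmM hR i ^ K i
    set b := coordI (φ := φ) D hmM hR
    set t := Finset.range (P.natDegree + 1)
    refine ⟨(∑ j ∈ t with j ≤ N, cstI φ (P.coeff j) * b ^ j) * T,
      (∑ j ∈ t with ¬ j ≤ N, cstI φ (r' j) * b ^ j) * T, ?_, fun A => ?_⟩
    · rw [baseVal, Polynomial.eval₂_eq_sum_range, ← mul_assoc, ← add_mul]
      congr 1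
      rw [← Finset.sum_filter_add_sum_filter_not t (fun j => j ≤ N), Finset.mul_sum]
      congr 1
      refine Finset.sum_congr rfl fun j hj => ?_
      have hj' : N < j := by simpa using (Finset.mem_filter.mp hj).2
      rw [← mul_assoc, ← map_mul, show r' j = r ⟨j, hj'⟩ from dif_pos hj', ← hr ⟨j, hj'⟩]
    · rw [Subring.coe_mul, Nat.cast_add]
      refine PoleLE.mul ?_ ?_
      · rw [AddSubmonoidClass.coe_finsetSum]
        refine PoleLE.sum _ fun j hj => ?_
        have hjN : j ≤ N := (Finset.mem_filter.mp hj).2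
        rw [Subring.coe_mul, SubmonoidClass.coe_pow]
        refine ((poleLE_cst (φ := φ) A (P.coeff j)).mul ((hkb A).pow j)).mono ?_
        rw [zero_add]
        exact_mod_cast Nat.mul_le_mul_right kb hjN
      · rw [Nat.cast_sum]
        have hprod : ∀ t : Finset (Fin D.r), PoleLE M A
            ((∏ i ∈ t, unitVI D hmM hR i ^ K i : intSub M φ) : modRing M)
            (∑ i ∈ t, ((n * kv i : ℕ) : ℤ)) := fun t => by
          induction t using Finset.induction_on with
          | empty =>
            rw [Finset.prod_empty, Finset.sum_empty, Subring.coe_one, ← map_one (cst M φ)]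
            exact poleLE_cst A 1
          | insert i t hi ih' =>
            rw [Finset.prod_insert hi, Finset.sum_insert hi, Subring.coe_mul, SubmonoidClass.coe_pow]
            refine PoleLE.mul (((hkv i A).pow (K i)).mono ?_) ih'
            exact_mod_cast Nat.mul_le_mul_right (kv i) (hbig i)
        exact hprod Finset.univ

include D hmM hM hR in
/-- Approximation. -/
theorem exists_approx (n : ℕ) :
    ∃ n' : ℕ, ∀ (c : R) (G : intSub M φ), ModLE hR.injective c n G →
      ∃ H G₁ : intSub M φ, G = H + cstI φ c * G₁ ∧ ∀ A, PoleLE M A (H : modRing M) n' := by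
  classical
  have hbd : ∀ f : levelRing φ M, ∃ k : ℕ, ∀ A : SL(2, ℤ), ∀ i < -(k : ℤ),
      (levelExp hR.injective A f).coeff i = 0 := fun f => by
    let key : SL(2, ℤ) → (Fin 2 → Fin 2 → ZMod M) := fun A i j => ((A i j : ℤ) : ZMod M)
    let bd : (Fin 2 → Fin 2 → ZMod M) → ℕ := fun v =>
      if h : ∃ A, key A = v then (levelExp hR.injective h.choose f).order.natAbs else 0
    refine ⟨Finset.univ.sup bd, fun A i hi => ?_⟩
    have h : ∃ B, key B = key A := ⟨A, rfl⟩
    have hle : bd (key A) ≤ Finset.univ.sup bd := Finset.le_sup (Finset.mem_univ _)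
    have hval : bd (key A) = (levelExp hR.injective h.choose f).order.natAbs := dif_pos h
    rw [hval] at hle
    rw [levelExp_eq hR.injective (F := levelExp hR.injective h.choose f)
      ((hasExp_levelExp hR.injective h.choose f).congr fun τ =>
        apply_eq_of_congr M f.2.1 (fun i j => congrFun (congrFun h.choose_spec i) j) τ)]
    exact HahnSeries.coeff_eq_zero_of_lt_order (by omega)
  choose kf hkf using hbd
  set d := Fintype.card (Orb M m)
  set n₀ : ℕ := ∑ c : Orb M m, ∑ i ∈ Finset.range d, kf ((lagBasis D hmM hM hR c).coeff i)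
  obtain ⟨n₁, hn₁⟩ := exists_approx_base D hmM hR (n + n₀)
  obtain ⟨kx, hkx⟩ := exists_poleBound M (xEl D hmM hM)
  refine ⟨n₁ + d * kx, fun c G hG => ?_⟩
  obtain ⟨q, hq, hGq, hqv⟩ := exists_interp D hmM hM hR G.2
  let qI : ℕ → intSub M φ := fun i => ⟨q i, (hq i).1⟩
  have hqmod : ∀ i ∈ Finset.range d, ModLE hR.injective c (n + n₀) (qI i) := fun i hi A j hj => by
    have hexp : expR hR.injective A (qI i) = ∑ o : Orb M m,
        expR hR.injective (o.rep * A) G *
          levelExp hR.injective A ((lagBasis D hmM hM hR o).coeff i) := by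
      refine expR_eq hR.injective (cuspExp_eq_of_hasExp M ?_)
      rw [map_sum]
      refine (HasExp.sum Finset.univ (f := fun o τ => ((G : modRing M) : ℍ → ℂ) (o.rep • A • τ) *
        (((lagBasis D hmM hM hR o).coeff i : levelRing φ M) : ℍ → ℂ) (A • τ)) fun o _ => ?_).congr
        fun τ => by rw [Finset.sum_apply]; exact (hqv i (A • τ)).symm
      rw [map_mul]
      refine HasExp.mul ?_ (hasExp_levelExp hR.injective A _)
      rw [coeffMap_expR]
      exact (hasExp_cuspExp M (o.rep * A) (G : modRing M)).congr fun τ => by rw [mul_smul]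
    rw [expMod, RingHom.comp_apply, hexp, map_sum, HahnSeries.coeff_sum]
    refine Finset.sum_eq_zero fun o _ => ?_
    rw [map_mul]
    have hle : kf ((lagBasis D hmM hM hR o).coeff i) ≤ n₀ :=
      le_trans (Finset.single_le_sum
          (f := fun i => kf ((lagBasis D hmM hM hR o).coeff i)) (fun _ _ => Nat.zero_le _) hi)
        (Finset.single_le_sum
          (f := fun o => ∑ i ∈ Finset.range d, kf ((lagBasis D hmM hM hR o).coeff i))
          (fun _ _ => Nat.zero_le _) (Finset.mem_univ o))
    refine coeff_mul_eq_zero_of_lt (hG (o.rep * A))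
      (b := -(kf ((lagBasis D hmM hM hR o).coeff i) : ℤ)) (fun k hk => ?_) (by omega)
    rw [coeffMap_coeff, hkf _ A k hk, map_zero]
  have hsplit : ∀ i ∈ Finset.range d, ∃ H G₁ : intSub M φ,
      qI i = H + cstI φ c * G₁ ∧ ∀ A, PoleLE M A (H : modRing M) n₁ := fun i hi => by
    obtain ⟨P, k, hP⟩ := exists_eq_eval_mul hR D hmM (hq i)
    have heq : qI i = baseVal D hmM hR P (fun _ => k) := Subtype.ext (by
      rw [show ((qI i : intSub M φ) : modRing M) = q i from rfl, hP, baseVal, Subring.coe_mul,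
        coe_eval_coordI, Finset.prod_pow, SubmonoidClass.coe_pow, SubmonoidClass.coe_finsetProd]
      rfl)
    rw [heq]
    exact hn₁ c P _ (heq ▸ hqmod i hi)
  choose! H G₁ hHG hH using hsplit
  let x : intSub M φ := ⟨xEl D hmM hM, xEl_mem_intSub D hmM hM hR⟩
  refine ⟨∑ i ∈ Finset.range d, H i * x ^ i, ∑ i ∈ Finset.range d, G₁ i * x ^ i, ?_, fun A => ?_⟩
  · rw [Finset.mul_sum, ← Finset.sum_add_distrib]
    have hG' : G = ∑ i ∈ Finset.range d, qI i * x ^ i := Subtype.ext (by
      rw [hGq]; push_cast; rfl)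
    rw [hG']
    exact Finset.sum_congr rfl fun i hi => by rw [hHG i hi]; ring
  · rw [AddSubmonoidClass.coe_finsetSum]
    refine PoleLE.sum _ fun i hi => ?_
    rw [Subring.coe_mul, SubmonoidClass.coe_pow]
    refine ((hH i hi A).mul ((hkx A).pow i)).mono ?_
    push_cast
    have : i ≤ d := (Finset.mem_range.mp hi).le
    gcongr

theorem exists_approx_bounded_poles' (O : Subring ℂ) [IsDiscreteValuationRing O]
    (hM : 4 ∣ M ∨ 5 ∣ M) (hM5 : 5 ≤ M) {p : ℕ} (hp : p.Prime) (hpM : ¬ p ∣ M)
    (hpO : (p : O) ∈ IsLocalRing.maximalIdeal O)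
    (hζ : Complex.exp (2 * Real.pi * Complex.I / M) ∈ O) {ϖ : O} (n : ℕ) :
    ∃ n' : ℕ, ∀ (k : ℕ) (G : intRing M O),
      (∀ (A : SL(2, ℤ)) (i : ℤ), i < -(n : ℤ) →
        ∃ b : O, (cuspExp M A (G : modRing M)).coeff i = (ϖ : ℂ) ^ k * b) →
      ∃ H G₁ : intRing M O, G = H + algebraMap O (intRing M O) ϖ ^ k * G₁ ∧
        ∀ (A : SL(2, ℤ)) (i : ℤ), i < -(n' : ℤ) → (cuspExp M A (H : modRing M)).coeff i = 0 := by
  obtain ⟨m, hm, D, hmM, -⟩ := exists_baseData hM
  have hR := isLevelCoeff_subtype M hp hpM hpO hζ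
  obtain ⟨n', hn'⟩ := exists_approx D hmM (by omega) hR n
  refine ⟨n', fun k G hG => ?_⟩
  set e := intEquiv (M := M) O
  obtain ⟨H, G₁, hHG, hH⟩ := hn' (ϖ ^ k) (e.symm G) fun A i hi => by
    obtain ⟨b, hb⟩ := hG A i hi
    have h : (expR hR.injective A (e.symm G)).coeff i = ϖ ^ k * b := hR.injective (by
      rw [← coeffMap_coeff, coeffMap_expR, map_mul, map_pow]
      exact hb)
    rw [expMod, RingHom.comp_apply, coeffMap_coeff, h, Ideal.Quotient.eq_zero_iff_mem]
    exact Ideal.mul_mem_right _ _ (Ideal.mem_span_singleton_self _)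
  refine ⟨e H, e G₁, ?_, hH⟩
  rw [← map_pow, ← intEquiv_cstI, ← map_mul e, ← map_add, ← hHG, e.apply_symm_apply]

end FermatLib.Galois.DS
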