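import Mathlib.FieldTheory.IntermediateField.Adjoin.Basic
import Mathlib.RingTheory.RootsOfUnity.Minpoly
import Mathlib.RingTheory.IntegralClosure.IntegrallyClosed
import Fermat.Agent.Galois.DS.LevelIntegral

/-!
# Bounded denominators of rational expansions
-/

set_option autoImplicit false
set_option linter.unusedSectionVars false

noncomputable section

open Complex UpperHalfPlane Function ModularCurve CongruenceSubgroup
open scoped MatrixGroups Manifold

namespace FermatLib.Galois.DS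

open FermatLib.Igusa

variable (M : ℕ) [NeZero M]

/-- `ℤ[ζ, 1/M]`. -/
def denomRing : Subring ℂ := Subring.closure {zetaU M, (M : ℂ)⁻¹}

theorem isLevelCoeff_denomRing : IsLevelCoeff (denomRing M).subtype M :=
  isLevelCoeff_of_isUnit M (Subring.subset_closure (by simp))
    (IsUnit.of_mul_eq_one ⟨(M : ℂ)⁻¹, Subring.subset_closure (by simp)⟩
      (Subtype.ext (by push_cast; exact mul_inv_cancel₀ (by exact_mod_cast NeZero.ne M))))

theorem isIntegral_pow_mul_of_mem_denomRing {z : ℂ} (hz : z ∈ denomRing M) :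
    ∃ k : ℕ, IsIntegral ℤ ((M : ℂ) ^ k * z) := by
  have hM : IsIntegral ℤ (M : ℂ) := isIntegral_algebraMap (R := ℤ) (A := ℂ) (x := (M : ℤ))
  induction hz using Subring.closure_induction with
  | mem x hx =>
    rcases hx with rfl | rfl
    · exact ⟨0, by
        rw [pow_zero, one_mul]
        exact (isPrimitiveRoot_zetaU M).isIntegral (Nat.pos_of_ne_zero (NeZero.ne M))⟩
    · exact ⟨1, by
        rw [pow_one, mul_inv_cancel₀ (by exact_mod_cast NeZero.ne M : (M : ℂ) ≠ 0)]
        exact isIntegral_one⟩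
  | zero => exact ⟨0, by simpa using isIntegral_zero⟩
  | one => exact ⟨0, by simpa using isIntegral_one⟩
  | add x y _ _ hx hy =>
    obtain ⟨a, ha⟩ := hx
    obtain ⟨b, hb⟩ := hy
    refine ⟨a + b, ?_⟩
    rw [show (M : ℂ) ^ (a + b) * (x + y) = (M : ℂ) ^ b * ((M : ℂ) ^ a * x) +
      (M : ℂ) ^ a * ((M : ℂ) ^ b * y) by ring]
    exact ((hM.pow b).mul ha).add ((hM.pow a).mul hb)
  | neg x _ hx =>
    obtain ⟨a, ha⟩ := hx
    exact ⟨a, by rw [mul_neg]; exact ha.neg⟩
  | mul x y _ _ hx hy =>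
    obtain ⟨a, ha⟩ := hx
    obtain ⟨b, hb⟩ := hy
    refine ⟨a + b, ?_⟩
    rw [show (M : ℂ) ^ (a + b) * (x * y) = ((M : ℂ) ^ a * x) * ((M : ℂ) ^ b * y) by ring]
    exact ha.mul hb

end FermatLib.Galois.DS
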