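import Fermat.Agent.Igusa.LevelUnits

/-!
# Quotients of products of division value differences

`UnitQuot n` is a formal quotient of two equally long products of `torsionDiff n a b`; it gives
a modular unit of level `n`, integral with unit leading coefficient at every cusp.
-/

set_option autoImplicit false

noncomputable section

open Complex UpperHalfPlane Function ModularCurve CongruenceSubgroup
open scoped MatrixGroups

namespace FermatLib.Galois.DS

open FermatLib.Igusa

/-- A pair of index vectors. -/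
abbrev IdxPair : Type := (ℤ × ℤ) × (ℤ × ℤ)

/-- An index vector modulo `n`, up to sign. -/
def vclass (n : ℕ) (a : ℤ × ℤ) : Finset (ZMod n × ZMod n) :=
  {((a.1 : ZMod n), (a.2 : ZMod n)), (-(a.1 : ZMod n), -(a.2 : ZMod n))}

theorem vclass_eq_iff (n : ℕ) (a b : ℤ × ℤ) :
    vclass n a = vclass n b ↔ SameUpToSign n a b := by
  constructor
  · intro h
    have hm : ((a.1 : ZMod n), (a.2 : ZMod n)) ∈ vclass n b := by
      rw [← h]; simp [vclass]
    simp only [vclass, Finset.mem_insert, Finset.mem_singleton, Prod.mk.injEq] at hm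
    rcases hm with ⟨h1, h2⟩ | ⟨h1, h2⟩
    · left
      simp [← ZMod.intCast_zmod_eq_zero_iff_dvd, h1, h2]
    · right
      simp [← ZMod.intCast_zmod_eq_zero_iff_dvd, h1, h2]
  · rintro (⟨h1, h2⟩ | ⟨h1, h2⟩) <;>
      rw [← ZMod.intCast_zmod_eq_zero_iff_dvd] at h1 h2 <;> push_cast at h1 h2
    · rw [sub_eq_zero] at h1 h2
      simp [vclass, h1, h2]
    · rw [add_eq_zero_iff_eq_neg] at h1 h2
      simp [vclass, h1, h2, Finset.pair_comm]

/-- The class of a pair. -/
def pclass (n : ℕ) (p : IdxPair) : Finset (ZMod n × ZMod n) × Finset (ZMod n × ZMod n) :=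
  (vclass n p.1, vclass n p.2)

/-- The classes of a list of pairs, with multiplicity. -/
def pclasses (n : ℕ) (L : List IdxPair) :
    Multiset (Finset (ZMod n × ZMod n) × Finset (ZMod n × ZMod n)) :=
  Multiset.ofList (L.map (pclass n))

/-- The right action of a matrix on a pair. -/
def pairMulSL (γ : SL(2, ℤ)) (p : IdxPair) : IdxPair := (vecMulSL p.1 γ, vecMulSL p.2 γ)

theorem vecMulSL_mul (a : ℤ × ℤ) (γ δ : SL(2, ℤ)) :
    vecMulSL a (γ * δ) = vecMulSL (vecMulSL a γ) δ := by
  simp [vecMulSL, Matrix.SpecialLinearGroup.coe_mul, Matrix.mul_apply, Fin.sum_univ_two]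
  constructor <;> ring

theorem vecMulSL_one (a : ℤ × ℤ) : vecMulSL a 1 = a := by simp [vecMulSL]

theorem sameUpToSign_vecMulSL {n : ℕ} {a b : ℤ × ℤ} (h : SameUpToSign n a b) (γ : SL(2, ℤ)) :
    SameUpToSign n (vecMulSL a γ) (vecMulSL b γ) := by
  rcases h with ⟨h1, h2⟩ | ⟨h1, h2⟩
  · left
    simp only [vecMulSL]
    constructor
    · convert dvd_add (h1.mul_right (γ 0 0)) (h2.mul_right (γ 1 0)) using 1 <;> first | rfl | ring1
    · convert dvd_add (h1.mul_right (γ 0 1)) (h2.mul_right (γ 1 1)) using 1 <;> first | rfl | ring1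
  · right
    simp only [vecMulSL]
    constructor
    · convert dvd_add (h1.mul_right (γ 0 0)) (h2.mul_right (γ 1 0)) using 1 <;> first | rfl | ring1
    · convert dvd_add (h1.mul_right (γ 0 1)) (h2.mul_right (γ 1 1)) using 1 <;> first | rfl | ring1

theorem isUnitPair_vecMulSL {n : ℕ} {a b : ℤ × ℤ} (h : IsUnitPair n a b) (γ : SL(2, ℤ)) :
    IsUnitPair n (vecMulSL a γ) (vecMulSL b γ) := by
  have h0 : vecMulSL (0, 0) γ⁻¹ = ((0, 0) : ℤ × ℤ) := by simp [vecMulSL]
  have back : ∀ c : ℤ × ℤ, vecMulSL (vecMulSL c γ) γ⁻¹ = c := fun c => by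
    rw [← vecMulSL_mul, mul_inv_cancel, vecMulSL_one]
  refine ⟨fun hh => h.1 ?_, fun hh => h.2.1 ?_, fun hh => h.2.2 ?_⟩
  · simpa [back, h0] using sameUpToSign_vecMulSL hh γ⁻¹
  · simpa [back, h0] using sameUpToSign_vecMulSL hh γ⁻¹
  · simpa [back] using sameUpToSign_vecMulSL hh γ⁻¹

theorem pclass_pairMulSL_of_mem_Gamma {n : ℕ} {γ : SL(2, ℤ)} (hγ : γ ∈ CongruenceSubgroup.Gamma n) (p : IdxPair) :
    pclass n (pairMulSL γ p) = pclass n p := by
  rw [Gamma_mem] at hγ
  obtain ⟨h1, h2, h3, h4⟩ := hγ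
  simp [pclass, pairMulSL, vclass, vecMulSL, h1, h2, h3, h4]

section Fun

variable (n : ℕ)

/-- The product of the `torsionDiff`s of a list of pairs. -/
def prodFun (L : List IdxPair) (τ : ℍ) : ℂ := (L.map fun p => torsionDiff n p.1 p.2 τ).prod

/-- The order at the cusp `γ ∞` of `prodFun`. -/
def prodOrd (L : List IdxPair) (γ : SL(2, ℤ)) : ℤ :=
  (L.map fun p => torsOrd n (vecMulSL p.1 γ) (vecMulSL p.2 γ)).sum

variable [NeZero n]

theorem prodFun_congr {L L' : List IdxPair}
    (h : pclasses n L = pclasses n L') :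
    prodFun n L = prodFun n L' := by
  funext τ
  let F : Finset (ZMod n × ZMod n) × Finset (ZMod n × ZMod n) → ℂ := fun c =>
    letI := Classical.propDecidable
    if hc : ∃ p : IdxPair, pclass n p = c then torsionDiff n hc.choose.1 hc.choose.2 τ else 0
  have hF : ∀ p : IdxPair, F (pclass n p) = torsionDiff n p.1 p.2 τ := fun p => by
    have hc : ∃ q : IdxPair, pclass n q = pclass n p := ⟨p, rfl⟩
    simp only [F, dif_pos hc]
    have h2 : ∀ q : IdxPair, pclass n q = pclass n p →
        torsionDiff n q.1 q.2 τ = torsionDiff n p.1 p.2 τ := fun q hq => by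
      simp only [pclass, Prod.mk.injEq, vclass_eq_iff] at hq
      exact congrFun (torsionDiff_congr hq.1 hq.2) τ
    exact h2 _ hc.choose_spec
  have key : ∀ K : List IdxPair, prodFun n K τ = ((pclasses n K).map F).prod := fun K => by
    simp [prodFun, pclasses, List.map_map, Function.comp_def, hF]
  rw [key, key, h]

theorem prodFun_ne_zero {L : List IdxPair} (hL : ∀ p ∈ L, IsUnitPair n p.1 p.2) (τ : ℍ) :
    prodFun n L τ ≠ 0 := by
  refine List.prod_ne_zero fun h0 => ?_
  obtain ⟨p, hp, hp0⟩ := List.mem_map.mp h0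
  exact torsionDiff_ne_zero (hL p hp) τ hp0

theorem prodFun_smul (L : List IdxPair) (γ : SL(2, ℤ)) (τ : ℍ) :
    prodFun n L (γ • τ) =
      (denom γ τ ^ 2) ^ L.length * prodFun n (L.map (pairMulSL γ)) τ := by
  induction L with
  | nil => simp [prodFun]
  | cons p L ih =>
    simp only [prodFun, List.map_cons, List.prod_cons, List.length_cons] at ih ⊢
    rw [ih, torsionDiff_smul, pow_succ]
    simp only [pairMulSL]
    ring

end Fun

/-- A formal quotient of two equally long products of differences of division values. -/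
structure UnitQuot (n : ℕ) where
  /-- the numerator -/
  num : List IdxPair
  /-- the denominator -/
  den : List IdxPair
  length_eq : num.length = den.length
  num_isUnitPair : ∀ p ∈ num, IsUnitPair n p.1 p.2
  den_isUnitPair : ∀ p ∈ den, IsUnitPair n p.1 p.2

namespace UnitQuot

variable {n : ℕ}

/-- The function on the upper half plane. -/
def toFun (u : UnitQuot n) (τ : ℍ) : ℂ := prodFun n u.num τ / prodFun n u.den τ

/-- The order at the cusp `γ ∞` in `exp (2 π i τ / n)`. -/
def ord (u : UnitQuot n) (γ : SL(2, ℤ)) : ℤ := prodOrd n u.num γ - prodOrd n u.den γ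

/-- The translate by `γ`. -/
def translate (u : UnitQuot n) (γ : SL(2, ℤ)) : UnitQuot n where
  num := u.num.map (pairMulSL γ)
  den := u.den.map (pairMulSL γ)
  length_eq := by simp [u.length_eq]
  num_isUnitPair := by
    intro p hp
    obtain ⟨q, hq, rfl⟩ := List.mem_map.mp hp
    exact isUnitPair_vecMulSL (u.num_isUnitPair q hq) γ
  den_isUnitPair := by
    intro p hp
    obtain ⟨q, hq, rfl⟩ := List.mem_map.mp hp
    exact isUnitPair_vecMulSL (u.den_isUnitPair q hq) γ

/-- Both products are permuted by `H`, up to congruence and sign. -/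
def IsInvariant (u : UnitQuot n) (H : Subgroup SL(2, ℤ)) : Prop :=
  ∀ γ ∈ H, pclasses n (u.num.map (pairMulSL γ)) = pclasses n u.num ∧
    pclasses n (u.den.map (pairMulSL γ)) = pclasses n u.den

variable [NeZero n]

theorem toFun_ne_zero (u : UnitQuot n) (τ : ℍ) : u.toFun τ ≠ 0 :=
  div_ne_zero (prodFun_ne_zero n u.num_isUnitPair τ) (prodFun_ne_zero n u.den_isUnitPair τ)

theorem toFun_smul (u : UnitQuot n) (γ : SL(2, ℤ)) (τ : ℍ) :
    u.toFun (γ • τ) = (u.translate γ).toFun τ := by
  simp only [toFun, translate, prodFun_smul, u.length_eq]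
  exact mul_div_mul_left _ _ (pow_ne_zero _ (pow_ne_zero _ (denom_ne_zero _ τ)))

theorem toFun_smul_of_isInvariant {u : UnitQuot n} {H : Subgroup SL(2, ℤ)}
    (h : u.IsInvariant H) {γ : SL(2, ℤ)} (hγ : γ ∈ H) (τ : ℍ) :
    u.toFun (γ • τ) = u.toFun τ := by
  rw [toFun_smul]
  simp only [toFun, translate]
  rw [prodFun_congr n (h γ hγ).1, prodFun_congr n (h γ hγ).2]

theorem toFun_smul_of_mem_Gamma (u : UnitQuot n) {γ : SL(2, ℤ)} (hγ : γ ∈ CongruenceSubgroup.Gamma n) (τ : ℍ) :
    u.toFun (γ • τ) = u.toFun τ := by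
  refine toFun_smul_of_isInvariant (H := CongruenceSubgroup.Gamma n) (fun δ hδ => ?_) hγ τ
  simp [pclasses, List.map_map, Function.comp_def, pclass_pairMulSL_of_mem_Gamma hδ]

end UnitQuot

section Lead

variable {R : Type*} [CommRing R]

/-- A Laurent series starting in degree `o` with a unit coefficient. -/
def LeadUnit (F : LaurentSeries R) (o : ℤ) : Prop :=
  (∀ k < o, F.coeff k = 0) ∧ IsUnit (F.coeff o)

theorem leadUnit_iff {F : LaurentSeries R} {o : ℤ} :
    LeadUnit F o ↔ ∃ p : PowerSeries R, IsUnit p ∧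
      F = HahnSeries.single o 1 * HahnSeries.ofPowerSeries ℤ R p := by
  constructor
  · rintro ⟨h0, hu⟩
    refine ⟨PowerSeries.mk fun i : ℕ => F.coeff (i + o), ?_, eq_single_mul_mk F h0⟩
    rw [PowerSeries.isUnit_iff_constantCoeff, ← PowerSeries.coeff_zero_eq_constantCoeff_apply,
      PowerSeries.coeff_mk]
    simpa using hu
  · rintro ⟨p, hp, rfl⟩
    refine ⟨fun k hk => ?_, ?_⟩
    · rw [HahnSeries.coeff_single_mul, one_mul]
      exact ofPowerSeries_coeff_of_neg p (by omega)
    · rw [HahnSeries.coeff_single_mul, one_mul, sub_self,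
        show (0 : ℤ) = ((0 : ℕ) : ℤ) from rfl, HahnSeries.ofPowerSeries_apply_coeff,
        PowerSeries.coeff_zero_eq_constantCoeff_apply]
      exact PowerSeries.isUnit_iff_constantCoeff.mp hp

theorem LeadUnit.mul {F G : LaurentSeries R} {o o' : ℤ} (hF : LeadUnit F o)
    (hG : LeadUnit G o') : LeadUnit (F * G) (o + o') := by
  obtain ⟨p, hp, rfl⟩ := leadUnit_iff.mp hF
  obtain ⟨q, hq, rfl⟩ := leadUnit_iff.mp hG
  refine leadUnit_iff.mpr ⟨p * q, hp.mul hq, ?_⟩
  rw [map_mul, mul_mul_mul_comm, HahnSeries.single_mul_single, one_mul]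

theorem leadUnit_one : LeadUnit (1 : LaurentSeries R) 0 :=
  leadUnit_iff.mpr ⟨1, isUnit_one, by simp⟩

theorem LeadUnit.exists_inv {F : LaurentSeries R} {o : ℤ} (hF : LeadUnit F o) :
    ∃ G : LaurentSeries R, F * G = 1 ∧ LeadUnit G (-o) := by
  obtain ⟨p, hp, rfl⟩ := leadUnit_iff.mp hF
  refine ⟨HahnSeries.single (-o) 1 * HahnSeries.ofPowerSeries ℤ R ↑hp.unit⁻¹, ?_,
    leadUnit_iff.mpr ⟨_, hp.unit⁻¹.isUnit, rfl⟩⟩
  rw [mul_mul_mul_comm, HahnSeries.single_mul_single, ← map_mul, IsUnit.mul_val_inv,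
    add_neg_cancel, map_one]
  simp

end Lead

section Expansion

variable {n : ℕ} [NeZero n] {R : Type*} [CommRing R] {φ : R →+* ℂ}

theorem exists_hasExp_prodFun (hR : IsLevelCoeff φ n) {L : List IdxPair}
    (hL : ∀ p ∈ L, IsUnitPair n p.1 p.2) :
    ∃ F : LaurentSeries R, HasExp n (prodFun n L) (coeffMap φ F) ∧
      LeadUnit F (prodOrd n L 1) := by
  induction L with
  | nil =>
    exact ⟨1, by rw [map_one]; exact HasExp.one.congr fun τ => by simp [prodFun],
      by simpa [prodOrd] using leadUnit_one⟩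
  | cons p L ih =>
    obtain ⟨F, hF, hF'⟩ := ih fun q hq => hL q (List.mem_cons_of_mem _ hq)
    obtain ⟨G, hG, hG0, hG1⟩ := exists_hasExp_torsionDiff hR (hL p List.mem_cons_self)
    refine ⟨G * F, ?_, ?_⟩
    · rw [map_mul]
      exact (hG.mul hF).congr fun τ => by simp [prodFun]
    · have := LeadUnit.mul ⟨hG0, hG1⟩ hF'
      simpa [prodOrd, vecMulSL_one] using this

theorem UnitQuot.exists_hasExp (u : UnitQuot n) (hR : IsLevelCoeff φ n) (γ : SL(2, ℤ)) :
    ∃ F : LaurentSeries R, HasExp n (fun τ => u.toFun (γ • τ)) (coeffMap φ F) ∧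
      LeadUnit F (u.ord γ) := by
  obtain ⟨A, hA, hA'⟩ := exists_hasExp_prodFun hR (u.translate γ).num_isUnitPair
  obtain ⟨B, hB, hB'⟩ := exists_hasExp_prodFun hR (u.translate γ).den_isUnitPair
  obtain ⟨B', hBB, hB''⟩ := hB'.exists_inv
  refine ⟨A * B', ?_, ?_⟩
  · have hinv : (coeffMap φ B)⁻¹ = coeffMap φ B' :=
      inv_eq_of_mul_eq_one_right (by rw [← map_mul, hBB, map_one])
    rw [map_mul, ← hinv]
    refine (hA.mul (hB.inv (prodFun_ne_zero n (u.translate γ).den_isUnitPair))).congr fun τ => ?_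
    rw [u.toFun_smul, UnitQuot.toFun, Pi.mul_apply, div_eq_mul_inv]
  · have := hA'.mul hB''
    simpa [UnitQuot.ord, UnitQuot.translate, prodOrd, List.map_map, Function.comp_def, pairMulSL,
      vecMulSL_one, sub_eq_add_neg] using this

/-- The modular unit as an element of `levelRing`. -/
def UnitQuot.toLevelRing (u : UnitQuot n) (hR : IsLevelCoeff φ n) : levelRing φ n :=
  ⟨u.toFun, fun _ hγ τ => u.toFun_smul_of_mem_Gamma hγ τ,
    fun γ => ⟨_, (u.exists_hasExp hR γ).choose_spec.1⟩⟩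

@[simp]
theorem UnitQuot.coe_toLevelRing (u : UnitQuot n) (hR : IsLevelCoeff φ n) :
    ((u.toLevelRing hR : levelRing φ n) : ℍ → ℂ) = u.toFun := rfl

/-- The reciprocal. -/
def UnitQuot.flip (u : UnitQuot n) : UnitQuot n :=
  ⟨u.den, u.num, u.length_eq.symm, u.den_isUnitPair, u.num_isUnitPair⟩

theorem UnitQuot.toLevelRing_mul_flip (u : UnitQuot n) (hR : IsLevelCoeff φ n) :
    u.toLevelRing hR * u.flip.toLevelRing hR = 1 := by
  refine Subtype.ext (funext fun τ => ?_)
  show u.toFun τ * u.flip.toFun τ = 1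
  simp only [UnitQuot.toFun, UnitQuot.flip]
  rw [div_mul_div_comm, mul_comm, div_self]
  exact mul_ne_zero (prodFun_ne_zero n u.den_isUnitPair τ) (prodFun_ne_zero n u.num_isUnitPair τ)

omit [NeZero n] in
theorem UnitQuot.ord_flip (u : UnitQuot n) (γ : SL(2, ℤ)) : u.flip.ord γ = -u.ord γ := by
  simp [UnitQuot.ord, UnitQuot.flip]

end Expansion

end FermatLib.Galois.DS
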