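import Mathlib.Analysis.SpecialFunctions.Elliptic.Weierstrass
import Fermat.Agent.Modular.WeightedEisenstein
import Fermat.Agent.Igusa.LevelUnits
import Fermat.Agent.Galois.DS.UnitQuot

/-!
# The weight one form `℘'(a) / (℘(a) - ℘(2a))`

Its square is a product of differences of division values, since the roots of the cubic are the
values of `℘` at the half periods.
-/

set_option autoImplicit false
set_option linter.unusedSectionVars false

noncomputable section

open Complex UpperHalfPlane Function ModularCurve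
open scoped MatrixGroups Real ModularForm

namespace FermatLib.Galois.DS

open FermatLib.Igusa FermatLib.Modular EisensteinSeries

variable (M : ℕ) [NeZero M]

/-- The index `(1/M, 0)` at level `2M`. -/
def wIdxA : ℤ × ℤ := (2, 0)

/-- The index `(2/M, 0)` at level `2M`. -/
def wIdxB : ℤ × ℤ := (4, 0)

/-- The three half periods at level `2M`. -/
def wHalf : Fin 3 → ℤ × ℤ := ![(0, (M : ℤ)), ((M : ℤ), 0), ((M : ℤ), (M : ℤ))]

/-- The indicator of the class of `(2, 0)` modulo `2M`. -/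
def congWeight (v : Fin 2 → ℤ) : ℂ :=
  if ((2 * M : ℕ) : ℤ) ∣ v 0 - 2 ∧ ((2 * M : ℕ) : ℤ) ∣ v 1 then 1 else 0

/-- The form. -/
def wFun (τ : ℍ) : ℂ :=
  -2 * ((2 * M : ℕ) : ℂ) ^ 3 * weightedEis (congWeight M) 3 τ /
    ((2 * π * Complex.I) ^ 3 * torsionDiff (2 * M) wIdxA wIdxB τ)

omit [NeZero M] in
theorem norm_congWeight_le (v : Fin 2 → ℤ) : ‖congWeight M v‖ ≤ 1 := by
  rw [congWeight]; split <;> simp

omit [NeZero M] in
theorem eq_zero_of_two_mul_dvd {x : ℤ} (h : ((2 * M : ℕ) : ℤ) ∣ x)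
    (hx : |x| < ((2 * M : ℕ) : ℤ)) : x = 0 :=
  Int.eq_zero_of_abs_lt_dvd h hx

theorem isUnitPair_wAB (hM : 5 ≤ M) : IsUnitPair (2 * M) wIdxA wIdxB := by
  refine ⟨?_, ?_, ?_⟩ <;>
  · rintro (⟨h, -⟩ | ⟨h, -⟩) <;>
    · have := eq_zero_of_two_mul_dvd M h (by simp [wIdxA, wIdxB]; omega)
      simp [wIdxA, wIdxB] at this

theorem isUnitPair_wAH (hM : 5 ≤ M) (i : Fin 3) : IsUnitPair (2 * M) wIdxA (wHalf M i) := by
  have hM0 : (0 : ℤ) < M := by omega
  refine ⟨?_, ?_, ?_⟩
  · rintro (⟨h, -⟩ | ⟨h, -⟩) <;>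
    · have := eq_zero_of_two_mul_dvd M h (by simp [wIdxA]; omega)
      simp [wIdxA] at this
  · fin_cases i <;> rintro (⟨h1, h2⟩ | ⟨h1, h2⟩) <;> simp [wHalf] at h1 h2 <;>
    first
      | (have := eq_zero_of_two_mul_dvd M (x := (M : ℤ)) (by push_cast; exact h1)
          (by rw [abs_of_pos hM0]; push_cast; omega); omega)
      | (have := eq_zero_of_two_mul_dvd M (x := (M : ℤ)) (by push_cast; exact h2)
          (by rw [abs_of_pos hM0]; push_cast; omega); omega)
  · fin_cases i <;> rintro (⟨h1, h2⟩ | ⟨h1, h2⟩) <;> simp [wHalf, wIdxA] at h1 h2 <;>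
    first
      | (have := eq_zero_of_two_mul_dvd M (x := (M : ℤ)) (by push_cast; exact h2)
          (by rw [abs_of_pos hM0]; push_cast; omega); omega)
      | (have := eq_zero_of_two_mul_dvd M (x := 2 - (M : ℤ)) (by push_cast; exact h1)
          (by rw [abs_lt]; push_cast; omega); omega)
      | (have := eq_zero_of_two_mul_dvd M (x := 2 + (M : ℤ)) (by push_cast; exact h1)
          (by rw [abs_lt]; push_cast; omega); omega)

theorem isUnitPair_wHH (hM : 5 ≤ M) {i j : Fin 3} (hij : i ≠ j) :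
    IsUnitPair (2 * M) (wHalf M i) (wHalf M j) := by
  refine ⟨(isUnitPair_wAH M hM i).2.1, (isUnitPair_wAH M hM j).2.1, ?_⟩
  have hM0 : (0 : ℤ) < M := by omega
  fin_cases i <;> fin_cases j <;>
    first
      | exact absurd rfl hij
      | (rintro (⟨h1, h2⟩ | ⟨h1, h2⟩) <;> simp [wHalf] at h1 h2 <;>
          first
            | (have := eq_zero_of_two_mul_dvd M (x := (M : ℤ)) (by push_cast; exact h1)
                (by rw [abs_of_pos hM0]; push_cast; omega); omega)
            | (have := eq_zero_of_two_mul_dvd M (x := (M : ℤ)) (by push_cast; exact h2)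
                (by rw [abs_of_pos hM0]; push_cast; omega); omega))

theorem derivWeierstrassP_torsPt (τ : ℍ) :
    (tauPair τ).derivWeierstrassP (torsPt (2 * M) wIdxA τ) =
      -2 * ((2 * M : ℕ) : ℂ) ^ 3 * weightedEis (congWeight M) 3 τ := by
  set n : ℤ := ((2 * M : ℕ) : ℤ) with hn
  have hn0 : n ≠ 0 := by simp [hn, NeZero.ne M]
  have hnc : (((2 * M : ℕ) : ℂ)) ≠ 0 := by exact_mod_cast NeZero.ne (2 * M)
  let e : ℤ × ℤ → (Fin 2 → ℤ) := fun p => ![2 - p.1 * n, -(p.2 * n)]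
  have he : Injective e := fun p q h => by
    have h0 := congrFun h 0
    have h1 := congrFun h 1
    simp [e, hn0] at h0 h1
    exact Prod.ext h0 h1
  have hsupp : Function.support (fun v => congWeight M v * eisSummand 3 v τ) ⊆ Set.range e := by
    intro v hv
    by_cases h : n ∣ v 0 - 2 ∧ n ∣ v 1
    · obtain ⟨⟨a, ha⟩, ⟨b, hb⟩⟩ := h
      refine ⟨(-a, -b), funext fun i => ?_⟩
      fin_cases i <;> simp [e]
      · linear_combination -ha
      · linear_combination -hb
    · refine absurd ?_ hv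
      show congWeight M v * eisSummand 3 v τ = 0
      unfold congWeight
      rw [if_neg h, zero_mul]
  rw [weightedEis, ← he.tsum_eq hsupp, ← tsum_mul_left]
  have h := (tauPair τ).hasSum_derivWeierstrassP (torsPt (2 * M) wIdxA τ)
  rw [← (tauPair τ).latticeEquivProd.symm.toEquiv.hasSum_iff] at h
  rw [← h.tsum_eq]
  refine tsum_congr fun p => ?_
  have hp : ((tauPair τ).latticeEquivProd.symm.toEquiv p : ℂ) = p.1 * (τ : ℂ) + p.2 := by
    rw [LinearEquiv.coe_toEquiv, PeriodPair.latticeEquiv_symm_apply]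
    simp [tauPair]
  have hw : congWeight M (e p) = 1 := by
    rw [congWeight, if_pos]
    simp [e, ← hn]
  rw [comp_apply, hp, hw, one_mul]
  simp only [e, eisSummand, Matrix.cons_val_zero, Matrix.cons_val_one, torsPt, wIdxA,
    zpow_neg, zpow_ofNat, hn]
  push_cast
  rw [show ((2 : ℂ) * τ + 0) / (2 * (M : ℂ)) - ((p.1 : ℂ) * τ + p.2) =
    ((2 - (p.1 : ℂ) * (2 * M)) * τ + -((p.2 : ℂ) * (2 * M))) / (2 * M) by
      have : (M : ℂ) ≠ 0 := by exact_mod_cast NeZero.ne M
      field_simp; ring]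
  rw [div_pow, div_div_eq_mul_div, div_eq_mul_inv]

theorem derivWeierstrassP_wHalf (i : Fin 3) (τ : ℍ) :
    (tauPair τ).derivWeierstrassP (torsPt (2 * M) (wHalf M i) τ) = 0 := by
  set z := torsPt (2 * M) (wHalf M i) τ
  have hl : z + z ∈ (tauPair τ).lattice := by
    have hM : (M : ℂ) ≠ 0 := by exact_mod_cast NeZero.ne M
    fin_cases i
    · exact PeriodPair.mem_lattice.mpr ⟨0, 1, by simp [z, torsPt, wHalf, tauPair]; field_simp; ring⟩
    · exact PeriodPair.mem_lattice.mpr ⟨1, 0, by simp [z, torsPt, wHalf, tauPair]; field_simp; ring⟩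
    · exact PeriodPair.mem_lattice.mpr ⟨1, 1, by simp [z, torsPt, wHalf, tauPair]; field_simp; ring⟩
  have h := (tauPair τ).derivWeierstrassP_add_coe (-z) ⟨_, hl⟩
  rw [show -z + (z + z) = z by ring, PeriodPair.derivWeierstrassP_neg] at h
  linear_combination h / 2

/-- The square of the form is a product of differences of division values. -/
theorem wFun_sq (hM : 5 ≤ M) (τ : ℍ) :
    wFun M τ ^ 2 = 4 * (∏ i, torsionDiff (2 * M) wIdxA (wHalf M i) τ) /
      torsionDiff (2 * M) wIdxA wIdxB τ ^ 2 := by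
  set L := tauPair τ
  have hnotmem : ∀ {a : ℤ × ℤ}, ¬ SameUpToSign (2 * M) a (0, 0) →
      torsPt (2 * M) a τ ∉ L.lattice := fun ha hm =>
    ha (Or.inl (by simpa using (torsPt_mem_lattice_iff _ τ).1 hm))
  set x := wpValue (2 * M) wIdxA τ with hx
  set e := fun i => wpValue (2 * M) (wHalf M i) τ with he
  have hroot : ∀ i, 4 * e i ^ 3 - L.g₂ * e i - L.g₃ = 0 := fun i => by
    have h := L.derivWeierstrassP_sq _ (hnotmem (isUnitPair_wAH M hM i).2.1)
    rw [derivWeierstrassP_wHalf] at h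
    simp only [he, wpValue_eq]
    linear_combination -h
  have hne : ∀ {i j : Fin 3}, i ≠ j → e i - e j ≠ 0 := fun {i j} hij h => by
    refine torsionDiff_ne_zero (isUnitPair_wHH M hM hij) τ ?_
    simp only [torsionDiff]
    rw [show wpValue (2 * M) (wHalf M i) τ - wpValue (2 * M) (wHalf M j) τ = 0 from h, zero_div]
  have h01 : 4 * (e 0 ^ 2 + e 0 * e 1 + e 1 ^ 2) - L.g₂ = 0 :=
    (mul_eq_zero.mp (show (e 0 - e 1) * (4 * (e 0 ^ 2 + e 0 * e 1 + e 1 ^ 2) - L.g₂) = 0 by
      linear_combination hroot 0 - hroot 1)).resolve_left (hne (by decide))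
  have h02 : 4 * (e 0 ^ 2 + e 0 * e 2 + e 2 ^ 2) - L.g₂ = 0 :=
    (mul_eq_zero.mp (show (e 0 - e 2) * (4 * (e 0 ^ 2 + e 0 * e 2 + e 2 ^ 2) - L.g₂) = 0 by
      linear_combination hroot 0 - hroot 2)).resolve_left (hne (by decide))
  have hsum : e 0 + e 1 + e 2 = 0 :=
    (mul_eq_zero.mp (show (e 1 - e 2) * (e 0 + e 1 + e 2) = 0 by
      linear_combination (h01 - h02) / 4)).resolve_left (hne (by decide))
  have hY : L.derivWeierstrassP (torsPt (2 * M) wIdxA τ) ^ 2 =
      4 * ((x - e 0) * (x - e 1) * (x - e 2)) := by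
    rw [L.derivWeierstrassP_sq _ (hnotmem (isUnitPair_wAB M hM).1), hx, wpValue_eq]
    linear_combination (4 * (L.weierstrassP (torsPt (2 * M) wIdxA τ)) ^ 2
      - 4 * (L.weierstrassP (torsPt (2 * M) wIdxA τ)) * (e 0 + e 1)
      + 4 * e 0 * e 1) * hsum + (L.weierstrassP (torsPt (2 * M) wIdxA τ) - e 0) * h01 + hroot 0
  have hπ : (2 * (π : ℂ) * Complex.I) ≠ 0 := Complex.two_pi_I_ne_zero
  have hwe : wFun M τ = L.derivWeierstrassP (torsPt (2 * M) wIdxA τ) /
      ((2 * π * Complex.I) ^ 3 * torsionDiff (2 * M) wIdxA wIdxB τ) := by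
    rw [wFun, derivWeierstrassP_torsPt]
  rw [hwe, div_pow, hY, mul_pow, Fin.prod_univ_three]
  have hD : ∀ i, x - e i = (2 * π * Complex.I) ^ 2 * torsionDiff (2 * M) wIdxA (wHalf M i) τ := fun i => by
    rw [torsionDiff, mul_div_cancel₀ _ (pow_ne_zero 2 hπ)]
  rw [hD, hD, hD]
  have hne' := torsionDiff_ne_zero (isUnitPair_wAB M hM) τ
  field_simp

theorem wFun_ne_zero (hM : 5 ≤ M) (τ : ℍ) : wFun M τ ≠ 0 := fun h => by
  have h2 := wFun_sq M hM τ
  rw [h, zero_pow two_ne_zero, eq_comm, div_eq_zero_iff] at h2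
  rcases h2 with h2 | h2
  · exact mul_ne_zero (by norm_num : (4 : ℂ) ≠ 0)
      (Finset.prod_ne_zero_iff.mpr fun i _ => torsionDiff_ne_zero (isUnitPair_wAH M hM i) τ) h2
  · exact pow_ne_zero 2 (torsionDiff_ne_zero (isUnitPair_wAB M hM) τ) h2

end FermatLib.Galois.DS
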