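import Mathlib.FieldTheory.Galois.Basic
import Mathlib.NumberTheory.Cyclotomic.Basic
import Fermat.Agent.Curve.Descent.AutFixed
import Fermat.Agent.Modular.CorrTranslate
import Fermat.Agent.Modular.Kummer.Twisted
import Fermat.Agent.Galois.DS.LevelDenom
import Fermat.Agent.Galois.DS.WeightOneFun

/-!
# Expansions of the square of the weight one form
-/

set_option autoImplicit false
set_option linter.unusedSectionVars false

noncomputable section

open Complex UpperHalfPlane Function ModularCurve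
open scoped MatrixGroups Real ModularForm Manifold

namespace FermatLib.Galois.DS

open FermatLib.Igusa FermatLib.Modular

variable (M : ℕ) [NeZero M]

theorem mdifferentiable_wFun (hM : 5 ≤ M) : MDiff (wFun M) := by
  obtain ⟨F, hF, -⟩ := exists_hasExp_torsionDiff (isLevelCoeff_id (2 * M)) (isUnitPair_wAB M hM)
  have hD : MDiff (torsionDiff (2 * M) wIdxA wIdxB) := hF.mdifferentiable
  exact (mdifferentiable_const.mul (mdifferentiable_weightedEis (norm_congWeight_le M) le_rfl)).div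
    (mdifferentiable_const.mul hD) fun τ =>
    mul_ne_zero (pow_ne_zero 3 Complex.two_pi_I_ne_zero)
      (torsionDiff_ne_zero (isUnitPair_wAB M hM) τ)

/-- Invariance. -/
theorem wFun_slash_eq {γ : SL(2, ℤ)} (h00 : ((γ 0 0 : ℤ) : ZMod M) = 1)
    (h11 : ((γ 1 1 : ℤ) : ZMod M) = 1) (h01 : ((γ 0 1 : ℤ) : ZMod M) = 0) :
    wFun M ∣[(1 : ℤ)] γ = wFun M := by
  have hd : ∀ {x : ℤ}, ((x : ℤ) : ZMod M) = 0 → ∀ c : ℤ, ((2 * M : ℕ) : ℤ) ∣ 2 * c * x := by
    intro x hx c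
    obtain ⟨k, hk⟩ := (ZMod.intCast_zmod_eq_zero_iff_dvd x M).mp hx
    exact ⟨c * k, by rw [hk]; push_cast; ring⟩
  have hsame : ∀ c : ℤ, SameUpToSign (2 * M) (vecMulSL (2 * c, 0) γ) (2 * c, 0) := fun c => by
    refine Or.inl ⟨?_, ?_⟩
    · have := hd (x := γ 0 0 - 1) (by push_cast; rw [h00, sub_self]) c
      convert this using 1
      simp [vecMulSL]; ring
    · have := hd h01 c
      simpa [vecMulSL] using this
  have hW : weightedEis (congWeight M) 3 ∣[(3 : ℤ)] γ = weightedEis (congWeight M) 3 := by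
    rw [weightedEis_slash]
    congr 1
    funext v
    have key : ∀ (δ : SL(2, ℤ)), ((δ 0 0 : ℤ) : ZMod M) = 1 → ((δ 0 1 : ℤ) : ZMod M) = 0 →
        ∀ w : Fin 2 → ℤ, ((2 * M : ℕ) : ℤ) ∣ w 0 - 2 ∧ ((2 * M : ℕ) : ℤ) ∣ w 1 →
          ((2 * M : ℕ) : ℤ) ∣ Matrix.vecMul w δ.1 0 - 2 ∧ ((2 * M : ℕ) : ℤ) ∣ Matrix.vecMul w δ.1 1 := by
      intro δ e00 e01 w hw
      have a1 := hd (x := δ 0 0 - 1) (by push_cast; rw [e00, sub_self]) 1
      have a2 := hd e01 1
      simp only [Matrix.vecMul, dotProduct, Fin.sum_univ_two]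
      constructor
      · exact (dvd_add (dvd_add (hw.1.mul_right (δ 0 0)) (hw.2.mul_right (δ 1 0))) a1).trans
          (dvd_of_eq (by ring))
      · exact (dvd_add (dvd_add (hw.1.mul_right (δ 0 1)) (hw.2.mul_right (δ 1 1))) a2).trans
          (dvd_of_eq (by ring))
    have e1 : ((γ⁻¹ : SL(2, ℤ)) 0 0 : ℤ) = γ 1 1 := by
      simp [Matrix.SpecialLinearGroup.coe_inv, Matrix.adjugate_fin_two]
    have e2 : ((γ⁻¹ : SL(2, ℤ)) 0 1 : ℤ) = -γ 0 1 := by
      simp [Matrix.SpecialLinearGroup.coe_inv, Matrix.adjugate_fin_two]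
    simp only [congWeight]
    refine if_congr ⟨fun h => ?_, key γ⁻¹ (by rw [e1]; exact h11) (by rw [e2, Int.cast_neg, h01, neg_zero]) v⟩
      rfl rfl
    have h' := key γ h00 h01 _ h
    rwa [Matrix.vecMul_vecMul, ← Matrix.SpecialLinearGroup.coe_mul, inv_mul_cancel,
      Matrix.SpecialLinearGroup.coe_one, Matrix.vecMul_one] at h'
  funext τ
  have hden : UpperHalfPlane.denom γ τ ≠ 0 := UpperHalfPlane.denom_ne_zero _ τ
  have hE := congrFun hW τ
  rw [ModularForm.SL_slash_apply, zpow_neg, mul_inv_eq_iff_eq_mul₀ (zpow_ne_zero _ hden)] at hE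
  rw [ModularForm.SL_slash_apply, wFun, wFun, hE, torsionDiff_smul]
  rw [show wIdxA = (2 * (1 : ℤ), 0) from rfl, show wIdxB = (2 * (2 : ℤ), 0) from rfl,
    torsionDiff_congr (hsame 1) (hsame 2)]
  field_simp

variable {M}

/-- The square of a slash of the form. -/
theorem wFun_slash_sq (hM : 5 ≤ M) (γ : SL(2, ℤ)) (τ : ℍ) :
    (wFun M ∣[(1 : ℤ)] γ) τ ^ 2 =
      4 * (∏ i, torsionDiff (2 * M) (vecMulSL wIdxA γ) (vecMulSL (wHalf M i) γ) τ) /
        torsionDiff (2 * M) (vecMulSL wIdxA γ) (vecMulSL wIdxB γ) τ ^ 2 := by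
  have hden : UpperHalfPlane.denom γ τ ≠ 0 := UpperHalfPlane.denom_ne_zero _ τ
  rw [ModularForm.SL_slash_apply, mul_pow, wFun_sq M hM]
  simp only [torsionDiff_smul, Fin.prod_univ_three]
  field_simp

/-- The order of the square at a cusp. -/
def wOrd (M : ℕ) (γ : SL(2, ℤ)) : ℤ :=
  ∑ i, torsOrd (2 * M) (vecMulSL wIdxA γ) (vecMulSL (wHalf M i) γ) -
    2 * torsOrd (2 * M) (vecMulSL wIdxA γ) (vecMulSL wIdxB γ)

theorem exists_hasExp_wFun_sq (hM : 5 ≤ M) {R : Type*} [CommRing R] {φ : R →+* ℂ}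
    (hR : IsLevelCoeff φ (2 * M)) (h4 : IsUnit (4 : R)) (γ : SL(2, ℤ)) :
    ∃ G : LaurentSeries R, HasExp (2 * M) (fun τ => (wFun M ∣[(1 : ℤ)] γ) τ ^ 2) (coeffMap φ G) ∧
      LeadUnit G (wOrd M γ) := by
  have hpA : ∀ i, IsUnitPair (2 * M) (vecMulSL wIdxA γ) (vecMulSL (wHalf M i) γ) := fun i =>
    isUnitPair_vecMulSL (isUnitPair_wAH M hM i) γ
  have hpB := isUnitPair_vecMulSL (isUnitPair_wAB M hM) γ
  choose N hN hN0 hN1 using fun i => exists_hasExp_torsionDiff hR (hpA i)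
  obtain ⟨E, hE, hE0, hE1⟩ := exists_hasExp_torsionDiff hR hpB
  have hE2 : LeadUnit (E ^ 2) (2 * torsOrd (2 * M) (vecMulSL wIdxA γ) (vecMulSL wIdxB γ)) := by
    have := LeadUnit.pow (show LeadUnit E _ from ⟨hE0, hE1⟩) 2
    simpa using this
  obtain ⟨E', hEE, hE'⟩ := hE2.exists_inv
  have hC : LeadUnit (HahnSeries.single (0 : ℤ) (4 : R)) 0 :=
    ⟨fun k hk => HahnSeries.coeff_single_of_ne (by omega), by
      rw [HahnSeries.coeff_single_same]; exact h4⟩
  refine ⟨HahnSeries.single 0 4 * (∏ i, N i) * E', ?_, ?_⟩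
  · have hmap : coeffMap φ E' = ((coeffMap φ E) ^ 2)⁻¹ :=
      eq_inv_of_mul_eq_one_right (by rw [← map_pow, ← map_mul, hEE, map_one])
    rw [map_mul, map_mul, map_prod, coeffMap_single, map_ofNat, hmap]
    have h := ((HasExp.const (n := 2 * M) (4 : ℂ)).mul (HasExp.prod Finset.univ fun i _ => hN i)).mul
      ((hE.pow 2).inv fun τ => pow_ne_zero 2 (torsionDiff_ne_zero hpB τ))
    refine h.congr fun τ => ?_
    rw [wFun_slash_sq hM]
    simp [div_eq_mul_inv, Finset.prod_apply]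
  · unfold wOrd
    convert (hC.mul (LeadUnit.prod Finset.univ fun i _ => (⟨hN0 i, hN1 i⟩ : LeadUnit (N i) _))).mul
      hE' using 1
    ring

omit [NeZero M] in
theorem absMod_two_mul [NeZero M] (x : ℤ) : absMod (2 * M) ((M : ℤ) * x) = if 2 ∣ x then 0 else M := by
  rw [absMod]
  split_ifs with h
  · obtain ⟨y, rfl⟩ := h
    rw [show (((M : ℤ) * (2 * y) : ℤ) : ZMod (2 * M)) = 0 by
      rw [ZMod.intCast_zmod_eq_zero_iff_dvd]; exact ⟨y, by push_cast; ring⟩]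
    simp
  · obtain ⟨y, rfl⟩ : ∃ y, x = 2 * y + 1 := ⟨x / 2, by omega⟩
    rw [show (((M : ℤ) * (2 * y + 1) : ℤ) : ZMod (2 * M)) = ((M : ℕ) : ZMod (2 * M)) by
      rw [show ((M : ℕ) : ZMod (2 * M)) = ((M : ℤ) : ZMod (2 * M)) by push_cast; rfl,
        ← sub_eq_zero, ← Int.cast_sub, ZMod.intCast_zmod_eq_zero_iff_dvd]
      exact ⟨y, by push_cast; ring⟩,
      ZMod.valMinAbs_natCast_of_le_half (by omega)]
    simp

theorem absMod_le (x : ℤ) : absMod (2 * M) x ≤ M := by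
  rw [absMod, ZMod.valMinAbs_natAbs_eq_min]
  omega

theorem wOrd_nonneg (γ : SL(2, ℤ)) : 0 ≤ wOrd M γ := by
  have hdet : γ 0 0 * γ 1 1 - γ 0 1 * γ 1 0 = 1 := (Matrix.det_fin_two _).symm.trans γ.2
  have hpar : ¬ ((2 : ℤ) ∣ γ 0 0 ∧ (2 : ℤ) ∣ γ 1 0) := by
    rintro ⟨⟨a, ha⟩, ⟨c, hc⟩⟩
    rw [ha, hc] at hdet
    have h2 : (2 : ℤ) ∣ 1 := ⟨a * γ 1 1 - γ 0 1 * c, by linear_combination -hdet⟩
    omega
  have e0 : (vecMulSL (wHalf M 0) γ).1 = (M : ℤ) * γ 1 0 := by simp [vecMulSL, wHalf]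
  have e1 : (vecMulSL (wHalf M 1) γ).1 = (M : ℤ) * γ 0 0 := by simp [vecMulSL, wHalf]
  have e2 : (vecMulSL (wHalf M 2) γ).1 = (M : ℤ) * (γ 0 0 + γ 1 0) := by
    simp [vecMulSL, wHalf]; ring
  have hA := absMod_le (M := M) (vecMulSL wIdxA γ).1
  simp only [wOrd, torsOrd, Fin.sum_univ_three, e0, e1, e2, absMod_two_mul]
  split_ifs <;> omega

theorem wOrd_one (hM : 5 ≤ M) : wOrd M 1 = 0 := by
  have h2 : absMod (2 * M) 2 = 2 := by
    rw [absMod, show ((2 : ℤ) : ZMod (2 * M)) = ((2 : ℕ) : ZMod (2 * M)) by push_cast; rfl,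
      ZMod.valMinAbs_natCast_of_le_half (by omega)]
    rfl
  have h4 : absMod (2 * M) 4 = 4 := by
    rw [absMod, show ((4 : ℤ) : ZMod (2 * M)) = ((4 : ℕ) : ZMod (2 * M)) by push_cast; rfl,
      ZMod.valMinAbs_natCast_of_le_half (by omega)]
    rfl
  have hM1 : absMod (2 * M) (M : ℤ) = M := by simpa using absMod_two_mul (M := M) 1
  have h0 : absMod (2 * M) 0 = 0 := by simp [absMod]
  simp only [wOrd, torsOrd, Fin.sum_univ_three, vecMulSL_one]
  simp only [wIdxA, wIdxB, wHalf, Matrix.cons_val_zero, Matrix.cons_val_one, Matrix.cons_val,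
    h2, h4, hM1, h0]
  omega

theorem isBoundedAtImInfty_wFun_slash (hM : 5 ≤ M) (γ : SL(2, ℤ)) :
    IsBoundedAtImInfty (wFun M ∣[(1 : ℤ)] γ) := by
  obtain ⟨G, hG, hG'⟩ := exists_hasExp_wFun_sq hM (isLevelCoeff_id (2 * M))
    (isUnit_iff_ne_zero.mpr (by norm_num)) γ
  refine Kummer.isBoundedAtImInfty_of_pow two_ne_zero (hG.isBoundedAtImInfty fun k hk => ?_)
  rw [coeffMap_coeff, hG'.1 k (lt_of_lt_of_le hk (wOrd_nonneg γ)), map_zero]

/-- The coefficients of the square at `∞` are rational. -/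
theorem coeff_wFun_sq_mem_range (hM : 5 ≤ M) {G : LaurentSeries ℂ}
    (hG : HasExp (2 * M) (fun τ => wFun M τ ^ 2) G) (σ : ℂ →+* ℂ) :
    coeffMap σ G = G := by
  obtain ⟨s, hs, hu⟩ := exists_conj_exponent (M := 2 * M) σ
  have hid : ∀ z : LaurentSeries ℂ, coeffMap (RingHom.id ℂ) z = z := fun z => by ext; simp
  have hodd : ¬ (2 : ℤ) ∣ s := fun h => by
    have h1 : IsUnit ((s : ℤ) : ZMod 2) := by
      simpa using hu.map (ZMod.castHom (dvd_mul_right 2 M) (ZMod 2))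
    rw [(ZMod.intCast_zmod_eq_zero_iff_dvd s 2).mpr h] at h1
    exact not_isUnit_zero h1
  have hfix : ∀ a : ℤ × ℤ, (a.2 = 0 ∨ a.2 = (M : ℤ)) →
      SameUpToSign (2 * M) (a.1, s * a.2) a := fun a ha => Or.inl ⟨by simp, by
    rcases ha with h | h <;> simp only [h]
    · simp
    · obtain ⟨t, rfl⟩ : ∃ t, s = 2 * t + 1 := ⟨s / 2, by omega⟩
      exact ⟨t, by push_cast; ring⟩⟩
  choose N hN hN0 hN1 using fun i => exists_hasExp_torsionDiff (isLevelCoeff_id (2 * M))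
    (isUnitPair_wAH M hM i)
  obtain ⟨E, hE, -, -⟩ := exists_hasExp_torsionDiff (isLevelCoeff_id (2 * M)) (isUnitPair_wAB M hM)
  simp only [hid] at hN hE
  have hGeq : G = HahnSeries.C 4 * (∏ i, N i) * (E ^ 2)⁻¹ := by
    refine hG.unique ?_
    have h := ((HasExp.const (n := 2 * M) (4 : ℂ)).mul (HasExp.prod Finset.univ fun i _ => hN i)).mul
      ((hE.pow 2).inv fun τ => pow_ne_zero 2 (torsionDiff_ne_zero (isUnitPair_wAB M hM) τ))
    refine h.congr fun τ => ?_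
    rw [wFun_sq M hM]
    simp [div_eq_mul_inv, Finset.prod_apply]
  have hNf : ∀ i, coeffMap σ (N i) = N i := fun i => by
    refine (torsionDiff_conj hs (isUnitPair_wAH M hM i) (hN i)).unique ?_
    rw [torsionDiff_congr (hfix wIdxA (Or.inl rfl)) (hfix (wHalf M i) (by
      fin_cases i <;> simp [wHalf]))]
    exact hN i
  have hEf : coeffMap σ E = E := by
    refine (torsionDiff_conj hs (isUnitPair_wAB M hM) hE).unique ?_
    rw [torsionDiff_congr (hfix wIdxA (Or.inl rfl)) (hfix wIdxB (Or.inl rfl))]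
    exact hE
  rw [hGeq, map_mul, map_mul, map_prod, map_inv₀, map_pow, hEf]
  simp only [hNf]
  rw [HahnSeries.C_apply, coeffMap_single, map_ofNat]

omit [NeZero M] in
theorem mem_range_of_mem_denomRing_of_fixed {n : ℕ} [NeZero n] {z : ℂ} (hz : z ∈ denomRing n)
    (hfix : ∀ σ : ℂ →+* ℂ, σ z = z) : z ∈ (algebraMap ℚ ℂ).range := by
  let L := IntermediateField.adjoin ℚ {zetaU n}
  have hint : IsAlgebraic ℚ (zetaU n) :=
    ((isPrimitiveRoot_zetaU n).isIntegral (Nat.pos_of_ne_zero (NeZero.ne n))).tower_top.isAlgebraic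
  have hL : IsCyclotomicExtension {n} ℚ L := by
    have := (isPrimitiveRoot_zetaU n).adjoin_isCyclotomicExtension ℚ
    exact IsCyclotomicExtension.equiv {n} ℚ _ (Subalgebra.equivOfEq _ _
      (IntermediateField.adjoin_simple_toSubalgebra_of_isAlgebraic hint).symm)
  have : IsGalois ℚ L := IsCyclotomicExtension.isGalois {n} ℚ L
  have : FiniteDimensional ℚ L := IsCyclotomicExtension.finiteDimensional {n} ℚ L
  have hzL : z ∈ L := by
    refine (Subring.closure_le (t := L.toSubfield.toSubring)).mpr ?_ hz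
    rintro _ (rfl | rfl)
    · exact IntermediateField.subset_adjoin ℚ _ rfl
    · show _ ∈ L
      exact inv_mem (natCast_mem L n)
  obtain ⟨r, hr⟩ := (IsGalois.mem_range_algebraMap_iff_fixed (F := ℚ) (⟨z, hzL⟩ : L)).mpr fun τ => by
    obtain ⟨σ, hσ⟩ := Curve.exists_ringEquiv_extends (L := ℂ) τ.toRingEquiv
    exact Subtype.ext ((hσ ⟨z, hzL⟩).symm.trans (hfix (σ : ℂ →+* ℂ)))
  exact ⟨r, congrArg Subtype.val hr⟩

end FermatLib.Galois.DS
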