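import Fermat.Prelude.Def_FLTPrelim_Modularity
import Fermat.Agent.Galois.DS.WeightOneExp

/-!
# A nowhere vanishing weight one form on `Γ₁(M)` with rational coefficients

It is `F (M τ)`, normalised, for the form `F` of level `2M`.
-/

set_option autoImplicit false
set_option linter.unusedSectionVars false

noncomputable section

open Complex UpperHalfPlane Function ModularCurve CongruenceSubgroup
open scoped MatrixGroups Real ModularForm Manifold

namespace FermatLib.Galois.DS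

open FermatLib.Igusa FermatLib.Modular FermatLib.Modular.Corr

theorem coeff_mem_of_sq {S : Subring ℂ} (h2 : ∃ h ∈ S, 2 * h = 1) {P : PowerSeries ℂ}
    (h0 : P.coeff 0 = 1) (hP : ∀ k, (P * P).coeff k ∈ S) : ∀ k, P.coeff k ∈ S := by
  obtain ⟨h, hh, h2⟩ := h2
  intro k
  induction k using Nat.strong_induction_on with
  | _ k ih =>
    match k with
    | 0 => rw [h0]; exact one_mem S
    | k + 1 =>
      have hk := hP (k + 1)
      rw [PowerSeries.coeff_mul,
        Finset.Nat.sum_antidiagonal_eq_sum_range_succ (fun i j => P.coeff i * P.coeff j),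
        Finset.sum_range_succ, Finset.sum_range_succ', Nat.sub_self, Nat.sub_zero, h0, one_mul,
        mul_one] at hk
      set S' := ∑ i ∈ Finset.range k, P.coeff (i + 1) * P.coeff (k + 1 - (i + 1))
      have hS' : S' ∈ S := sum_mem fun i hi => by
        have hik := Finset.mem_range.mp hi
        exact mul_mem (ih _ (by omega)) (ih _ (by omega))
      rw [show P.coeff (k + 1) = h * ((S' + P.coeff (k + 1) + P.coeff (k + 1)) - S') by
        linear_combination -(P.coeff (k + 1)) * h2]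
      exact mul_mem hh (sub_mem hk hS')

variable (M : ℕ) [NeZero M]

/-- `diag (M, 1)`. -/
def scaleMat : Matrix (Fin 2) (Fin 2) ℤ := !![(M : ℤ), 0; 0, 1]

theorem det_scaleMat_pos : 0 < (scaleMat M).det := by
  simp [scaleMat, Matrix.det_fin_two_of, Nat.pos_of_ne_zero (NeZero.ne M)]

/-- `τ ↦ F (M τ)`. -/
def wScaled : ℍ → ℂ := pullSlash (glOfInt (scaleMat M)) 1 (wFun M)

theorem denom_scaleMat (τ : ℍ) : denom (glOfInt (scaleMat M)) τ = 1 := by
  have hval := val_glOfInt (det_scaleMat_pos M).ne'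
  simp [denom, hval]
  simp [scaleMat]

theorem coe_scaleMat_smul (τ : ℍ) : ((glOfInt (scaleMat M) • τ : ℍ) : ℂ) = (M : ℂ) * τ := by
  rw [coe_smul_of_det_pos (det_glOfInt_pos (det_scaleMat_pos M))]
  have hval := val_glOfInt (det_scaleMat_pos M).ne'
  simp [num, denom, hval]
  simp [scaleMat]

theorem wScaled_apply (τ : ℍ) : wScaled M τ = wFun M (glOfInt (scaleMat M) • τ) := by
  rw [wScaled, pullSlash_apply, denom_scaleMat, _root_.one_zpow, mul_one]

theorem mdifferentiable_wScaled (hM : 5 ≤ M) : MDiff (wScaled M) :=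
  mdifferentiable_pullSlash (det_glOfInt_pos (det_scaleMat_pos M)) (mdifferentiable_wFun M hM)

theorem wScaled_slash (γ : SL(2, ℤ)) :
    wScaled M ∣[(1 : ℤ)] γ = pullSlash (glOfInt (scaleMat M * γ.1)) 1 (wFun M) := by
  rw [← pullSlash_mapGL, wScaled, pullSlash_pullSlash (by simp), ← glOfInt_coe,
    glOfInt_mul (det_scaleMat_pos M).ne' (det_coe_ne_zero γ)]

theorem wScaled_slash_eq {γ : SL(2, ℤ)} (hγ : γ ∈ Gamma1 M) :
    wScaled M ∣[(1 : ℤ)] γ = wScaled M := by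
  rw [Gamma1_mem] at hγ
  obtain ⟨c, hc⟩ := (ZMod.intCast_zmod_eq_zero_iff_dvd _ M).mp hγ.2.2
  have hdet : γ 0 0 * γ 1 1 - γ 0 1 * γ 1 0 = 1 := (Matrix.det_fin_two _).symm.trans γ.2
  obtain ⟨γ', h00, h01, h10, h11⟩ : ∃ γ' : SL(2, ℤ), γ' 0 0 = γ 0 0 ∧
      γ' 0 1 = (M : ℤ) * γ 0 1 ∧ γ' 1 0 = c ∧ γ' 1 1 = γ 1 1 := by
    refine ⟨⟨!![γ 0 0, (M : ℤ) * γ 0 1; c, γ 1 1], ?_⟩, rfl, rfl, rfl, rfl⟩
    rw [Matrix.det_fin_two_of]
    rw [hc] at hdet
    linear_combination hdet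
  have hconj : scaleMat M * γ.1 = γ'.1 * scaleMat M := by
    ext i j
    fin_cases i <;> fin_cases j <;>
      simp [scaleMat, Matrix.mul_apply, Fin.sum_univ_two, h00, h01, h10, h11, hc] <;> ring
  rw [wScaled_slash, hconj, glOfInt_mul (det_coe_ne_zero γ') (det_scaleMat_pos M).ne',
    ← pullSlash_pullSlash (det_glOfInt_pos (det_scaleMat_pos M)), glOfInt_coe, pullSlash_mapGL,
    wFun_slash_eq M (by rw [h00]; exact hγ.1) (by rw [h11]; exact hγ.2.1) (by rw [h01]; simp)]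
  rfl

theorem isBoundedAtImInfty_wScaled_slash (hM : 5 ≤ M) (γ : SL(2, ℤ)) :
    IsBoundedAtImInfty (wScaled M ∣[(1 : ℤ)] γ) := by
  rw [wScaled_slash]
  refine isBoundedAtImInfty_pullSlash ?_ (isBoundedAtImInfty_wFun_slash hM)
  rw [Matrix.det_mul, γ.2, mul_one]
  exact det_scaleMat_pos M

theorem periodic_wScaled : Periodic (wScaled M ∘ ofComplex) (1 : ℝ) := by
  refine periodic_comp_ofComplex_of_vadd fun τ => ?_
  have h := congrFun (wScaled_slash_eq M (modularGroup_T_mem_Gamma1 M)) τ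
  rw [ModularForm.SL_slash_apply, UpperHalfPlane.modular_T_smul] at h
  simpa [UpperHalfPlane.denom, ModularGroup.coe_T] using h

theorem exists_weightOne' (hM : 5 ≤ M) :
    ∃ w : ℍ → ℂ, MDiff w ∧ (∀ τ, w τ ≠ 0) ∧
      (∀ γ ∈ Gamma1 M, w ∣[(1 : ℤ)] γ = w) ∧
      (∀ A : SL(2, ℤ), IsBoundedAtImInfty (w ∣[(1 : ℤ)] A)) ∧
      ∃ D : ℕ, D ≠ 0 ∧ ∀ n : ℕ, ∃ (k : ℕ) (a : ℤ),
        (D : ℂ) ^ k * ModularFormClass.qCoeff w n = a := by
  have hd := mdifferentiable_wScaled M hM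
  have hb : IsBoundedAtImInfty (wScaled M) := by
    simpa using isBoundedAtImInfty_wScaled_slash M hM 1
  set P := qExpansion 1 (wScaled M) with hP
  have hPexp : HasExp 1 (wScaled M) (HahnSeries.ofPowerSeries ℤ ℂ P) := by
    rw [show HahnSeries.ofPowerSeries ℤ ℂ P =
      HahnSeries.single 0 1 * HahnSeries.ofPowerSeries ℤ ℂ P by simp, hasExp_single_mul_iff]
    intro τ
    simpa [smul_eq_mul, uParam_one_eq] using
      UpperHalfPlane.hasSum_qExpansion one_pos (periodic_wScaled M) hd hb τ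
  have h2S : ∃ h ∈ denomRing (2 * M), (2 : ℂ) * h = 1 :=
    ⟨(M : ℂ) * ((2 * M : ℕ) : ℂ)⁻¹, mul_mem (natCast_mem _ _) (Subring.subset_closure (by simp)), by
      rw [← mul_assoc, ← Nat.cast_ofNat, ← Nat.cast_mul,
        mul_inv_cancel₀ (by exact_mod_cast NeZero.ne (2 * M))]⟩
  have h4 : IsUnit (4 : denomRing (2 * M)) := by
    obtain ⟨h, hh, h2⟩ := h2S
    exact IsUnit.of_mul_eq_one ⟨h * h, mul_mem hh hh⟩ (Subtype.ext (by
      show (4 : ℂ) * (h * h) = 1
      linear_combination (2 * h + 1) * h2))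
  obtain ⟨G, hG, hG'⟩ := exists_hasExp_wFun_sq hM (isLevelCoeff_denomRing (2 * M)) h4 1
  rw [SlashAction.slash_one] at hG
  rw [wOrd_one hM] at hG'
  have hGfix : ∀ (σ : ℂ →+* ℂ) (k : ℤ), σ (G.coeff k : ℂ) = (G.coeff k : ℂ) := fun σ k => by
    have := congrArg (fun F : LaurentSeries ℂ => F.coeff k) (coeff_wFun_sq_mem_range hM hG σ)
    simpa using this
  have hscale : HasExp 2 (fun τ => wScaled M τ ^ 2) (coeffMap (denomRing (2 * M)).subtype G) := by
    intro τ
    have h := hG (glOfInt (scaleMat M) • τ)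
    simp only [← wScaled_apply] at h
    refine h.congr_fun fun k => ?_
    congr 2
    rw [uParam, uParam, Periodic.qParam, Periodic.qParam, coe_scaleMat_smul]
    congr 1
    have hMc : (M : ℂ) ≠ 0 := by exact_mod_cast NeZero.ne M
    push_cast
    field_simp
  have hPG : ∀ k : ℕ, (P * P).coeff k = ((G.coeff (2 * (k : ℤ))) : ℂ) := fun k => by
    have h1 : HasExp 2 (fun τ => wScaled M τ ^ 2)
        (qExpand ℂ 2 (HahnSeries.ofPowerSeries ℤ ℂ P * HahnSeries.ofPowerSeries ℤ ℂ P)) :=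
      ((hPexp.mul hPexp).scale (n := 2)).congr fun τ => (pow_two _).symm
    have h2 := congrArg (fun F : LaurentSeries ℂ => F.coeff (2 * (k : ℤ))) (h1.unique hscale)
    simp only [coeffMap_coeff] at h2
    rw [show (2 : ℤ) * k = ((2 : ℕ) : ℤ) * k from rfl, qExpand_coeff_mul, ← map_mul,
      HahnSeries.ofPowerSeries_apply_coeff] at h2
    exact h2
  set c := P.coeff 0 with hc
  have hc2 : c * c = (G.coeff 0 : ℂ) := by
    have h := hPG 0
    rw [PowerSeries.coeff_mul, Finset.Nat.antidiagonal_zero, Finset.sum_singleton] at h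
    rw [hc]
    simpa using h
  have hu := hG'.2
  obtain ⟨g, hg⟩ := hu.exists_right_inv
  have hgc : (G.coeff 0 : ℂ) * g = 1 := congrArg Subtype.val hg
  have hc0 : c ≠ 0 := fun h0 => by rw [← hc2, h0, mul_zero, zero_mul] at hgc; exact zero_ne_one hgc
  let S : Subring ℂ :=
    { carrier := {z | z ∈ denomRing (2 * M) ∧ ∀ σ : ℂ →+* ℂ, σ z = z}
      one_mem' := ⟨one_mem _, fun σ => map_one σ⟩
      zero_mem' := ⟨zero_mem _, fun σ => map_zero σ⟩
      add_mem' := fun ha hb => ⟨add_mem ha.1 hb.1, fun σ => by rw [map_add, ha.2, hb.2]⟩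
      mul_mem' := fun ha hb => ⟨mul_mem ha.1 hb.1, fun σ => by rw [map_mul, ha.2, hb.2]⟩
      neg_mem' := fun ha => ⟨neg_mem ha.1, fun σ => by rw [map_neg, ha.2]⟩ }
  have hgS : (g : ℂ) ∈ S := ⟨g.2, fun σ => by
    have h := congrArg σ hgc
    rw [map_mul, hGfix, map_one] at h
    exact mul_left_cancel₀ (left_ne_zero_of_mul_eq_one hgc) (h.trans hgc.symm)⟩
  have hhalfS : ∃ h ∈ S, (2 : ℂ) * h = 1 := by
    obtain ⟨h, hh, h2⟩ := h2S
    refine ⟨h, ⟨hh, fun σ => ?_⟩, h2⟩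
    have h' := congrArg σ h2
    rw [map_mul, map_ofNat, map_one] at h'
    exact mul_left_cancel₀ two_ne_zero (h'.trans h2.symm)
  set w : ℍ → ℂ := c⁻¹ • wScaled M with hw
  set Q := PowerSeries.C c⁻¹ * P with hQ
  have hQS : ∀ k, Q.coeff k ∈ S := coeff_mem_of_sq hhalfS (by
    rw [hQ, PowerSeries.coeff_C_mul, ← hc, inv_mul_cancel₀ hc0]) fun k => by
    rw [show Q * Q = PowerSeries.C (c⁻¹ * c⁻¹) * (P * P) by rw [hQ, map_mul]; ring,
      PowerSeries.coeff_C_mul, hPG]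
    have hcg : c⁻¹ * c⁻¹ = (g : ℂ) := by
      rw [← hc2] at hgc
      field_simp
      linear_combination -hgc
    rw [hcg]
    exact mul_mem hgS ⟨(G.coeff _).2, fun σ => hGfix σ _⟩
  have hwslash : ∀ γ : SL(2, ℤ), w ∣[(1 : ℤ)] γ = c⁻¹ • (wScaled M ∣[(1 : ℤ)] γ) := fun γ => by
    rw [hw, ModularForm.SL_smul_slash]
  refine ⟨w, hd.const_smul _, fun τ => ?_, fun γ hγ => ?_, fun A => ?_, 2 * M,
    NeZero.ne _, fun k => ?_⟩
  · rw [hw, Pi.smul_apply, smul_eq_mul, wScaled_apply]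
    exact mul_ne_zero (inv_ne_zero hc0) (wFun_ne_zero M hM _)
  · rw [hwslash, wScaled_slash_eq M hγ]
  · rw [hwslash]
    exact (isBoundedAtImInfty_wScaled_slash M hM A).const_mul_left c⁻¹
  · have hcoef : ModularFormClass.qCoeff w k = Q.coeff k := by
      rw [ModularFormClass.qCoeff, hw, UpperHalfPlane.qExpansion_smul
          (UpperHalfPlane.analyticAt_cuspFunction_zero one_pos (periodic_wScaled M) hd hb),
        map_smul, hQ, PowerSeries.coeff_C_mul]
      rfl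
    obtain ⟨r, hr⟩ := mem_range_of_mem_denomRing_of_fixed (hQS k).1 (hQS k).2
    obtain ⟨j, hj⟩ := isIntegral_pow_mul_of_mem_denomRing (2 * M) (hQS k).1
    obtain ⟨a, ha⟩ : ∃ a : ℤ, (a : ℂ) = ((2 * M : ℕ) : ℂ) ^ j * Q.coeff k := by
      rw [show ((2 * M : ℕ) : ℂ) ^ j * Q.coeff k = algebraMap ℚ ℂ (((2 * M : ℕ) : ℚ) ^ j * r) by
        simp [← hr]] at hj ⊢
      obtain ⟨a, ha⟩ := IsIntegrallyClosed.isIntegral_iff.mp
        ((isIntegral_algebraMap_iff (algebraMap ℚ ℂ).injective).mp hj)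
      exact ⟨a, by rw [← ha]; simp⟩
    exact ⟨j, a, by rw [hcoef, ha]⟩

end FermatLib.Galois.DS
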