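import Mathlib.RingTheory.DiscreteValuationRing.Basic
import Mathlib.RingTheory.AdicCompletion.Basic
import Mathlib.RingTheory.FiniteType
import Fermat.Agent.Galois.DS.LevelRing
import Fermat.Agent.Galois.DS.LevelApprox
import Fermat.Agent.Galois.DS.WeightOne
import Fermat.Prelude.Def_FLTPrelim_Modularity

/-!
# Level data for `Γ₁(M)`, `4 ∣ M` or `5 ∣ M`

Everything the Deligne–Serre argument needs from the Weber functions and the rigid base
`Γ₁(4)`/`Γ₁(5)`: Galois action on expansions, points, and the integral structure at a prime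
`p ∤ M` (good reduction).
-/

set_option autoImplicit false

noncomputable section

open UpperHalfPlane CongruenceSubgroup ModularCurve
open scoped MatrixGroups ModularForm Manifold

namespace FermatLib.Galois.DS

variable (M : ℕ) [NeZero M]

/-- Coefficientwise conjugates exist. -/
theorem exists_isConjFn (hM : 4 ∣ M ∨ 5 ∣ M) (hM5 : 5 ≤ M) (σ : ℂ ≃+* ℂ) (G : modRing M) :
    ∃ G' : modRing M, IsConjFn M σ G G' :=
  exists_isConjFn' hM hM5 σ G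

/-- Conjugation permutes the cusps. -/
theorem exists_cusp_conj (hM : 4 ∣ M ∨ 5 ∣ M) (hM5 : 5 ≤ M) (σ : ℂ ≃+* ℂ) (A : SL(2, ℤ)) :
    ∃ A' : SL(2, ℤ), Int.gcd (A' 1 0) M = Int.gcd (A 1 0) M ∧
      (IsInftyCusp M A' ↔ IsInftyCusp M A) ∧
      ∀ G G' : modRing M, IsConjFn M σ G G' →
        cuspExp M A G' = coeffMap (σ : ℂ →+* ℂ) (cuspExp M A' G) :=
  exists_cusp_conj' hM hM5 σ A

/-- Conjugation permutes the points of `ℍ`, preserving multiplicities. -/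
theorem exists_point_conj (hM : 4 ∣ M ∨ 5 ∣ M) (hM5 : 5 ≤ M) (σ : ℂ ≃+* ℂ) (τ : ℍ) :
    ∃ τ' : ℍ, ∀ G G' : modRing M, IsConjFn M σ G G' →
      ordAt (G' : ℍ → ℂ) τ = ordAt (G : ℍ → ℂ) τ' :=
  exists_point_conj' hM hM5 σ τ

/-- Conjugation commutes with the diamond operators. -/
theorem isConjFn_diamondFn (hM : 4 ∣ M ∨ 5 ∣ M) (hM5 : 5 ≤ M) (σ : ℂ ≃+* ℂ) (γ : Gamma0 M)
    {G G' : modRing M} (h : IsConjFn M σ G G') :
    IsConjFn M σ (diamondFn M γ G) (diamondFn M γ G') :=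
  isConjFn_diamondFn' hM hM5 σ γ h

/-- A nowhere vanishing form of weight one on `Γ₁(M)` with rational coefficients and bounded
denominators. -/
theorem exists_weightOne (hM : 4 ∣ M ∨ 5 ∣ M) (hM5 : 5 ≤ M) :
    ∃ w : ℍ → ℂ, MDiff w ∧ (∀ τ, w τ ≠ 0) ∧
      (∀ γ ∈ Gamma1 M, w ∣[(1 : ℤ)] γ = w) ∧
      (∀ A : SL(2, ℤ), IsBoundedAtImInfty (w ∣[(1 : ℤ)] A)) ∧
      ∃ D : ℕ, D ≠ 0 ∧ ∀ n : ℕ, ∃ (k : ℕ) (a : ℤ),
        (D : ℂ) ^ k * ModularFormClass.qCoeff w n = a :=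
  exists_weightOne' M hM5

section Integral

variable (O : Subring ℂ) [IsDiscreteValuationRing O]
  [IsAdicComplete (IsLocalRing.maximalIdeal O) O]

/-- A function with expansion over `Frac O` at `∞` is integral after scaling. -/
theorem exists_smul_mem_intRing (hM : 4 ∣ M ∨ 5 ∣ M) (hM5 : 5 ≤ M) {p : ℕ} (hp : p.Prime)
    (hpM : ¬ p ∣ M) (hpO : (p : O) ∈ IsLocalRing.maximalIdeal O)
    (hζ : Complex.exp (2 * Real.pi * Complex.I / M) ∈ O) (G : modRing M)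
    (hG : ∀ n : ℤ, ∃ a b : O, b ≠ 0 ∧ (b : ℂ) * (qExp1 M G).coeff n = a) :
    ∃ c : O, c ≠ 0 ∧ c • G ∈ intRing M O :=
  exists_smul_mem_intRing' O hM hM5 hp hpM hpO hζ G hG

theorem finiteType_intRing (hM : 4 ∣ M ∨ 5 ∣ M) (hM5 : 5 ≤ M) {p : ℕ} (hp : p.Prime)
    (hpM : ¬ p ∣ M) (hpO : (p : O) ∈ IsLocalRing.maximalIdeal O)
    (hζ : Complex.exp (2 * Real.pi * Complex.I / M) ∈ O) :
    Algebra.FiniteType O (intRing M O) :=
  finiteType_intRing' O hM hM5 hp hpM hpO hζ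

/-- Good reduction: at a closed point of the special fibre the maximal ideal is `(ϖ, f)`. -/
theorem exists_two_generators (hM : 4 ∣ M ∨ 5 ∣ M) (hM5 : 5 ≤ M) {p : ℕ} (hp : p.Prime)
    (hpM : ¬ p ∣ M) (hpO : (p : O) ∈ IsLocalRing.maximalIdeal O)
    (hζ : Complex.exp (2 * Real.pi * Complex.I / M) ∈ O) {ϖ : O} (hϖ : Irreducible ϖ)
    (x : Ideal (intRing M O)) [x.IsMaximal] (hx : algebraMap O (intRing M O) ϖ ∈ x) :
    ∃ f ∈ x, ∀ a ∈ x, ∃ s ∉ x, s * a ∈ Ideal.span {algebraMap O (intRing M O) ϖ, f} :=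
  exists_two_generators' O hM hM5 hp hpM hpO hζ hϖ x hx

/-- A prime of the generic fibre is a point of `ℍ`, with a local uniformiser. -/
theorem exists_point_of_prime (hM : 4 ∣ M ∨ 5 ∣ M) (hM5 : 5 ≤ M) {p : ℕ} (hp : p.Prime)
    (hpM : ¬ p ∣ M) (hpO : (p : O) ∈ IsLocalRing.maximalIdeal O)
    (hζ : Complex.exp (2 * Real.pi * Complex.I / M) ∈ O) {ϖ : O} (hϖ : Irreducible ϖ)
    (P : Ideal (intRing M O)) [P.IsPrime] (hP : P ≠ ⊥) (hPϖ : algebraMap O (intRing M O) ϖ ∉ P) :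
    ∃ (τ : ℍ) (u : intRing M O), u ∈ P ∧ ordAt ((u : modRing M) : ℍ → ℂ) τ = 1 ∧
      (∀ a : intRing M O, a ∈ P ↔ ((a : modRing M) : ℍ → ℂ) τ = 0) ∧
      ∀ a ∈ P, ∃ s ∉ P, u ∣ s * a :=
  exists_point_of_prime' O hM hM5 hp hpM hpO hζ hϖ P hP hPϖ

/-- Functions with bounded poles modulo `ϖ^k` are approximated by functions with bounded poles. -/
theorem exists_approx_bounded_poles (hM : 4 ∣ M ∨ 5 ∣ M) (hM5 : 5 ≤ M) {p : ℕ} (hp : p.Prime)
    (hpM : ¬ p ∣ M) (hpO : (p : O) ∈ IsLocalRing.maximalIdeal O)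
    (hζ : Complex.exp (2 * Real.pi * Complex.I / M) ∈ O) {ϖ : O} (hϖ : Irreducible ϖ) (n : ℕ) :
    ∃ n' : ℕ, ∀ (k : ℕ) (G : intRing M O),
      (∀ (A : SL(2, ℤ)) (i : ℤ), i < -(n : ℤ) →
        ∃ b : O, (cuspExp M A (G : modRing M)).coeff i = (ϖ : ℂ) ^ k * b) →
      ∃ H G₁ : intRing M O, G = H + algebraMap O (intRing M O) ϖ ^ k * G₁ ∧
        ∀ (A : SL(2, ℤ)) (i : ℤ), i < -(n' : ℤ) → (cuspExp M A (H : modRing M)).coeff i = 0 :=
  exists_approx_bounded_poles' O hM hM5 hp hpM hpO hζ n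

end Integral

end FermatLib.Galois.DS

end
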