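import Mathlib.Algebra.Module.ZMod
import Fermat.Agent.Galois.DS.KummerRep
import Fermat.Agent.Galois.DS.LevelData

/-!
# The action of field automorphisms on Kummer classes

Conjugation of expansions at `∞` by `σ : ℂ ≃+* ℂ` preserves admissible functions and powers,
so it induces a linear automorphism `galAct σ` of the parabolic classes.
-/

set_option autoImplicit false
set_option linter.unusedSectionVars false

noncomputable section

open UpperHalfPlane CongruenceSubgroup ModularCurve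
open scoped MatrixGroups Manifold

namespace FermatLib.Galois.DS

variable {M : ℕ} [NeZero M] {ℓ : ℕ} [Fact ℓ.Prime]

section Basic

variable {σ τ : ℂ ≃+* ℂ} {G G' H H' : modRing M}

theorem IsConjFn.coeff_eq (h : IsConjFn M σ G G') (n : ℤ) :
    (qExp1 M G').coeff n = σ ((qExp1 M G).coeff n) := by
  rw [show qExp1 M G' = _ from h, coeffMap_coeff]
  rfl

theorem IsConjFn.unique (h : IsConjFn M σ G G') (h' : IsConjFn M σ G H) : G' = H :=
  qExp1_injective M (h.trans h'.symm)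

theorem IsConjFn.mul (h : IsConjFn M σ G G') (h' : IsConjFn M σ H H') :
    IsConjFn M σ (G * H) (G' * H') := by
  rw [IsConjFn, map_mul, map_mul, map_mul, show qExp1 M G' = _ from h,
    show qExp1 M H' = _ from h']

theorem isConjFn_one : IsConjFn M σ 1 1 := by simp [IsConjFn]

theorem IsConjFn.pow (h : IsConjFn M σ G G') (n : ℕ) : IsConjFn M σ (G ^ n) (G' ^ n) := by
  induction n with
  | zero => rw [pow_zero, pow_zero]; exact isConjFn_one
  | succ n ih => rw [pow_succ, pow_succ]; exact ih.mul h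

theorem isConjFn_refl : IsConjFn M (RingEquiv.refl ℂ) G G := by
  refine HahnSeries.ext (funext fun n => ?_)
  rw [coeffMap_coeff]
  rfl

theorem IsConjFn.trans (h : IsConjFn M σ G G') (h' : IsConjFn M τ G' H) :
    IsConjFn M (σ.trans τ) G H := by
  refine HahnSeries.ext (funext fun n => ?_)
  rw [h'.coeff_eq, h.coeff_eq, coeffMap_coeff]
  rfl

theorem IsConjFn.symm (h : IsConjFn M σ G G') : IsConjFn M σ.symm G' G := by
  refine HahnSeries.ext (funext fun n => ?_)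
  rw [coeffMap_coeff, h.coeff_eq]
  exact (σ.symm_apply_apply _).symm

theorem coeffMap_ne_zero_iff (σ : ℂ ≃+* ℂ) (x : LaurentSeries ℂ) :
    coeffMap (σ : ℂ →+* ℂ) x ≠ 0 ↔ x ≠ 0 :=
  map_ne_zero_iff _ fun a b h => HahnSeries.ext (funext fun n => σ.injective (by
    have := congrArg (fun y => HahnSeries.coeff y n) h
    simp only [coeffMap_coeff] at this
    exact this))

theorem order_coeffMap (σ : ℂ ≃+* ℂ) (x : LaurentSeries ℂ) :
    (coeffMap (σ : ℂ →+* ℂ) x).order = x.order := by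
  by_cases hx : x = 0
  · simp [hx]
  have hσ : coeffMap (σ : ℂ →+* ℂ) x ≠ 0 := (coeffMap_ne_zero_iff σ x).mpr hx
  refine le_antisymm (HahnSeries.order_le_of_coeff_ne_zero ?_)
    (HahnSeries.order_le_of_coeff_ne_zero ?_)
  · rw [coeffMap_coeff]
    exact (map_ne_zero_iff _ σ.injective).mpr (HahnSeries.coeff_order_eq_zero.not.mpr hx)
  · have h := HahnSeries.coeff_order_eq_zero.not.mpr hσ
    rw [coeffMap_coeff] at h
    exact (map_ne_zero_iff _ σ.injective).mp h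

theorem IsConjFn.ne_zero (h : IsConjFn M σ G G') (hG : G ≠ 0) : G' ≠ 0 := fun h0 => by
  have := (coeffMap_ne_zero_iff σ _).mpr (qExp1_ne_zero hG)
  rw [← show qExp1 M G' = _ from h, h0, map_zero] at this
  exact this rfl

variable (hM : 4 ∣ M ∨ 5 ∣ M) (hM5 : 5 ≤ M)
include hM hM5

theorem IsConjFn.isAdmissible (h : IsConjFn M σ G G') (hG : IsAdmissible M ℓ G) :
    IsAdmissible M ℓ G' := by
  refine ⟨h.ne_zero hG.1, fun τ => ?_, fun A => ?_⟩
  · obtain ⟨τ', hτ⟩ := exists_point_conj M hM hM5 σ τ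
    rw [hτ G G' h]
    exact hG.2.1 τ'
  · obtain ⟨A', hgcd, -, hA⟩ := exists_cusp_conj M hM hM5 σ A
    rw [hA G G' h, order_coeffMap, ← hgcd]
    exact hG.2.2 A'

theorem IsConjFn.isBoundedRep (h : IsConjFn M σ G G') (hG : IsBoundedRep M ℓ G) :
    IsBoundedRep M ℓ G' := by
  intro A hA i hi
  obtain ⟨A', -, hinf, hA'⟩ := exists_cusp_conj M hM hM5 σ A
  rw [hA' G G' h, coeffMap_coeff, hG A' (fun hA'' => hA (hinf.mp hA'')) i hi, map_zero]

end Basic

variable (hM : 4 ∣ M ∨ 5 ∣ M) (hM5 : 5 ≤ M)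
include hM hM5

/-- Conjugation preserves equality of classes. -/
theorem IsConjFn.hasClass_eq {σ : ℂ ≃+* ℂ} {g₁ g₂ g₁' g₂' : modRing M}
    {φ φ₁ φ₂ : Additive (Gamma1 M) →+ ZMod ℓ}
    (h₁ : IsConjFn M σ g₁ g₁') (h₂ : IsConjFn M σ g₂ g₂') (hφ₁ : HasClass M ℓ g₁ φ)
    (hφ₂ : HasClass M ℓ g₂ φ) (hφ₁' : HasClass M ℓ g₁' φ₁) (hφ₂' : HasClass M ℓ g₂' φ₂) :
    φ₁ = φ₂ := by
  have hℓ : ℓ - 1 + 1 = ℓ := Nat.sub_add_cancel (Fact.out : ℓ.Prime).one_le
  have hzero : ∀ ψ : Additive (Gamma1 M) →+ ZMod ℓ, ψ + (ℓ - 1) • ψ = 0 := fun ψ => by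
    rw [add_comm, ← succ_nsmul, hℓ]
    ext γ
    simp
  have hprod := hφ₁.mul (hφ₂.pow (ℓ - 1))
  rw [hzero] at hprod
  obtain ⟨k, hk⟩ := hprod.exists_pow_eq
  obtain ⟨k', hk'⟩ := exists_isConjFn M hM hM5 σ k
  have hprod' : g₁' * g₂' ^ (ℓ - 1) = k' ^ ℓ :=
    (h₁.mul (h₂.pow (ℓ - 1))).unique (hk ▸ hk'.pow ℓ)
  have hk0 : k' ≠ 0 := by
    intro h0
    rw [h0, zero_pow (Fact.out : ℓ.Prime).ne_zero] at hprod'
    exact mul_ne_zero hφ₁'.1 (pow_ne_zero _ hφ₂'.1) hprod'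
  have h3 := hφ₁'.mul (hφ₂'.pow (ℓ - 1))
  rw [hprod'] at h3
  have h4 := h3.unique (hasClass_pow_self hk0)
  exact add_right_cancel (h4.trans (hzero φ₂).symm)

theorem exists_galClass (σ : ℂ ≃+* ℂ) (φ : ParHom M ℓ) :
    ∃ φ' : ParHom M ℓ, ∀ g g' : modRing M, HasClass M ℓ g φ.1 → IsConjFn M σ g g' →
      HasClass M ℓ g' φ'.1 := by
  obtain ⟨g, hg⟩ := exists_isMaxRep hM5 φ.2
  obtain ⟨g', hg'⟩ := exists_isConjFn M hM hM5 σ g
  obtain ⟨φ', hφ'⟩ := exists_parHom_hasClass hM5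
    (hg'.isAdmissible hM hM5 ((hg.1.mem_parHom_iff hM5).mp φ.2))
  refine ⟨φ', fun g₁ g₁' hg₁ hg₁' => ?_⟩
  obtain ⟨ψ, hψ⟩ := exists_parHom_hasClass hM5
    (hg₁'.isAdmissible hM hM5 ((hg₁.mem_parHom_iff hM5).mp φ.2))
  rwa [← hg₁'.hasClass_eq hM hM5 hg' hg₁ hg.1 hψ hφ']

/-- The action of `σ` on classes. -/
def galClass (σ : ℂ ≃+* ℂ) (φ : ParHom M ℓ) : ParHom M ℓ :=
  (exists_galClass hM hM5 σ φ).choose

theorem hasClass_galClass {σ : ℂ ≃+* ℂ} {φ : ParHom M ℓ} {g g' : modRing M}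
    (hg : HasClass M ℓ g φ.1) (h : IsConjFn M σ g g') :
    HasClass M ℓ g' (galClass hM hM5 σ φ).1 :=
  (exists_galClass hM hM5 σ φ).choose_spec g g' hg h

theorem galClass_eq_of_hasClass {σ : ℂ ≃+* ℂ} {φ ψ : ParHom M ℓ} {g g' : modRing M}
    (hg : HasClass M ℓ g φ.1) (h : IsConjFn M σ g g') (hψ : HasClass M ℓ g' ψ.1) :
    galClass hM hM5 σ φ = ψ :=
  Subtype.ext ((hasClass_galClass hM hM5 hg h).unique hψ)

theorem galClass_add (σ : ℂ ≃+* ℂ) (φ ψ : ParHom M ℓ) :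
    galClass hM hM5 σ (φ + ψ) = galClass hM hM5 σ φ + galClass hM hM5 σ ψ := by
  obtain ⟨g, hg⟩ := exists_isMaxRep hM5 φ.2
  obtain ⟨h, hh⟩ := exists_isMaxRep hM5 ψ.2
  obtain ⟨g', hg'⟩ := exists_isConjFn M hM hM5 σ g
  obtain ⟨h', hh'⟩ := exists_isConjFn M hM hM5 σ h
  exact galClass_eq_of_hasClass hM hM5 (hg.1.mul hh.1) (hg'.mul hh')
    ((hasClass_galClass hM hM5 hg.1 hg').mul (hasClass_galClass hM hM5 hh.1 hh'))

theorem galClass_refl (φ : ParHom M ℓ) : galClass hM hM5 (RingEquiv.refl ℂ) φ = φ := by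
  obtain ⟨g, hg⟩ := exists_isMaxRep hM5 φ.2
  exact galClass_eq_of_hasClass hM hM5 hg.1 isConjFn_refl hg.1

theorem galClass_trans (σ τ : ℂ ≃+* ℂ) (φ : ParHom M ℓ) :
    galClass hM hM5 (σ.trans τ) φ = galClass hM hM5 τ (galClass hM hM5 σ φ) := by
  obtain ⟨g, hg⟩ := exists_isMaxRep hM5 φ.2
  obtain ⟨g', hg'⟩ := exists_isConjFn M hM hM5 σ g
  obtain ⟨g'', hg''⟩ := exists_isConjFn M hM hM5 τ g'
  exact galClass_eq_of_hasClass hM hM5 hg.1 (hg'.trans hg'')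
    (hasClass_galClass hM hM5 (hasClass_galClass hM hM5 hg.1 hg') hg'')

/-- `galClass` as a linear map. -/
def galLin (σ : ℂ ≃+* ℂ) : ParHom M ℓ →ₗ[ZMod ℓ] ParHom M ℓ :=
  AddMonoidHom.toZModLinearMap ℓ (AddMonoidHom.mk' (galClass hM hM5 σ) (galClass_add hM hM5 σ))

theorem galLin_apply (σ : ℂ ≃+* ℂ) (φ : ParHom M ℓ) :
    galLin hM hM5 σ φ = galClass hM hM5 σ φ := by
  rw [galLin, AddMonoidHom.coe_toZModLinearMap, AddMonoidHom.mk'_apply]

variable (ℓ) in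
/-- The representation of `Aut ℂ` on parabolic classes. -/
def galEnd : (ℂ ≃+* ℂ) →* Module.End (ZMod ℓ) (ParHom M ℓ) where
  toFun σ := galLin hM hM5 σ
  map_one' := LinearMap.ext fun φ => by
    rw [galLin_apply, Module.End.one_apply]
    exact galClass_refl hM hM5 φ
  map_mul' σ τ := LinearMap.ext fun φ => by
    rw [galLin_apply, Module.End.mul_apply, galLin_apply, galLin_apply]
    exact galClass_trans hM hM5 τ σ φ

theorem galEnd_apply (σ : ℂ ≃+* ℂ) (φ : ParHom M ℓ) :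
    galEnd ℓ hM hM5 σ φ = galClass hM hM5 σ φ := galLin_apply hM hM5 σ φ

/-- Conjugates of distinguished representatives are distinguished. -/
theorem IsMaxRep.isConjFn {σ : ℂ ≃+* ℂ} {φ : ParHom M ℓ} {g g' : modRing M}
    (hg : IsMaxRep M ℓ φ.1 g) (h : IsConjFn M σ g g') :
    IsMaxRep M ℓ (galClass hM hM5 σ φ).1 g' := by
  obtain ⟨hc, hb, hl, hm⟩ := hg
  refine ⟨hasClass_galClass hM hM5 hc h, h.isBoundedRep hM hM5 hb, ?_, fun k hk hkb => ?_⟩
  · rw [HahnSeries.leadingCoeff_eq, show qExp1 M g' = _ from h, order_coeffMap, coeffMap_coeff,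
      ← HahnSeries.leadingCoeff_eq, hl]
    exact map_one _
  · obtain ⟨k', hk'⟩ := exists_isConjFn M hM hM5 σ.symm k
    have h1 := hasClass_galClass hM hM5 hk hk'
    rw [← galClass_trans hM hM5, RingEquiv.self_trans_symm, galClass_refl hM hM5] at h1
    have h2 := hm k' h1 (hk'.isBoundedRep hM hM5 hkb)
    rw [show qExp1 M k' = _ from hk', order_coeffMap] at h2
    rwa [show qExp1 M g' = _ from h, order_coeffMap]

/-- The orbit of the coefficients of a distinguished representative. -/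
theorem IsMaxRep.coeff_galClass {σ : ℂ ≃+* ℂ} {φ : ParHom M ℓ} {g g₁ : modRing M}
    (hg : IsMaxRep M ℓ φ.1 g) (hg₁ : IsMaxRep M ℓ (galClass hM hM5 σ φ).1 g₁) (n : ℤ) :
    (qExp1 M g₁).coeff n = σ ((qExp1 M g).coeff n) := by
  obtain ⟨g', hg'⟩ := exists_isConjFn M hM hM5 σ g
  rw [hg₁.eq (hg.isConjFn hM hM5 hg'), hg'.coeff_eq]

theorem galClass_eq_self {σ : ℂ ≃+* ℂ} {φ : ParHom M ℓ} {g : modRing M}
    (hg : HasClass M ℓ g φ.1) (hσ : ∀ n, σ ((qExp1 M g).coeff n) = (qExp1 M g).coeff n) :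
    galClass hM hM5 σ φ = φ :=
  galClass_eq_of_hasClass hM hM5 hg (HahnSeries.ext (funext fun n => by
    rw [coeffMap_coeff]; exact (hσ n).symm)) hg

end FermatLib.Galois.DS

end
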