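import Fermat.Agent.Modular.QSeriesJ
import Fermat.Agent.Galois.DS.LevelData
import Fermat.Agent.Galois.DS.KummerClass
import Fermat.Agent.Galois.DS.ConjClass
import Fermat.Agent.Galois.DS.AssemblyWtOne

/-!
# Conjugates of weight one cusp forms

With the nowhere vanishing form `w`, a weight one cusp form becomes the weakly modular function
`F w¹¹ / Δ`, which has conjugates; the orders at the cusps are preserved, so these come from cusp
forms.
-/

set_option autoImplicit false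
set_option linter.unusedSectionVars false

noncomputable section

open UpperHalfPlane hiding I
open Filter Topology CongruenceSubgroup ModularCurve ModularFormClass
open scoped MatrixGroups ModularForm Manifold

namespace FermatLib.Galois.DS

open FermatLib.Modular

local notation "Δ" => ModularForm.discriminant
local notation "qq" => Function.Periodic.qParam (1 : ℝ)

variable {M : ℕ} [NeZero M]

theorem slash_smul_eq {F : ℍ → ℂ} {k : ℤ} {γ : SL(2, ℤ)} (h : F ∣[k] γ = F) (τ : ℍ) :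
    F (γ • τ) = denom γ τ ^ k * F τ := by
  have h1 := congrFun h τ
  rw [ModularForm.SL_slash_apply] at h1
  rw [← h1, mul_comm, mul_assoc, ← zpow_add₀ (denom_ne_zero _ _), neg_add_cancel, zpow_zero,
    mul_one]

theorem discriminant_slash (A : SL(2, ℤ)) : (Δ : ℍ → ℂ) ∣[(12 : ℤ)] A = Δ :=
  CuspForm.discriminant.slash_action_eq' _ ⟨A, rfl⟩

theorem mdiff_discriminant : MDiff (Δ : ℍ → ℂ) := ModularFormClass.holo CuspForm.discriminant

/-- `u / Δ` for a weight twelve form `u`. -/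
theorem div_discriminant_mem {u : ℍ → ℂ} (hu : MDiff u)
    (hinv : ∀ γ ∈ Gamma1 M, u ∣[(12 : ℤ)] γ = u)
    (hb : ∀ A : SL(2, ℤ), IsBoundedAtImInfty (u ∣[(12 : ℤ)] A)) :
    (fun τ => u τ / Δ τ) ∈ modRing M := by
  refine mem_weakMod.mpr ⟨?_, fun γ hγ τ => ?_, fun A => ⟨1, ?_⟩⟩
  · rw [UpperHalfPlane.mdifferentiable_iff] at hu ⊢
    refine (hu.div (UpperHalfPlane.mdifferentiable_iff.mp mdiff_discriminant) fun z hz => ?_)
    exact ModularForm.discriminant_ne_zero _
  · rw [slash_smul_eq (hinv γ hγ), slash_smul_eq (discriminant_slash γ),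
      mul_div_mul_left _ _ (zpow_ne_zero _ (denom_ne_zero _ _))]
  · refine (hb A).congr' (Eventually.of_forall fun τ => ?_) EventuallyEq.rfl
    rw [Pi.mul_apply, pow_one, ModularForm.SL_slash_apply,
      slash_smul_eq (discriminant_slash A) τ]
    have := ModularForm.discriminant_ne_zero τ
    have := denom_ne_zero (A : GL (Fin 2) ℝ) τ
    rw [zpow_neg]
    field_simp

/-- `G * Δ ^ k` stays bounded. -/
theorem mem_qMero_of_isBounded {G : ℍ → ℂ} (hper : ∀ τ : ℍ, G ((1 : ℝ) +ᵥ τ) = G τ) (hd : MDiff G)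
    (hb : IsBoundedAtImInfty G) : G ∈ qMero :=
  mem_qMero.mpr ⟨hper, hd, 0, by simpa using hb⟩

theorem vadd_one_of_slash {G : ℍ → ℂ} {k : ℤ} (h : ∀ γ ∈ Gamma1 M, G ∣[k] γ = G) (τ : ℍ) :
    G ((1 : ℝ) +ᵥ τ) = G τ := by
  rw [← UpperHalfPlane.modular_T_smul, slash_smul_eq (h _ (modularGroup_T_mem_Gamma1 M))]
  simp [ModularGroup.denom_apply, ModularGroup.coe_T]

theorem qExpL_coeff_eq_qCoeff {G : ℍ → ℂ} (hG : G ∈ qMero) (hb : IsBoundedAtImInfty G) (n : ℕ) :
    (qExpL G).coeff n = qCoeff G n := by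
  rw [qExpL_of_bounded hG hb, HahnSeries.ofPowerSeries_apply_coeff]
  rfl

theorem qExpL_pow {G : ℍ → ℂ} (hG : G ∈ qMero) (n : ℕ) : qExpL (G ^ n) = qExpL G ^ n :=
  map_pow qExpLHom (⟨G, hG⟩ : qMero) n

theorem coeffMap_qExpDelta (σ : ℂ →+* ℂ) : coeffMap σ qExpDelta = qExpDelta := by
  refine HahnSeries.ext (funext fun k => ?_)
  rw [coeffMap_coeff, qExpDelta_eq, coeffEmb_coeff]
  exact map_ratCast σ _

theorem coeffMap_qExpL_of_rational (σ : ℂ →+* ℂ) {G : ℍ → ℂ} (hG : G ∈ qMero)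
    (hb : IsBoundedAtImInfty G) (h : ∀ n, σ (qCoeff G n) = qCoeff G n) :
    coeffMap σ (qExpL G) = qExpL G := by
  refine HahnSeries.ext (funext fun k => ?_)
  rw [coeffMap_coeff]
  obtain ⟨n, rfl | rfl⟩ := Int.eq_nat_or_neg k
  · rw [qExpL_coeff_eq_qCoeff hG hb, h]
  · rcases Nat.eq_zero_or_pos n with rfl | hn
    · rw [Nat.cast_zero, neg_zero]
      have := qExpL_coeff_eq_qCoeff hG hb 0
      rw [Nat.cast_zero] at this
      rw [this, h]
    · rw [qExpL_of_bounded hG hb, ModularCurve.ofPowerSeries_coeff_of_neg _ (by omega),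
        map_zero]

theorem tendsto_discriminant_div_qParam :
    ∃ c : ℂ, c ≠ 0 ∧ Tendsto (fun τ : ℍ => Δ τ / qq (τ : ℂ)) atImInfty (𝓝 c) := by
  obtain ⟨u, hu, -, hu0, hev⟩ := exists_leading discriminant_mem_qMero
    (fun h => ModularForm.discriminant_ne_zero UpperHalfPlane.I (congrFun h _))
  have hord : (qExpL (Δ : ℍ → ℂ)).order = 1 := by
    rw [qExpL_of_bounded discriminant_mem_qMero
      ModularForm.discriminant_isZeroAtImInfty.isBoundedAtImInfty]
    exact order_qExpDelta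
  refine ⟨u 0, hu0, (hu.continuousAt.tendsto.comp (qParam_tendsto_atImInfty one_pos)).congr' ?_⟩
  filter_upwards [hev] with τ hτ
  rw [hτ, hord, zpow_one, Function.comp_apply,
    mul_div_cancel_left₀ _ (Function.Periodic.qParam_ne_zero _)]

theorem qParam_heckeDiag (τ : ℍ) :
    qq ((ModularForm.heckeDiagMatrix M • τ : ℍ) : ℂ) = qq (τ : ℂ) ^ M := by
  rw [ModularForm.coe_heckeDiagMatrix_smul (NeZero.ne M), Function.Periodic.qParam,
    Function.Periodic.qParam, ← Complex.exp_nat_mul]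
  congr 1
  push_cast
  ring

/-- `G` vanishes at `A ∞` after multiplication by `Δ` iff its order there exceeds `-M`. -/
theorem neg_lt_order_iff {G : modRing M} (hG : G ≠ 0) (A : SL(2, ℤ)) :
    -(M : ℤ) < (cuspExp M A G).order ↔
      IsZeroAtImInfty ((fun τ => (G : ℍ → ℂ) (A • τ)) * (Δ : ℍ → ℂ)) := by
  have hmem := cuspFun_mem_qMero M A G.2
  have hne := cuspFun_ne_zero A hG
  obtain ⟨c, hc, hlim⟩ := tendsto_discriminant_div_qParam
  have hD := tendsto_heckeDiagMatrix (M := M)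
  have hlim' : Tendsto (fun τ : ℍ => Δ (ModularForm.heckeDiagMatrix M • τ) / qq (τ : ℂ) ^ M)
      atImInfty (𝓝 c) := (hlim.comp hD).congr fun τ => by
    simp only [Function.comp_apply, qParam_heckeDiag]
  constructor
  · intro hlt
    obtain ⟨u, hu, -, -, hev⟩ := exists_leading hmem hne
    rw [cuspExp_apply] at hlt
    obtain ⟨d, hd⟩ := Int.eq_ofNat_of_zero_le
      (show 0 ≤ (qExpL (cuspFun M A (G : ℍ → ℂ))).order + M by omega)
    have hd0 : d ≠ 0 := by omega
    have h1 : Tendsto (fun τ : ℍ => cuspFun M A (G : ℍ → ℂ) τ *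
        Δ (ModularForm.heckeDiagMatrix M • τ)) atImInfty (𝓝 0) := by
      have h2 := (((qParam_tendsto_atImInfty one_pos).pow d).mul
        ((hu.continuousAt.tendsto.comp (qParam_tendsto_atImInfty one_pos)).mul hlim'))
      rw [zero_pow hd0, zero_mul] at h2
      refine h2.congr' ?_
      filter_upwards [hev] with τ hτ
      have hq : qq (τ : ℂ) ≠ 0 := Function.Periodic.qParam_ne_zero _
      rw [hτ, Function.comp_apply, show (qExpL (cuspFun M A (G : ℍ → ℂ))).order = (d : ℤ) - (M : ℤ)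
        by omega, zpow_sub₀ hq, zpow_natCast, zpow_natCast]
      ring
    have hM : (0 : ℝ) < M := by exact_mod_cast NeZero.pos M
    have hS : Tendsto (fun τ : ℍ => (ModularForm.heckeDiagMatrix M)⁻¹ • τ) atImInfty atImInfty := by
      rw [atImInfty, tendsto_comap_iff]
      refine ((tendsto_id.atTop_div_const hM).comp tendsto_comap).congr fun τ => ?_
      have := congrArg UpperHalfPlane.im (smul_inv_smul (ModularForm.heckeDiagMatrix M) τ)
      rw [← UpperHalfPlane.coe_im, ModularForm.coe_heckeDiagMatrix_smul (NeZero.ne M)] at this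
      simp only [Function.comp_apply, id_eq, ← this]
      simp [hM.ne']
    refine (h1.comp hS).congr fun τ => ?_
    simp only [Function.comp_apply, Pi.mul_apply, cuspFun, smul_inv_smul]
  · intro h0
    rw [cuspExp_apply]
    refine lt_order_of_tendsto_zero hmem hne ?_
    have h2 := (h0.comp hD).mul (hlim'.inv₀ hc)
    rw [zero_mul] at h2
    refine h2.congr fun τ => ?_
    have hΔ := ModularForm.discriminant_ne_zero (ModularForm.heckeDiagMatrix M • τ)
    simp only [Function.comp_apply, Pi.mul_apply, cuspFun, zpow_neg, zpow_natCast, div_inv_eq_mul,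
      inv_div]
    field_simp

/-- **Conjugate cusp forms.** -/
theorem exists_conj_cuspOne (hM : 4 ∣ M ∨ 5 ∣ M) (hM5 : 5 ≤ M) (σ : ℂ ≃+* ℂ) {F : ℍ → ℂ}
    (hF : F ∈ cuspOneSpace M) :
    ∃ F' ∈ cuspOneSpace M, ∀ n : ℕ, qCoeff F' n = σ (qCoeff F n) := by
  rcases eq_or_ne F 0 with rfl | hF0
  · exact ⟨0, zero_mem _, fun n => by simp [qCoeff, qExpansion_zero]⟩
  obtain ⟨w, hw, hw0, hwinv, hwb, D, hD0, hwrat⟩ := exists_weightOne M hM hM5
  have hpow : ∀ (u : ℍ → ℂ) (k : ℕ) (γ : SL(2, ℤ)),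
      (u ^ k) ∣[(k : ℤ)] γ = (u ∣[(1 : ℤ)] γ) ^ k := fun u k γ => by
    funext τ
    simp only [ModularForm.SL_slash_apply, Pi.pow_apply, mul_pow, zpow_neg, zpow_one, zpow_natCast,
      inv_pow]
  have hmul : ∀ (u v : ℍ → ℂ) (i j : ℤ) (γ : SL(2, ℤ)),
      (u * v) ∣[i + j] γ = u ∣[i] γ * v ∣[j] γ := fun u v i j γ =>
    ModularForm.mul_slash_SL2 i j γ u v
  have h12 : ∀ γ : SL(2, ℤ), (F * w ^ 11) ∣[(12 : ℤ)] γ =
      F ∣[(1 : ℤ)] γ * (w ∣[(1 : ℤ)] γ) ^ 11 := fun γ => by
    rw [← hpow]; exact hmul F (w ^ 11) 1 ((11 : ℕ) : ℤ) γ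
  have hFb : ∀ A : SL(2, ℤ), IsBoundedAtImInfty (F ∣[(1 : ℤ)] A) := fun A => (hF.2.2 A).boundedAtFilter
  have hbpow : ∀ {u : ℍ → ℂ}, IsBoundedAtImInfty u → ∀ k : ℕ, IsBoundedAtImInfty (u ^ k) :=
    fun {u} hu k => pow_mem (show u ∈ boundedAtImInftySubalgebra ℂ from hu) k
  let G : modRing M := ⟨fun τ => (F * w ^ 11) τ / Δ τ, div_discriminant_mem (hF.1.mul (hw.pow 11))
    (fun γ hγ => by rw [h12, hF.2.1 γ hγ, hwinv γ hγ])
    (fun A => by rw [h12]; exact BoundedAtFilter.mul (hFb A) (hbpow (hwb A) 11))⟩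
  let H : modRing M := ⟨fun τ => (F ^ 12) τ / Δ τ, div_discriminant_mem (hF.1.pow 12)
    (fun γ hγ => by rw [show (12 : ℤ) = ((12 : ℕ) : ℤ) from rfl, hpow, hF.2.1 γ hγ])
    (fun A => by rw [show (12 : ℤ) = ((12 : ℕ) : ℤ) from rfl, hpow]; exact hbpow (hFb A) 12)⟩
  let W : modRing M := ⟨fun τ => (w ^ 12) τ / Δ τ, div_discriminant_mem (hw.pow 12)
    (fun γ hγ => by rw [show (12 : ℤ) = ((12 : ℕ) : ℤ) from rfl, hpow, hwinv γ hγ])
    (fun A => by rw [show (12 : ℤ) = ((12 : ℕ) : ℤ) from rfl, hpow]; exact hbpow (hwb A) 12)⟩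
  have hGH : G ^ 12 = H * W ^ 11 := Subtype.ext (funext fun τ => by
    simp only [SubmonoidClass.coe_pow, MulMemClass.coe_mul, Pi.pow_apply, Pi.mul_apply, G, H, W]
    have := ModularForm.discriminant_ne_zero τ
    field_simp)
  have hH0 : H ≠ 0 := fun h => hF0 (funext fun τ => by
    have h' := congrFun (congrArg Subtype.val h) τ
    simp only [H, ZeroMemClass.coe_zero, Pi.zero_apply, Pi.pow_apply, div_eq_zero_iff,
      ModularForm.discriminant_ne_zero, or_false] at h'
    exact eq_zero_of_pow_eq_zero h')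
  -- expansions with rational coefficients
  have hwq : w ∈ qMero := mem_qMero_of_isBounded (vadd_one_of_slash hwinv) hw
    (by simpa using hwb 1)
  have hwbd : IsBoundedAtImInfty w := by simpa using hwb 1
  have hσw : coeffMap (σ : ℂ →+* ℂ) (qExpL w) = qExpL w := by
    refine coeffMap_qExpL_of_rational _ hwq hwbd fun n => ?_
    obtain ⟨k, a, ha⟩ := hwrat n
    refine mul_left_cancel₀ (pow_ne_zero k (Nat.cast_ne_zero.mpr hD0 : (D : ℂ) ≠ 0)) ?_
    have h' := congrArg (σ : ℂ →+* ℂ) ha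
    rw [map_mul, map_pow, map_natCast, map_intCast] at h'
    rw [ha]
    exact h'
  have hW : IsConjFn M σ W W := by
    have h1 : qExp1 M W * qExpDelta = qExpL w ^ 12 := by
      rw [qExp1_apply, ← qExpL_pow hwq, qExpDelta, ← qExpL_of_bounded discriminant_mem_qMero
        ModularForm.discriminant_isZeroAtImInfty.isBoundedAtImInfty,
        ← qExpL_mul (weakMod_le_qMero (modularGroup_T_mem_Gamma1 M) W.2) discriminant_mem_qMero]
      congr 1
      funext τ
      simp [W, ModularForm.discriminant_ne_zero]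
    have h2 := congrArg (coeffMap (σ : ℂ →+* ℂ)) h1
    rw [map_mul, map_pow, hσw, coeffMap_qExpDelta, ← h1] at h2
    exact (mul_right_cancel₀ qExpDelta_ne_zero h2).symm
  obtain ⟨G', hG'⟩ := exists_isConjFn M hM hM5 σ G
  obtain ⟨H', hH'⟩ := exists_isConjFn M hM hM5 σ H
  have hGH' : G' ^ 12 = H' * W ^ 11 := by
    refine IsConjFn.unique (hG'.pow 12) ?_
    rw [hGH]
    exact hH'.mul (hW.pow 11)
  set F' : ℍ → ℂ := fun τ => (G' : ℍ → ℂ) τ * Δ τ / w τ ^ 11 with hF'
  have hG'mem := mem_weakMod.mp G'.2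
  have hF'd : MDiff F' := by
    have h1 : MDiff fun τ => (G' : ℍ → ℂ) τ * Δ τ := hG'mem.1.mul mdiff_discriminant
    have h2 : MDiff fun τ => w τ ^ 11 := hw.pow 11
    rw [UpperHalfPlane.mdifferentiable_iff] at h1 h2 ⊢
    exact h1.div h2 fun z hz => pow_ne_zero _ (hw0 _)
  have hF'inv : ∀ γ ∈ Gamma1 M, F' ∣[(1 : ℤ)] γ = F' := fun γ hγ => by
    funext τ
    simp only [ModularForm.SL_slash_apply, hF', hG'mem.2.1 γ hγ τ,
      slash_smul_eq (discriminant_slash γ), slash_smul_eq (hwinv γ hγ)]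
    have := denom_ne_zero (γ : GL (Fin 2) ℝ) τ
    have := hw0 τ
    simp only [zpow_neg, zpow_one, show (12 : ℤ) = ((12 : ℕ) : ℤ) from rfl, zpow_natCast, mul_pow]
    field_simp
  have hF'pow : F' ^ 12 = fun τ => (H' : ℍ → ℂ) τ * Δ τ := by
    funext τ
    have h := congrFun (congrArg Subtype.val hGH') τ
    simp only [SubmonoidClass.coe_pow, MulMemClass.coe_mul, Pi.pow_apply, Pi.mul_apply, W] at h
    simp only [hF', Pi.pow_apply, div_pow, mul_pow, h]
    have := ModularForm.discriminant_ne_zero τ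
    have := hw0 τ
    field_simp
  have hzero : ∀ A : SL(2, ℤ), IsZeroAtImInfty (F' ∣[(1 : ℤ)] A) := by
    intro A
    have hA : (F' ∣[(1 : ℤ)] A) ^ 12 = (fun τ => (H' : ℍ → ℂ) (A • τ)) * (Δ : ℍ → ℂ) := by
      rw [← hpow, hF'pow]
      funext τ
      rw [ModularForm.SL_slash_apply, Pi.mul_apply, mul_assoc,
        slash_smul_eq (discriminant_slash A), mul_comm (denom _ _ ^ _), mul_assoc, ← zpow_add₀
          (denom_ne_zero _ _)]
      norm_num
    have hz : IsZeroAtImInfty ((F' ∣[(1 : ℤ)] A) ^ 12) := by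
      rw [hA, ← neg_lt_order_iff (hH'.ne_zero hH0)]
      obtain ⟨A', -, -, hA'⟩ := exists_cusp_conj M hM hM5 σ A
      rw [hA' H H' hH', order_coeffMap, neg_lt_order_iff hH0]
      have h0 : IsZeroAtImInfty ((F ∣[(1 : ℤ)] A') ^ 12) := by
        have := (hF.2.2 A').pow 12
        rwa [zero_pow (by norm_num)] at this
      convert h0 using 1
      rw [← hpow]
      funext τ
      rw [ModularForm.SL_slash_apply, Pi.mul_apply]
      simp only [H, slash_smul_eq (discriminant_slash A')]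
      have := ModularForm.discriminant_ne_zero τ
      have := denom_ne_zero (A' : GL (Fin 2) ℝ) τ
      simp only [show (12 : ℤ) = ((12 : ℕ) : ℤ) from rfl, zpow_neg, zpow_natCast]
      field_simp
    rw [IsZeroAtImInfty, ZeroAtFilter, tendsto_zero_iff_norm_tendsto_zero] at hz ⊢
    simp only [Pi.pow_apply, norm_pow] at hz
    have h := hz.rpow_const (p := ((12 : ℕ) : ℝ)⁻¹) (Or.inr (by norm_num))
    rw [Real.zero_rpow (by norm_num)] at h
    exact h.congr fun τ => Real.pow_rpow_inv_natCast (norm_nonneg _) (by norm_num)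
  have hmem : F' ∈ cuspOneSpace M := ⟨hF'd, hF'inv, hzero⟩
  refine ⟨F', hmem, fun n => ?_⟩
  have hFb1 : IsBoundedAtImInfty F := by simpa using hFb 1
  have hFq : F ∈ qMero := mem_qMero_of_isBounded (vadd_one_of_slash hF.2.1) hF.1 hFb1
  have hF'b : IsBoundedAtImInfty F' := by
    have h := (hzero 1).boundedAtFilter
    rwa [SlashAction.slash_one] at h
  have hF'q : F' ∈ qMero := mem_qMero_of_isBounded (vadd_one_of_slash hF'inv) hF'd hF'b
  have hΔL : qExpL (Δ : ℍ → ℂ) = qExpDelta :=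
    qExpL_of_bounded discriminant_mem_qMero ModularForm.discriminant_isZeroAtImInfty.isBoundedAtImInfty
  have hTle := weakMod_le_qMero (modularGroup_T_mem_Gamma1 M)
  have e1 : qExp1 M G * qExpDelta = qExpL F * qExpL w ^ 11 := by
    rw [qExp1_apply, ← hΔL, ← qExpL_pow hwq, ← qExpL_mul (hTle G.2) discriminant_mem_qMero,
      ← qExpL_mul hFq (pow_mem hwq 11)]
    congr 1
    funext τ
    simp [G, ModularForm.discriminant_ne_zero]
  have e2 : qExp1 M G' * qExpDelta = qExpL F' * qExpL w ^ 11 := by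
    rw [qExp1_apply, ← hΔL, ← qExpL_pow hwq, ← qExpL_mul (hTle G'.2) discriminant_mem_qMero,
      ← qExpL_mul hF'q (pow_mem hwq 11)]
    congr 1
    funext τ
    simp [hF', hw0 τ]
  have e3 := congrArg (coeffMap (σ : ℂ →+* ℂ)) e1
  rw [map_mul, map_mul, map_pow, hσw, coeffMap_qExpDelta, ← show qExp1 M G' = _ from hG', e2] at e3
  have hwL : qExpL w ^ 11 ≠ 0 := pow_ne_zero _ fun h => by
    have := congrFun ((qExpL_eq_zero_iff hwq).mp h) UpperHalfPlane.I
    exact hw0 _ this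
  rw [← qExpL_coeff_eq_qCoeff hF'q hF'b, mul_right_cancel₀ hwL e3, coeffMap_coeff,
    qExpL_coeff_eq_qCoeff hFq hFb1]
  rfl

end FermatLib.Galois.DS

end
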