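import Mathlib.Analysis.Fourier.AddCircle
import Mathlib.NumberTheory.ModularForms.QExpansion
import Mathlib.NumberTheory.ModularForms.Bounds
import Mathlib.NumberTheory.LSeries.Basic
import Mathlib.Analysis.SpecialFunctions.Log.Deriv
import Mathlib.Analysis.Complex.ExponentialBounds
import Mathlib.Analysis.PSeries
import Fermat.Prelude.Def_FLTPrelim_Modularity

/-!
# An elementary Rankin bound for weight one forms

If `|F(z)|² Im z` is bounded, Parseval gives `∑_{n ≤ X} |c_n|² = O(X)` for the Fourier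
coefficients, hence `∑ |c_n|² n^(-s) = O(1/(s-1))` as `s → 1+`.  For multiplicative coefficients
this bounds `∑_p min(|c_p|², T) p^(-s)` by `log (1/(s-1)) + O(1)`.
-/

set_option autoImplicit false

noncomputable section

open Real Filter Finset
open scoped Manifold UpperHalfPlane
open UpperHalfPlane (ofComplex ofComplex_apply_of_im_pos IsBoundedAtImInfty qExpansion qExpansion_coeff_eq_intervalIntegral)

namespace FermatLib.Galois.DS

/-- Bessel's inequality on a horizontal line. -/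
theorem sum_norm_sq_coeff_mul_exp_le {F : ℍ → ℂ}
    (hper : Function.Periodic (F ∘ ofComplex) (1 : ℝ)) (hhol : MDiff F)
    (hbdd : IsBoundedAtImInfty F) {C : ℝ} (hC : ∀ τ : ℍ, ‖F τ‖ ^ 2 * τ.im ≤ C)
    (s : Finset ℕ) {y : ℝ} (hy : 0 < y) :
    ∑ n ∈ s, ‖(qExpansion 1 F).coeff n‖ ^ 2 * Real.exp (-4 * π * n * y) ≤ C / y := by
  set f : ℝ → ℂ := fun u => (F ∘ ofComplex) ((u : ℂ) + (y : ℂ) * Complex.I) with hf
  have him : ∀ u : ℝ, 0 < ((u : ℂ) + (y : ℂ) * Complex.I).im := fun u => by simpa using hy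
  have hfc : Continuous f := by
    refine (ContinuousOn.comp_continuous (s := {z : ℂ | 0 < z.im}) (g := F ∘ ofComplex) ?_ (by fun_prop) him)
    exact (UpperHalfPlane.mdifferentiable_iff.mp hhol).continuousOn
  have hfb : ∀ u : ℝ, ‖f u‖ ^ 2 ≤ C / y := by
    intro u
    rw [le_div_iff₀ hy]
    have h := hC ⟨_, him u⟩
    simp only [hf, Function.comp_apply, ofComplex_apply_of_im_pos (him u)]
    simpa using h
  have hL2 : MeasureTheory.MemLp f 2 (MeasureTheory.volume.restrict (Set.Ioc (0 : ℝ) 1)) := by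
    refine MeasureTheory.MemLp.of_bound hfc.aestronglyMeasurable (Real.sqrt (C / y)) ?_
    refine Filter.Eventually.of_forall fun u => ?_
    exact Real.le_sqrt_of_sq_le (hfb u)
  have hsum := hasSum_sq_fourierCoeffOn zero_lt_one hL2
  have hcoef : ∀ n : ℕ, fourierCoeffOn zero_lt_one f (n : ℤ) =
      (qExpansion 1 F).coeff n * Complex.exp (-2 * π * n * y) := by
    intro n
    rw [qExpansion_coeff_eq_intervalIntegral one_pos hper hhol hbdd n hy, fourierCoeffOn_eq_integral,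
      ← intervalIntegral.integral_const_mul, ← intervalIntegral.integral_mul_const]
    rw [show (1 / ((1 : ℝ) - 0)) = 1 by norm_num, one_smul]
    refine intervalIntegral.integral_congr fun u _ => ?_
    show (fourier (-(n : ℤ))) (u : AddCircle ((1 : ℝ) - 0)) • f u = _
    rw [fourier_coe_apply, smul_eq_mul]
    simp only [hf, Function.comp_apply, ofComplex_apply_of_im_pos (him u)]
    rw [show ∀ a b c : ℂ, (1 : ℂ) / ((1 : ℝ) : ℂ) * (a * b) * c = (a * c) * b from fun a b c => by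
      push_cast; ring]
    congr 1
    rw [one_div, Function.Periodic.qParam, ← Complex.exp_nat_mul, ← Complex.exp_neg, ← Complex.exp_add]
    congr 1
    push_cast
    ring_nf
    rw [Complex.I_sq]
    ring
  have hnorm : ∀ n : ℕ, ‖fourierCoeffOn zero_lt_one f (n : ℤ)‖ ^ 2 =
      ‖(qExpansion 1 F).coeff n‖ ^ 2 * Real.exp (-4 * π * n * y) := by
    intro n
    rw [hcoef n, norm_mul, mul_pow, Complex.norm_exp, ← Real.exp_nat_mul]
    congr 2
    simp
    ring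
  calc ∑ n ∈ s, ‖(qExpansion 1 F).coeff n‖ ^ 2 * Real.exp (-4 * π * n * y)
      = ∑ i ∈ s.map ⟨Nat.cast, Nat.cast_injective⟩, ‖fourierCoeffOn zero_lt_one f i‖ ^ 2 := by
        rw [Finset.sum_map]; exact Finset.sum_congr rfl fun n _ => (hnorm n).symm
    _ ≤ ((1 : ℝ) - 0)⁻¹ • ∫ x in (0 : ℝ)..1, ‖f x‖ ^ 2 :=
        sum_le_hasSum _ (fun i _ => sq_nonneg _) hsum
    _ ≤ C / y := by
        rw [sub_zero, inv_one, one_smul]
        calc ∫ x in (0 : ℝ)..1, ‖f x‖ ^ 2 ≤ ∫ _x in (0 : ℝ)..1, C / y :=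
              intervalIntegral.integral_mono_on zero_le_one
                ((hfc.norm.pow 2).intervalIntegrable 0 1) intervalIntegrable_const fun u _ => hfb u
          _ = C / y := by simp

/-- The coefficients of a function with `|F|² Im` bounded have mean square `O(1)`. -/
theorem exists_sum_norm_sq_coeff_le {F : ℍ → ℂ}
    (hper : Function.Periodic (F ∘ ofComplex) (1 : ℝ)) (hhol : MDiff F)
    (hbdd : IsBoundedAtImInfty F) {C : ℝ} (hC : ∀ τ : ℍ, ‖F τ‖ ^ 2 * τ.im ≤ C) :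
    ∃ A : ℝ, 0 ≤ A ∧ ∀ (X : ℕ) (s : Finset ℕ), 0 < X → (∀ n ∈ s, n ≤ X) →
      ∑ n ∈ s, ‖(qExpansion 1 F).coeff n‖ ^ 2 ≤ A * X := by
  refine ⟨max C 0 * Real.exp (4 * π), by positivity, fun X s hX hs => ?_⟩
  have hX' : (0 : ℝ) < X := by exact_mod_cast hX
  have h := sum_norm_sq_coeff_mul_exp_le hper hhol hbdd hC s (one_div_pos.mpr hX')
  calc ∑ n ∈ s, ‖(qExpansion 1 F).coeff n‖ ^ 2
      ≤ ∑ n ∈ s, ‖(qExpansion 1 F).coeff n‖ ^ 2 * Real.exp (-4 * π * n * (1 / X)) *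
          Real.exp (4 * π) := by
        refine Finset.sum_le_sum fun n hn => ?_
        rw [mul_assoc, ← Real.exp_add]
        refine le_mul_of_one_le_right (sq_nonneg _) (Real.one_le_exp ?_)
        have hn' : (n : ℝ) * (1 / X) ≤ 1 := by
          rw [mul_one_div, div_le_one hX']; exact_mod_cast hs n hn
        have hπ := Real.pi_pos
        nlinarith
    _ ≤ (C / (1 / X)) * Real.exp (4 * π) := by
        rw [← Finset.sum_mul]; exact mul_le_mul_of_nonneg_right h (Real.exp_nonneg _)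
    _ ≤ max C 0 * Real.exp (4 * π) * X := by
        rw [div_div_eq_mul_div, div_one, mul_right_comm]
        exact mul_le_mul_of_nonneg_right
          (mul_le_mul_of_nonneg_right (le_max_left _ _) (Real.exp_nonneg _)) hX'.le

theorem half_le_one_sub_two_rpow_neg {x : ℝ} (h0 : 0 ≤ x) (h1 : x ≤ 1) :
    x / 4 ≤ 1 - (2 : ℝ) ^ (-x) := by
  have hlog : (1 : ℝ) / 2 ≤ Real.log 2 := by linarith [Real.log_two_gt_d9]
  rw [Real.rpow_neg two_pos.le, Real.rpow_def_of_pos two_pos]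
  have h2 : 1 + Real.log 2 * x ≤ Real.exp (Real.log 2 * x) := by
    linarith [Real.add_one_le_exp (Real.log 2 * x)]
  have hpos : (0 : ℝ) < 1 + Real.log 2 * x := by nlinarith
  calc x / 4 ≤ 1 - (1 + Real.log 2 * x)⁻¹ := by
        rw [le_sub_iff_add_le, ← le_sub_iff_add_le', inv_le_iff_one_le_mul₀ hpos]
        have h3 : Real.log 2 ≤ 1 := by linarith [Real.log_two_lt_d9]
        nlinarith [mul_le_mul_of_nonneg_right hlog h0, mul_nonneg h0 h0, mul_le_mul_of_nonneg_left h1 h0]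
    _ ≤ 1 - (Real.exp (Real.log 2 * x))⁻¹ := by
        linarith [inv_anti₀ hpos h2]

/-- Dirichlet series with linearly bounded partial sums are `O(1/(s-1))`. -/
theorem sum_mul_rpow_neg_le {b : ℕ → ℝ} (hb : ∀ n, 0 ≤ b n) {A : ℝ} (hA : 0 ≤ A)
    (hsum : ∀ (X : ℕ) (t : Finset ℕ), 0 < X → (∀ n ∈ t, n ≤ X) → ∑ n ∈ t, b n ≤ A * X)
    (t : Finset ℕ) (ht : 0 ∉ t) {s : ℝ} (hs1 : 1 < s) (hs2 : s ≤ 2) :
    ∑ n ∈ t, b n * (n : ℝ) ^ (-s) ≤ 8 * A / (s - 1) := by
  set r : ℝ := (2 : ℝ) ^ (-(s - 1)) with hr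
  have hr0 : 0 < r := Real.rpow_pos_of_pos two_pos _
  have hr1 : (s - 1) / 4 ≤ 1 - r := half_le_one_sub_two_rpow_neg (by linarith) (by linarith)
  have hr1' : r < 1 := by linarith [show 0 < (s - 1) / 4 by linarith]
  have hblock : ∀ k : ℕ, ∑ n ∈ t with Nat.log 2 n = k, b n * (n : ℝ) ^ (-s) ≤ 2 * A * r ^ k := by
    intro k
    have hk : (0 : ℝ) < (2 : ℝ) ^ k := by positivity
    calc ∑ n ∈ t with Nat.log 2 n = k, b n * (n : ℝ) ^ (-s)
        ≤ ∑ n ∈ t with Nat.log 2 n = k, b n * ((2 : ℝ) ^ k) ^ (-s) := by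
          refine Finset.sum_le_sum fun n hn => mul_le_mul_of_nonneg_left ?_ (hb n)
          obtain ⟨hnt, hnk⟩ := Finset.mem_filter.mp hn
          have hn0 : n ≠ 0 := fun h => ht (h ▸ hnt)
          refine Real.rpow_le_rpow_of_nonpos hk ?_ (by linarith)
          rw [← hnk]; exact_mod_cast Nat.pow_log_le_self 2 hn0
      _ ≤ A * ((2 ^ (k + 1) : ℕ) : ℝ) * ((2 : ℝ) ^ k) ^ (-s) := by
          rw [← Finset.sum_mul]
          refine mul_le_mul_of_nonneg_right (hsum _ _ (by positivity) fun n hn => ?_) (by positivity)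
          obtain ⟨-, hnk⟩ := Finset.mem_filter.mp hn
          rw [← hnk]; exact (Nat.lt_pow_succ_log_self one_lt_two n).le
      _ = 2 * A * r ^ k := by
          rw [hr, ← Real.rpow_natCast, ← Real.rpow_natCast ((2 : ℝ) ^ (-(s - 1))) k,
            ← Real.rpow_mul two_pos.le, ← Real.rpow_mul two_pos.le]
          push_cast
          rw [pow_succ, ← Real.rpow_natCast]
          rw [show -(s - 1) * (k : ℝ) = (k : ℝ) + (k : ℝ) * -s by ring, Real.rpow_add two_pos]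
          ring
  calc ∑ n ∈ t, b n * (n : ℝ) ^ (-s)
      = ∑ k ∈ t.image (Nat.log 2), ∑ n ∈ t with Nat.log 2 n = k, b n * (n : ℝ) ^ (-s) :=
        (Finset.sum_fiberwise_of_maps_to (fun n hn => Finset.mem_image_of_mem _ hn) _).symm
    _ ≤ ∑ k ∈ t.image (Nat.log 2), 2 * A * r ^ k := Finset.sum_le_sum fun k _ => hblock k
    _ ≤ ∑' k : ℕ, 2 * A * r ^ k :=
        ((summable_geometric_of_lt_one hr0.le hr1').mul_left _).sum_le_tsum _
          (fun k _ => by positivity)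
    _ ≤ 8 * A / (s - 1) := by
        rw [tsum_mul_left, tsum_geometric_of_lt_one hr0.le hr1']
        calc 2 * A * (1 - r)⁻¹ ≤ 2 * A * ((s - 1) / 4)⁻¹ :=
              mul_le_mul_of_nonneg_left (inv_anti₀ (by linarith) hr1) (by linarith)
          _ = 8 * A / (s - 1) := by rw [inv_div]; ring

/-- A completely squarefree-multiplicative sequence turns the Euler product into a partial sum. -/
theorem prod_one_add_eq_sum {c : ℕ → ℂ} (h1 : c 1 = 1) (P : Finset ℕ) (hP : ∀ p ∈ P, p.Prime)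
    (hmul : ∀ p ∈ P, ∀ n : ℕ, ¬ p ∣ n → c (p * n) = c p * c n) (s : ℝ) :
    ∏ p ∈ P, (1 + ‖c p‖ ^ 2 * (p : ℝ) ^ (-s)) =
      ∑ n ∈ P.powerset.image (fun t => ∏ p ∈ t, p), ‖c n‖ ^ 2 * (n : ℝ) ^ (-s) := by
  classical
  have hinj : Set.InjOn (fun t : Finset ℕ => ∏ p ∈ t, p) P.powerset := by
    intro t ht u hu h
    simp only [Finset.coe_powerset, Set.mem_preimage, Set.mem_powerset_iff, Finset.coe_subset] at ht hu
    ext q
    have key : ∀ v : Finset ℕ, v ⊆ P → ∀ q, q.Prime → (q ∣ ∏ p ∈ v, p ↔ q ∈ v) := by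
      intro v hv q hq
      refine ⟨fun hd => ?_, fun hd => Finset.dvd_prod_of_mem _ hd⟩
      obtain ⟨p, hp, hqp⟩ := (Nat.prime_iff.mp hq).exists_mem_finset_dvd hd
      exact (Nat.prime_dvd_prime_iff_eq hq (hP p (hv hp))).mp hqp ▸ hp
    by_cases hq : q ∈ P
    · rw [← key t ht q (hP q hq), ← key u hu q (hP q hq)]
      simp only at h
      rw [h]
    · exact ⟨fun hh => absurd (ht hh) hq, fun hh => absurd (hu hh) hq⟩
  rw [Finset.sum_image hinj, Finset.prod_one_add]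
  refine Finset.sum_congr rfl fun t ht => ?_
  rw [Finset.mem_powerset] at ht
  induction t using Finset.induction_on with
  | empty => simp [h1]
  | insert p t hpt ih =>
    obtain ⟨hp, ht'⟩ := Finset.insert_subset_iff.mp ht
    rw [Finset.prod_insert hpt, Finset.prod_insert hpt, ih ht']
    have hnd : ¬ p ∣ ∏ q ∈ t, q := by
      intro hd
      obtain ⟨q, hq, hpq⟩ := (Nat.prime_iff.mp (hP p hp)).exists_mem_finset_dvd hd
      exact hpt ((Nat.prime_dvd_prime_iff_eq (hP p hp) (hP q (ht' hq))).mp hpq ▸ hq)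
    rw [hmul p hp _ hnd, norm_mul, Nat.cast_mul, Real.mul_rpow (Nat.cast_nonneg _) (Nat.cast_nonneg _)]
    ring

/-- **Rankin bound.** `∑_p min(|c_p|², T) p^(-s) ≤ log (1/(s-1)) + O_T(1)`. -/
theorem exists_sum_min_le_log {c : ℕ → ℂ} (h1 : c 1 = 1) {A : ℝ} (hA : 0 ≤ A)
    (hsum : ∀ (X : ℕ) (t : Finset ℕ), 0 < X → (∀ n ∈ t, n ≤ X) → ∑ n ∈ t, ‖c n‖ ^ 2 ≤ A * X)
    {S : Set ℕ} (hmul : ∀ p : ℕ, p.Prime → p ∉ S → ∀ n : ℕ, ¬ p ∣ n → c (p * n) = c p * c n)
    {T : ℝ} (hT : 0 ≤ T) :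
    ∃ C : ℝ, ∀ s : ℝ, 1 < s → s ≤ 2 → ∀ P : Finset ℕ, (∀ p ∈ P, p.Prime ∧ p ∉ S) →
      ∑ p ∈ P, min (‖c p‖ ^ 2) T * (p : ℝ) ^ (-s) ≤ Real.log (1 / (s - 1)) + C := by
  refine ⟨Real.log (8 * A + 1) + T ^ 2 * ∑' n : ℕ, (n : ℝ) ^ (-(2 : ℝ)), fun s hs1 hs2 P hP => ?_⟩
  have hprod := prod_one_add_eq_sum h1 P (fun p hp => (hP p hp).1)
    (fun p hp => hmul p (hP p hp).1 (hP p hp).2) s
  have h0 : 0 ∉ P.powerset.image (fun t => ∏ p ∈ t, p) := by
    simp only [Finset.mem_image, Finset.mem_powerset, not_exists, not_and]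
    intro t ht h
    obtain ⟨p, hp, hp0⟩ := Finset.prod_eq_zero_iff.mp h
    exact (hP p (ht hp)).1.ne_zero hp0
  have hbound := sum_mul_rpow_neg_le (fun n => sq_nonneg ‖c n‖) hA hsum _ h0 hs1 hs2
  rw [← hprod] at hbound
  have hpos : ∀ p ∈ P, (0 : ℝ) < 1 + ‖c p‖ ^ 2 * (p : ℝ) ^ (-s) := fun p _ => by positivity
  have hlogprod : ∑ p ∈ P, Real.log (1 + ‖c p‖ ^ 2 * (p : ℝ) ^ (-s)) ≤
      Real.log (1 / (s - 1)) + Real.log (8 * A + 1) := by
    rw [← Real.log_prod (fun p hp => (hpos p hp).ne'),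
      ← Real.log_mul (one_div_ne_zero (by linarith)) (by positivity)]
    refine Real.log_le_log (Finset.prod_pos hpos) (hbound.trans ?_)
    rw [one_div_mul_eq_div]
    exact div_le_div_of_nonneg_right (by linarith) (by linarith)
  have hpt : ∀ p ∈ P, min (‖c p‖ ^ 2) T * (p : ℝ) ^ (-s) ≤
      Real.log (1 + ‖c p‖ ^ 2 * (p : ℝ) ^ (-s)) + T ^ 2 * (p : ℝ) ^ (-(2 : ℝ)) := by
    intro p hp
    have hp0 : (0 : ℝ) < p := by exact_mod_cast (hP p hp).1.pos
    set u : ℝ := min (‖c p‖ ^ 2) T * (p : ℝ) ^ (-s) with hu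
    have hu0 : 0 ≤ u := by positivity
    have hle : u ≤ ‖c p‖ ^ 2 * (p : ℝ) ^ (-s) :=
      mul_le_mul_of_nonneg_right (min_le_left _ _) (by positivity)
    have hsq : u ^ 2 ≤ T ^ 2 * (p : ℝ) ^ (-(2 : ℝ)) := by
      rw [hu, mul_pow, ← Real.rpow_natCast ((p : ℝ) ^ (-s)) 2, ← Real.rpow_mul hp0.le]
      refine mul_le_mul (pow_le_pow_left₀ (le_min (sq_nonneg _) hT) (min_le_right _ _) 2)
        (Real.rpow_le_rpow_of_exponent_le (by exact_mod_cast (hP p hp).1.one_le)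
          (by push_cast; linarith)) (by positivity) (sq_nonneg _)
    have hlog : u - u ^ 2 ≤ Real.log (1 + u) := by
      have := Real.one_sub_inv_le_log_of_pos (show 0 < 1 + u by linarith)
      refine le_trans ?_ this
      rw [le_sub_iff_add_le, ← le_sub_iff_add_le', inv_le_iff_one_le_mul₀ (by linarith)]
      nlinarith [pow_nonneg hu0 3]
    have := Real.log_le_log (show 0 < 1 + u by linarith) (show 1 + u ≤ 1 + ‖c p‖ ^ 2 * (p : ℝ) ^ (-s) by linarith)
    linarith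
  have hzeta : ∑ p ∈ P, (p : ℝ) ^ (-(2 : ℝ)) ≤ ∑' n : ℕ, (n : ℝ) ^ (-(2 : ℝ)) :=
    (Real.summable_nat_rpow.mpr (by norm_num)).sum_le_tsum P (fun i _ => by positivity)
  calc ∑ p ∈ P, min (‖c p‖ ^ 2) T * (p : ℝ) ^ (-s)
      ≤ ∑ p ∈ P, Real.log (1 + ‖c p‖ ^ 2 * (p : ℝ) ^ (-s)) + T ^ 2 * ∑ p ∈ P, (p : ℝ) ^ (-(2 : ℝ)) := by
        rw [Finset.mul_sum, ← Finset.sum_add_distrib]; exact Finset.sum_le_sum hpt
    _ ≤ _ := by nlinarith [mul_le_mul_of_nonneg_left hzeta (sq_nonneg T)]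

end FermatLib.Galois.DS

end
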