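import Fermat.Agent.Curve.Descent.AutFixed
import Fermat.Agent.Galois.DS.AssemblyConjForm
import Fermat.Agent.Galois.DS.Rankin
import Fermat.Agent.Galois.DS.KummerClass
import Fermat.Agent.Galois.DS.AssemblyCandidate
import Fermat.Agent.Galois.DS.AssemblyWtOne

/-!
# The Rankin bound at every embedding of the coefficient ring

A weight one cusp form with coefficients in `R` has a conjugate under every embedding of `R`,
again a cusp form, so the elementary Rankin bound applies to it.
-/

set_option autoImplicit false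

noncomputable section

open CongruenceSubgroup ModularFormClass
open scoped MatrixGroups ModularForm

namespace FermatLib.Galois.DS

local notation "Qbar" => AlgebraicClosure ℚ

/-- Algebraic integers lie in the image of `ℚ̄`. -/
theorem mem_range_complexEmbedding_of_isIntegral {z : ℂ} (hz : IsIntegral ℤ z) :
    ∃ a : Qbar, complexEmbedding a = z := by
  obtain ⟨P, hP, hPz⟩ := hz
  refine FermatLib.Curve.mem_range_complexEmbedding_of_finite_orbit
    (((P.map (algebraMap ℤ ℂ)).roots.toFinset.finite_toSet).subset ?_)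
  rintro _ ⟨s, rfl⟩
  rw [Finset.mem_coe, Multiset.mem_toFinset, Polynomial.mem_roots (hP.map _).ne_zero,
    Polynomial.IsRoot, Polynomial.eval_map]
  have h := congrArg s hPz
  rw [map_zero, ← AlgEquiv.coe_toAlgHom, ← AlgHom.coe_toRingHom, Polynomial.hom_eval₂] at h
  rwa [Subsingleton.elim (RingHom.comp _ _) (algebraMap ℤ ℂ)] at h

/-- An embedding of an order extends to an automorphism of `ℂ`. -/
theorem exists_complexEquiv_extend (R : Subring ℂ) [Module.Finite ℤ R] (σ : R →+* ℂ) :
    ∃ s : ℂ ≃+* ℂ, ∀ x : R, s x = σ x := by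
  have hint : ∀ x : R, IsIntegral ℤ x := fun x => IsIntegral.of_finite ℤ x
  have h1 : ∀ x : R, ∃ a : Qbar, complexEmbedding a = (x : ℂ) := fun x =>
    mem_range_complexEmbedding_of_isIntegral ((hint x).map R.subtype.toIntAlgHom)
  have h2 : ∀ x : R, ∃ a : Qbar, complexEmbedding a = σ x := fun x =>
    mem_range_complexEmbedding_of_isIntegral ((hint x).map σ.toIntAlgHom)
  choose r hr using h1
  choose t ht using h2
  have hι : Function.Injective complexEmbedding := complexEmbedding.injective
  let r' : R →+* Qbar :=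
    { toFun := r
      map_one' := hι (by rw [hr, map_one]; rfl)
      map_zero' := hι (by rw [hr, map_zero]; rfl)
      map_mul' := fun x y => hι (by rw [hr, map_mul, hr, hr]; rfl)
      map_add' := fun x y => hι (by rw [hr, map_add, hr, hr]; rfl) }
  let t' : R →+* Qbar :=
    { toFun := t
      map_one' := hι (by rw [ht, map_one, map_one])
      map_zero' := hι (by rw [ht, map_zero, map_zero])
      map_mul' := fun x y => hι (by rw [ht, map_mul, map_mul, ht, ht])
      map_add' := fun x y => hι (by rw [ht, map_add, map_add, ht, ht]) }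
  have hr'inj : Function.Injective r' := fun x y h => Subtype.ext (by
    rw [← hr x, ← hr y]; exact congrArg complexEmbedding h)
  have hσinj : Function.Injective σ := by
    rw [RingHom.injective_iff_ker_eq_bot]
    have : Algebra.IsIntegral ℤ R := ⟨hint⟩
    refine Ideal.eq_bot_of_comap_eq_bot (R := ℤ) (eq_bot_iff.mpr fun n hn => ?_)
    simpa using hn
  have ht'inj : Function.Injective t' := fun x y h => hσinj (by
    rw [← ht x, ← ht y]; exact congrArg complexEmbedding h)
  let K := FractionRing R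
  let : Algebra K Qbar := (IsFractionRing.lift (A := R) (K := K) hr'inj).toAlgebra
  have : IsScalarTower ℚ K Qbar :=
    IsScalarTower.of_algebraMap_eq fun q => by simp
  have : Algebra.IsAlgebraic ℚ Qbar := AlgebraicClosure.isAlgebraic ℚ
  have : Algebra.IsIntegral K Qbar := ⟨fun x =>
    (Algebra.IsAlgebraic.isAlgebraic (R := ℚ) x).isIntegral.tower_top⟩
  obtain ⟨ψ, hψ⟩ := exists_ringHom_extend_integral (A := K) (B := Qbar)
    (algebraMap K Qbar).injective (IsFractionRing.lift (A := R) (K := K) ht'inj)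
  let ψ' : Qbar →ₐ[ℚ] Qbar := { ψ with commutes' := fun q => map_ratCast ψ q }
  obtain ⟨s, hs⟩ := FermatLib.Curve.exists_complexAlgEquiv_extends
    (AlgEquiv.ofBijective ψ' (Algebra.IsAlgebraic.algHom_bijective ψ'))
  refine ⟨s.toRingEquiv, fun x => ?_⟩
  have hx := RingHom.congr_fun hψ (algebraMap R K x)
  rw [RingHom.comp_apply, RingHom.algebraMap_toAlgebra, IsFractionRing.lift_algebraMap,
    IsFractionRing.lift_algebraMap] at hx
  show s x = σ x
  rw [← hr x, hs, ← ht x]
  exact congrArg complexEmbedding hx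

/-- **The Rankin hypothesis holds at every embedding.** -/
theorem primeSumBound_of_coeff (M : ℕ) [NeZero M] (hM : 4 ∣ M ∨ 5 ∣ M) (hM5 : 5 ≤ M)
    (F : CuspForm (Gamma1 M) 1) (R : Subring ℂ) [Module.Finite ℤ R]
    (h1 : qCoeff F 1 = 1) (hmem : ∀ n : ℕ, qCoeff F n ∈ R)
    (hmul : ∀ p : ℕ, p.Prime → ¬ p ∣ M → ∀ n : ℕ, ¬ p ∣ n →
      qCoeff F (p * n) = qCoeff F p * qCoeff F n)
    (σ : R →+* ℂ) (T : ℝ) (hT : 0 ≤ T) :
    PrimeSumBound M (fun p => ⟨qCoeff F p, hmem p⟩) σ T := by
  obtain ⟨s, hs⟩ := exists_complexEquiv_extend R σ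
  obtain ⟨F', hF', hcoef⟩ := exists_conj_cuspOne hM hM5 s (cuspForm_mem_cuspOneSpace F)
  set c : ℕ → ℂ := fun n => qCoeff F' n with hc
  obtain ⟨B, hB⟩ := CuspFormClass.petersson_bounded_left (1 : ℤ)
    ((Gamma1 M : Subgroup SL(2, ℤ)) : Subgroup (GL (Fin 2) ℝ)) (toCuspOne hF') (toCuspOne hF')
  have hB' : ∀ τ : UpperHalfPlane, ‖F' τ‖ ^ 2 * τ.im ≤ B := fun τ => by
    have h := hB τ
    simp only [UpperHalfPlane.petersson, coe_toCuspOne, norm_mul, Complex.norm_conj, zpow_one,
      Complex.norm_real, Real.norm_of_nonneg τ.im_pos.le] at h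
    rw [pow_two]
    exact h
  have hq := qHol_of_cuspOne hF'
  obtain ⟨A, hA, hsum⟩ := exists_sum_norm_sq_coeff_le (by simpa using hq.1) hq.2.1 hq.2.2 hB'
  have hc1 : c 1 = 1 := by rw [hc]; simp only; rw [hcoef, h1, map_one]
  obtain ⟨C, hC⟩ := exists_sum_min_le_log hc1 hA hsum (S := {p | p ∣ M})
    (fun p hp hpS n hn => by
      simp only [hc, hcoef]
      rw [hmul p hp hpS n hn, map_mul]) hT
  refine ⟨C, fun x hx1 hx2 P hP => (le_of_eq (Finset.sum_congr rfl fun p _ => ?_)).trans
    (hC x hx1 hx2 P fun p hp => ⟨(hP p hp).1, (hP p hp).2⟩)⟩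
  rw [hc]
  simp only [hcoef]
  rw [← hs]

end FermatLib.Galois.DS

end
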