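import Fermat.Agent.Modular.HeckeReps
import Fermat.Agent.Modular.SL2Conj
import Fermat.Agent.Galois.DS.LevelRing

/-!
# `T p` and diamond operators on homomorphisms of `Γ₁(M)`, `p ∤ M`
-/

set_option autoImplicit false

noncomputable section

open CongruenceSubgroup ModularCurve.Period
open scoped MatrixGroups

namespace FermatLib.Galois.DS

open FermatLib.Modular

local notation "M2Z" => Matrix (Fin 2) (Fin 2) ℤ

variable (M p : ℕ)

/-- An element of `Γ₀(M)` with lower right entry `p`. -/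
def diamondMat (h : Nat.Coprime p M) : Gamma0 M :=
  ⟨⟨!![Int.gcdA p M, -Int.gcdB p M; (M : ℤ), (p : ℤ)], by
    have h1 := Int.gcd_eq_gcd_ab p M
    rw [Int.gcd_natCast_natCast, h] at h1
    rw [Matrix.det_fin_two_of]
    push_cast at h1
    linarith⟩, Gamma0_mem.mpr (by simp)⟩

theorem coe_diamondMat_inv (h : Nat.Coprime p M) :
    (((diamondMat M p h : SL(2, ℤ))⁻¹ : SL(2, ℤ)) : M2Z) =
      !![(p : ℤ), Int.gcdB p M; -(M : ℤ), Int.gcdA p M] := by
  rw [Matrix.SpecialLinearGroup.coe_inv, Matrix.adjugate_fin_two]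
  ext i j
  fin_cases i <;> fin_cases j <;> simp [diamondMat]

theorem diamondMat_one_one (h : Nat.Coprime p M) :
    ((diamondMat M p h : SL(2, ℤ)) 1 1 : ℤ) = p := rfl

/-- `γ_p` at the coset of `diag (p, 1)`, `1` elsewhere. -/
def cosetTwist (h : Nat.Coprime p M) : Option (Fin p) → Gamma0 M
  | some _ => 1
  | none => diamondMat M p h

/-- The representatives of `T p` on `Γ₁(M)`. -/
def heckeRep1 (h : Nat.Coprime p M) (x : Option (Fin p)) : M2Z :=
  ((cosetTwist M p h x : SL(2, ℤ)) : M2Z) * heckeRepInt p x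

theorem det_heckeRep1 (h : Nat.Coprime p M) (x : Option (Fin p)) :
    (heckeRep1 M p h x).det = p := by
  rw [heckeRep1, Matrix.det_mul, Matrix.SpecialLinearGroup.det_coe, one_mul, det_heckeRepInt]

theorem heckeRep1_congr (h : Nat.Coprime p M) (x : Option (Fin p)) :
    ((heckeRep1 M p h x 0 0 : ZMod M) = 1) ∧ ((heckeRep1 M p h x 1 1 : ZMod M) = p) ∧
      ((heckeRep1 M p h x 1 0 : ZMod M) = 0) := by
  cases x with
  | some j => simp [heckeRep1, cosetTwist, heckeRepInt]
  | none =>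
    have h1 := Int.gcd_eq_gcd_ab p M
    rw [Int.gcd_natCast_natCast, h] at h1
    have h2 : (1 : ZMod M) = p * (Int.gcdA p M : ZMod M) := by
      have := congrArg (Int.cast : ℤ → ZMod M) h1
      push_cast at this
      simpa using this
    refine ⟨?_, ?_, ?_⟩ <;>
      simp [heckeRep1, cosetTwist, diamondMat, heckeRepInt, Matrix.mul_apply, Fin.sum_univ_two]
    linear_combination -h2

/-- The Hecke system of `T p` on `Γ₁(M)`. -/
def heckeSystem1 (hp : p.Prime) (h : Nat.Coprime p M) :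
    HeckeSystem (Gamma1 M) (Option (Fin p)) where
  rep := heckeRep1 M p h
  det_ne_zero x := by rw [det_heckeRep1]; exact_mod_cast hp.ne_zero
  eq_of_mul_rep x y g e := by
    refine heckeRepInt_eq_of_mul_eq hp.one_lt x y
      ((cosetTwist M p h y : SL(2, ℤ))⁻¹ * g * (cosetTwist M p h x : SL(2, ℤ))) ?_
    rw [Matrix.SpecialLinearGroup.coe_mul, Matrix.SpecialLinearGroup.coe_mul, Matrix.mul_assoc,
      Matrix.mul_assoc, show ((g : M2Z) * (((cosetTwist M p h x : SL(2, ℤ)) : M2Z) *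
        heckeRepInt p x)) = _ from e, heckeRep1, ← Matrix.mul_assoc,
      ← Matrix.SpecialLinearGroup.coe_mul, inv_mul_cancel, Matrix.SpecialLinearGroup.coe_one,
      Matrix.one_mul]
  exists_mul_eq x γ := by
    obtain ⟨a0, a1, a2⟩ := heckeRep1_congr M p h x
    obtain ⟨g0, g1, g2⟩ := (Gamma1_mem M _).mp γ.2
    set X := heckeRep1 M p h x * ((γ : SL(2, ℤ)) : M2Z) with hX
    have X10 : (X 1 0 : ZMod M) = 0 := by
      simp [hX, Matrix.mul_apply, Fin.sum_univ_two, a2, g2]
    have X11 : (X 1 1 : ZMod M) = p := by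
      simp [hX, Matrix.mul_apply, Fin.sum_univ_two, a1, a2, g1]
    have X00 : (X 0 0 : ZMod M) = 1 := by
      simp [hX, Matrix.mul_apply, Fin.sum_univ_two, a0, g0, g2]
    have hpM : ¬ p ∣ M := (Nat.Prime.coprime_iff_not_dvd hp).mp h
    obtain ⟨⟨y, hy⟩, g, hg⟩ := exists_eq_mul_rep (N := M) hp X
      (by rw [hX, Matrix.det_mul, det_heckeRep1, Matrix.SpecialLinearGroup.det_coe, mul_one])
      ((ZMod.intCast_zmod_eq_zero_iff_dvd _ _).mp X10) (fun h' => absurd h' hpM)
    refine ⟨y, ⟨(g : SL(2, ℤ)) * (cosetTwist M p h y : SL(2, ℤ))⁻¹, ?_⟩, ?_⟩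
    · have g10 : ((g : SL(2, ℤ)) 1 0 : ZMod M) = 0 := Gamma0_mem.mp g.2
      rw [hg] at X00 X11
      cases y with
      | some j =>
        simp [heckeRepInt, Matrix.mul_apply, Fin.sum_univ_two] at X00 X11
        have hd : ((g : SL(2, ℤ)) 0 0 : ZMod M) * (g : SL(2, ℤ)) 1 1 = 1 := by
          have := congrArg (Int.cast : ℤ → ZMod M) (Matrix.SpecialLinearGroup.det_coe (g : SL(2, ℤ)))
          rw [Matrix.det_fin_two] at this
          push_cast at this
          rwa [g10, mul_zero, sub_zero] at this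
        rw [Gamma1_mem]
        simpa [cosetTwist, X00, g10] using hd
      | none =>
        have h1 := Int.gcd_eq_gcd_ab p M
        rw [Int.gcd_natCast_natCast, h] at h1
        have h2 := congrArg (Int.cast : ℤ → ZMod M) h1
        simp at h2
        simp [heckeRepInt, Matrix.mul_apply, Fin.sum_univ_two] at X00 X11
        rw [Gamma1_mem]
        rw [Matrix.SpecialLinearGroup.coe_mul, cosetTwist, coe_diamondMat_inv]
        simp [Matrix.mul_apply, Fin.sum_univ_two, g10]
        exact ⟨X00, by linear_combination (Int.gcdA p M : ZMod M) * X11 - h2⟩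
    · show X = (((g : SL(2, ℤ)) * (cosetTwist M p h y : SL(2, ℤ))⁻¹ : SL(2, ℤ)) : M2Z) *
        heckeRep1 M p h y
      rw [Matrix.SpecialLinearGroup.coe_mul, heckeRep1, Matrix.mul_assoc,
        ← Matrix.mul_assoc ((((cosetTwist M p h y : SL(2, ℤ))⁻¹ : SL(2, ℤ))) : M2Z),
        ← Matrix.SpecialLinearGroup.coe_mul, inv_mul_cancel, Matrix.SpecialLinearGroup.coe_one,
        Matrix.one_mul]
      exact hg

variable {M}

/-- Conjugation of `Γ₁(M)` by an element of `Γ₀(M)`. -/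
def gamma1Conj (γ : Gamma0 M) : Gamma1 M →* Gamma1 M where
  toFun δ := ⟨(γ : SL(2, ℤ)) * δ * (γ : SL(2, ℤ))⁻¹, conj_mem_Gamma1 M γ.2 δ.2⟩
  map_one' := Subtype.ext (by simp)
  map_mul' δ δ' := Subtype.ext (by simp [mul_assoc])

/-- The diamond operator on homomorphisms. -/
def diamondHom {A : Type*} [AddCommGroup A] (γ : Gamma0 M) (φ : Additive (Gamma1 M) →+ A) :
    Additive (Gamma1 M) →+ A :=
  φ.comp (MonoidHom.toAdditive (gamma1Conj γ))

theorem diamondHom_apply {A : Type*} [AddCommGroup A] (γ : Gamma0 M)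
    (φ : Additive (Gamma1 M) →+ A) (δ : Gamma1 M) :
    diamondHom γ φ (Additive.ofMul δ) = φ (Additive.ofMul (gamma1Conj γ δ)) := rfl

theorem diamondHom_mem {A : Type*} [AddCommGroup A] (R : Type*) [Semiring R] [Module R A]
    (γ : Gamma0 M) {φ : Additive (Gamma1 M) →+ A} (hφ : φ ∈ parabolicHoms R (Gamma1 M) A) :
    diamondHom γ φ ∈ parabolicHoms R (Gamma1 M) A := by
  intro δ hδ
  rw [diamondHom_apply]
  refine hφ _ ?_
  show (((γ : SL(2, ℤ)) * δ * (γ : SL(2, ℤ))⁻¹ : SL(2, ℤ)) : M2Z).trace ^ 2 = 4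
  rw [Matrix.SpecialLinearGroup.coe_mul, Matrix.trace_mul_comm,
    ← Matrix.SpecialLinearGroup.coe_mul, ← mul_assoc, inv_mul_cancel, one_mul]
  exact hδ

theorem op1_mem {A : Type*} [AddCommGroup A] (R : Type*) [Semiring R] [Module R A]
    {p : ℕ} (hp : p.Prime) (h : Nat.Coprime p M) {φ : Additive (Gamma1 M) →+ A}
    (hφ : φ ∈ parabolicHoms R (Gamma1 M) A) :
    (heckeSystem1 M p hp h).op R φ ∈ parabolicHoms R (Gamma1 M) A := by
  intro γ hγ
  refine (heckeSystem1 M p hp h).op_apply_eq_zero R φ γ fun i m _ hi => hφ _ ?_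
  rw [(heckeSystem1 M p hp h).trace_elt hi]
  have htr : ∀ (g : SL(2, ℤ)) (j : ℤ),
      ((g * ModularGroup.T ^ j * g⁻¹ : SL(2, ℤ)) : M2Z).trace = 2 := fun g j => by
    rw [Matrix.SpecialLinearGroup.coe_mul, Matrix.trace_mul_comm,
      ← Matrix.SpecialLinearGroup.coe_mul, ← mul_assoc, inv_mul_cancel, one_mul,
      ModularGroup.coe_T_zpow, Matrix.trace_fin_two_of]
    norm_num
  have h2 : ∀ n : ℕ, ∀ X : SL(2, ℤ), (X : M2Z).trace ^ 2 = 4 →
      ((X ^ n : SL(2, ℤ)) : M2Z).trace ^ 2 = 4 := by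
    intro n X hX
    obtain ⟨g, k, hg | hg⟩ := exists_eq_conj_of_trace_sq_eq_four hX
    · rw [hg, conj_pow, ← zpow_natCast, ← zpow_mul, htr]
      norm_num
    · rw [hg, neg_pow, conj_pow, ← zpow_natCast (ModularGroup.T ^ k), ← zpow_mul]
      rcases neg_one_pow_eq_or SL(2, ℤ) n with h3 | h3 <;> rw [h3]
      · rw [one_mul, htr]; norm_num
      · rw [neg_one_mul, Matrix.SpecialLinearGroup.coe_neg, Matrix.trace_neg, neg_sq, htr]
        norm_num
  simpa using h2 m _ hγ

end FermatLib.Galois.DS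

end
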