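import Fermat.Agent.Modular.PeriodCusp
import Fermat.Agent.Modular.HeckePeriodMap
import Fermat.Agent.Galois.DS.HeckeGamma1
import Mathlib.NumberTheory.ModularForms.NormTrace

/-!
# Periods of weight two cusp forms on `Γ₁(M)`
-/

set_option autoImplicit false

noncomputable section

open UpperHalfPlane hiding I
open CongruenceSubgroup ModularCurve ModularCurve.Period Filter Metric
open scoped MatrixGroups Topology Manifold ModularForm Real

namespace FermatLib.Galois.DS

open FermatLib.Modular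

local notation "M2Z" => Matrix (Fin 2) (Fin 2) ℤ

variable (M : ℕ)

/-- Weight two cusp forms on `Γ₁(M)`, as functions. -/
def cusp1Space : Submodule ℂ (ℍ → ℂ) where
  carrier := {F | MDiff F ∧ (∀ γ ∈ Gamma1 M, F ∣[(2 : ℤ)] γ = F) ∧
    ∀ A : SL(2, ℤ), IsZeroAtImInfty (F ∣[(2 : ℤ)] A)}
  zero_mem' := ⟨mdifferentiable_const, fun _ _ => SlashAction.zero_slash _ _, fun A => by
    rw [SlashAction.zero_slash]; exact Filter.zero_zeroAtFilter _⟩
  add_mem' := fun ⟨h1, h2, h3⟩ ⟨k1, k2, k3⟩ =>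
    ⟨h1.add k1, fun γ hγ => by rw [SlashAction.add_slash, h2 γ hγ, k2 γ hγ], fun A => by
      rw [SlashAction.add_slash]; exact (h3 A).add (k3 A)⟩
  smul_mem' := fun c _ ⟨h1, h2, h3⟩ =>
    ⟨h1.const_smul c, fun γ hγ => by rw [ModularForm.SL_smul_slash, h2 γ hγ], fun A => by
      rw [ModularForm.SL_smul_slash]; exact Filter.ZeroAtFilter.smul c (h3 A)⟩

/-- Composition with a matrix of positive determinant turns primitives into primitives. -/
theorem isPrimUHP_comp_gl {f F : ℍ → ℂ} (hF : IsPrimUHP f F) (g : GL (Fin 2) ℝ)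
    (hg : 0 < g.val.det) : IsPrimUHP (f ∣[(2 : ℤ)] g) (fun τ ↦ F (g • τ)) := by
  intro τ
  have h1 := (UpperHalfPlane.hasStrictDerivAt_smul hg τ).hasDerivAt
  have h2 : HasDerivAt (F ∘ ofComplex) (f (g • τ))
      ((fun z ↦ ↑(g • ofComplex z) : ℂ → ℂ) τ) := by
    simpa using hF (g • τ)
  have h3 := h2.comp (τ : ℂ) h1
  convert! h3 using 1
  · ext z
    simp [Function.comp_def]
  · have hpos : (0 : ℝ) < g.det.val := by simpa using hg
    rw [ModularForm.slash_apply, UpperHalfPlane.σ, if_pos hpos, abs_of_pos hpos]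
    simp [zpow_neg, zpow_ofNat, div_eq_mul_inv]
    ring

variable {M} [NeZero M] {F : ℍ → ℂ}

omit [NeZero M] in
theorem cusp1_periodic (hF : F ∈ cusp1Space M) (δ : SL(2, ℤ)) :
    Function.Periodic ((F ∣[(2 : ℤ)] δ) ∘ ofComplex) ((M : ℝ) : ℂ) := by
  have key : (F ∣[(2 : ℤ)] δ) ∣[(2 : ℤ)] (ModularGroup.T ^ (M : ℤ)) = F ∣[(2 : ℤ)] δ := by
    conv_rhs => rw [← hF.2.1 _ (T_pow_conj_mem_Gamma1 M δ)]
    rw [← SlashAction.slash_mul, ← SlashAction.slash_mul]
    congr 1
    group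
  intro w
  by_cases hw : 0 < w.im
  · have hw' : 0 < (w + ((M : ℝ) : ℂ)).im := by simpa using hw
    simp only [Function.comp_apply, ofComplex_apply_of_im_pos hw, ofComplex_apply_of_im_pos hw']
    have hsm : ModularGroup.T ^ (M : ℤ) • (⟨w, hw⟩ : ℍ) = ⟨w + ((M : ℝ) : ℂ), hw'⟩ := by
      apply UpperHalfPlane.ext
      rw [ModularGroup.coe_T_zpow_smul_eq]
      simp
    have h2 := congrFun key ⟨w, hw⟩
    rw [ModularForm.SL_slash_apply, hsm] at h2
    rw [← h2]
    have hd : UpperHalfPlane.denom ((ModularGroup.T ^ (M : ℤ) : SL(2, ℤ)) : GL (Fin 2) ℝ)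
        ((⟨w, hw⟩ : ℍ) : ℂ) = 1 := by
      rw [ModularGroup.denom_apply, ModularGroup.coe_T_zpow]
      simp
    rw [hd, one_zpow, mul_one]
  · have hw' : (w + ((M : ℝ) : ℂ)).im ≤ 0 := by simpa using hw
    simp only [Function.comp_apply, ofComplex_apply_of_im_nonpos hw',
      ofComplex_apply_of_im_nonpos (not_lt.mp hw)]

/-- A periodic function vanishing at `i∞` has a primitive with a limit at `i∞`. -/
theorem exists_prim_tendsto {g : ℍ → ℂ} {h : ℝ} (hh : 0 < h)
    (hper : Function.Periodic (g ∘ ofComplex) (h : ℂ)) (hhol : MDiff g) (hz : IsZeroAtImInfty g) :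
    ∃ (G : ℍ → ℂ) (L : ℂ), IsPrimUHP g G ∧ Tendsto G atImInfty (𝓝 L) := by
  have hbdd : IsBoundedAtImInfty g := hz.boundedAtFilter
  have hd := differentiableOn_cuspFunction_ball hh hper hhol hbdd
  have h0 : cuspFunction h g 0 = 0 := by
    rw [cuspFunction_apply_zero hh (analyticAt_cuspFunction_zero hh hper hhol hbdd) hper,
      hz.valueAtInfty_eq_zero]
  have hD : DifferentiableOn ℂ (dslope (cuspFunction h g) 0) (ball 0 1) :=
    (Complex.differentiableOn_dslope (ball_mem_nhds 0 one_pos)).mpr hd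
  obtain ⟨Ψ₁, hΨ⟩ := hD.isExactOn_ball
  set c : ℂ := 2 * π * Complex.I / h with hcdef
  have hc : c ≠ 0 := by simp [c, Real.pi_ne_zero, hh.ne']
  refine ⟨fun τ => c⁻¹ * Ψ₁ (Function.Periodic.qParam h τ), c⁻¹ * Ψ₁ 0, fun τ => ?_, ?_⟩
  · set q : ℂ := Function.Periodic.qParam h τ with hqdef
    have hq : q ∈ ball (0 : ℂ) 1 := by
      simpa using Function.Periodic.norm_qParam_lt_one hh τ.im_pos
    have hq' : HasDerivAt (Function.Periodic.qParam h) (q * c) (τ : ℂ) := by
      have := (((hasDerivAt_id (τ : ℂ)).const_mul (2 * π * Complex.I)).div_const (h : ℂ)).cexp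
      have hfun : (fun x ↦ Complex.exp (2 * π * Complex.I * id x / (h : ℂ)))
          = Function.Periodic.qParam h := rfl
      rw [hfun] at this
      refine this.congr_deriv ?_
      rw [mul_one]
      rfl
    have hds : q * dslope (cuspFunction h g) 0 q = g τ := by
      have := sub_smul_dslope (cuspFunction h g) 0 q
      rw [smul_eq_mul, sub_zero, h0, sub_zero] at this
      rw [this, hqdef, eq_cuspFunction τ hh.ne' hper]
    have h' := ((hΨ q hq).comp (τ : ℂ) hq').const_mul c⁻¹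
    have hev : ((fun τ' : ℍ ↦ c⁻¹ * Ψ₁ (Function.Periodic.qParam h τ')) ∘ ofComplex)
        =ᶠ[𝓝 (τ : ℂ)] fun z ↦ c⁻¹ * Ψ₁ (Function.Periodic.qParam h z) := by
      filter_upwards [isOpen_upperHalfPlaneSet.mem_nhds τ.im_pos] with z hz
      simp [ofComplex_apply_of_im_pos hz]
    refine HasDerivAt.congr_of_eventuallyEq (h'.congr_deriv ?_) hev
    rw [← hds]
    field_simp
  · have hcont : ContinuousAt Ψ₁ 0 := (hΨ 0 (mem_ball_self one_pos)).continuousAt
    exact (hcont.tendsto.comp (qParam_tendsto_atImInfty hh)).const_mul c⁻¹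

theorem exists_tendsto_primUHP (hF : F ∈ cusp1Space M) (δ : SL(2, ℤ)) :
    ∃ L : ℂ, Tendsto (fun w : ℍ ↦ primUHP F (δ • w)) atImInfty (𝓝 L) := by
  have hh : (0 : ℝ) < M := by exact_mod_cast NeZero.pos M
  obtain ⟨G, L, hG, hL⟩ := exists_prim_tendsto hh (cusp1_periodic hF δ)
    (hF.1.slash 2 _) (hF.2.2 δ)
  have h1 : IsPrimUHP (F ∣[(2 : ℤ)] δ) (fun τ ↦ primUHP F (δ • τ)) :=
    isPrimUHP_comp_smul (isPrimUHP_primUHP hF.1) δ
  set e := primUHP F (δ • UpperHalfPlane.I) - G UpperHalfPlane.I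
  refine ⟨L + e, (hL.add_const e).congr fun w => ?_⟩
  have := h1.sub_eq hG w UpperHalfPlane.I
  simp only [e] at *
  linear_combination -this

omit [NeZero M] in
theorem primUHP_smul_sub (hF : F ∈ cusp1Space M) (γ : Gamma1 M) (z : ℍ) :
    primUHP F ((γ : SL(2, ℤ)) • z) - primUHP F z =
      primUHP F ((γ : SL(2, ℤ)) • UpperHalfPlane.I) := by
  have h1 : IsPrimUHP F (fun τ ↦ primUHP F ((γ : SL(2, ℤ)) • τ)) := by
    have := isPrimUHP_comp_smul (isPrimUHP_primUHP hF.1) (γ : SL(2, ℤ))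
    rwa [hF.2.1 _ γ.2] at this
  simpa using h1.sub_eq (isPrimUHP_primUHP hF.1) z UpperHalfPlane.I

variable (M)

/-- The periods of a weight two cusp form on `Γ₁(M)`. -/
def per1 : cusp1Space M →ₗ[ℂ] (Additive (Gamma1 M) →+ ℂ) where
  toFun F :=
    { toFun := fun γ => primUHP F.1 (((Additive.toMul γ : Gamma1 M) : SL(2, ℤ)) • UpperHalfPlane.I)
      map_zero' := by simp
      map_add' := fun γ δ => by
        have h := primUHP_smul_sub F.2 (Additive.toMul γ)
          (((Additive.toMul δ : Gamma1 M) : SL(2, ℤ)) • UpperHalfPlane.I)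
        simp only [toMul_add, Subgroup.coe_mul, mul_smul]
        linear_combination h }
  map_add' F G := by
    refine AddMonoidHom.ext fun γ => ?_
    show primUHP (F.1 + G.1) _ = primUHP F.1 _ + primUHP G.1 _
    rw [primUHP_add F.2.1 G.2.1]
    rfl
  map_smul' c F := by
    refine AddMonoidHom.ext fun γ => ?_
    show primUHP (c • F.1) _ = c • primUHP F.1 _
    rw [primUHP_smul c F.2.1]
    rfl

variable {M}

theorem per1_apply (F : cusp1Space M) (γ : Gamma1 M) :
    per1 M F (Additive.ofMul γ) = primUHP F.1 ((γ : SL(2, ℤ)) • UpperHalfPlane.I) := rfl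

theorem per1_mem (F : cusp1Space M) : per1 M F ∈ parabolicHoms ℂ (Gamma1 M) ℂ := by
  intro γ hγ
  obtain ⟨δ, m, hact⟩ : ∃ δ : SL(2, ℤ), ∃ m : ℤ, ∀ z : ℍ,
      (γ : SL(2, ℤ)) • z = (δ * ModularGroup.T ^ m * δ⁻¹) • z := by
    obtain ⟨δ, m, h | h⟩ := exists_eq_conj_of_trace_sq_eq_four hγ
    · exact ⟨δ, m, fun z ↦ by rw [h]⟩
    · exact ⟨δ, m, fun z ↦ by rw [h, ModularGroup.SL_neg_smul]⟩
  obtain ⟨L, hL⟩ := exists_tendsto_primUHP F.2 δ
  have h1 : Tendsto (fun w : ℍ ↦ primUHP F.1 (δ • ModularGroup.T ^ m • w) - primUHP F.1 (δ • w))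
      atImInfty (𝓝 0) := by
    simpa using (hL.comp (tendsto_T_zpow_smul m)).sub hL
  have h2 : (fun w : ℍ ↦ primUHP F.1 (δ • ModularGroup.T ^ m • w) - primUHP F.1 (δ • w)) =
      fun _ ↦ per1 M F (Additive.ofMul γ) := by
    funext w
    rw [per1_apply, ← primUHP_smul_sub F.2 γ (δ • w), hact, mul_smul, mul_smul, inv_smul_smul]
  rw [h2] at h1
  exact tendsto_nhds_unique tendsto_const_nhds h1

/-- A form all whose periods vanish is zero. -/
theorem eq_zero_of_per1 (F : cusp1Space M) (h : per1 M F = 0) : F = 0 := by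
  obtain ⟨F, hF⟩ := F
  have hinv : ∀ γ ∈ Gamma1 M, ∀ z : ℍ, primUHP F (γ • z) = primUHP F z := by
    intro γ hγ z
    have h1 := primUHP_smul_sub hF ⟨γ, hγ⟩ z
    have h2 := congrArg (fun φ : Additive (Gamma1 M) →+ ℂ => φ (Additive.ofMul ⟨γ, hγ⟩)) h
    simp only [per1_apply, AddMonoidHom.zero_apply] at h2
    simp only at h1
    rw [h2] at h1
    exact sub_eq_zero.mp h1
  let Φ : ModularForm (Gamma1 M) 0 :=
    { toFun := primUHP F
      slash_action_eq' := by
        rintro g ⟨γ, hγ, rfl⟩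
        funext z
        show (primUHP F ∣[(0 : ℤ)] γ) z = primUHP F z
        rw [ModularForm.SL_slash_apply]
        simpa using hinv γ hγ z
      holo' := mdifferentiable_primUHP hF.1
      bdd_at_cusps' := by
        intro c hc
        rw [Subgroup.IsArithmetic.isCusp_iff_isCusp_SL2Z] at hc
        rw [OnePoint.isBoundedAt_iff_forall_SL2Z hc]
        intro γ _
        obtain ⟨L, hL⟩ := exists_tendsto_primUHP hF γ
        refine (hL.isBigO_one ℝ).congr_left fun w => ?_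
        rw [ModularForm.SL_slash_apply]
        simp }
  obtain ⟨c, hc⟩ := ModularForm.eq_const_of_weight_zero Φ
  refine Subtype.ext (funext fun τ => ?_)
  have hd := isPrimUHP_primUHP hF.1 τ
  rw [show primUHP F = Function.const ℍ c from hc] at hd
  exact hd.unique (hasDerivAt_const _ c)

variable (M)

/-- The representatives of `T p` on `Γ₁(M)` in `GL₂(ℝ)`. -/
def rep1GL (p : ℕ) (h : Nat.Coprime p M) (x : Option (Fin p)) : GL (Fin 2) ℝ :=
  Matrix.SpecialLinearGroup.mapGL ℝ (cosetTwist M p h x : SL(2, ℤ)) * heckeRepGL p x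

omit [NeZero M] in
theorem val_rep1GL {p : ℕ} (hp : p ≠ 0) (h : Nat.Coprime p M) (x : Option (Fin p)) :
    (rep1GL M p h x : Matrix (Fin 2) (Fin 2) ℝ) =
      (heckeRep1 M p h x).map (Int.cast : ℤ → ℝ) := by
  rw [rep1GL, Units.val_mul, val_mapGL_int, val_heckeRepGL hp, ← map_intCast_mul]
  rfl

theorem det_rep1GL_pos {p : ℕ} (hp : p ≠ 0) (h : Nat.Coprime p M) (x : Option (Fin p)) :
    0 < (rep1GL M p h x).val.det := by
  rw [val_rep1GL M hp, show ((heckeRep1 M p h x).map (Int.cast : ℤ → ℝ)).det =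
    (((heckeRep1 M p h x).det : ℤ) : ℝ) from ((Int.castRingHom ℝ).map_det _).symm, det_heckeRep1]
  exact_mod_cast Nat.pos_of_ne_zero hp

/-- The operator `T p` on functions. -/
def opFun1 (p : ℕ) (h : Nat.Coprime p M) (F : ℍ → ℂ) : ℍ → ℂ :=
  ∑ x : Option (Fin p), F ∣[(2 : ℤ)] rep1GL M p h x

variable {M}

theorem rep1GL_mul {p : ℕ} (hp : p.Prime) (h : Nat.Coprime p M) (γ : Gamma1 M)
    (x : Option (Fin p)) :
    rep1GL M p h x * Matrix.SpecialLinearGroup.mapGL ℝ (γ : SL(2, ℤ)) =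
      Matrix.SpecialLinearGroup.mapGL ℝ ((heckeSystem1 M p hp h).elt γ x : SL(2, ℤ)) *
        rep1GL M p h ((heckeSystem1 M p hp h).next γ x) := by
  apply Units.ext
  rw [Units.val_mul, Units.val_mul, val_rep1GL M hp.ne_zero, val_rep1GL M hp.ne_zero,
    val_mapGL_int, val_mapGL_int, ← map_intCast_mul, ← map_intCast_mul]
  exact congrArg (fun X : M2Z => X.map (Int.cast : ℤ → ℝ)) ((heckeSystem1 M p hp h).rep_mul γ x)

theorem opFun1_mem {p : ℕ} (hp : p.Prime) (h : Nat.Coprime p M) (hF : F ∈ cusp1Space M) :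
    opFun1 M p h F ∈ cusp1Space M := by
  refine ⟨mem_holFunUHP.mp (holFunUHP.sum_mem fun x _ => hF.1.slash 2 _), fun γ hγ => ?_,
    fun A => ?_⟩
  · rw [opFun1, SlashAction.sum_slash]
    have hx : ∀ x : Option (Fin p), (F ∣[(2 : ℤ)] rep1GL M p h x) ∣[(2 : ℤ)] γ =
        F ∣[(2 : ℤ)] rep1GL M p h ((heckeSystem1 M p hp h).next ⟨γ, hγ⟩ x) := by
      intro x
      have hmul := rep1GL_mul hp h ⟨γ, hγ⟩ x
      simp only at hmul
      rw [ModularForm.SL_slash, ← SlashAction.slash_mul]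
      change F ∣[(2 : ℤ)] (rep1GL M p h x * Matrix.SpecialLinearGroup.mapGL ℝ γ) = _
      rw [hmul, SlashAction.slash_mul]
      congr 1
      exact hF.2.1 _ ((heckeSystem1 M p hp h).elt ⟨γ, hγ⟩ x).2
    rw [Finset.sum_congr rfl fun x _ => hx x]
    exact Equiv.sum_comp (Equiv.ofBijective _ ((heckeSystem1 M p hp h).next_bijective ⟨γ, hγ⟩))
      (fun x => F ∣[(2 : ℤ)] rep1GL M p h x)
  · rw [opFun1, SlashAction.sum_slash]
    refine Finset.sum_induction _ _ (fun _ _ => Filter.ZeroAtFilter.add)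
      (Filter.zero_zeroAtFilter _) fun x _ => ?_
    obtain ⟨δ, B, hB, hB10⟩ := exists_upperTriangular_factor (heckeRep1 M p h x * (A : M2Z))
    set g : GL (Fin 2) ℝ := (Matrix.SpecialLinearGroup.mapGL ℝ δ)⁻¹ *
      (rep1GL M p h x * Matrix.SpecialLinearGroup.mapGL ℝ A) with hg
    have hg10 : g 1 0 = 0 := by
      have hgval : (g : Matrix (Fin 2) (Fin 2) ℝ) = B.map (Int.cast : ℤ → ℝ) := by
        rw [hg, Units.val_mul, Units.val_mul, val_rep1GL M hp.ne_zero, val_mapGL_int,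
          ← map_intCast_mul, hB, map_intCast_mul, ← val_mapGL_int, ← Matrix.mul_assoc,
          ← Units.val_mul, inv_mul_cancel, Units.val_one, one_mul]
      rw [hgval, Matrix.map_apply, hB10, Int.cast_zero]
    rw [ModularForm.SL_slash, ← SlashAction.slash_mul,
      show rep1GL M p h x * (A : GL (Fin 2) ℝ) = Matrix.SpecialLinearGroup.mapGL ℝ δ * g by
        rw [hg, mul_inv_cancel_left]; rfl, SlashAction.slash_mul]
    exact UpperHalfPlane.IsZeroAtImInfty.slash 2 hg10 (hF.2.2 δ)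

/-- Periods intertwine `T p` with the transfer operator. -/
theorem per1_opFun1 {p : ℕ} (hp : p.Prime) (h : Nat.Coprime p M) (F : cusp1Space M) :
    per1 M ⟨opFun1 M p h F.1, opFun1_mem hp h F.2⟩ =
      (heckeSystem1 M p hp h).op ℂ (per1 M F) := by
  set D := heckeSystem1 M p hp h
  set G : ℍ → ℂ := fun z => ∑ x : Option (Fin p), primUHP F.1 (rep1GL M p h x • z)
  have hG : IsPrimUHP (opFun1 M p h F.1) G := fun τ => by
    have := HasDerivAt.sum (u := Finset.univ) fun x (_ : x ∈ Finset.univ) =>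
      isPrimUHP_comp_gl (isPrimUHP_primUHP F.2.1) (rep1GL M p h x)
        (det_rep1GL_pos M hp.ne_zero h x) τ
    rw [opFun1, Finset.sum_apply]
    refine this.congr_of_eventuallyEq (Eventually.of_forall fun z => ?_)
    simp [G]
  refine AddMonoidHom.ext fun γ => ?_
  obtain ⟨γ, rfl⟩ := Additive.ofMul.surjective γ
  rw [per1_apply, HeckeSystem.op_apply, ← hG.sub_eq_primUHP (opFun1_mem hp h F.2).1]
  have hx : ∀ x : Option (Fin p),
      primUHP F.1 (rep1GL M p h x • ((γ : SL(2, ℤ)) • UpperHalfPlane.I)) =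
        primUHP F.1 (rep1GL M p h (D.next γ x) • UpperHalfPlane.I) +
          per1 M F (Additive.ofMul (D.elt γ x)) := by
    intro x
    rw [show rep1GL M p h x • ((γ : SL(2, ℤ)) • UpperHalfPlane.I) =
      (D.elt γ x : SL(2, ℤ)) • (rep1GL M p h (D.next γ x) • UpperHalfPlane.I) by
        rw [sl_smul_eq_mapGL_smul, ← mul_smul, rep1GL_mul hp h γ x, mul_smul,
          ← sl_smul_eq_mapGL_smul]]
    rw [per1_apply, ← primUHP_smul_sub F.2 (D.elt γ x)
      (rep1GL M p h (D.next γ x) • UpperHalfPlane.I)]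
    ring
  simp only [G]
  rw [Finset.sum_congr rfl fun x _ => hx x, Finset.sum_add_distrib, sub_eq_iff_eq_add', add_right_cancel_iff]
  exact Equiv.sum_comp (Equiv.ofBijective _ (D.next_bijective γ))
    (fun x => primUHP F.1 (rep1GL M p h x • UpperHalfPlane.I))

omit [NeZero M] in
theorem slash_diamond_mem (γ : Gamma0 M) (hF : F ∈ cusp1Space M) :
    F ∣[(2 : ℤ)] (γ : SL(2, ℤ)) ∈ cusp1Space M := by
  refine ⟨hF.1.slash 2 _, fun δ hδ => ?_, fun A => ?_⟩
  · rw [← SlashAction.slash_mul,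
      show (γ : SL(2, ℤ)) * δ = (γ * δ * (γ : SL(2, ℤ))⁻¹) * (γ : SL(2, ℤ)) by group,
      SlashAction.slash_mul, hF.2.1 _ (conj_mem_Gamma1 M γ.2 hδ)]
  · rw [← SlashAction.slash_mul]
    exact hF.2.2 _

/-- Periods intertwine the diamond operators. -/
theorem per1_diamond (γ : Gamma0 M) (F : cusp1Space M) :
    per1 M ⟨F.1 ∣[(2 : ℤ)] (γ : SL(2, ℤ)), slash_diamond_mem γ F.2⟩ =
      diamondHom γ (per1 M F) := by
  refine AddMonoidHom.ext fun δ => ?_
  obtain ⟨δ, rfl⟩ := Additive.ofMul.surjective δ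
  have hG := isPrimUHP_comp_smul (isPrimUHP_primUHP F.2.1) (γ : SL(2, ℤ))
  rw [per1_apply, diamondHom_apply, per1_apply,
    ← hG.sub_eq_primUHP (slash_diamond_mem γ F.2).1,
    ← primUHP_smul_sub F.2 (gamma1Conj γ δ) ((γ : SL(2, ℤ)) • UpperHalfPlane.I)]
  congr 2
  show (γ : SL(2, ℤ)) • (δ : SL(2, ℤ)) • UpperHalfPlane.I =
    ((γ : SL(2, ℤ)) * δ * (γ : SL(2, ℤ))⁻¹) • (γ : SL(2, ℤ)) • UpperHalfPlane.I
  rw [← mul_smul, ← mul_smul]
  congr 1
  group

end FermatLib.Galois.DS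

end
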