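import Mathlib.NumberTheory.LSeries.PrimesInAP
import Mathlib.NumberTheory.DirichletCharacter.Basic
import Fermat.Agent.Galois.DS.ResidualPeriods
import Fermat.Agent.Galois.DS.AssemblyWtOne

/-!
# The nebentypus of a weight one form with Hecke relations

If the coefficients satisfy the `T p` relations with `ε p`, the form `h = ⟨p⟩f - ε(p) f` has
`h (p τ)` invariant under `Γ₁(N)`, which forces `h = 0`.
-/

set_option autoImplicit false
set_option linter.unusedSectionVars false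

noncomputable section

open UpperHalfPlane hiding I
open CongruenceSubgroup ModularFormClass Matrix.SpecialLinearGroup
open scoped MatrixGroups ModularForm Manifold

namespace FermatLib.Galois.DS

open FermatLib.Modular

local notation "M2Z" => Matrix (Fin 2) (Fin 2) ℤ

/-- An element of `SL₂(ℤ)` from its entries. -/
def sl2Of (a b c d : ℤ) (h : a * d - b * c = 1) : SL(2, ℤ) :=
  ⟨!![a, b; c, d], by rw [Matrix.det_fin_two_of]; exact h⟩

@[simp] theorem coe_sl2Of (a b c d : ℤ) (h : a * d - b * c = 1) :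
    (sl2Of a b c d h : M2Z) = !![a, b; c, d] := rfl

theorem mem_Gamma1_of_lowerRight {N : ℕ} {γ : SL(2, ℤ)} (h0 : γ ∈ Gamma0 N)
    (h1 : ((γ 1 1 : ℤ) : ZMod N) = 1) : γ ∈ Gamma1 N := by
  have h := congrArg (fun n : ℤ => (n : ZMod N)) (Matrix.SpecialLinearGroup.det_coe γ)
  rw [Matrix.det_fin_two] at h
  push_cast at h
  rw [Gamma0_mem] at h0
  rw [h1, h0, mul_one, mul_zero, sub_zero] at h
  exact (Gamma1_mem N γ).mpr ⟨h, h1, h0⟩

variable {N : ℕ} [NeZero N]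

theorem slash_gamma0_mem_cuspOne {F : ℍ → ℂ} (hF : F ∈ cuspOneSpace N) {γ : SL(2, ℤ)}
    (hγ : γ ∈ Gamma0 N) : F ∣[(1 : ℤ)] γ ∈ cuspOneSpace N := by
  refine ⟨hF.1.slash 1 _, fun δ hδ => ?_, fun A => ?_⟩
  · rw [← SlashAction.slash_mul, show γ * δ = (γ * δ * γ⁻¹) * γ by group, SlashAction.slash_mul,
      hF.2.1 _ (conj_mem_Gamma1 N hγ hδ)]
  · rw [← SlashAction.slash_mul]
    exact hF.2.2 _

/-- The sum over the representatives of `T p`. -/
def opOne (N p : ℕ) (h : Nat.Coprime p N) (F : ℍ → ℂ) : ℍ → ℂ :=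
  ∑ x : Option (Fin p), F ∣[(1 : ℤ)] rep1GL N p h x

theorem opOne_slash {p : ℕ} (hp : p.Prime) (h : Nat.Coprime p N) {F : ℍ → ℂ}
    (hF : F ∈ cuspOneSpace N) {γ : SL(2, ℤ)} (hγ : γ ∈ Gamma1 N) :
    opOne N p h F ∣[(1 : ℤ)] γ = opOne N p h F := by
  rw [opOne, SlashAction.sum_slash]
  have hx : ∀ x : Option (Fin p), (F ∣[(1 : ℤ)] rep1GL N p h x) ∣[(1 : ℤ)] γ =
      F ∣[(1 : ℤ)] rep1GL N p h ((heckeSystem1 N p hp h).next ⟨γ, hγ⟩ x) := by
    intro x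
    have hmul := rep1GL_mul hp h ⟨γ, hγ⟩ x
    simp only at hmul
    rw [ModularForm.SL_slash, ← SlashAction.slash_mul]
    change F ∣[(1 : ℤ)] (rep1GL N p h x * mapGL ℝ γ) = _
    rw [hmul, SlashAction.slash_mul]
    congr 1
    exact hF.2.1 _ ((heckeSystem1 N p hp h).elt ⟨γ, hγ⟩ x).2
  rw [Finset.sum_congr rfl fun x _ => hx x]
  exact Equiv.sum_comp (Equiv.ofBijective _ ((heckeSystem1 N p hp h).next_bijective ⟨γ, hγ⟩))
    (fun x => F ∣[(1 : ℤ)] rep1GL N p h x)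

theorem opOne_eq (p : ℕ) (h : Nat.Coprime p N) (F : ℍ → ℂ) :
    opOne N p h F = ModularForm.heckeU 1 p F +
      (F ∣[(1 : ℤ)] (diamondMat N p h : SL(2, ℤ))) ∣[(1 : ℤ)] ModularForm.heckeDiagMatrix p := by
  rw [opOne, Fintype.sum_option, add_comm]
  congr 1
  · rw [ModularForm.heckeU_def, ← Fin.sum_univ_eq_sum_range (fun j => F ∣[(1 : ℤ)] ModularForm.heckeMatrix p j)]
    refine Finset.sum_congr rfl fun j _ => ?_
    simp [rep1GL, cosetTwist, heckeRepGL]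
  · rw [rep1GL, SlashAction.slash_mul]
    rfl

/-- `h (p τ)` is invariant under `Γ₁(N)`. -/
def DiagInvariant (N p : ℕ) (F : ℍ → ℂ) : Prop :=
  ∀ γ ∈ Gamma1 N, (F ∣[(1 : ℤ)] ModularForm.heckeDiagMatrix p) ∣[(1 : ℤ)] γ =
    F ∣[(1 : ℤ)] ModularForm.heckeDiagMatrix p

theorem exists_mul_diag (N p : ℕ) (hp : p.Prime) (hpN : ¬ p ∣ N) (γ : SL(2, ℤ))
    (hγ : γ ∈ Gamma0 N) :
    ∃ ζ₁ ∈ Gamma1 N, ∃ γ'' ∈ Gamma0 N, mapGL ℝ (ζ₁ * γ) * ModularForm.heckeDiagMatrix p =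
      ModularForm.heckeDiagMatrix p * (mapGL ℝ γ'' : GL (Fin 2) ℝ) := by
  have := Fact.mk hp
  have hdetγ := (Matrix.det_fin_two _).symm.trans (Matrix.SpecialLinearGroup.det_coe γ)
  obtain ⟨L, hL, hLd⟩ : ∃ L ∈ Gamma1 N, ¬ (p : ℤ) ∣ (L * γ) 1 1 := by
    by_cases hd : (p : ℤ) ∣ γ 1 1
    · refine ⟨sl2Of 1 0 N 1 (by ring), by simp [Gamma1_mem], ?_⟩
      intro h'
      simp [Matrix.mul_apply, Fin.sum_univ_two] at h'
      have hb : (p : ℤ) ∣ (N : ℤ) * γ 0 1 := by simpa using dvd_sub h' hd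
      rcases (Nat.prime_iff_prime_int.mp hp).dvd_mul.mp hb with h1 | h1
      · exact hpN (Int.natCast_dvd_natCast.mp h1)
      · refine hp.not_dvd_one (Int.natCast_dvd_natCast.mp ?_)
        rw [Nat.cast_one, ← hdetγ]
        exact dvd_sub (hd.mul_left _) (h1.mul_right _)
    · exact ⟨1, one_mem _, by simpa using hd⟩
  set γ₁ := L * γ with hγ₁
  have hγ₁0 : γ₁ ∈ Gamma0 N := mul_mem (Gamma1_in_Gamma0 N hL) hγ
  obtain ⟨j, hj⟩ : ∃ j : ℤ, (p : ℤ) ∣ γ₁ 0 1 + j * γ₁ 1 1 := by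
    have hd0 : ((γ₁ 1 1 : ℤ) : ZMod p) ≠ 0 := fun h0 =>
      hLd ((ZMod.intCast_zmod_eq_zero_iff_dvd _ _).mp h0)
    obtain ⟨j, hj⟩ := ZMod.intCast_surjective (-((γ₁ 0 1 : ℤ) : ZMod p) / ((γ₁ 1 1 : ℤ) : ZMod p))
    refine ⟨j, (ZMod.intCast_zmod_eq_zero_iff_dvd _ _).mp ?_⟩
    push_cast
    rw [hj, div_mul_cancel₀ _ hd0, add_neg_cancel]
  obtain ⟨b', hb'⟩ := hj
  have hdet := (Matrix.det_fin_two _).symm.trans (Matrix.SpecialLinearGroup.det_coe γ₁)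
  refine ⟨ModularGroup.T ^ j * L, mul_mem (zpow_mem (modularGroup_T_mem_Gamma1 N) j) hL,
    sl2Of (γ₁ 0 0 + j * γ₁ 1 0) b' ((p : ℤ) * γ₁ 1 0) (γ₁ 1 1)
      (by linear_combination hdet + (γ₁ 1 0) * hb'), ?_, ?_⟩
  · rw [Gamma0_mem] at hγ₁0 ⊢
    simp [hγ₁0]
  · rw [mul_assoc, ← hγ₁]
    apply Units.ext
    rw [Units.val_mul, Units.val_mul, val_mapGL_int, val_mapGL_int,
      ModularForm.val_heckeDiagMatrix hp.ne_zero]
    ext i k
    fin_cases i <;> fin_cases k <;>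
      simp [Matrix.mul_apply, Matrix.vecMul, dotProduct, Fin.sum_univ_two, ModularGroup.coe_T_zpow]
    · ring
    · have := congrArg (Int.cast : ℤ → ℝ) hb'
      push_cast at this
      linear_combination this
    · ring

theorem diagInvariant_slash {p : ℕ} (hp : p.Prime) (hpN : ¬ p ∣ N) {F : ℍ → ℂ}
    (hF : F ∈ cuspOneSpace N) (hP : DiagInvariant N p F) {γ : SL(2, ℤ)} (hγ : γ ∈ Gamma0 N) :
    DiagInvariant N p (F ∣[(1 : ℤ)] γ) := by
  intro δ hδ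
  obtain ⟨ζ₁, hζ₁, γ'', hγ'', heq⟩ := exists_mul_diag N p hp hpN γ hγ
  have h1 : (F ∣[(1 : ℤ)] γ) ∣[(1 : ℤ)] ModularForm.heckeDiagMatrix p =
      (F ∣[(1 : ℤ)] ModularForm.heckeDiagMatrix p) ∣[(1 : ℤ)] γ'' := by
    conv_lhs => rw [← hF.2.1 ζ₁ hζ₁, ← SlashAction.slash_mul, ModularForm.SL_slash,
      ← SlashAction.slash_mul]
    rw [ModularForm.SL_slash, ← SlashAction.slash_mul]
    exact congrArg (F ∣[(1 : ℤ)] ·) heq
  rw [h1, ← SlashAction.slash_mul, show γ'' * δ = (γ'' * δ * γ''⁻¹) * γ'' by group,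
    SlashAction.slash_mul, hP _ (conj_mem_Gamma1 N hγ'' hδ)]

/-- The key relation: for a suitable `γ ∈ Γ₀(N)`, `F ∣ γ` is `F (p² τ)` up to a scalar. -/
theorem exists_gamma_slash_eq {p : ℕ} (hp : p.Prime) (hpN : ¬ p ∣ N) :
    ∃ γ ∈ Gamma0 N, IsUnit ((γ 1 1 : ℤ) : ZMod N) ∧ ∀ F : ℍ → ℂ, F ∈ cuspOneSpace N →
      DiagInvariant N p F →
      F ∣[(1 : ℤ)] γ = (p : ℂ) • (F ∣[(1 : ℤ)] ModularForm.heckeDiagMatrix (p ^ 2)) := by
  obtain ⟨d, b, hdb⟩ : IsCoprime (p : ℤ) N :=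
    Int.isCoprime_iff_gcd_eq_one.mpr (by
      rw [Int.gcd_natCast_natCast]; exact (Nat.Prime.coprime_iff_not_dvd hp).mpr hpN)
  refine ⟨sl2Of p b (-(N : ℤ)) d (by linear_combination hdb),
    by simp [Gamma0_mem], ?_, fun F hF hP => ?_⟩
  · refine IsUnit.of_mul_eq_one (p : ZMod N) ?_
    have := congrArg (Int.cast : ℤ → ZMod N) hdb
    simpa [mul_comm] using this
  set γ : SL(2, ℤ) := sl2Of p b (-(N : ℤ)) d (by linear_combination hdb) with hγ
  set L : SL(2, ℤ) := sl2Of 1 0 N 1 (by ring)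
  have hL : L ∈ Gamma1 N := by simp [L, Gamma1_mem]
  set D := ModularForm.heckeDiagMatrix p
  set E := ModularForm.heckeMatrix p 0
  have hgl : D * mapGL ℝ L * E * mapGL ℝ γ =
      mapGL ℝ (ModularGroup.T ^ ((p : ℤ) * b)) * ModularForm.heckeDiagMatrix (p ^ 2) := by
    apply Units.ext
    simp only [Units.val_mul, val_mapGL_int, D, E, ModularForm.val_heckeDiagMatrix hp.ne_zero,
      ModularForm.val_heckeMatrix hp.ne_zero,
      ModularForm.val_heckeDiagMatrix (pow_ne_zero 2 hp.ne_zero)]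
    have hdb' : (d : ℝ) * p + b * N = 1 := by exact_mod_cast hdb
    ext i k
    fin_cases i <;> fin_cases k <;>
      simp [L, hγ, Matrix.mul_apply, Matrix.vecMul, dotProduct, Fin.sum_univ_two, ModularGroup.coe_T_zpow]
    · ring
    · ring
    · linear_combination hdb'
  have hscal : F ∣[(1 : ℤ)] (D * E) = (p : ℂ)⁻¹ • F := by
    funext τ
    rw [SlashAction.slash_mul, ModularForm.slash_heckeMatrix_apply 1 hp.ne_zero,
      ModularForm.slash_heckeDiagMatrix_apply 1 hp.ne_zero, Pi.smul_apply, smul_eq_mul, sub_self,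
      zpow_zero, one_mul]
    congr 2
    apply UpperHalfPlane.ext
    rw [ModularForm.coe_heckeDiagMatrix_smul hp.ne_zero, ModularForm.coe_heckeMatrix_smul hp.ne_zero,
      Nat.cast_zero, add_zero, mul_div_cancel₀ _ (Nat.cast_ne_zero.mpr hp.ne_zero)]
  have h := congrArg (F ∣[(1 : ℤ)] ·) hgl
  simp only [SlashAction.slash_mul] at h
  have h' : (((F ∣[(1 : ℤ)] D) ∣[(1 : ℤ)] L) ∣[(1 : ℤ)] E) ∣[(1 : ℤ)] γ =
      (F ∣[(1 : ℤ)] (ModularGroup.T ^ ((p : ℤ) * b))) ∣[(1 : ℤ)]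
        ModularForm.heckeDiagMatrix (p ^ 2) := h
  rw [hP L hL, hF.2.1 _ (zpow_mem (modularGroup_T_mem_Gamma1 N) _), ← SlashAction.slash_mul, hscal,
    ModularForm.SL_smul_slash] at h'
  rw [← h', smul_smul, mul_inv_cancel₀ (Nat.cast_ne_zero.mpr hp.ne_zero), one_smul]

/-- A form with `F (p τ)` invariant under `Γ₁(N)` vanishes. -/
theorem eq_zero_of_diagInvariant {p : ℕ} (hp : p.Prime) (hpN : ¬ p ∣ N) {F : ℍ → ℂ}
    (hF : F ∈ cuspOneSpace N) (hP : DiagInvariant N p F) : F = 0 := by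
  obtain ⟨γ, hγ, hu, hkey⟩ := exists_gamma_slash_eq (N := N) hp hpN
  have hpow : ∀ i : ℕ, F ∣[(1 : ℤ)] (γ ^ i) ∈ cuspOneSpace N ∧ DiagInvariant N p (F ∣[(1 : ℤ)] (γ ^ i)) :=
    fun i => ⟨slash_gamma0_mem_cuspOne hF (pow_mem hγ i),
      diagInvariant_slash hp hpN hF hP (pow_mem hγ i)⟩
  have hvan : ∀ i n : ℕ, n < p ^ (2 * i) → qCoeff (F ∣[(1 : ℤ)] (γ ^ i)) n = 0 := by
    intro i
    induction i with
    | zero =>
      intro n hn
      rw [Nat.mul_zero, pow_zero, Nat.lt_one_iff] at hn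
      rw [hn]
      exact qCoeff_zero_cuspOne (hpow 0).1
    | succ i ih =>
      intro n hn
      have hq := qHol_of_cuspOne (hpow i).1
      rw [pow_succ, SlashAction.slash_mul, hkey _ (hpow i).1 (hpow i).2,
        qCoeff_smul_qHol (slash_heckeDiag_mem_qHolSpace hq 1 _),
        qCoeff_slash_heckeDiag hq 1 (pow_ne_zero 2 hp.ne_zero)]
      split_ifs with hd
      · rw [ih _ ((Nat.div_lt_iff_lt_mul (pow_pos hp.pos 2)).mpr (by
          rwa [← pow_add, ← mul_add_one]))]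
        simp
      · simp
  obtain ⟨u, hu⟩ := hu
  set r := orderOf u with hr
  have hr0 : 0 < r := orderOf_pos u
  have hγr : ∀ m : ℕ, γ ^ (r * m) ∈ Gamma1 N := by
    intro m
    have h1 : Gamma0Map N ⟨γ ^ (r * m), pow_mem hγ _⟩ = 1 := by
      rw [show (⟨γ ^ (r * m), pow_mem hγ _⟩ : Gamma0 N) = ⟨γ, hγ⟩ ^ (r * m) from Subtype.ext rfl,
        map_pow, show Gamma0Map N ⟨γ, hγ⟩ = (u : ZMod N) from hu.symm, ← Units.val_pow_eq_pow_val,
        pow_mul, hr, pow_orderOf_eq_one, one_pow, Units.val_one]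
    exact mem_Gamma1_of_lowerRight (pow_mem hγ _) h1
  refine eq_zero_of_qCoeff (qHol_of_cuspOne hF) fun n => ?_
  have h := hvan (r * (n + 1)) n (lt_of_lt_of_le (Nat.lt_pow_self hp.one_lt)
    (Nat.pow_le_pow_right hp.pos (by nlinarith)))
  rwa [hF.2.1 _ (hγr (n + 1))] at h

variable (ε : DirichletCharacter ℂ N) (f : CuspForm (Gamma1 N) 1)
  (hT : ∀ p : ℕ, p.Prime → ¬ p ∣ N → ∀ n : ℕ,
      qCoeff f (p * n) + ε (p : ZMod N) * (if p ∣ n then qCoeff f (n / p) else 0) =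
        qCoeff f p * qCoeff f n)
include hT

theorem slash_diamondMat_eq {p : ℕ} (hp : p.Prime) (hpN : ¬ p ∣ N) (h : Nat.Coprime p N) :
    (f : ℍ → ℂ) ∣[(1 : ℤ)] (diamondMat N p h : SL(2, ℤ)) = ε (p : ZMod N) • (f : ℍ → ℂ) := by
  set F : ℍ → ℂ := (f : ℍ → ℂ)
  set Fd := F ∣[(1 : ℤ)] (diamondMat N p h : SL(2, ℤ))
  have hF := cuspForm_mem_cuspOneSpace f
  have hFd : Fd ∈ cuspOneSpace N := slash_gamma0_mem_cuspOne hF (diamondMat N p h).2
  set H := Fd - ε (p : ZMod N) • F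
  have hH : H ∈ cuspOneSpace N := sub_mem hFd (Submodule.smul_mem _ _ hF)
  have hq := qHol_of_cuspOne hF
  have hqd := qHol_of_cuspOne hFd
  have hqU := heckeU_mem_qHolSpace hq 1 p
  have hqdd := slash_heckeDiag_mem_qHolSpace hqd 1 p
  have hop : opOne N p h F - qCoeff F p • F = H ∣[(1 : ℤ)] ModularForm.heckeDiagMatrix p := by
    have hmem : opOne N p h F ∈ qHolSpace := by rw [opOne_eq]; exact add_mem hqU hqdd
    rw [← sub_eq_zero]
    refine eq_zero_of_qCoeff (sub_mem (sub_mem hmem (Submodule.smul_mem _ _ hq))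
      (slash_heckeDiag_mem_qHolSpace (qHol_of_cuspOne hH) 1 p)) fun n => ?_
    rw [qCoeff_sub_qHol (sub_mem hmem (Submodule.smul_mem _ _ hq))
      (slash_heckeDiag_mem_qHolSpace (qHol_of_cuspOne hH) 1 p),
      qCoeff_sub_qHol hmem (Submodule.smul_mem _ _ hq), qCoeff_smul_qHol hq, opOne_eq,
      qCoeff_add_qHol hqU hqdd, UpperHalfPlane.qCoeff_heckeU hq.1 hq.2.1 hq.2.2 1 hp.ne_zero,
      qCoeff_slash_heckeDiag hqd 1 hp.ne_zero,
      qCoeff_slash_heckeDiag (qHol_of_cuspOne hH) 1 hp.ne_zero, ModularForm.coeffHeckeU,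
      qCoeff_sub_qHol hqd (Submodule.smul_mem _ _ hq), qCoeff_smul_qHol hq, ← hT p hp hpN n,
      mul_comm n p]
    simp only [sub_self, zpow_zero, one_mul]
    split_ifs <;> ring
  have hP : DiagInvariant N p H := by
    intro γ hγ
    rw [← hop, sub_eq_add_neg, SlashAction.add_slash, SlashAction.neg_slash,
      ModularForm.SL_smul_slash, opOne_slash hp h hF hγ, hF.2.1 γ hγ]
  exact sub_eq_zero.mp (eq_zero_of_diagInvariant hp hpN hH hP)

/-- The form has nebentypus `ε`. -/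
theorem slash_gamma0_eq :
    ∀ γ ∈ Gamma0 N, (f : ℍ → ℂ) ∣[(1 : ℤ)] γ = (ε ((γ 1 1 : ℤ) : ZMod N)) • (f : ℍ → ℂ) := by
  intro γ hγ
  set d : ZMod N := ((γ 1 1 : ℤ) : ZMod N) with hd
  have hdu : IsUnit d := (Group.isUnit (⟨γ, hγ⟩ : Gamma0 N)).map (Gamma0Map N)
  obtain ⟨p, hp_gt, hp, hpd⟩ := Nat.forall_exists_prime_gt_and_modEq N (q := N) (a := d.val)
    (NeZero.ne N) ((ZMod.isUnit_iff_coprime d.val N).mp (by rwa [ZMod.natCast_zmod_val]))
  have hpN : ¬ p ∣ N := fun hdv => absurd (Nat.le_of_dvd (NeZero.pos N) hdv) (by omega)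
  have hcop : Nat.Coprime p N := (Nat.Prime.coprime_iff_not_dvd hp).mpr hpN
  have hp' : (p : ZMod N) = d := by
    rw [(ZMod.natCast_eq_natCast_iff _ _ _).mpr hpd, ZMod.natCast_zmod_val]
  set δ : SL(2, ℤ) := (diamondMat N p hcop : SL(2, ℤ))
  have hζ₁ : γ * δ⁻¹ ∈ Gamma1 N := by
    refine mem_Gamma1_of_lowerRight (mul_mem hγ (inv_mem (diamondMat N p hcop).2)) ?_
    set g : Gamma0 N := ⟨γ, hγ⟩
    have h1 : Gamma0Map N g = Gamma0Map N (diamondMat N p hcop) := by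
      show d = ((δ 1 1 : ℤ) : ZMod N)
      rw [diamondMat_one_one, Int.cast_natCast, hp']
    show Gamma0Map N (g * (diamondMat N p hcop)⁻¹) = 1
    rw [map_mul, h1, ← map_mul, mul_inv_cancel, map_one]
  rw [show γ = (γ * δ⁻¹) * δ by group, SlashAction.slash_mul,
    (cuspForm_mem_cuspOneSpace f).2.1 _ hζ₁, slash_diamondMat_eq ε f hT hp hpN hcop]
  congr 2

end FermatLib.Galois.DS

end
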