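import Fermat.Agent.Galois.DS.ResidualCharacter

/-!
# The Hecke orbit of a weight two form has finitely generated coefficients

The periods embed the orbit of a form under Hecke polynomials into a finitely generated group, so
the coefficients prime to the level lie in a finitely generated subgroup of `ℂ`.
-/

set_option autoImplicit false

noncomputable section

open UpperHalfPlane hiding I
open CongruenceSubgroup ModularCurve.Period
open scoped MatrixGroups ModularForm

namespace FermatLib.Galois.DS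

open FermatLib.Modular

variable {M : ℕ} [NeZero M] {ψ : ℤ → ℂ} {g : ℍ → ℂ}

theorem perPar_add {h h' : ℍ → ℂ} (hh : h ∈ charSpace M ψ) (hh' : h' ∈ charSpace M ψ) :
    perPar (add_mem hh hh') = perPar hh + perPar hh' := by
  refine Subtype.ext ?_
  show per1 M ((⟨h, hh.1⟩ : cusp1Space M) + ⟨h', hh'.1⟩) = per1 M ⟨h, hh.1⟩ + per1 M ⟨h', hh'.1⟩
  exact map_add _ _ _

theorem perPar_injective {h h' : ℍ → ℂ} (hh : h ∈ charSpace M ψ) (hh' : h' ∈ charSpace M ψ)
    (he : perPar hh = perPar hh') : h = h' := by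
  have h0 := eq_zero_of_per1 (⟨h, hh.1⟩ - ⟨h', hh'.1⟩ : cusp1Space M) (by
    rw [map_sub, sub_eq_zero]; exact congrArg Subtype.val he)
  exact congrArg Subtype.val (sub_eq_zero.mp h0)

/-- The forms whose periods are Hecke images of those of `g`. -/
def heckeOrbit (hg : g ∈ charSpace M ψ) : AddSubgroup (ℍ → ℂ) where
  carrier := {h | ∃ hh : h ∈ charSpace M ψ, ∃ P : FreeAlgebra ℤ (HGen M),
    perPar hh = parPolyRep M ℂ P (perPar hg)}
  zero_mem' := ⟨zero_mem _, 0, by
    rw [map_zero, LinearMap.zero_apply]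
    exact Subtype.ext (map_zero (per1 M))⟩
  add_mem' := fun ⟨hh, P, hP⟩ ⟨hh', Q, hQ⟩ => ⟨add_mem hh hh', P + Q, by
    rw [perPar_add hh hh', hP, hQ, map_add, LinearMap.add_apply]⟩
  neg_mem' := fun {h} ⟨hh, P, hP⟩ => ⟨neg_mem hh, -P, by
    rw [map_neg, LinearMap.neg_apply, ← hP]
    refine Subtype.ext ?_
    show per1 M (-(⟨h, hh.1⟩ : cusp1Space M)) = -per1 M ⟨h, hh.1⟩
    exact map_neg _ _⟩

theorem self_mem_heckeOrbit (hg : g ∈ charSpace M ψ) : g ∈ heckeOrbit hg :=
  ⟨hg, 1, by rw [map_one]; rfl⟩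

theorem opFun1_mem_heckeOrbit (hψ : IsCharFun M ψ) (hg : g ∈ charSpace M ψ) {h : ℍ → ℂ}
    (hh : h ∈ heckeOrbit hg) {p : ℕ} (hp : p.Prime) (hpM : Nat.Coprime p M) :
    opFun1 M p hpM h ∈ heckeOrbit hg := by
  obtain ⟨hh, P, hP⟩ := hh
  refine ⟨opFun1_mem_charSpace hψ hh hp hpM, FreeAlgebra.ι ℤ (.inl ⟨p, hp, hpM⟩) * P, ?_⟩
  rw [map_mul, Module.End.mul_apply, ← hP, parPolyRep_ι]
  exact Subtype.ext (per1_opFun1 hp hpM ⟨h, hh.1⟩)

theorem smul_mem_heckeOrbit (hg : g ∈ charSpace M ψ) {h : ℍ → ℂ} (hh : h ∈ heckeOrbit hg) {p : ℕ}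
    (hp : p.Prime) (hpM : Nat.Coprime p M) : ψ (p : ℤ) • h ∈ heckeOrbit hg := by
  obtain ⟨hh, P, hP⟩ := hh
  refine ⟨Submodule.smul_mem _ _ hh, FreeAlgebra.ι ℤ (.inr ⟨p, hp, hpM⟩) * P, ?_⟩
  rw [map_mul, Module.End.mul_apply, ← hP, parPolyRep_ι]
  refine Subtype.ext ?_
  have heq : (⟨ψ (p : ℤ) • h, (Submodule.smul_mem (charSpace M ψ) _ hh).1⟩ : cusp1Space M) =
      ⟨h ∣[(2 : ℤ)] ((diamondMat M p hpM : Gamma0 M) : SL(2, ℤ)), slash_diamond_mem _ hh.1⟩ := by
    refine Subtype.ext ?_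
    show _ = h ∣[(2 : ℤ)] ((diamondMat M p hpM : Gamma0 M) : SL(2, ℤ))
    rw [hh.2 _ (diamondMat M p hpM).2, diamondMat_one_one]
  show per1 M _ = diamondHom (diamondMat M p hpM) (per1 M ⟨h, hh.1⟩)
  rw [← per1_diamond, ← heq]

theorem heckeOrbit_fg (hg : g ∈ charSpace M ψ) : (heckeOrbit hg).toIntSubmodule.FG := by
  classical
  set S := LinearMap.range (parPolyRep M ℤ).toLinearMap with hS
  obtain ⟨k, v, hv⟩ := Module.Finite.exists_fin (R := ℤ) (M := parabolicHoms ℤ (Gamma1 M) ℤ)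
  have : Module.Finite ℤ (Module.End ℤ (parabolicHoms ℤ (Gamma1 M) ℤ)) :=
    Module.Finite.of_injective
      (LinearMap.pi fun i : Fin k => LinearMap.applyₗ (R := ℤ) (v i) :
        Module.End ℤ (parabolicHoms ℤ (Gamma1 M) ℤ) →ₗ[ℤ] Fin k → parabolicHoms ℤ (Gamma1 M) ℤ)
      fun φ φ' h => LinearMap.ext_on_range hv fun i => congrFun h i
  obtain ⟨s, hs⟩ := (IsNoetherian.noetherian S : S.FG)
  have hmem : ∀ x ∈ s, ∃ P, parPolyRep M ℤ P = x := fun x hx =>
    (hs ▸ Submodule.subset_span hx : x ∈ S)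
  choose! Q hQ using hmem
  set V : Submodule ℤ (parabolicHoms ℤ (Gamma1 M) ℂ) :=
    Submodule.span ℤ ((s.image fun x => parPolyRep M ℂ (Q x) (perPar hg)) : Set _) with hV
  have hin : ∀ P, parPolyRep M ℂ P (perPar hg) ∈ V := by
    intro P
    obtain ⟨c, -, hc⟩ := Submodule.mem_span_finset.mp
      (hs ▸ ⟨P, rfl⟩ : parPolyRep M ℤ P ∈ Submodule.span ℤ (s : Set _))
    have h0 : parPolyRep M ℤ (P - ∑ x ∈ s, c x • Q x) = 0 := by
      rw [map_sub, map_sum, ← hc, sub_eq_zero]
      exact Finset.sum_congr rfl fun x hx => by rw [map_zsmul, hQ x hx]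
    have h1 := LinearMap.congr_fun (parPolyRep_eq_zero (A := ℂ) h0) (perPar hg)
    rw [map_sub, map_sum, LinearMap.sub_apply, LinearMap.zero_apply, sub_eq_zero,
      LinearMap.sum_apply] at h1
    rw [h1]
    refine Submodule.sum_mem _ fun x hx => ?_
    rw [map_zsmul, LinearMap.smul_apply]
    exact Submodule.smul_mem _ _ (Submodule.subset_span (Finset.mem_image_of_mem _ hx))
  have hchar : ∀ h : (heckeOrbit hg).toIntSubmodule, (h : ℍ → ℂ) ∈ charSpace M ψ := fun h => h.2.1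
  let e : (heckeOrbit hg).toIntSubmodule →+ V :=
    AddMonoidHom.mk' (fun h => ⟨perPar (hchar h), by
      obtain ⟨hh, P, hP⟩ := h.2
      rw [hP]; exact hin P⟩) fun a b => Subtype.ext (perPar_add (hchar a) (hchar b))
  have : Module.Finite ℤ V := Module.Finite.iff_fg.mpr (Submodule.fg_span (Finset.finite_toSet _))
  have : Module.Finite ℤ (heckeOrbit hg).toIntSubmodule :=
    Module.Finite.of_injective e.toIntLinearMap fun a b hab =>
      Subtype.ext (perPar_injective (hchar a) (hchar b) (congrArg Subtype.val hab))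
  exact Module.Finite.iff_fg.mp inferInstance

/-- The coefficients prime to the level lie in a finitely generated group, stable under the values
of the character. -/
theorem exists_fg_coeff (hψ : IsCharFun M ψ) (hg : g ∈ charSpace M ψ) :
    ∃ W : Submodule ℤ ℂ, W.FG ∧
      (∀ n : ℕ, Nat.Coprime n M → ModularFormClass.qCoeff g n ∈ W) ∧
      ∀ p : ℕ, p.Prime → Nat.Coprime p M → ∀ w ∈ W, ψ (p : ℤ) * w ∈ W := by
  classical
  set O := (heckeOrbit hg).toIntSubmodule with hO
  have hchar : ∀ h : O, (h : ℍ → ℂ) ∈ charSpace M ψ := fun h => h.2.1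
  let c : O →+ ℂ := AddMonoidHom.mk' (fun h => ModularFormClass.qCoeff (h : ℍ → ℂ) 1)
    fun a b => qCoeff_add_of_mem (hchar a).1 (hchar b).1 1
  have : Module.Finite ℤ O := Module.Finite.iff_fg.mpr (heckeOrbit_fg hg)
  refine ⟨LinearMap.range c.toIntLinearMap, Module.Finite.iff_fg.mp inferInstance, ?_, ?_⟩
  · intro n
    suffices h : ∀ h ∈ heckeOrbit hg, Nat.Coprime n M →
        ModularFormClass.qCoeff h n ∈ LinearMap.range c.toIntLinearMap from
      h g (self_mem_heckeOrbit hg)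
    induction n using Nat.strong_induction_on with
    | h n ih =>
      intro h hh hn
      rcases eq_or_ne n 1 with rfl | hn1
      · exact ⟨⟨h, hh⟩, rfl⟩
      rcases eq_or_ne n 0 with rfl | hn0
      · rw [show ModularFormClass.qCoeff h 0 = 0 from ?_]
        · exact zero_mem _
        · rw [ModularFormClass.qCoeff, qExpansion_coeff_zero one_pos (cusp1_analyticAt hh.1.1)
            (by simpa using cusp1_periodic_one hh.1.1)]
          have h0 := hh.1.1.2.2 1
          rw [SlashAction.slash_one] at h0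
          exact h0.valueAtInfty_eq_zero
      obtain ⟨p, hp, hpn⟩ := Nat.exists_prime_and_dvd hn1
      obtain ⟨m, rfl⟩ := hpn
      have hpM : Nat.Coprime p M := Nat.Coprime.coprime_mul_right hn
      have hm : Nat.Coprime m M := Nat.Coprime.coprime_mul_left hn
      have hm0 : 0 < m := Nat.pos_of_ne_zero fun h0 => hn0 (by rw [h0, mul_zero])
      have hlt : m < p * m := lt_mul_of_one_lt_left hm0 hp.one_lt
      have key : ModularFormClass.qCoeff h (p * m) =
          ModularFormClass.qCoeff (opFun1 M p hpM h) m -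
            (p : ℤ) • (if p ∣ m then ModularFormClass.qCoeff (ψ (p : ℤ) • h) (m / p) else 0) := by
        rw [qCoeff_opFun1 hh.1 hp hpM m, qCoeff_smul_of_mem hh.1.1, zsmul_eq_mul]
        split_ifs <;> push_cast <;> ring
      rw [key]
      refine sub_mem (ih m hlt _ (opFun1_mem_heckeOrbit hψ hg hh hp hpM) hm)
        (Submodule.smul_mem _ _ ?_)
      split_ifs with hd
      · exact ih _ ((Nat.div_le_self m p).trans_lt hlt) _ (smul_mem_heckeOrbit hg hh hp hpM)
          (Nat.Coprime.coprime_dvd_left (Nat.div_dvd_of_dvd hd) hm)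
      · exact zero_mem _
  · rintro p hp hpM w ⟨⟨h, hh⟩, rfl⟩
    exact ⟨⟨ψ (p : ℤ) • h, smul_mem_heckeOrbit hg hh hp hpM⟩,
      qCoeff_smul_of_mem hh.1.1 _ _⟩

end FermatLib.Galois.DS

end
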