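import Mathlib.Analysis.SpecialFunctions.Complex.CircleAddChar
import Mathlib.NumberTheory.DirichletCharacter.Basic
import Fermat.Agent.Modular.CorrTranslate
import Fermat.Agent.Galois.DS.ResidualPeriods
import Fermat.Agent.Galois.DS.AssemblyWtOne

/-!
# Removing the coefficients not prime to the level

The twist of a weight one form by the trivial character modulo `L` lives at level `L²` and has the
same nebentypus.
-/

set_option autoImplicit false
set_option linter.unusedSectionVars false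

noncomputable section

open UpperHalfPlane hiding I
open CongruenceSubgroup ModularFormClass Matrix.SpecialLinearGroup
open scoped MatrixGroups ModularForm Manifold Real

namespace FermatLib.Galois.DS

open FermatLib.Modular FermatLib.Modular.Corr

local notation "M2Z" => Matrix (Fin 2) (Fin 2) ℤ

variable (L : ℕ) [NeZero L]

/-- The matrix of the translation by `x / L`. -/
def shiftMat (x : ZMod L) : M2Z := !![(L : ℤ), (x.val : ℤ); 0, (L : ℤ)]

/-- The sum of the additive character over units, evaluated at `-x`. -/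
def shiftWeight (x : ZMod L) : ℂ := ∑ r : (ZMod L)ˣ, ZMod.stdAddChar (-((r : ZMod L) * x))

/-- The twist by the trivial character modulo `L`. -/
def primTwist (F : ℍ → ℂ) : ℍ → ℂ :=
  ∑ x : ZMod L, shiftWeight L x • (F ∣[(1 : ℤ)] glOfInt (shiftMat L x))

theorem det_shiftMat_pos (x : ZMod L) : 0 < (shiftMat L x).det := by
  have h : (0 : ℤ) < L := by exact_mod_cast NeZero.pos L
  simpa [shiftMat, Matrix.det_fin_two_of] using mul_pos h h

theorem shiftWeight_mul_unit (x : ZMod L) (u : (ZMod L)ˣ) :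
    shiftWeight L (x * u) = shiftWeight L x := by
  rw [shiftWeight, shiftWeight]
  refine Fintype.sum_equiv (Equiv.mulRight u) _ _ fun r => ?_
  simp only [Equiv.coe_mulRight, Units.val_mul]
  congr 1
  ring

theorem sum_shiftWeight_mul (m : ℕ) :
    ∑ x : ZMod L, shiftWeight L x * ZMod.stdAddChar ((m : ZMod L) * x) =
      if Nat.Coprime m L then (L : ℂ) else 0 := by
  simp only [shiftWeight, Finset.sum_mul, ← AddChar.map_add_eq_mul]
  rw [Finset.sum_comm]
  have h : ∀ r : (ZMod L)ˣ, ∑ x : ZMod L, ZMod.stdAddChar (-((r : ZMod L) * x) + (m : ZMod L) * x) =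
      if (r : ZMod L) = m then (L : ℂ) else 0 := by
    intro r
    have := AddChar.sum_mulShift ((m : ZMod L) - r) (ZMod.isPrimitive_stdAddChar L)
    rw [ZMod.card] at this
    simp only [sub_eq_zero] at this
    convert this using 1
    · exact Finset.sum_congr rfl fun x _ => by congr 1; ring
    · split_ifs with h1 h2 h2
      · rfl
      · exact absurd h1.symm h2
      · exact absurd h2.symm h1
      · simp
  rw [Finset.sum_congr rfl fun r _ => h r]
  split_ifs with hm
  · rw [Finset.sum_eq_single ((ZMod.isUnit_iff_coprime m L).mpr hm).unit]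
    · simp
    · exact fun r _ hr => if_neg fun hrm => hr (Units.ext (by simpa using hrm))
    · simp
  · exact Finset.sum_eq_zero fun r _ => if_neg fun hrm =>
      hm ((ZMod.isUnit_iff_coprime m L).mp ⟨r, hrm⟩)

theorem slash_shiftMat_apply (F : ℍ → ℂ) (x : ZMod L) (τ : ℍ) :
    (F ∣[(1 : ℤ)] glOfInt (shiftMat L x)) τ = (L : ℂ)⁻¹ * F (((x.val : ℝ) / L) +ᵥ τ) := by
  have hd := det_shiftMat_pos L x
  have hL : (L : ℂ) ≠ 0 := Nat.cast_ne_zero.mpr (NeZero.ne L)
  have hval : ((glOfInt (shiftMat L x) : GL (Fin 2) ℝ) : Matrix (Fin 2) (Fin 2) ℝ) =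
      !![(L : ℝ), (x.val : ℝ); 0, (L : ℝ)] := by
    rw [val_glOfInt hd.ne', shiftMat]
    ext i j
    fin_cases i <;> fin_cases j <;> simp
  have hpt : glOfInt (shiftMat L x) • τ = ((x.val : ℝ) / L) +ᵥ τ := by
    refine UpperHalfPlane.ext ?_
    rw [UpperHalfPlane.coe_smul_of_det_pos (det_glOfInt_pos hd), UpperHalfPlane.coe_vadd]
    simp [num, denom, hval]
    field_simp
    ring
  rw [ModularForm.slash_apply, σ, if_pos (det_glOfInt_pos hd), ContinuousAlgEquiv.refl_apply, hpt]
  simp [denom, hval, mul_comm]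

theorem exists_shift_gamma {a b e d : ℤ} (hdet : a * d - b * ((L : ℤ) ^ 2 * e) = 1) (x : ZMod L) :
    ∃ γ' : SL(2, ℤ), (γ' 1 0 : ℤ) = (L : ℤ) ^ 2 * e ∧
      (γ' 1 1 : ℤ) = d - ((x * ((d : ZMod L) * (d : ZMod L))).val : ℤ) * L * e ∧
      shiftMat L x * !![a, b; (L : ℤ) ^ 2 * e, d] =
        (γ' : M2Z) * shiftMat L (x * ((d : ZMod L) * (d : ZMod L))) := by
  set i : ℤ := ((x * ((d : ZMod L) * (d : ZMod L))).val : ℤ) with hi
  set j : ℤ := (x.val : ℤ) with hj
  have h1 : (a : ZMod L) * d = 1 := by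
    have := congrArg (Int.cast : ℤ → ZMod L) hdet
    push_cast at this
    rw [ZMod.natCast_self] at this
    linear_combination this
  obtain ⟨k, hk⟩ : (L : ℤ) ∣ j * d - i * a := by
    rw [← ZMod.intCast_zmod_eq_zero_iff_dvd]
    push_cast
    rw [hi, hj, Int.cast_natCast, Int.cast_natCast, ZMod.natCast_zmod_val, ZMod.natCast_zmod_val]
    linear_combination -(x * (d : ZMod L)) * h1
  refine ⟨⟨!![a + j * L * e, b + k - i * j * e; (L : ℤ) ^ 2 * e, d - i * L * e], ?_⟩, rfl, rfl, ?_⟩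
  · rw [Matrix.det_fin_two_of]
    linear_combination hdet + (L : ℤ) * e * hk
  · ext r s
    fin_cases r <;> fin_cases s <;> simp [shiftMat, Matrix.mul_apply, Fin.sum_univ_two, ← hi, ← hj]
    · ring
    · linear_combination hk
    · ring
    · ring

variable {N : ℕ} {L}

/-- The twist has the same nebentypus at level `L²`. -/
theorem primTwist_slash (hNL : N ∣ L) (ε : DirichletCharacter ℂ N) {F : ℍ → ℂ}
    (hF : ∀ γ ∈ Gamma0 N, F ∣[(1 : ℤ)] γ = ε ((γ 1 1 : ℤ) : ZMod N) • F)
    {γ : SL(2, ℤ)} (hγ : γ ∈ Gamma0 (L ^ 2)) :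
    primTwist L F ∣[(1 : ℤ)] γ = ε ((γ 1 1 : ℤ) : ZMod N) • primTwist L F := by
  obtain ⟨e, he⟩ : ((L : ℤ) ^ 2) ∣ γ 1 0 := by
    have := (ZMod.intCast_zmod_eq_zero_iff_dvd _ _).mp (Gamma0_mem.mp hγ)
    exact_mod_cast this
  set a := γ 0 0
  set b := γ 0 1
  set d := γ 1 1
  have hdet : a * d - b * ((L : ℤ) ^ 2 * e) = 1 := by
    rw [← he]; exact (Matrix.det_fin_two _).symm.trans (Matrix.SpecialLinearGroup.det_coe γ)
  have hγmat : (γ : M2Z) = !![a, b; (L : ℤ) ^ 2 * e, d] := by
    ext r s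
    fin_cases r <;> fin_cases s <;> simp [a, b, d, he]
  obtain ⟨u, hu⟩ : IsUnit ((d : ZMod L) * (d : ZMod L)) := by
    have h1 : (a : ZMod L) * d = 1 := by
      have := congrArg (Int.cast : ℤ → ZMod L) hdet
      push_cast at this
      rw [ZMod.natCast_self] at this
      linear_combination this
    exact (IsUnit.of_mul_eq_one _ (by rw [mul_comm]; exact h1)).mul
      (IsUnit.of_mul_eq_one _ (by rw [mul_comm]; exact h1))
  have hterm : ∀ x : ZMod L, (F ∣[(1 : ℤ)] glOfInt (shiftMat L x)) ∣[(1 : ℤ)] γ =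
      ε (d : ZMod N) • (F ∣[(1 : ℤ)] glOfInt (shiftMat L (x * u))) := by
    intro x
    obtain ⟨γ', h10, h11, heq⟩ := exists_shift_gamma L hdet x
    rw [← hu] at h11 heq
    rw [← hγmat] at heq
    have hg : glOfInt (shiftMat L x) * mapGL ℝ γ =
        (mapGL ℝ γ' : GL (Fin 2) ℝ) * glOfInt (shiftMat L (x * u)) := by
      rw [← glOfInt_coe, ← glOfInt_coe, ← glOfInt_mul (det_shiftMat_pos L x).ne' (det_coe_ne_zero _),
        ← glOfInt_mul (det_coe_ne_zero _) (det_shiftMat_pos L _).ne', heq]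
    have hmem : γ' ∈ Gamma0 N := by
      rw [Gamma0_mem, h10]
      push_cast
      rw [(ZMod.natCast_eq_zero_iff L N).mpr hNL]
      simp
    have hd' : ((γ' 1 1 : ℤ) : ZMod N) = (d : ZMod N) := by
      rw [h11]
      push_cast
      rw [(ZMod.natCast_eq_zero_iff L N).mpr hNL]
      simp
    rw [ModularForm.SL_slash, ← SlashAction.slash_mul]
    change F ∣[(1 : ℤ)] (glOfInt (shiftMat L x) * mapGL ℝ γ) = _
    rw [hg, SlashAction.slash_mul]
    change (F ∣[(1 : ℤ)] γ') ∣[(1 : ℤ)] _ = _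
    rw [hF γ' hmem, hd', ModularForm.smul_slash, σ,
      if_pos (det_glOfInt_pos (det_shiftMat_pos L _)), ContinuousAlgEquiv.refl_apply]
  rw [primTwist, SlashAction.sum_slash, Finset.smul_sum]
  refine Fintype.sum_equiv (Units.mulRight u) _ _ fun x => ?_
  rw [ModularForm.SL_smul_slash, hterm, smul_comm, Units.mulRight_apply, shiftWeight_mul_unit]

theorem primTwist_mem [NeZero N] (hNL : N ∣ L) (ε : DirichletCharacter ℂ N) {F : ℍ → ℂ}
    (hF : F ∈ cuspOneSpace N) (hε : ∀ γ ∈ Gamma0 N, F ∣[(1 : ℤ)] γ = ε ((γ 1 1 : ℤ) : ZMod N) • F) :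
    primTwist L F ∈ cuspOneSpace (L ^ 2) := by
  refine ⟨?_, fun γ hγ => ?_, fun A => ?_⟩
  · exact Finset.sum_induction _ (fun G : ℍ → ℂ => MDiff G) (fun _ _ => MDifferentiable.add)
      mdifferentiable_const fun x _ => (hF.1.slash 1 _).const_smul _
  · obtain ⟨-, h11, -⟩ := (Gamma1_mem _ γ).mp hγ
    have hd : ((γ 1 1 : ℤ) : ZMod N) = 1 := by
      have hdvd : N ∣ L ^ 2 := dvd_trans hNL (dvd_pow_self L two_ne_zero)
      have := congrArg (ZMod.castHom hdvd (ZMod N)) h11
      rwa [map_intCast, map_one] at this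
    rw [primTwist_slash hNL ε hε (Gamma1_in_Gamma0 _ hγ), hd, map_one, one_smul]
  · rw [primTwist, SlashAction.sum_slash]
    refine Finset.sum_induction _ _ (fun _ _ => Filter.ZeroAtFilter.add)
      (Filter.zero_zeroAtFilter _) fun x _ => ?_
    rw [ModularForm.SL_smul_slash]
    refine Filter.ZeroAtFilter.smul _ ?_
    obtain ⟨δ, B, hB, hB10⟩ := exists_upperTriangular_factor (shiftMat L x * (A : M2Z))
    have hBdet : B.det ≠ 0 := by
      intro h0
      have := congrArg Matrix.det hB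
      rw [Matrix.det_mul, Matrix.det_mul, h0, mul_zero, A.det_coe, mul_one] at this
      exact (det_shiftMat_pos L x).ne' this
    have hg : glOfInt (shiftMat L x) * mapGL ℝ A = (mapGL ℝ δ : GL (Fin 2) ℝ) * glOfInt B := by
      rw [← glOfInt_coe, ← glOfInt_coe, ← glOfInt_mul (det_shiftMat_pos L x).ne' (det_coe_ne_zero _),
        ← glOfInt_mul (det_coe_ne_zero _) hBdet, hB]
    have hB' : (glOfInt B) 1 0 = 0 := by
      rw [val_glOfInt hBdet, Matrix.map_apply, hB10, map_zero]
    rw [ModularForm.SL_slash, ← SlashAction.slash_mul]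
    change IsZeroAtImInfty (F ∣[(1 : ℤ)] (glOfInt (shiftMat L x) * mapGL ℝ A))
    rw [hg, SlashAction.slash_mul]
    exact UpperHalfPlane.IsZeroAtImInfty.slash 1 hB' (hF.2.2 δ)

theorem qCoeff_primTwist [NeZero N] (hNL : N ∣ L) (ε : DirichletCharacter ℂ N) {F : ℍ → ℂ}
    (hF : F ∈ cuspOneSpace N) (hε : ∀ γ ∈ Gamma0 N, F ∣[(1 : ℤ)] γ = ε ((γ 1 1 : ℤ) : ZMod N) • F)
    (n : ℕ) : qCoeff (primTwist L F) n = if Nat.Coprime n L then qCoeff F n else 0 := by
  have hq := qHol_of_cuspOne hF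
  have hmem := qHol_of_cuspOne (primTwist_mem hNL ε hF hε)
  have hL : (L : ℂ) ≠ 0 := Nat.cast_ne_zero.mpr (NeZero.ne L)
  set c : ℕ → ℂ := fun m => if Nat.Coprime m L then qCoeff F m else 0 with hc
  have hsum : ∀ τ : ℍ,
      HasSum (fun m => c m • Function.Periodic.qParam 1 τ ^ m) (primTwist L F τ) := by
    intro τ
    have hx : ∀ x : ZMod L, HasSum (fun m : ℕ => (shiftWeight L x * ZMod.stdAddChar ((m : ZMod L) * x)) *
        ((L : ℂ)⁻¹ * (qCoeff F m * Function.Periodic.qParam 1 τ ^ m)))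
        ((shiftWeight L x • (F ∣[(1 : ℤ)] glOfInt (shiftMat L x))) τ) := by
      intro x
      rw [Pi.smul_apply, slash_shiftMat_apply, smul_eq_mul]
      have h := UpperHalfPlane.hasSum_qExpansion one_pos (by simpa using hq.1) hq.2.1 hq.2.2
        (((x.val : ℝ) / L) +ᵥ τ)
      refine ((h.mul_left ((L : ℂ)⁻¹)).mul_left (shiftWeight L x)).congr_fun fun m => ?_
      have hz : Function.Periodic.qParam 1 ((((x.val : ℝ) / L) +ᵥ τ : ℍ) : ℂ) =
          ZMod.stdAddChar x * Function.Periodic.qParam 1 τ := by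
        conv_rhs => rw [← ZMod.natCast_zmod_val x, ← Int.cast_natCast, ZMod.stdAddChar_coe,
          Function.Periodic.qParam, ← Complex.exp_add]
        rw [Function.Periodic.qParam, UpperHalfPlane.coe_vadd]
        congr 1
        push_cast
        ring
      rw [hz, mul_pow, smul_eq_mul, ← AddChar.map_nsmul_eq_pow, nsmul_eq_mul, qCoeff]
      ring
    have := hasSum_sum (s := (Finset.univ : Finset (ZMod L))) fun x _ => hx x
    rw [primTwist, Finset.sum_apply]
    refine this.congr_fun fun m => ?_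
    rw [← Finset.sum_mul, sum_shiftWeight_mul, hc, smul_eq_mul]
    by_cases hm : Nat.Coprime m L
    · simp only [if_pos hm]
      field_simp
    · simp [hm]
  have := UpperHalfPlane.qExpansion_coeff_unique
    (ContinuousMap.mk (primTwist L F) hmem.2.1.continuous) (c := c) one_pos
    (analyticAt_of_mem_qHolSpace hmem) hsum n
  exact this.symm

end FermatLib.Galois.DS

end
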