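import Fermat.Agent.Galois.DS.ResidualEisenstein
import Mathlib.NumberTheory.TsumDivisorsAntidiagonal
import Mathlib.NumberTheory.GaussSum
import Mathlib.NumberTheory.DirichletCharacter.Bounds
import Mathlib.Analysis.SpecialFunctions.Complex.CircleAddChar
import Mathlib.Analysis.Complex.LocallyUniformLimit
import Mathlib.Analysis.Complex.UpperHalfPlane.Manifold

/-!
# The `q`-expansion of the weight one Eisenstein series
-/

set_option autoImplicit false

noncomputable section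

open UpperHalfPlane hiding I
open Complex Filter Topology CongruenceSubgroup
open scoped Real MatrixGroups ModularForm Manifold

namespace FermatLib.Galois.DS

local notation "qq" => Function.Periodic.qParam (1 : ℝ)

theorem sum_nat_mul_pow_mul_sub_one (z : ℂ) (N : ℕ) :
    (∑ j ∈ Finset.range N, (j : ℂ) * z ^ j) * (z - 1) =
      N * z ^ N - z * ∑ j ∈ Finset.range N, z ^ j := by
  induction N with
  | zero => simp
  | succ N ih =>
    rw [Finset.sum_range_succ, Finset.sum_range_succ, add_mul, ih]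
    push_cast
    ring

theorem qParam_one_eq (x : ℂ) : qq x = expTwoPiI x := by
  simp [Function.Periodic.qParam, expTwoPiI]

theorem hasSum_cotC {x : ℂ} (hx : 0 < x.im) :
    HasSum (fun n : ℕ => -(2 * π * I) * expTwoPiI x ^ (n + 1)) (cotC x + π * I) := by
  set z := expTwoPiI x with hz
  have hn : ‖z‖ < 1 := by
    rw [hz, norm_expTwoPiI, Real.exp_lt_one_iff]
    have := mul_pos Real.two_pi_pos hx
    linarith
  have h0 : (1 : ℂ) - z ≠ 0 := fun h => by
    rw [← sub_eq_zero.mp h, norm_one] at hn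
    exact lt_irrefl _ hn
  have h1 : cotC x + π * I = -(2 * π * I) * z * (1 - z)⁻¹ := by
    rw [cotC, ← hz]
    field_simp
    ring
  rw [h1]
  refine ((hasSum_geometric_of_norm_lt_one hn).mul_left (-(2 * π * I) * z)).congr_fun fun n => ?_
  rw [pow_succ]; ring

/-- Two opposite rows. -/
theorem hasSum_cotDiff_pair {u a : ℂ} (ha : |2 * u.im| < a.im) :
    HasSum (fun n : ℕ => -(2 * π * I) * expTwoPiI a ^ (n + 1) *
        ((expTwoPiI (2 * u) ^ (n + 1) - expTwoPiI (-(2 * u)) ^ (n + 1)) -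
          2 * (expTwoPiI u ^ (n + 1) - expTwoPiI (-u) ^ (n + 1))))
      (cotDiff u a + cotDiff u (-a)) := by
  obtain ⟨h1, h2⟩ := abs_lt.mp ha
  have e1 : ∀ v : ℂ, 0 < a.im + v.im → HasSum
      (fun n : ℕ => -(2 * π * I) * expTwoPiI a ^ (n + 1) * expTwoPiI v ^ (n + 1))
      (cotC (a + v) + π * I) := by
    intro v hv
    refine (hasSum_cotC (x := a + v) (by simpa using hv)).congr_fun fun n => ?_
    rw [expTwoPiI_add, mul_pow]; ring
  have H := ((e1 (2 * u) (by simp; linarith)).sub (e1 (-(2 * u)) (by simp; linarith))).sub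
    (((e1 u (by linarith)).sub (e1 (-u) (by simp; linarith))).mul_left 2)
  have heq : cotDiff u a + cotDiff u (-a) = (cotC (a + 2 * u) + π * I - (cotC (a + -(2 * u)) + π * I))
      - 2 * (cotC (a + u) + π * I - (cotC (a + -u) + π * I)) := by
    rw [cotDiff, cotDiff, neg_neg, show 2 * u - a = -(a + -(2 * u)) by ring,
      show u - a = -(a + -u) by ring, sub_neg_eq_add, sub_neg_eq_add, add_comm (2 * u) a,
      add_comm u a, cotC_neg, cotC_neg, cotC_neg]
    ring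
  rw [heq]
  exact H.congr_fun fun n => by ring

variable {ℓ : ℕ} [Fact ℓ.Prime] (χ : DirichletCharacter ℂ ℓ)

/-- The Gauss sum of the inverse character. -/
def eisGauss : ℂ := gaussSum χ⁻¹ (ZMod.stdAddChar (N := ℓ))

theorem sum_inv_char_expTwoPiI (hχ : χ.Odd) (n : ℤ) :
    ∑ a : ZMod ℓ, χ⁻¹ a * expTwoPiI ((n * (a.val : ℤ) : ℤ) / ℓ) =
      χ (n : ZMod ℓ) * eisGauss χ := by
  have hne : χ⁻¹ ≠ 1 := fun h => by
    rw [inv_eq_one] at h
    have := hχ
    rw [DirichletCharacter.Odd, h, MulChar.one_apply isUnit_one.neg] at this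
    norm_num at this
  have h1 : ∀ a : ZMod ℓ, expTwoPiI ((n * (a.val : ℤ) : ℤ) / ℓ) =
      ZMod.stdAddChar ((n : ZMod ℓ) * a) := by
    intro a
    rw [show (n : ZMod ℓ) * a = ((n * (a.val : ℤ) : ℤ) : ZMod ℓ) by simp, ZMod.stdAddChar_coe,
      expTwoPiI, mul_div_assoc]
  simp only [h1]
  by_cases hn : (n : ZMod ℓ) = 0
  · simp [hn, MulChar.sum_eq_zero_of_ne_one hne, MulChar.map_nonunit χ not_isUnit_zero]
  · have h2 := gaussSum_mulShift χ⁻¹ (ZMod.stdAddChar (N := ℓ)) (Units.mk0 _ hn)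
    rw [Units.val_mk0, MulChar.inv_apply', gaussSum] at h2
    simp only [AddChar.mulShift_apply] at h2
    have h3 : χ (n : ZMod ℓ) * χ (n : ZMod ℓ)⁻¹ = 1 := by
      rw [← map_mul, mul_inv_cancel₀ hn, map_one]
    rw [eisGauss, ← h2, ← mul_assoc, h3, one_mul]

/-- The constant term. -/
def eisConst : ℂ := ∑ j ∈ Finset.range ℓ, (j : ℂ) * χ (j : ZMod ℓ)

/-- The coefficients of the Eisenstein series. -/
def eisCoeff (n : ℕ) : ℂ :=
  if n = 0 then eisConst χ else -2 * (ℓ : ℂ) * ∑ d ∈ n.divisors, χ (d : ZMod ℓ)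

/-- The normalizing factor. -/
def eisScale : ℂ := 2 * π * I * eisGauss χ * (χ 2 - 2) / ℓ

theorem eisScale_ne_zero (hχ : χ.Odd) : eisScale χ ≠ 0 := by
  have hg : eisGauss χ ≠ 0 := by
    refine gaussSum_ne_zero_of_nontrivial (by simp [NeZero.ne ℓ]) (fun h => ?_)
      (ZMod.isPrimitive_stdAddChar ℓ)
    rw [inv_eq_one] at h
    have := hχ
    rw [DirichletCharacter.Odd, h, MulChar.one_apply isUnit_one.neg] at this
    norm_num at this
  have h2 : χ 2 - 2 ≠ 0 := fun h => by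
    have := χ.norm_le_one 2
    rw [sub_eq_zero.mp h, Complex.norm_ofNat] at this
    norm_num at this
  simp [eisScale, hg, h2, Real.pi_ne_zero, NeZero.ne ℓ]

theorem sum_inv_char_cotC (hχ : χ.Odd) (t : ℕ) (ht : ¬ ℓ ∣ t) :
    ∑ a : ZMod ℓ, χ⁻¹ a * cotC (((t * a.val : ℕ) : ℂ) / ℓ) =
      2 * π * I / ℓ * eisGauss χ * χ (t : ZMod ℓ) * eisConst χ := by
  have hℓ0 : (ℓ : ℂ) ≠ 0 := Nat.cast_ne_zero.mpr (NeZero.ne ℓ)
  have key : ∀ a : ZMod ℓ, χ⁻¹ a * cotC (((t * a.val : ℕ) : ℂ) / ℓ) = χ⁻¹ a * (π * I +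
      2 * π * I / ℓ * ∑ j ∈ Finset.range ℓ,
        (j : ℂ) * expTwoPiI (((((j * t : ℕ) : ℤ) * (a.val : ℤ) : ℤ) : ℂ) / ℓ)) := by
    intro a
    by_cases ha : a = 0
    · simp [ha, MulChar.map_nonunit χ⁻¹ not_isUnit_zero]
    congr 1
    set x : ℂ := ((t * a.val : ℕ) : ℂ) / ℓ with hx
    set z := expTwoPiI x with hz
    have hzl : z ^ ℓ = 1 := by
      rw [hz, ← expTwoPiI_nat_mul, hx, mul_div_cancel₀ _ hℓ0, ← Int.cast_natCast, expTwoPiI_int]
    have hz1 : z ≠ 1 := by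
      intro h
      have h1 : ZMod.stdAddChar (((t * a.val : ℕ) : ℤ) : ZMod ℓ) = ZMod.stdAddChar (0 : ZMod ℓ) := by
        rw [AddChar.map_zero_eq_one, ZMod.stdAddChar_coe, ← h, hz, expTwoPiI, hx, mul_div_assoc]
        push_cast
        rfl
      have h2 := ZMod.injective_stdAddChar h1
      simp only [Nat.cast_mul, Int.cast_mul, Int.cast_natCast, ZMod.natCast_zmod_val,
        mul_eq_zero, ha, or_false, ZMod.natCast_eq_zero_iff] at h2
      exact ht h2
    have hsub : z - 1 ≠ 0 := sub_ne_zero.mpr hz1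
    have hsum : ∑ j ∈ Finset.range ℓ, (j : ℂ) * z ^ j = ℓ / (z - 1) := by
      rw [eq_div_iff hsub, sum_nat_mul_pow_mul_sub_one, geom_sum_eq hz1, hzl]
      simp
    have hj : ∀ j : ℕ, expTwoPiI (((((j * t : ℕ) : ℤ) * (a.val : ℤ) : ℤ) : ℂ) / ℓ) = z ^ j := by
      intro j
      rw [hz, ← expTwoPiI_nat_mul, hx]
      push_cast
      ring_nf
    simp only [hj, hsum, cotC, ← hz]
    have hsub' : (1 : ℂ) - z ≠ 0 := sub_ne_zero.mpr (Ne.symm hz1)
    field_simp
    ring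
  rw [Finset.sum_congr rfl fun a _ => key a]
  simp only [mul_add, Finset.sum_add_distrib, ← Finset.sum_mul]
  have hne : χ⁻¹ ≠ 1 := fun h => by
    rw [inv_eq_one] at h
    have := hχ
    rw [DirichletCharacter.Odd, h, MulChar.one_apply isUnit_one.neg] at this
    norm_num at this
  rw [MulChar.sum_eq_zero_of_ne_one hne, zero_mul, zero_add]
  simp only [Finset.mul_sum]
  rw [Finset.sum_comm, eisConst, Finset.mul_sum]
  refine Finset.sum_congr rfl fun j _ => ?_
  calc ∑ a : ZMod ℓ, χ⁻¹ a * (2 * π * I / ℓ * ((j : ℂ) *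
        expTwoPiI (((((j * t : ℕ) : ℤ) * (a.val : ℤ) : ℤ) : ℂ) / ℓ)))
      = 2 * π * I / ℓ * (j : ℂ) * ∑ a : ZMod ℓ, χ⁻¹ a *
        expTwoPiI (((((j * t : ℕ) : ℤ) * (a.val : ℤ) : ℤ) : ℂ) / ℓ) := by
        rw [Finset.mul_sum]
        exact Finset.sum_congr rfl fun a _ => by ring
    _ = _ := by
        rw [sum_inv_char_expTwoPiI χ hχ, Int.cast_natCast, Nat.cast_mul, map_mul]
        ring

/-- The Fourier expansion of the division value sum. -/
theorem hasSum_eisE0 (hℓ : ℓ ≠ 2) (hχ : χ.Odd) (τ : ℍ) :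
    HasSum (fun n : ℕ => eisScale χ * (eisCoeff χ n * qq (τ : ℂ) ^ n)) (eisE0 χ τ) := by
  have hp : ℓ.Prime := Fact.out
  set q := qq (τ : ℂ) with hqdef
  have hq : ‖q‖ < 1 := Function.Periodic.norm_qParam_lt_one one_pos τ.im_pos
  set R : ZMod ℓ → ℤ → ℂ := fun a m => cotDiff ((a.val : ℂ) / ℓ) (m * (τ : ℂ)) with hR
  set c : ℂ := -(4 * π * I) * eisGauss χ * (χ 2 - 2) with hc
  have hrow : HasSum (fun m : ℤ => ∑ a : ZMod ℓ, χ⁻¹ a * R a m) (eisE0 χ τ) := by
    refine hasSum_sum fun a _ => ?_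
    by_cases ha : a = 0
    · simp [ha, MulChar.map_nonunit χ⁻¹ not_isUnit_zero]
    refine HasSum.mul_left _ (hasSum_eisK ?_)
    have h := latOff_div (ℓ := ℓ) hℓ τ (r := 0) (s := a.val) (fun hh => ha (by
      have := (ZMod.intCast_zmod_eq_zero_iff_dvd _ _).mpr hh.2
      simpa using this))
    simpa using h
  have h0 : ∑ a : ZMod ℓ, χ⁻¹ a * R a 0 = eisScale χ * eisConst χ := by
    simp only [hR, Int.cast_zero, zero_mul, cotDiff, sub_zero, neg_zero, cotC_zero, add_zero,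
      mul_sub, Finset.sum_sub_distrib]
    have e2 := sum_inv_char_cotC χ hχ 2 (fun h => hℓ ((Nat.prime_dvd_prime_iff_eq hp Nat.prime_two).mp h))
    have e1 := sum_inv_char_cotC χ hχ 1 (fun h => hp.one_lt.ne' (Nat.dvd_one.mp h))
    simp only [Nat.cast_mul, Nat.cast_ofNat, one_mul, Nat.cast_one, mul_div_assoc, map_one,
      mul_one] at e1 e2
    simp only [← mul_assoc, mul_comm _ (2 : ℂ)]
    simp only [mul_assoc, ← Finset.mul_sum, e1, e2, eisScale]
    ring
  set P : ℕ → ℂ := fun k =>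
    ∑ a : ZMod ℓ, χ⁻¹ a * (R a ((k + 1 : ℕ) : ℤ) + R a (-((k + 1 : ℕ) : ℤ))) with hP
  have hPsum : HasSum P (eisE0 χ τ - eisScale χ * eisConst χ) := by
    have h1 := (hasSum_nat_add_iff' 1).mpr hrow.nat_add_neg
    simp only [Finset.range_one, Finset.sum_singleton, Nat.cast_zero, neg_zero, h0] at h1
    rw [show eisE0 χ τ + eisScale χ * eisConst χ - (eisScale χ * eisConst χ +
      eisScale χ * eisConst χ) = eisE0 χ τ - eisScale χ * eisConst χ by ring] at h1
    refine h1.congr_fun fun k => ?_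
    simp only [hP, ← Finset.sum_add_distrib, mul_add]
  set F : ℕ × ℕ → ℂ := fun p =>
    c * χ ((p.2 + 1 : ℕ) : ZMod ℓ) * q ^ ((p.1 + 1) * (p.2 + 1)) with hF
  have hFrow : ∀ k : ℕ, HasSum (fun n => F (k, n)) (P k) := by
    intro k
    have hk : ∀ a : ZMod ℓ, |2 * ((a.val : ℂ) / ℓ).im| < (((k + 1 : ℕ) : ℂ) * (τ : ℂ)).im := by
      intro a
      simp [Complex.div_natCast_im, -ZMod.natCast_val]
      exact mul_pos (by positivity) τ.im_pos
    have h1 := hasSum_sum (s := Finset.univ) fun a (_ : a ∈ (Finset.univ : Finset (ZMod ℓ))) =>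
      (hasSum_cotDiff_pair (hk a)).mul_left (χ⁻¹ a)
    have h2 : P k = ∑ a : ZMod ℓ, χ⁻¹ a * (cotDiff ((a.val : ℂ) / ℓ) (((k + 1 : ℕ) : ℂ) * (τ : ℂ)) +
        cotDiff ((a.val : ℂ) / ℓ) (-(((k + 1 : ℕ) : ℂ) * (τ : ℂ)))) := by
      simp only [hP, hR, Int.cast_neg, Int.cast_natCast, neg_mul]
    rw [h2]
    refine h1.congr_fun fun n => ?_
    set j : ℕ := n + 1 with hj
    have hpow : ∀ (t : ℤ) (a : ZMod ℓ), expTwoPiI ((t : ℂ) * ((a.val : ℂ) / ℓ)) ^ j =
        expTwoPiI ((((t * j) * (a.val : ℤ) : ℤ) : ℂ) / ℓ) := by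
      intro t a
      rw [← expTwoPiI_nat_mul]
      push_cast
      ring_nf
    have hq' : expTwoPiI (((k + 1 : ℕ) : ℂ) * (τ : ℂ)) ^ j = q ^ ((k + 1) * j) := by
      rw [hqdef, qParam_one_eq, expTwoPiI_nat_mul, ← pow_mul]
    have G := fun t : ℤ => sum_inv_char_expTwoPiI χ hχ (t * j)
    have hG : ∑ a : ZMod ℓ, χ⁻¹ a *
        ((expTwoPiI (((2 : ℤ) : ℂ) * ((a.val : ℂ) / ℓ)) ^ j -
            expTwoPiI (((-2 : ℤ) : ℂ) * ((a.val : ℂ) / ℓ)) ^ j) -
          2 * (expTwoPiI (((1 : ℤ) : ℂ) * ((a.val : ℂ) / ℓ)) ^ j -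
            expTwoPiI (((-1 : ℤ) : ℂ) * ((a.val : ℂ) / ℓ)) ^ j)) =
        2 * eisGauss χ * (χ 2 - 2) * χ (j : ZMod ℓ) := by
      simp only [hpow, mul_sub, Finset.sum_sub_distrib, mul_left_comm (χ⁻¹ _) (2 : ℂ),
        ← Finset.mul_sum, G]
      have hodd : χ (-1) = -1 := hχ
      simp only [Int.cast_mul, Int.cast_neg, Int.cast_one, Int.cast_ofNat, Int.cast_natCast,
        map_mul, show (-2 : ZMod ℓ) = -1 * 2 by ring, hodd, map_one]
      ring
    simp only [Int.cast_ofNat, Int.cast_neg, Int.cast_one, one_mul, neg_mul] at hG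
    calc F (k, n) = -(2 * π * I) * q ^ ((k + 1) * j) *
          (2 * eisGauss χ * (χ 2 - 2) * χ (j : ZMod ℓ)) := by
          simp only [hF, hc, ← hj]; ring
      _ = _ := by
          rw [← hG, ← hq', Finset.mul_sum]
          exact Finset.sum_congr rfl fun a _ => by ring
  have hFs : Summable F := by
    refine Summable.of_norm_bounded
      ((summable_geometric_of_norm_lt_one (x := ‖q‖) (by rwa [norm_norm])).mul_of_nonneg
        (summable_geometric_of_norm_lt_one (x := ‖q‖) (by rwa [norm_norm]))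
        (fun k => by positivity) (fun k => by positivity) |>.mul_left ‖c‖) fun p => ?_
    rw [hF, norm_mul, norm_mul, norm_pow, ← pow_add, mul_assoc]
    gcongr
    calc ‖χ _‖ * ‖q‖ ^ ((p.1 + 1) * (p.2 + 1)) ≤ 1 * ‖q‖ ^ (p.1 + p.2) := by
          gcongr ?_ * ?_
          · exact χ.norm_le_one _
          · exact pow_le_pow_of_le_one (norm_nonneg _) hq.le (by nlinarith)
      _ = _ := one_mul _
  have hFsum : HasSum F (eisE0 χ τ - eisScale χ * eisConst χ) := by
    have := hFs.hasSum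
    rwa [(this.prod_fiberwise hFrow).unique hPsum] at this
  set e : (Σ N : ℕ+, Nat.divisorsAntidiagonal N) ≃ ℕ × ℕ :=
    sigmaAntidiagonalEquivProd.trans (Equiv.pnatEquivNat.prodCongr Equiv.pnatEquivNat)
  have h2 := (e.hasSum_iff.mpr hFsum).sigma fun N => hasSum_fintype _
  have h3 : HasSum (fun N : ℕ+ => eisScale χ * (eisCoeff χ N * q ^ (N : ℕ)))
      (eisE0 χ τ - eisScale χ * eisConst χ) := by
    refine h2.congr_fun fun N => ?_
    rw [eisCoeff, if_neg N.ne_zero]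
    have hterm : ∀ x : Nat.divisorsAntidiagonal N, F (e ⟨N, x⟩) =
        c * χ (x.1.2 : ZMod ℓ) * q ^ (N : ℕ) := by
      intro x
      obtain ⟨hx, -⟩ := Nat.mem_divisorsAntidiagonal.mp x.2
      have h1 : x.1.1 ≠ 0 := fun h => by simp [h] at hx; exact N.ne_zero hx.symm
      have h2 : x.1.2 ≠ 0 := fun h => by simp [h] at hx; exact N.ne_zero hx.symm
      simp only [hF, e, Equiv.trans_apply, Equiv.prodCongr_apply, sigmaAntidiagonalEquivProd,
        Equiv.coe_fn_mk, Prod.map, divisorsAntidiagonalFactors, Equiv.pnatEquivNat, PNat.natPred]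
      simp only [PNat.mk_coe, Nat.sub_add_cancel (Nat.one_le_iff_ne_zero.mpr h1),
        Nat.sub_add_cancel (Nat.one_le_iff_ne_zero.mpr h2), hx]
    simp only [Function.comp_apply, hterm]
    rw [Finset.univ_eq_attach, Finset.sum_attach (Nat.divisorsAntidiagonal N)
      (fun x => c * χ (x.2 : ZMod ℓ) * q ^ (N : ℕ)), ← Finset.sum_mul, ← Finset.mul_sum,
      Nat.sum_divisorsAntidiagonal' (f := fun _ y => χ (y : ZMod ℓ)), hc, eisScale]
    have hℓ0 : (ℓ : ℂ) ≠ 0 := Nat.cast_ne_zero.mpr hp.ne_zero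
    field_simp
    ring
  have h4 := (hasSum_pnat_iff_hasSum_succ
    (f := fun n : ℕ => eisScale χ * (eisCoeff χ n * q ^ n))).mp h3
  refine (hasSum_nat_add_iff' 1).mp ?_
  simpa [eisCoeff] using h4

/-- The normalized Eisenstein series. -/
def eisF : ℍ → ℂ := (eisScale χ)⁻¹ • eisE0 χ

theorem hasSum_eisF (hℓ : ℓ ≠ 2) (hχ : χ.Odd) (τ : ℍ) :
    HasSum (fun n : ℕ => eisCoeff χ n * qq (τ : ℂ) ^ n) (eisF χ τ) := by
  refine ((hasSum_eisE0 χ hℓ hχ τ).mul_left (eisScale χ)⁻¹).congr_fun fun n => ?_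
  rw [inv_mul_cancel_left₀ (eisScale_ne_zero χ hχ)]

theorem eisF_slash (hℓ : ℓ ≠ 2) {A : SL(2, ℤ)} (hA : A ∈ Gamma0 ℓ) :
    eisF χ ∣[(1 : ℤ)] A = χ ((A 1 1 : ℤ) : ZMod ℓ) • eisF χ := by
  rw [eisF, ModularForm.SL_smul_slash, eisE0_slash hℓ χ hA, smul_comm]

theorem isBoundedAtImInfty_eisF_slash (hℓ : ℓ ≠ 2) (A : SL(2, ℤ)) :
    IsBoundedAtImInfty (eisF χ ∣[(1 : ℤ)] A) := by
  rw [eisF, ModularForm.SL_smul_slash]
  exact (isBoundedAtImInfty_eisE0_slash hℓ χ A).const_mul_left _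

theorem mdifferentiable_eisF (hℓ : ℓ ≠ 2) (hχ : χ.Odd) : MDiff (eisF χ) := by
  set g : ℂ → ℂ := fun q => ∑' n : ℕ, eisCoeff χ n * q ^ n
  have hg : ∀ τ : ℍ, DifferentiableAt ℂ g (qq (τ : ℂ)) := by
    intro τ
    let τ' : ℍ := ⟨I * (τ.im / 2 : ℝ), by simp; linarith [τ.im_pos]⟩
    have hs := (hasSum_eisF χ hℓ hχ τ').summable.norm
    have hlt : ‖qq (τ : ℂ)‖ < ‖qq (τ' : ℂ)‖ := by
      have hy := τ.im_pos
      simp only [Function.Periodic.norm_qParam, τ']
      rw [Real.exp_lt_exp]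
      simp
      nlinarith [Real.pi_pos]
    have hd : DifferentiableOn ℂ g (Metric.ball 0 ‖qq (τ' : ℂ)‖) := by
      refine differentiableOn_tsum_of_summable_norm hs (fun n => by fun_prop) Metric.isOpen_ball
        fun n w hw => ?_
      rw [norm_mul, norm_mul, norm_pow, norm_pow]
      gcongr
      simpa using (mem_ball_zero_iff.mp hw).le
    exact hd.differentiableAt (Metric.isOpen_ball.mem_nhds (mem_ball_zero_iff.mpr hlt))
  rw [UpperHalfPlane.mdifferentiable_iff]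
  intro z hz
  refine DifferentiableAt.differentiableWithinAt ?_
  have h1 : DifferentiableAt ℂ (fun w => g (qq w)) z :=
    (hg ⟨z, hz⟩).comp z (Function.Periodic.differentiable_qParam z)
  refine h1.congr_of_eventuallyEq ?_
  filter_upwards [isOpen_upperHalfPlaneSet.mem_nhds hz] with w hw
  simp only [Function.comp_apply, ofComplex_apply_of_im_pos hw]
  exact (hasSum_eisF χ hℓ hχ ⟨w, hw⟩).tsum_eq.symm

theorem isIntegral_eisCoeff (hint : ∀ a, IsIntegral ℤ (χ a)) (n : ℕ) :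
    IsIntegral ℤ (eisCoeff χ n) := by
  have hsum : ∀ (s : Finset ℕ) (f : ℕ → ℂ), (∀ i, IsIntegral ℤ (f i)) →
      IsIntegral ℤ (∑ i ∈ s, f i) := fun s f hf => IsIntegral.sum _ fun i _ => hf i
  rw [eisCoeff]
  split_ifs
  · exact hsum _ _ fun j => (isIntegral_algebraMap (R := ℤ) (A := ℂ) (x := (j : ℤ))).mul (hint _)
  · exact ((isIntegral_algebraMap (R := ℤ) (A := ℂ) (x := (-2 * ℓ : ℤ))).mul
      (hsum n.divisors _ fun d => hint _)) |> fun h => by simpa using h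

end FermatLib.Galois.DS

end
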