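import Fermat.Agent.Galois.DS.ResidualHecke
import Fermat.Agent.Galois.DS.ResidualEisensteinQ

/-!
# A weight one form times the weight one Eisenstein series
-/

set_option autoImplicit false

noncomputable section

open UpperHalfPlane hiding I
open CongruenceSubgroup Filter
open scoped MatrixGroups Topology Manifold ModularForm

namespace FermatLib.Galois.DS

open FermatLib.Modular

variable {N ℓ : ℕ} [Fact ℓ.Prime]

/-- The product character. -/
def prodChar (ε : DirichletCharacter ℂ N) (χ : DirichletCharacter ℂ ℓ) (d : ℤ) : ℂ :=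
  ε (d : ZMod N) * χ (d : ZMod ℓ)

theorem isCharFun_prodChar (ε : DirichletCharacter ℂ N) (χ : DirichletCharacter ℂ ℓ) :
    IsCharFun (N * ℓ) (prodChar ε χ) where
  congr a b hab := by
    have h1 : (a : ZMod N) = b := (ZMod.intCast_eq_intCast_iff_dvd_sub _ _ _).mpr
      (dvd_sub_comm.mp ((Int.natCast_dvd_natCast.mpr (dvd_mul_right N ℓ)).trans hab))
    have h2 : (a : ZMod ℓ) = b := (ZMod.intCast_eq_intCast_iff_dvd_sub _ _ _).mpr
      (dvd_sub_comm.mp ((Int.natCast_dvd_natCast.mpr (dvd_mul_left ℓ N)).trans hab))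
    rw [prodChar, prodChar, h1, h2]
  map_mul a b := by simp only [prodChar, Int.cast_mul, map_mul]; ring
  map_one := by simp [prodChar]

variable (χ : DirichletCharacter ℂ ℓ)

theorem periodic_eisF (hℓ : ℓ ≠ 2) (hχ : χ.Odd) :
    Function.Periodic (eisF χ ∘ ofComplex) ((1 : ℝ) : ℂ) := by
  intro w
  by_cases hw : 0 < w.im
  · have hw' : 0 < (w + ((1 : ℝ) : ℂ)).im := by simpa using hw
    simp only [Function.comp_apply, ofComplex_apply_of_im_pos hw, ofComplex_apply_of_im_pos hw']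
    rw [← (hasSum_eisF χ hℓ hχ ⟨w, hw⟩).tsum_eq, ← (hasSum_eisF χ hℓ hχ ⟨_, hw'⟩).tsum_eq]
    refine tsum_congr fun n => ?_
    rw [qParam_one_eq, qParam_one_eq, expTwoPiI_add,
      show ((1 : ℝ) : ℂ) = ((1 : ℤ) : ℂ) by simp, expTwoPiI_int, mul_one]
  · have hw' : (w + ((1 : ℝ) : ℂ)).im ≤ 0 := by simpa using hw
    simp only [Function.comp_apply, ofComplex_apply_of_im_nonpos hw',
      ofComplex_apply_of_im_nonpos (not_lt.mp hw)]

theorem analyticAt_cuspFunction_eisF (hℓ : ℓ ≠ 2) (hχ : χ.Odd) :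
    AnalyticAt ℂ (cuspFunction 1 (eisF χ)) 0 := by
  refine analyticAt_cuspFunction_zero one_pos (periodic_eisF χ hℓ hχ)
    (mdifferentiable_eisF χ hℓ hχ) ?_
  simpa [SlashAction.slash_one] using isBoundedAtImInfty_eisF_slash χ hℓ 1

theorem qExpansion_eisF (hℓ : ℓ ≠ 2) (hχ : χ.Odd) :
    qExpansion 1 (eisF χ) = PowerSeries.mk (eisCoeff χ) := by
  ext n
  rw [PowerSeries.coeff_mk]
  have hA := analyticAt_cuspFunction_eisF χ hℓ hχ
  have h1 := (hasFPowerSeriesOnBall_cuspFunction (h := 1) (f := eisF χ) one_pos hA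
    (fun τ => by simpa [smul_eq_mul] using hasSum_eisF χ hℓ hχ τ)).hasFPowerSeriesAt
  have h2 := hA.hasFPowerSeriesAt
  have h3 := congrArg (fun P : FormalMultilinearSeries ℂ ℂ ℂ => P.coeff n)
    (h1.eq_formalMultilinearSeries h2)
  simp only [FormalMultilinearSeries.coeff_ofScalars] at h3
  rw [qExpansion_coeff, h3, div_eq_mul_inv, mul_comm]

variable [NeZero N] (ε : DirichletCharacter ℂ N) (f : CuspForm (Gamma1 N) 1)

theorem mul_eisF_mem (hℓ : ℓ ≠ 2) (hχ : χ.Odd)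
    (hε : ∀ γ ∈ Gamma0 N, (f : ℍ → ℂ) ∣[(1 : ℤ)] γ = (ε ((γ 1 1 : ℤ) : ZMod N)) • (f : ℍ → ℂ)) :
    (f : ℍ → ℂ) * eisF χ ∈ charSpace (N * ℓ) (prodChar ε χ) := by
  have hmul : ∀ A : SL(2, ℤ), ((f : ℍ → ℂ) * eisF χ) ∣[(2 : ℤ)] A =
      (f : ℍ → ℂ) ∣[(1 : ℤ)] A * eisF χ ∣[(1 : ℤ)] A := fun A => by
    have h := ModularForm.mul_slash_SL2 1 1 A (f : ℍ → ℂ) (eisF χ)
    norm_num at h
    exact h
  have hchar : ∀ γ ∈ Gamma0 (N * ℓ), ((f : ℍ → ℂ) * eisF χ) ∣[(2 : ℤ)] γ =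
      prodChar ε χ ((γ : SL(2, ℤ)) 1 1) • ((f : ℍ → ℂ) * eisF χ) := by
    intro γ hγ
    rw [mem_Gamma0_iff_dvd] at hγ
    have h1 : γ ∈ Gamma0 N :=
      mem_Gamma0_iff_dvd.mpr ((Int.natCast_dvd_natCast.mpr (dvd_mul_right N ℓ)).trans hγ)
    have h2 : γ ∈ Gamma0 ℓ :=
      mem_Gamma0_iff_dvd.mpr ((Int.natCast_dvd_natCast.mpr (dvd_mul_left ℓ N)).trans hγ)
    rw [hmul, hε γ h1, eisF_slash χ hℓ h2, smul_mul_smul_comm, prodChar]
  refine ⟨⟨(CuspFormClass.holo f).mul (mdifferentiable_eisF χ hℓ hχ), fun γ hγ => ?_, fun A => ?_⟩,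
    hchar⟩
  · obtain ⟨-, h11, h10⟩ := (Gamma1_mem _ _).mp hγ
    have h0 : γ ∈ Gamma0 (N * ℓ) := Gamma0_mem.mpr h10
    rw [hchar γ h0, (isCharFun_prodChar ε χ).congr _ 1
      ((ZMod.intCast_zmod_eq_zero_iff_dvd _ _).mp (by rw [Int.cast_sub, h11]; simp)),
      (isCharFun_prodChar ε χ).map_one, one_smul]
  · rw [hmul]
    exact Asymptotics.isLittleO_one_iff ℂ |>.mp (by
      simpa [Pi.mul_def] using ((Asymptotics.isLittleO_one_iff ℂ).mpr (CuspFormClass.zero_at_infty_slash f A)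
        ).mul_isBigO ((isBoundedAtImInfty_eisF_slash χ hℓ A).trans
          (Asymptotics.isBigO_one_iff (F := ℂ) |>.mpr ⟨1, by simp⟩)))

omit [NeZero N] in
theorem qCoeff_mul_eisF (hℓ : ℓ ≠ 2) (hχ : χ.Odd) (n : ℕ) :
    ModularFormClass.qCoeff ((f : ℍ → ℂ) * eisF χ) n =
      ∑ x ∈ Finset.HasAntidiagonal.antidiagonal n, ModularFormClass.qCoeff f x.1 * eisCoeff χ x.2 := by
  rw [ModularFormClass.qCoeff, qExpansion_mul
    (ModularFormClass.analyticAt_cuspFunction_zero f one_pos (by simp))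
    (analyticAt_cuspFunction_eisF χ hℓ hχ), qExpansion_eisF χ hℓ hχ, PowerSeries.coeff_mul]
  simp [ModularFormClass.qCoeff]

end FermatLib.Galois.DS

end
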