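import Mathlib.NumberTheory.LSeries.PrimesInAP
import Mathlib.NumberTheory.LegendreSymbol.QuadraticChar.Basic
import Mathlib.RingTheory.Adjoin.FG
import Mathlib.RingTheory.IntegralClosure.IsIntegralClosure.Basic
import Fermat.Agent.Galois.DS.AssemblyTwist
import Fermat.Agent.Galois.DS.AssemblyNebentypus
import Fermat.Agent.Galois.DS.AssemblyOrbit
import Fermat.Agent.Galois.DS.ResidualProduct

/-!
# The coefficient ring of a weight one eigenform is finite over `ℤ`

The twist of the form times an Eisenstein series with constant term a unit and rational integral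
coefficients is a weight two form, whose Hecke orbit has finitely generated coefficients.
-/

set_option autoImplicit false
set_option linter.unusedSectionVars false

noncomputable section

open UpperHalfPlane hiding I
open CongruenceSubgroup ModularFormClass Matrix.SpecialLinearGroup
open scoped MatrixGroups ModularForm Manifold

namespace FermatLib.Galois.DS

open FermatLib.Modular FermatLib.Modular.Corr

local notation "M2Z" => Matrix (Fin 2) (Fin 2) ℤ

variable {M : ℕ} [NeZero M]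

/-- A weight one cusp form times a weight one form is a weight two cusp form. -/
theorem mul_mem_charSpace {ψ₁ ψ₂ : ℤ → ℂ} (h1 : IsCharFun M ψ₁) (h2 : IsCharFun M ψ₂)
    {F E : ℍ → ℂ} (hF : F ∈ cuspOneSpace M)
    (hFψ : ∀ γ ∈ Gamma0 M, F ∣[(1 : ℤ)] γ = ψ₁ ((γ : SL(2, ℤ)) 1 1) • F)
    (hE : MDiff E) (hEb : ∀ A : SL(2, ℤ), IsBoundedAtImInfty (E ∣[(1 : ℤ)] A))
    (hEψ : ∀ γ ∈ Gamma0 M, E ∣[(1 : ℤ)] γ = ψ₂ ((γ : SL(2, ℤ)) 1 1) • E) :
    F * E ∈ charSpace M (fun d => ψ₁ d * ψ₂ d) := by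
  have hmul : ∀ A : SL(2, ℤ), (F * E) ∣[(2 : ℤ)] A = F ∣[(1 : ℤ)] A * E ∣[(1 : ℤ)] A := fun A => by
    have h := ModularForm.mul_slash_SL2 1 1 A F E
    norm_num at h
    exact h
  have hchar : ∀ γ ∈ Gamma0 M, (F * E) ∣[(2 : ℤ)] γ =
      (ψ₁ ((γ : SL(2, ℤ)) 1 1) * ψ₂ ((γ : SL(2, ℤ)) 1 1)) • (F * E) := fun γ hγ => by
    rw [hmul, hFψ γ hγ, hEψ γ hγ, smul_mul_smul_comm]
  refine ⟨⟨hF.1.mul hE, fun γ hγ => ?_, fun A => ?_⟩, hchar⟩
  · obtain ⟨-, h11, -⟩ := (Gamma1_mem _ _).mp hγ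
    have hd : (M : ℤ) ∣ γ 1 1 - 1 :=
      (ZMod.intCast_zmod_eq_zero_iff_dvd _ _).mp (by rw [Int.cast_sub, h11]; simp)
    rw [hchar γ (Gamma1_in_Gamma0 M hγ), h1.congr _ 1 hd, h2.congr _ 1 hd, h1.map_one, h2.map_one,
      mul_one, one_smul]
  · rw [hmul]
    exact Asymptotics.isLittleO_one_iff ℂ |>.mp (by
      simpa [Pi.mul_def] using ((Asymptotics.isLittleO_one_iff ℂ).mpr (hF.2.2 A)
        ).mul_isBigO ((hEb A).trans
          (Asymptotics.isBigO_one_iff (F := ℂ) |>.mpr ⟨1, by simp⟩)))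

theorem isCharFun_cast {N : ℕ} (hNM : N ∣ M) (χ : DirichletCharacter ℂ N) :
    IsCharFun M fun d : ℤ => χ (d : ZMod N) where
  congr a b hab := by
    rw [show (a : ZMod N) = b from (ZMod.intCast_eq_intCast_iff_dvd_sub _ _ _).mpr
      (dvd_sub_comm.mp ((Int.natCast_dvd_natCast.mpr hNM).trans hab))]
  map_mul a b := by simp
  map_one := by simp

section Eisenstein

variable {ℓ : ℕ} [Fact ℓ.Prime] (χ : DirichletCharacter ℂ ℓ) {L : ℕ} [NeZero L]

theorem eisF_mem_qHolSpace (hℓ : ℓ ≠ 2) (hχ : χ.Odd) : eisF χ ∈ qHolSpace :=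
  ⟨by simpa using periodic_eisF χ hℓ hχ, mdifferentiable_eisF χ hℓ hχ,
    by simpa [SlashAction.slash_one] using isBoundedAtImInfty_eisF_slash χ hℓ 1⟩

theorem eisF_diag_slash (hℓ : ℓ ≠ 2) (hℓL : ℓ ∣ L) {γ : SL(2, ℤ)} (hγ : γ ∈ Gamma0 (L ^ 2)) :
    (eisF χ ∣[(1 : ℤ)] ModularForm.heckeDiagMatrix L) ∣[(1 : ℤ)] γ =
      χ ((γ 1 1 : ℤ) : ZMod ℓ) • (eisF χ ∣[(1 : ℤ)] ModularForm.heckeDiagMatrix L) := by
  obtain ⟨e, he⟩ : ((L : ℤ) ^ 2) ∣ γ 1 0 := by
    exact_mod_cast (ZMod.intCast_zmod_eq_zero_iff_dvd _ _).mp (Gamma0_mem.mp hγ)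
  have hdet := (Matrix.det_fin_two _).symm.trans (Matrix.SpecialLinearGroup.det_coe γ)
  rw [he] at hdet
  set γ' : SL(2, ℤ) := sl2Of (γ 0 0) ((L : ℤ) * γ 0 1) ((L : ℤ) * e) (γ 1 1)
    (by linear_combination hdet) with hγ'
  have hL : (L : ℝ) ≠ 0 := Nat.cast_ne_zero.mpr (NeZero.ne L)
  have hg : ModularForm.heckeDiagMatrix L * mapGL ℝ γ =
      (mapGL ℝ γ' : GL (Fin 2) ℝ) * ModularForm.heckeDiagMatrix L := by
    apply Units.ext
    rw [Units.val_mul, Units.val_mul, val_mapGL_int, val_mapGL_int,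
      ModularForm.val_heckeDiagMatrix (NeZero.ne L)]
    ext i k
    fin_cases i <;> fin_cases k <;>
      simp [hγ', sl2Of, he, Matrix.mul_apply, Fin.sum_univ_two]
    all_goals ring
  have hmem : γ' ∈ Gamma0 ℓ := by
    rw [Gamma0_mem]
    simp [hγ', sl2Of, (ZMod.natCast_eq_zero_iff L ℓ).mpr hℓL]
  rw [ModularForm.SL_slash, ← SlashAction.slash_mul]
  change eisF χ ∣[(1 : ℤ)] (ModularForm.heckeDiagMatrix L * mapGL ℝ γ) = _
  rw [hg, SlashAction.slash_mul]
  change (eisF χ ∣[(1 : ℤ)] γ') ∣[(1 : ℤ)] _ = _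
  rw [eisF_slash χ hℓ hmem, ModularForm.smul_slash, ModularForm.σ_heckeDiagMatrix]
  rfl

theorem isBoundedAtImInfty_eisF_diag (hℓ : ℓ ≠ 2) (A : SL(2, ℤ)) :
    IsBoundedAtImInfty ((eisF χ ∣[(1 : ℤ)] ModularForm.heckeDiagMatrix L) ∣[(1 : ℤ)] A) := by
  have hd : (!![(L : ℤ), 0; 0, 1] : M2Z).det ≠ 0 := by
    rw [Matrix.det_fin_two_of]; simp [NeZero.ne L]
  have hD : ModularForm.heckeDiagMatrix L = glOfInt !![(L : ℤ), 0; 0, 1] := by
    apply Units.ext
    rw [val_glOfInt hd, ModularForm.val_heckeDiagMatrix (NeZero.ne L)]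
    ext i j
    fin_cases i <;> fin_cases j <;> simp
  obtain ⟨δ, B, hB, hB10⟩ := exists_upperTriangular_factor (!![(L : ℤ), 0; 0, 1] * (A : M2Z))
  have hBdet : B.det ≠ 0 := by
    intro h0
    have := congrArg Matrix.det hB
    rw [Matrix.det_mul, Matrix.det_mul, h0, mul_zero, A.det_coe, mul_one] at this
    exact hd this
  have hg : glOfInt !![(L : ℤ), 0; 0, 1] * mapGL ℝ A =
      (mapGL ℝ δ : GL (Fin 2) ℝ) * glOfInt B := by
    rw [← glOfInt_coe, ← glOfInt_coe, ← glOfInt_mul hd (det_coe_ne_zero _),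
      ← glOfInt_mul (det_coe_ne_zero _) hBdet, hB]
  have hB' : (glOfInt B) 1 0 = 0 := by
    rw [val_glOfInt hBdet, Matrix.map_apply, hB10, map_zero]
  rw [ModularForm.SL_slash, ← SlashAction.slash_mul, hD]
  change IsBoundedAtImInfty (eisF χ ∣[(1 : ℤ)] (glOfInt !![(L : ℤ), 0; 0, 1] * mapGL ℝ A))
  rw [hg, SlashAction.slash_mul]
  exact UpperHalfPlane.IsBoundedAtImInfty.slash 1 hB' (isBoundedAtImInfty_eisF_slash χ hℓ δ)

end Eisenstein

theorem fact_prime_seven : Fact (Nat.Prime 7) := ⟨by norm_num⟩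

attribute [local instance] fact_prime_seven

theorem quadraticChar_three_seven :
    quadraticChar (ZMod 3) (-1) = -1 ∧ quadraticChar (ZMod 7) (-1) = -1 ∧
      ∑ j ∈ Finset.range 3, (j : ℤ) * quadraticChar (ZMod 3) (j : ZMod 3) = -1 ∧
      ∑ j ∈ Finset.range 7, (j : ℤ) * quadraticChar (ZMod 7) (j : ZMod 7) = -7 := by
  decide

/-- The quadratic character modulo `ℓ`. -/
def quadCharC (ℓ : ℕ) [Fact ℓ.Prime] : DirichletCharacter ℂ ℓ :=
  (quadraticChar (ZMod ℓ)).ringHomComp (Int.castRingHom ℂ)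

variable {N : ℕ} [NeZero N] (ε : DirichletCharacter ℂ N) (f : CuspForm (Gamma1 N) 1)

/-- The generators of the coefficient ring, with the primes dividing `L` left out. -/
def coeffGens (L : ℕ) : Set ℂ :=
  Set.range ε ∪ {z | ∃ p : ℕ, p.Prime ∧ ¬ p ∣ L ∧ qCoeff f p = z}

variable (hf₁ : qCoeff f 1 = 1)
  (hT : ∀ p : ℕ, p.Prime → ¬ p ∣ N → ∀ n : ℕ,
      qCoeff f (p * n) + ε (p : ZMod N) * (if p ∣ n then qCoeff f (n / p) else 0) =
        qCoeff f p * qCoeff f n)
include hf₁ hT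

theorem finite_closure_coeffGens {L : ℕ} (hNL : N ∣ L) {W : Submodule ℤ ℂ}
    (hW : W.FG)
    (hb : ∀ (x : ZMod N) (n : ℕ), Nat.Coprime n L → ε x * qCoeff f n ∈ W) :
    Module.Finite ℤ (Subring.closure (coeffGens ε f L)) := by
  set A : Submodule ℤ ℂ :=
    Submodule.span ℤ {z | ∃ (x : ZMod N) (n : ℕ), Nat.Coprime n L ∧ ε x * qCoeff f n = z}
  have hAW : A ≤ W := Submodule.span_le.mpr fun z ⟨x, n, hn, hz⟩ => hz ▸ hb x n hn
  have : Module.Finite ℤ W := Module.Finite.iff_fg.mpr hW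
  have : Module.Finite ℤ A :=
    Module.Finite.of_injective (Submodule.inclusion hAW) (Submodule.inclusion_injective _)
  have h1 : (1 : ℂ) ∈ A :=
    Submodule.subset_span ⟨1, 1, Nat.coprime_one_left L, by rw [map_one, hf₁, one_mul]⟩
  have hstab : ∀ r ∈ Subring.closure (coeffGens ε f L), ∀ z ∈ A, r * z ∈ A := by
    intro r hr
    induction hr using Subring.closure_induction with
    | zero => intro z _; rw [zero_mul]; exact zero_mem _
    | one => intro z hz; rwa [one_mul]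
    | add a b _ _ ha hb => intro z hz; rw [add_mul]; exact add_mem (ha z hz) (hb z hz)
    | neg a _ ha => intro z hz; rw [neg_mul]; exact neg_mem (ha z hz)
    | mul a b _ _ ha hb => intro z hz; rw [mul_assoc]; exact ha _ (hb z hz)
    | mem r hr =>
      intro z hz
      induction hz using Submodule.span_induction with
      | zero => rw [mul_zero]; exact zero_mem _
      | add a b _ _ ha hb => rw [mul_add]; exact add_mem ha hb
      | smul c a _ ha => rw [mul_smul_comm]; exact Submodule.smul_mem _ _ ha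
      | mem z hz =>
        obtain ⟨x, n, hn, rfl⟩ := hz
        rcases hr with ⟨y, rfl⟩ | ⟨p, hp, hpL, rfl⟩
        · exact Submodule.subset_span ⟨y * x, n, hn, by rw [map_mul, mul_assoc]⟩
        · have hpN : ¬ p ∣ N := fun h => hpL (h.trans hNL)
          rw [mul_left_comm, ← hT p hp hpN n, mul_add]
          refine add_mem (Submodule.subset_span ⟨x, p * n,
            Nat.Coprime.mul_left ((Nat.Prime.coprime_iff_not_dvd hp).mpr hpL) hn, rfl⟩) ?_
          split_ifs with hd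
          · exact Submodule.subset_span ⟨x * p, n / p,
              Nat.Coprime.coprime_dvd_left (Nat.div_dvd_of_dvd hd) hn, by rw [map_mul, mul_assoc]⟩
          · rw [mul_zero, mul_zero]; exact zero_mem _
  let e : Subring.closure (coeffGens ε f L) →+ A :=
    AddMonoidHom.mk' (fun r => ⟨r, by simpa using hstab r r.2 1 h1⟩) fun a b => rfl
  exact Module.Finite.of_injective e.toIntLinearMap fun a b hab =>
    Subtype.ext (congrArg (fun z : A => (z : ℂ)) hab)

theorem finite_closure_of_eisenstein (ℓ : ℕ) [Fact ℓ.Prime] (hℓ : ℓ ≠ 2)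
    (χ : DirichletCharacter ℂ ℓ) (hχ : χ.Odd) (hχ1 : ∀ a, IsUnit a → χ a = 1 ∨ χ a = -1)
    (c : ℤ) (hc : c ≠ 0) (e : ℕ → ℤ) (he0 : e 0 = 1) (he : ∀ j, eisCoeff χ j = c * e j) :
    Module.Finite ℤ (Subring.closure (coeffGens ε f (N * ℓ))) := by
  set L := N * ℓ with hLdef
  have hNL : N ∣ L := dvd_mul_right N ℓ
  have hℓL : ℓ ∣ L := dvd_mul_left ℓ N
  have hL0 : L ≠ 0 := mul_ne_zero (NeZero.ne N) (NeZero.ne ℓ)
  have : NeZero L := ⟨hL0⟩
  have hNM : N ∣ L ^ 2 := hNL.trans (dvd_pow_self L two_ne_zero)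
  have hℓM : ℓ ∣ L ^ 2 := hℓL.trans (dvd_pow_self L two_ne_zero)
  have hneb := slash_gamma0_eq ε f hT
  set F := primTwist L (f : ℍ → ℂ) with hFdef
  set E := eisF χ ∣[(1 : ℤ)] ModularForm.heckeDiagMatrix L with hEdef
  have hF := primTwist_mem hNL ε (cuspForm_mem_cuspOneSpace f) hneb
  have hψ₁ := isCharFun_cast hNM ε
  have hψ₂ := isCharFun_cast hℓM χ
  have hEq : E ∈ qHolSpace := slash_heckeDiag_mem_qHolSpace (eisF_mem_qHolSpace χ hℓ hχ) 1 L
  have hg : F * E ∈ charSpace (L ^ 2) fun d => ε (d : ZMod N) * χ (d : ZMod ℓ) :=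
    mul_mem_charSpace hψ₁ hψ₂ hF (fun γ hγ => primTwist_slash hNL ε hneb hγ) hEq.2.1
      (isBoundedAtImInfty_eisF_diag χ hℓ) fun γ hγ => eisF_diag_slash χ hℓ hℓL hγ
  have hψ : IsCharFun (L ^ 2) fun d : ℤ => ε (d : ZMod N) * χ (d : ZMod ℓ) :=
    { congr := fun a b h => by
        show _ * _ = _ * _
        rw [hψ₁.congr a b h, hψ₂.congr a b h]
      map_mul := fun a b => by simp only [Int.cast_mul, map_mul]; ring
      map_one := by simp }
  obtain ⟨W, hWfg, hWg, hWψ⟩ := exists_fg_coeff hψ hg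
  set W' : Submodule ℤ ℂ := W.map (LinearMap.mulLeft ℤ (c : ℂ)⁻¹) with hW'
  have hcC : (c : ℂ) ≠ 0 := Int.cast_ne_zero.mpr hc
  have hW'ψ : ∀ p : ℕ, p.Prime → Nat.Coprime p (L ^ 2) → ∀ w ∈ W',
      ε (p : ZMod N) * χ (p : ZMod ℓ) * w ∈ W' := by
    rintro p hp hpM w ⟨v, hv, rfl⟩
    refine ⟨_, hWψ p hp hpM v hv, ?_⟩
    simp only [LinearMap.mulLeft_apply, Int.cast_natCast]
    ring
  have hb : ∀ n : ℕ, Nat.Coprime n L → qCoeff f n ∈ W' := by
    intro n
    induction n using Nat.strong_induction_on with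
    | h n ih =>
      intro hn
      have hnM : Nat.Coprime n (L ^ 2) := Nat.Coprime.pow_right 2 hn
      have hprod : qCoeff (F * E) n =
          ∑ x ∈ Finset.HasAntidiagonal.antidiagonal n, qCoeff F x.1 * qCoeff E x.2 := by
        rw [qCoeff, qExpansion_mul (analyticAt_of_mem_qHolSpace (qHol_of_cuspOne hF))
          (analyticAt_of_mem_qHolSpace hEq), PowerSeries.coeff_mul]
        rfl
      have hE : ∀ j, qCoeff E j = if L ∣ j then (c : ℂ) * e (j / L) else 0 := by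
        intro j
        rw [hEdef, qCoeff_slash_heckeDiag (eisF_mem_qHolSpace χ hℓ hχ) 1 hL0, sub_self, zpow_zero,
          one_mul, qCoeff, qExpansion_eisF χ hℓ hχ, PowerSeries.coeff_mk, he]
      have hv : (c : ℂ)⁻¹ * qCoeff (F * E) n ∈ W' := ⟨_, hWg n hnM, rfl⟩
      rw [hprod, Finset.mul_sum, Finset.sum_eq_add_sum_sdiff_singleton_of_mem
        (show (n, 0) ∈ Finset.HasAntidiagonal.antidiagonal n by simp)] at hv
      have h1 : (c : ℂ)⁻¹ * (qCoeff F n * qCoeff E 0) = qCoeff f n := by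
        rw [hE, if_pos (dvd_zero L), Nat.zero_div, he0, hFdef,
          qCoeff_primTwist hNL ε (cuspForm_mem_cuspOneSpace f) hneb, if_pos hn]
        field_simp
        simp
      rw [h1] at hv
      have h2 : (∑ x ∈ Finset.HasAntidiagonal.antidiagonal n \ {(n, 0)},
          (c : ℂ)⁻¹ * (qCoeff F x.1 * qCoeff E x.2)) ∈ W' := by
        refine Submodule.sum_mem _ fun x hx => ?_
        rw [Finset.mem_sdiff, Finset.mem_singleton, Finset.HasAntidiagonal.mem_antidiagonal] at hx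
        have hlt : x.1 < n := by
          refine lt_of_le_of_ne (by omega) fun h => hx.2 (Prod.ext h (by omega))
        rw [hE, hFdef, qCoeff_primTwist hNL ε (cuspForm_mem_cuspOneSpace f) hneb]
        split_ifs with hd hx1
        · rw [show (c : ℂ)⁻¹ * (qCoeff f x.1 * ((c : ℂ) * e (x.2 / L))) =
            e (x.2 / L) • qCoeff f x.1 by rw [zsmul_eq_mul]; field_simp]
          exact Submodule.smul_mem _ _ (ih _ hlt hd)
        all_goals simp
      exact (add_mem_cancel_right h2).mp hv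
  refine finite_closure_coeffGens ε f hf₁ hT hNL (W := W') (hWfg.map _) fun x n hn => ?_
  by_cases hx : IsUnit x
  · obtain ⟨p, hp_gt, hp, hpd⟩ := Nat.forall_exists_prime_gt_and_modEq L (q := N) (a := x.val)
      (NeZero.ne N) ((ZMod.isUnit_iff_coprime x.val N).mp (by rwa [ZMod.natCast_zmod_val]))
    have hcop : Nat.Coprime p L := (Nat.Prime.coprime_iff_not_dvd hp).mpr fun h =>
      absurd (Nat.le_of_dvd (Nat.pos_of_ne_zero hL0) h) (by omega)
    have hpx : (p : ZMod N) = x := by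
      rw [(ZMod.natCast_eq_natCast_iff _ _ _).mpr hpd, ZMod.natCast_zmod_val]
    have hu : IsUnit (p : ZMod ℓ) :=
      (ZMod.isUnit_iff_coprime p ℓ).mpr (Nat.Coprime.coprime_dvd_right hℓL hcop)
    have h := hW'ψ p hp (Nat.Coprime.pow_right 2 hcop) _ (hb n hn)
    rw [hpx] at h
    rcases hχ1 _ hu with h' | h' <;> rw [h'] at h
    · simpa using h
    · simpa using neg_mem h
  · rw [MulChar.map_nonunit ε hx, zero_mul]
    exact zero_mem _

/-- The coefficient ring is finite over `ℤ`. -/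
theorem finite_coeffRing : Module.Finite ℤ (Subring.closure (coeffGens ε f N)) := by
  have hunit : ∀ (ℓ : ℕ) [Fact ℓ.Prime] (a : ZMod ℓ), IsUnit a →
      quadCharC ℓ a = 1 ∨ quadCharC ℓ a = -1 := by
    intro ℓ _ a ha
    rcases quadraticChar_dichotomy (F := ZMod ℓ) ha.ne_zero with h | h <;>
      simp [quadCharC, h]
  have hcase : ∀ (ℓ : ℕ) [Fact ℓ.Prime], ℓ ≠ 2 → quadraticChar (ZMod ℓ) (-1) = -1 →
      ∀ c k : ℤ, c ≠ 0 → c * k = -2 * ℓ →
        ∑ j ∈ Finset.range ℓ, (j : ℤ) * quadraticChar (ZMod ℓ) (j : ZMod ℓ) = c →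
        Module.Finite ℤ (Subring.closure (coeffGens ε f (N * ℓ))) := by
    intro ℓ _ hℓ hodd c k hc hck hsum
    refine finite_closure_of_eisenstein ε f hf₁ hT ℓ hℓ (quadCharC ℓ) ?_ (hunit ℓ) c hc
      (fun j => if j = 0 then 1 else k * ∑ d ∈ j.divisors, quadraticChar (ZMod ℓ) (d : ZMod ℓ))
      (if_pos rfl) fun j => ?_
    · show quadCharC ℓ (-1) = -1
      simp [quadCharC, hodd]
    · rw [eisCoeff]
      split_ifs with hj
      · simp [eisConst, quadCharC, ← hsum]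
      · have hck' : (c : ℂ) * k = -2 * (ℓ : ℂ) := by exact_mod_cast hck
        simp only [quadCharC, MulChar.ringHomComp_apply, eq_intCast]
        push_cast
        rw [← mul_assoc, hck']
  obtain ⟨o3, o7, s3, s7⟩ := quadraticChar_three_seven
  have h3 := hcase 3 (by norm_num) o3 (-1) 6 (by norm_num) (by norm_num) s3
  have h7 := hcase 7 (by norm_num) o7 (-7) 2 (by norm_num) (by norm_num) s7
  set R₃ := subalgebraOfSubring (Subring.closure (coeffGens ε f (N * 3)))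
  set R₇ := subalgebraOfSubring (Subring.closure (coeffGens ε f (N * 7)))
  have : Module.Finite ℤ R₃ := h3
  have : Module.Finite ℤ R₇ := h7
  have hle : Subring.closure (coeffGens ε f N) ≤ (R₃ ⊔ R₇).toSubring := by
    rw [Subring.closure_le]
    rintro z (hz | ⟨p, hp, hpN, rfl⟩)
    · exact (le_sup_left : R₃ ≤ R₃ ⊔ R₇) (Subring.subset_closure (Or.inl hz))
    · by_cases hp3 : p = 3
      · refine (le_sup_right : R₇ ≤ R₃ ⊔ R₇) (Subring.subset_closure (Or.inr ⟨p, hp, ?_, rfl⟩))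
        rw [hp.dvd_mul, not_or]
        exact ⟨hpN, by rw [hp3]; norm_num⟩
      · refine (le_sup_left : R₃ ≤ R₃ ⊔ R₇) (Subring.subset_closure (Or.inr ⟨p, hp, ?_, rfl⟩))
        rw [hp.dvd_mul, not_or]
        exact ⟨hpN, fun h => hp3 ((Nat.prime_dvd_prime_iff_eq hp (by norm_num)).mp h)⟩
  let i : Subring.closure (coeffGens ε f N) →+ (R₃ ⊔ R₇ : Subalgebra ℤ ℂ) :=
    AddMonoidHom.mk' (fun r => ⟨r, hle r.2⟩) fun _ _ => rfl
  have : Module.Finite ℤ (R₃ ⊔ R₇ : Subalgebra ℤ ℂ) := Subalgebra.finite_sup R₃ R₇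
  have : IsNoetherian ℤ (R₃ ⊔ R₇ : Subalgebra ℤ ℂ) := isNoetherian_of_isNoetherianRing_of_finite ℤ _
  exact Module.Finite.of_injective i.toIntLinearMap fun a b hab =>
    Subtype.ext (congrArg (fun z : (R₃ ⊔ R₇ : Subalgebra ℤ ℂ) => (z : ℂ)) hab)

theorem qCoeff_mem_coeffRing {L : ℕ} (hNL : N ∣ L) {n : ℕ} (hn : Nat.Coprime n L) (hn0 : n ≠ 0) :
    qCoeff f n ∈ Subring.closure (coeffGens ε f N) := by
  induction n using Nat.strong_induction_on with
  | h n ih =>
    rcases eq_or_ne n 1 with rfl | hn1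
    · rw [hf₁]; exact one_mem _
    obtain ⟨p, hp, m, rfl⟩ := Nat.exists_prime_and_dvd hn1
    have hm0 : m ≠ 0 := fun h => hn0 (by rw [h, mul_zero])
    have hpN : ¬ p ∣ N := fun h =>
      (Nat.Prime.coprime_iff_not_dvd hp).mp (Nat.Coprime.coprime_mul_right hn) (h.trans hNL)
    have hlt : m < p * m := lt_mul_of_one_lt_left (Nat.pos_of_ne_zero hm0) hp.one_lt
    have hm : Nat.Coprime m L := Nat.Coprime.coprime_mul_left hn
    rw [eq_sub_of_add_eq (hT p hp hpN m)]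
    refine sub_mem (mul_mem (Subring.subset_closure (Or.inr ⟨p, hp, hpN, rfl⟩)) (ih m hlt hm hm0))
      (mul_mem (Subring.subset_closure (Or.inl ⟨_, rfl⟩)) ?_)
    split_ifs with hd
    · exact ih _ ((Nat.div_le_self m p).trans_lt hlt)
        (Nat.Coprime.coprime_dvd_left (Nat.div_dvd_of_dvd hd) hm)
        (Nat.div_pos (Nat.le_of_dvd (Nat.pos_of_ne_zero hm0) hd) hp.pos).ne'
    · exact zero_mem _

end FermatLib.Galois.DS

end
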