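import Fermat.Agent.Galois.DS.Gl2Finite
import Mathlib.FieldTheory.Finite.Basic
import Mathlib.FieldTheory.IsAlgClosed.AlgebraicClosure
import Mathlib.LinearAlgebra.Matrix.GeneralLinearGroup.Defs
import Mathlib.LinearAlgebra.Matrix.ToLin
import Mathlib.GroupTheory.Perm.Cycle.Type

/-!
# The finite group lemma of Deligne and Serre

A semisimple subgroup of `GL₂(𝔽_ℓ)` with boundedly many determinants, three quarters of which has
boundedly many characteristic polynomials, has bounded order.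
-/

set_option autoImplicit false
set_option linter.style.haveILetI false

noncomputable section

open Matrix Module

namespace FermatLib.Galois.DS

/-- Every invariant line of `G` has an invariant complement. -/
def IsSemisimpleSubgroup {F : Type*} [Field F] (G : Subgroup (GL (Fin 2) F)) : Prop :=
  ∀ v : Fin 2 → F, v ≠ 0 → (∀ g ∈ G, ∃ a : F, (g : Matrix (Fin 2) (Fin 2) F) *ᵥ v = a • v) →
    ∃ w : Fin 2 → F, LinearIndependent F ![v, w] ∧
      ∀ g ∈ G, ∃ a : F, (g : Matrix (Fin 2) (Fin 2) F) *ᵥ w = a • w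

variable {ℓ : ℕ} [Fact ℓ.Prime]

local notation "M2" => Matrix (Fin 2) (Fin 2) (ZMod ℓ)

theorem card_trace_det_le (t d : ZMod ℓ) (s : Finset M2)
    (hs : ∀ m ∈ s, m.trace = t ∧ m.det = d) : s.card ≤ 2 * ℓ ^ 2 := by
  classical
  let f : M2 → (ZMod ℓ × ZMod ℓ) ⊕ (ZMod ℓ × ZMod ℓ) := fun m =>
    if m 0 1 = 0 then Sum.inl (m 0 0, m 1 0) else Sum.inr (m 0 0, m 0 1)
  have hinj : Set.InjOn f s := by
    intro m hm m' hm' he
    obtain ⟨ht, hd⟩ := hs m hm
    obtain ⟨ht', hd'⟩ := hs m' hm'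
    rw [Matrix.trace_fin_two] at ht ht'
    rw [Matrix.det_fin_two] at hd hd'
    by_cases h : m 0 1 = 0 <;> by_cases h' : m' 0 1 = 0 <;> simp [f, h, h'] at he
    · ext i j
      fin_cases i <;> fin_cases j
      · exact he.1
      · simp [h, h']
      · exact he.2
      · show m 1 1 = m' 1 1
        linear_combination ht - ht' - he.1
    · have h11 : m 1 1 = m' 1 1 := by linear_combination ht - ht' - he.1
      ext i j
      fin_cases i <;> fin_cases j
      · exact he.1
      · exact he.2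
      · show m 1 0 = m' 1 0
        rw [he.1, he.2, h11] at hd
        refine mul_left_cancel₀ h' ?_
        linear_combination hd' - hd
      · exact h11
  calc s.card = (s.image f).card := (Finset.card_image_of_injOn hinj).symm
    _ ≤ (Finset.univ : Finset ((ZMod ℓ × ZMod ℓ) ⊕ (ZMod ℓ × ZMod ℓ))).card :=
        Finset.card_le_card (Finset.subset_univ _)
    _ = 2 * ℓ ^ 2 := by simp [ZMod.card]; ring

theorem card_le_mul_of_image_le {α β : Type*} [DecidableEq β] (s : Finset α) (f : α → β) {M c : ℕ}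
    (hM : (s.image f).card ≤ M) (hc : ∀ b, (s.filter fun a => f a = b).card ≤ c) : s.card ≤ c * M :=
  (Finset.card_le_mul_card_image s c fun b _ => hc b).trans (Nat.mul_le_mul_left c hM)

/-- Two independent transvections generate a group of order at least `ℓ²(ℓ-1)`. -/
theorem sq_mul_pred_le_card (G : Subgroup (GL (Fin 2) (ZMod ℓ))) (hss : IsSemisimpleSubgroup G)
    (hdvd : ℓ ∣ Nat.card G) : ℓ ^ 2 * (ℓ - 1) ≤ Nat.card G := by
  classical
  obtain ⟨⟨u, huG⟩, hu⟩ := exists_prime_orderOf_dvd_card' ℓ hdvd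
  rw [Subgroup.orderOf_mk] at hu
  set N : M2 := (u : M2) - 1 with hN
  have hNne : N ≠ 0 := by
    intro h
    have : u = 1 := Units.ext (sub_eq_zero.mp h)
    rw [this, orderOf_one] at hu
    exact (Fact.out : ℓ.Prime).one_lt.ne hu
  have huℓ : u ^ ℓ = 1 := by
    have h1 := pow_orderOf_eq_one u
    rwa [hu] at h1
  haveI : CharP M2 ℓ := charP_of_injective_algebraMap (algebraMap (ZMod ℓ) M2).injective ℓ
  have hNnil : N ^ ℓ = 0 := by
    rw [hN, sub_pow_char_of_commute (p := ℓ) (Commute.one_right _), ← Units.val_pow_eq_pow_val,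
      huℓ, Units.val_one, one_pow, sub_self]
  have hN2 : N * N = 0 := by
    have hlin : (Matrix.toLin' N) ^ ℓ = 0 := by rw [← Matrix.toLin'_pow, hNnil, map_zero]
    have hker : LinearMap.ker ((Matrix.toLin' N) ^ 2) = ⊤ := by
      have h1 := Module.End.ker_pow_eq_ker_pow_finrank_of_le (f := Matrix.toLin' N)
        (m := ℓ) (by simpa using (Fact.out : ℓ.Prime).two_le)
      simpa [hlin] using h1.symm
    rw [LinearMap.ker_eq_top, ← Matrix.toLin'_pow, EmbeddingLike.map_eq_zero_iff, sq] at hker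
    exact hker
  obtain ⟨x, hx⟩ : ∃ x, N *ᵥ x ≠ 0 := by
    by_contra h; push Not at h
    exact hNne (Matrix.ext_of_mulVec_single fun i => by rw [h, Matrix.zero_mulVec])
  set v := N *ᵥ x with hv
  have hNv : N *ᵥ v = 0 := by rw [hv, Matrix.mulVec_mulVec, hN2, Matrix.zero_mulVec]
  have huv : (u : M2) *ᵥ v = v := by
    have h1 := hNv
    rw [hN, Matrix.sub_mulVec, Matrix.one_mulVec, sub_eq_zero] at h1
    exact h1
  have hnotinv : ∃ g ∈ G, ∀ a : ZMod ℓ, (g : M2) *ᵥ v ≠ a • v := by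
    by_contra h; push Not at h
    obtain ⟨w, hw, hwG⟩ := hss v hx h
    obtain ⟨b, hb⟩ := hwG u huG
    have hw0 : w ≠ 0 := hw.ne_zero 1
    have hNw : N *ᵥ w = (b - 1) • w := by
      rw [hN, Matrix.sub_mulVec, Matrix.one_mulVec, hb, sub_smul, one_smul]
    have hb1 : b = 1 := by
      have h2 : N *ᵥ (N *ᵥ w) = 0 := by rw [Matrix.mulVec_mulVec, hN2, Matrix.zero_mulVec]
      rw [hNw, Matrix.mulVec_smul, hNw, smul_smul, smul_eq_zero] at h2
      exact sub_eq_zero.mp (mul_self_eq_zero.mp (h2.resolve_right hw0))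
    have hspan : Submodule.span (ZMod ℓ) (Set.range ![v, w]) = ⊤ :=
      hw.span_eq_top_of_card_eq_finrank (by simp)
    refine hNne (Matrix.toLin'.injective ?_)
    rw [map_zero]
    refine LinearMap.ext_on_range hspan fun i => ?_
    fin_cases i
    · simpa using hNv
    · simpa [hb1] using hNw
  obtain ⟨g, hgG, hg⟩ := hnotinv
  set v' := (g : M2) *ᵥ v with hv'
  have hind : LinearIndependent (ZMod ℓ) ![v, v'] :=
    (LinearIndependent.pair_iff' hx).mpr fun a => (hg a).symm
  set u' : GL (Fin 2) (ZMod ℓ) := g * u * g⁻¹ with hu'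
  have hu'G : u' ∈ G := G.mul_mem (G.mul_mem hgG huG) (G.inv_mem hgG)
  set N' : M2 := (u' : M2) - 1 with hN'
  have hN'eq : N' = (g : M2) * N * ((g⁻¹ : GL (Fin 2) (ZMod ℓ)) : M2) := by
    rw [hN', hN, mul_sub, sub_mul, hu', mul_one, ← Units.val_mul, ← Units.val_mul, ← Units.val_mul,
      mul_inv_cancel, Units.val_one]
  have hN'v' : N' *ᵥ v' = 0 := by
    rw [hN'eq, hv', Matrix.mulVec_mulVec, mul_assoc, ← Units.val_mul, inv_mul_cancel, Units.val_one,
      mul_one, ← Matrix.mulVec_mulVec, hNv, Matrix.mulVec_zero]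
  have hN'2 : N' * N' = 0 := by
    rw [hN'eq]
    calc _ = (g : M2) * (N * ((((g⁻¹ : GL (Fin 2) (ZMod ℓ)) : M2) * (g : M2))) * N) *
          ((g⁻¹ : GL (Fin 2) (ZMod ℓ)) : M2) := by noncomm_ring
      _ = 0 := by rw [← Units.val_mul, inv_mul_cancel, Units.val_one, mul_one, hN2]; simp
  have hbasis : ∀ y : Fin 2 → ZMod ℓ, ∃ a b : ZMod ℓ, y = a • v + b • v' := by
    intro y
    have hspan : Submodule.span (ZMod ℓ) (Set.range ![v, v']) = ⊤ :=
      hind.span_eq_top_of_card_eq_finrank (by simp)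
    have := hspan ▸ Submodule.mem_top (x := y)
    rw [Matrix.range_cons, Matrix.range_cons, Matrix.range_empty, Set.union_empty,
      Set.singleton_union, Submodule.mem_span_pair] at this
    obtain ⟨a, b, h⟩ := this
    exact ⟨a, b, h.symm⟩
  -- matrix in the basis `v, v'`
  set P : M2 := Matrix.of fun i j => ![v, v'] j i with hP
  have hPdet : IsUnit P := by
    rw [← Matrix.linearIndependent_cols_iff_isUnit]
    exact hind
  set P' : GL (Fin 2) (ZMod ℓ) := hPdet.unit
  have hP' : (P' : M2) = P := rfl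
  have hPcol : ∀ a b : ZMod ℓ, P *ᵥ ![a, b] = a • v + b • v' := by
    intro a b; ext i; simp [hP, Matrix.mulVec, dotProduct, Fin.sum_univ_two]; ring
  obtain ⟨a, c', hac⟩ := hbasis (N *ᵥ v')
  have hker1 : c' = 0 ∧ a ≠ 0 := by
    have h2 : N *ᵥ (N *ᵥ v') = 0 := by rw [Matrix.mulVec_mulVec, hN2, Matrix.zero_mulVec]
    rw [hac, Matrix.mulVec_add, Matrix.mulVec_smul, Matrix.mulVec_smul, hNv, hac] at h2
    have h3 := LinearIndependent.pair_iff.mp hind (c' * a) (c' * c') (by
      rw [← h2, smul_zero, zero_add, smul_add, smul_smul, smul_smul])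
    have hc : c' = 0 := mul_self_eq_zero.mp h3.2
    refine ⟨hc, fun ha => hNne (Matrix.toLin'.injective ?_)⟩
    rw [map_zero]
    refine LinearMap.ext fun y => ?_
    obtain ⟨p, q, rfl⟩ := hbasis y
    simp [Matrix.toLin'_apply, Matrix.mulVec_add, Matrix.mulVec_smul, hNv, hac, hc, ha]
  obtain ⟨rfl, ha⟩ := hker1
  obtain ⟨c, b, hcb⟩ := hbasis (N' *ᵥ v)
  have hker2 : c = 0 ∧ b ≠ 0 := by
    have h2 : N' *ᵥ (N' *ᵥ v) = 0 := by rw [Matrix.mulVec_mulVec, hN'2, Matrix.zero_mulVec]
    rw [hcb, Matrix.mulVec_add, Matrix.mulVec_smul, Matrix.mulVec_smul, hN'v', hcb] at h2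
    have h3 := LinearIndependent.pair_iff.mp hind (c * c) (c * b) (by
      rw [← h2, smul_zero, add_zero, smul_add, smul_smul, smul_smul])
    have hc : c = 0 := mul_self_eq_zero.mp h3.1
    refine ⟨hc, fun hb => hNne ?_⟩
    have hN'0 : N' = 0 := by
      refine Matrix.toLin'.injective ?_
      rw [map_zero]
      refine LinearMap.ext fun y => ?_
      obtain ⟨p, q, rfl⟩ := hbasis y
      simp [Matrix.toLin'_apply, Matrix.mulVec_add, Matrix.mulVec_smul, hN'v', hcb, hc, hb]
    have h4 : ((g⁻¹ : GL (Fin 2) (ZMod ℓ)) : M2) * N' * (g : M2) = 0 := by simp [hN'0]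
    rw [hN'eq] at h4
    simpa [← mul_assoc, ← Units.val_mul, mul_assoc N] using h4
  obtain ⟨rfl, hb⟩ := hker2
  -- all upper and lower unitriangular matrices lie in the conjugate
  let H : Subgroup (GL (Fin 2) (ZMod ℓ)) := G.comap (MulAut.conj P').toMonoidHom
  have hH : ∀ z, z ∈ H ↔ P' * z * P'⁻¹ ∈ G := fun z => Iff.rfl
  let U : ZMod ℓ → GL (Fin 2) (ZMod ℓ) := fun t =>
    ⟨!![1, t; 0, 1], !![1, -t; 0, 1], by simp [Matrix.one_fin_two], by simp [Matrix.one_fin_two]⟩
  let L : ZMod ℓ → GL (Fin 2) (ZMod ℓ) := fun t =>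
    ⟨!![1, 0; t, 1], !![1, 0; -t, 1], by simp [Matrix.one_fin_two], by simp [Matrix.one_fin_two]⟩
  have hconj : ∀ (z w : GL (Fin 2) (ZMod ℓ)), w ∈ G → P * (z : M2) = (w : M2) * P → z ∈ H := by
    intro z w hw h
    rw [hH]
    have : P' * z = w * P' := Units.ext (by simpa [hP'] using h)
    rwa [this, mul_inv_cancel_right]
  have hext : ∀ A B : M2, A *ᵥ ![1, 0] = B *ᵥ ![1, 0] → A *ᵥ ![0, 1] = B *ᵥ ![0, 1] → A = B := by
    intro A B h1 h2
    ext i j
    have h1' := congrFun h1 i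
    have h2' := congrFun h2 i
    simp [Matrix.mulVec, dotProduct, Fin.sum_univ_two] at h1' h2'
    fin_cases j <;> assumption
  have hfin : ∀ p q r s x y : ZMod ℓ, !![p, q; r, s] *ᵥ ![x, y] = ![p * x + q * y, r * x + s * y] := by
    intro p q r s x y; ext i; fin_cases i <;> simp [Matrix.mulVec, dotProduct, Fin.sum_univ_two]
  have e1 : P *ᵥ ![1, 0] = v := by simp [hPcol]
  have e2 : P *ᵥ ![0, 1] = v' := by simp [hPcol]
  have huv' : (u : M2) *ᵥ v' = v' + a • v := by
    rw [show (u : M2) = N + 1 by simp [hN], Matrix.add_mulVec, Matrix.one_mulVec, hac]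
    simp [add_comm]
  have hU : U a ∈ H := by
    refine hconj (U a) u huG (hext _ _ ?_ ?_) <;> simp only [← Matrix.mulVec_mulVec, U, hfin]
    · rw [e1, huv]; simp [hPcol]
    · rw [e2, huv']; simp [hPcol, add_comm]
  have hL : L b ∈ H := by
    refine hconj (L b) u' hu'G (hext _ _ ?_ ?_) <;> simp only [← Matrix.mulVec_mulVec, L, hfin]
    · rw [e1, show (u' : M2) = N' + 1 by simp [hN'], Matrix.add_mulVec, Matrix.one_mulVec, hcb]
      simp [hPcol, add_comm]
    · rw [e2, show (u' : M2) = N' + 1 by simp [hN'], Matrix.add_mulVec, Matrix.one_mulVec, hN'v']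
      simp [hPcol]
  have hUpow : ∀ n : ℕ, U a ^ n = U ((n : ZMod ℓ) * a) := by
    intro n
    induction n with
    | zero => exact Units.ext (by simp [U, Matrix.one_fin_two])
    | succ n ih =>
      rw [pow_succ, ih]
      refine Units.ext ?_
      simp [U]; ring
  have hLpow : ∀ n : ℕ, L b ^ n = L ((n : ZMod ℓ) * b) := by
    intro n
    induction n with
    | zero => exact Units.ext (by simp [L, Matrix.one_fin_two])
    | succ n ih =>
      rw [pow_succ, ih]
      refine Units.ext ?_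
      simp [L]; ring
  have hUall : ∀ t, U t ∈ H := by
    intro t
    have := H.pow_mem hU (t / a).val
    rwa [hUpow, ZMod.natCast_zmod_val, div_mul_cancel₀ _ ha] at this
  have hLall : ∀ t, L t ∈ H := by
    intro t
    have := H.pow_mem hL (t / b).val
    rwa [hLpow, ZMod.natCast_zmod_val, div_mul_cancel₀ _ hb] at this
  let f : ZMod ℓ × {c : ZMod ℓ // c ≠ 0} × ZMod ℓ → G := fun t =>
    ⟨P' * (U t.1 * L t.2.1 * U t.2.2) * P'⁻¹,
      (hH _).mp (H.mul_mem (H.mul_mem (hUall _) (hLall _)) (hUall _))⟩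
  have hf : Function.Injective f := by
    rintro ⟨p, ⟨q, hq⟩, r⟩ ⟨p', ⟨q', hq'⟩, r'⟩ h
    have h' : U p * L q * U r = U p' * L q' * U r' :=
      mul_left_cancel (mul_right_cancel (congrArg Subtype.val h))
    have hM := congrArg (fun z : GL (Fin 2) (ZMod ℓ) => (z : M2)) h'
    simp [U, L] at hM
    obtain ⟨⟨h00, -⟩, h10, h11⟩ := hM
    subst h10
    have hp : p = p' := mul_right_cancel₀ hq h00
    have hr : r = r' := mul_left_cancel₀ hq h11
    subst hp; subst hr; rfl
  calc ℓ ^ 2 * (ℓ - 1) = Nat.card (ZMod ℓ × {c : ZMod ℓ // c ≠ 0} × ZMod ℓ) := by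
        simp [Nat.card_eq_fintype_card, ZMod.card, Fintype.card_subtype_compl]; ring
    _ ≤ Nat.card G := Nat.card_le_card_of_injective f hf

open scoped Classical in
/-- **The bound.** -/
theorem exists_card_le (M e : ℕ) : ∃ A : ℕ, ∀ (ℓ : ℕ) [Fact ℓ.Prime],
    ∀ (G : Subgroup (GL (Fin 2) (ZMod ℓ))) (T : Finset (GL (Fin 2) (ZMod ℓ))) (E : Finset (ZMod ℓ)),
    IsSemisimpleSubgroup G → (∀ g ∈ G, (g : Matrix (Fin 2) (Fin 2) (ZMod ℓ)).det ∈ E) → E.card ≤ e →
    (∀ g ∈ T, g ∈ G) → 3 * Nat.card G < 4 * T.card →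
    (T.image fun g : GL (Fin 2) (ZMod ℓ) => ((g : Matrix (Fin 2) (Fin 2) (ZMod ℓ)).trace,
      (g : Matrix (Fin 2) (Fin 2) (ZMod ℓ)).det)).card ≤ M →
    Nat.card G ≤ A := by
  classical
  refine ⟨(3 * M + 3) ^ 4 + 8 * M + 120 * e, fun ℓ hℓ G T E hss hdet hE hTG hT hM => ?_⟩
  haveI := hℓ
  have hmemG : ∀ g : GL (Fin 2) (ZMod ℓ), g ∈ G → True := fun _ _ => trivial
  by_cases hdvd : ℓ ∣ Nat.card G
  · have hlow := sq_mul_pred_le_card G hss hdvd
    have hTle : T.card ≤ 2 * ℓ ^ 2 * M := by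
      refine card_le_mul_of_image_le T _ hM fun b => ?_
      have : ((T.filter fun g : GL (Fin 2) (ZMod ℓ) => ((g : (Matrix (Fin 2) (Fin 2) (ZMod ℓ))).trace, (g : (Matrix (Fin 2) (Fin 2) (ZMod ℓ))).det) = b).image
          fun g : GL (Fin 2) (ZMod ℓ) => (g : (Matrix (Fin 2) (Fin 2) (ZMod ℓ)))).card ≤ 2 * ℓ ^ 2 :=
        card_trace_det_le b.1 b.2 _ (by
          simp only [Finset.mem_image, Finset.mem_filter, Prod.ext_iff]
          rintro m ⟨g, ⟨-, h1, h2⟩, rfl⟩
          exact ⟨h1, h2⟩)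
      rwa [Finset.card_image_of_injective _ fun g g' h => Units.ext h] at this
    have hℓM : ℓ ≤ 3 * M + 3 := by
      by_contra hlt
      have h1 : 3 * (ℓ ^ 2 * (ℓ - 1)) < 4 * (2 * ℓ ^ 2 * M) := by omega
      have h2 : 8 * M ≤ 3 * (ℓ - 1) := by omega
      nlinarith [Nat.mul_le_mul_left (ℓ ^ 2) h2]
    have hup : Nat.card G ≤ ℓ ^ 4 := by
      calc Nat.card G ≤ Nat.card (Matrix (Fin 2) (Fin 2) (ZMod ℓ)) :=
            Nat.card_le_card_of_injective (fun g : G => ((g : GL (Fin 2) (ZMod ℓ)) : (Matrix (Fin 2) (Fin 2) (ZMod ℓ))))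
              fun x y h => Subtype.ext (Units.ext h)
        _ = ℓ ^ 4 := by
            rw [Matrix, Nat.card_eq_fintype_card]; simp [ZMod.card]; ring
    have := hup.trans (Nat.pow_le_pow_left hℓM 4)
    omega
  · set k := AlgebraicClosure (ZMod ℓ)
    let ι : (Matrix (Fin 2) (Fin 2) (ZMod ℓ)) →+* Matrix (Fin 2) (Fin 2) k := (algebraMap (ZMod ℓ) k).mapMatrix
    let ρ : G →* Module.End k (Fin 2 → k) :=
      (Matrix.toLinAlgEquiv' (R := k) (n := Fin 2)).toAlgHom.toMonoidHom.comp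
        (ι.toMonoidHom.comp ((Units.coeHom (Matrix (Fin 2) (Fin 2) (ZMod ℓ))).comp G.subtype))
    have hρ : ∀ (g : G) (v : Fin 2 → k), ρ g v = ι ((g : GL (Fin 2) (ZMod ℓ)) : (Matrix (Fin 2) (Fin 2) (ZMod ℓ))) *ᵥ v :=
      fun g v => by simp [ρ]
    have hinj : ∀ x y : G, ι ((x : GL (Fin 2) (ZMod ℓ)) : (Matrix (Fin 2) (Fin 2) (ZMod ℓ))) = ι ((y : GL (Fin 2) (ZMod ℓ)) : (Matrix (Fin 2) (Fin 2) (ZMod ℓ))) →
        x = y := fun x y h => Subtype.ext (Units.ext
          (Matrix.map_injective (algebraMap (ZMod ℓ) k).injective h))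
    have hchar : (Nat.card G : k) ≠ 0 := by
      haveI : CharP k ℓ := charP_of_injective_algebraMap (algebraMap (ZMod ℓ) k).injective ℓ
      rwa [Ne, CharP.cast_eq_zero_iff k ℓ]
    rcases exists_index_le_two_eigenlines_or_card_le (by simp) ρ hchar with
      ⟨D, v, w, hD2, hD0, hvw, hDvw⟩ | hsmall
    · -- half of the group is diagonal
      let T' : Finset G := Finset.univ.filter fun g : G => (g : GL (Fin 2) (ZMod ℓ)) ∈ T
      have hT' : T'.card = T.card := by
        refine Finset.card_bij (fun g _ => (g : GL (Fin 2) (ZMod ℓ))) (fun g hg => by simpa [T'] using hg)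
          (fun g _ g' _ h => Subtype.ext h) fun g hg => ⟨⟨g, hTG g hg⟩, by simp [T', hg], rfl⟩
      have hsplit : T'.card ≤ (T'.filter (· ∈ D)).card + (Finset.univ.filter (· ∉ D)).card := by
        rw [← Finset.card_filter_add_card_filter_not (s := T') (· ∈ D)]
        exact Nat.add_le_add_left (Finset.card_le_card
          (Finset.filter_subset_filter _ (Finset.subset_univ _))) _
      have hout : 2 * (Finset.univ.filter fun g : G => g ∉ D).card ≤ Nat.card G := by
        have h1 : (Finset.univ.filter fun g : G => g ∈ D).card = Nat.card D := by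
          rw [Nat.card_eq_fintype_card, Fintype.card_subtype]
        have h2 := D.card_mul_index
        have h3 := Finset.card_filter_add_card_filter_not (s := (Finset.univ : Finset G)) (· ∈ D)
        rw [Finset.card_univ, ← Nat.card_eq_fintype_card, h1] at h3
        have h4 : Nat.card D * D.index ≤ Nat.card D * 2 := Nat.mul_le_mul_left _ hD2
        omega
      have hin : (T'.filter (· ∈ D)).card ≤ 2 * M := by
        refine card_le_mul_of_image_le _ (fun g : G => (((g : GL (Fin 2) (ZMod ℓ)) : (Matrix (Fin 2) (Fin 2) (ZMod ℓ))).trace,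
          ((g : GL (Fin 2) (ZMod ℓ)) : (Matrix (Fin 2) (Fin 2) (ZMod ℓ))).det)) ((Finset.card_le_card ?_).trans hM) fun b => ?_
        · intro x hx
          obtain ⟨g, hg, rfl⟩ := Finset.mem_image.mp hx
          exact Finset.mem_image.mpr ⟨g, by simpa [T'] using (Finset.mem_filter.mp hg).1, rfl⟩
        · by_contra hgt
          obtain ⟨x, y, z, hx, hy, hz, hxy, hxz, hyz⟩ := Finset.two_lt_card_iff.mp (not_le.mp hgt)
          simp only [Finset.mem_filter, Prod.ext_iff] at hx hy hz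
          choose A B hA hB using fun g : {g : G // g ∈ D} => hDvw g g.2
          let Pm : Matrix (Fin 2) (Fin 2) k := Matrix.of fun i j => ![v, w] j i
          have hPm : IsUnit Pm := Matrix.linearIndependent_cols_iff_isUnit.mp hvw
          have hdiag : ∀ g : {g : G // g ∈ D},
              ι ((g.1 : GL (Fin 2) (ZMod ℓ)) : (Matrix (Fin 2) (Fin 2) (ZMod ℓ))) * Pm = Pm * Matrix.diagonal ![A g, B g] := by
            intro g
            have h1 := hA g
            have h2 := hB g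
            rw [hρ] at h1 h2
            ext i j
            have h1' := congrFun h1 i
            have h2' := congrFun h2 i
            simp [Matrix.mulVec, dotProduct, Fin.sum_univ_two] at h1' h2'
            fin_cases j <;> simp [Pm, Matrix.mul_apply, Fin.sum_univ_two]
            · rw [mul_comm (v i)]; exact h1'
            · rw [mul_comm (w i)]; exact h2'
          have hinj' : ∀ g g' : {g : G // g ∈ D}, A g = A g' → B g = B g' → g = g' := by
            intro g g' hAg hBg
            refine Subtype.ext (hinj _ _ (hPm.mul_right_cancel ?_))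
            rw [hdiag, hdiag, hAg, hBg]
          have hroot : ∀ g : {g : G // g ∈ D}, ((g.1 : GL (Fin 2) (ZMod ℓ)) : (Matrix (Fin 2) (Fin 2) (ZMod ℓ))).trace = b.1 →
              ((g.1 : GL (Fin 2) (ZMod ℓ)) : (Matrix (Fin 2) (Fin 2) (ZMod ℓ))).det = b.2 →
              A g + B g = algebraMap (ZMod ℓ) k b.1 ∧ A g * B g = algebraMap (ZMod ℓ) k b.2 := by
            intro g ht hd
            have hconj : Matrix.diagonal ![A g, B g] =
                (↑hPm.unit⁻¹ : Matrix (Fin 2) (Fin 2) k) * ι ((g.1 : GL (Fin 2) (ZMod ℓ)) : (Matrix (Fin 2) (Fin 2) (ZMod ℓ))) * Pm := by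
              rw [mul_assoc, hdiag g, ← mul_assoc, IsUnit.val_inv_mul hPm, one_mul]
            have htr := congrArg Matrix.trace hconj
            have hdt := congrArg Matrix.det hconj
            rw [Matrix.trace_mul_cycle, IsUnit.mul_val_inv hPm, one_mul] at htr
            rw [Matrix.det_mul, Matrix.det_mul, mul_right_comm, ← Matrix.det_mul,
              IsUnit.val_inv_mul hPm, Matrix.det_one, one_mul] at hdt
            rw [← ht, ← hd]
            constructor
            · simpa [Matrix.trace_fin_two, ι, map_add] using htr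
            · simpa [ι, RingHom.map_det] using hdt
          have key : ∀ (g g' : G) (hg : g ∈ D) (hg' : g' ∈ D) (s t : k),
              A ⟨g, hg⟩ + B ⟨g, hg⟩ = s → A ⟨g', hg'⟩ + B ⟨g', hg'⟩ = s →
              A ⟨g, hg⟩ * B ⟨g, hg⟩ = t → A ⟨g', hg'⟩ * B ⟨g', hg'⟩ = t → g ≠ g' →
              A ⟨g', hg'⟩ = B ⟨g, hg⟩ ∧ B ⟨g', hg'⟩ = A ⟨g, hg⟩ := by
            intro g g' hg hg' s t h1 h2 h3 h4 hne
            have : (A ⟨g', hg'⟩ - A ⟨g, hg⟩) * (A ⟨g', hg'⟩ - B ⟨g, hg⟩) = 0 := by
              linear_combination h3 - h4 - A ⟨g', hg'⟩ * h1 + A ⟨g', hg'⟩ * h2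
            rcases mul_eq_zero.mp this with h | h
            · refine absurd (congrArg Subtype.val (hinj' ⟨g, hg⟩ ⟨g', hg'⟩ (sub_eq_zero.mp h).symm ?_)) hne
              linear_combination h1 - h2 + (sub_eq_zero.mp h)
            · exact ⟨sub_eq_zero.mp h, by linear_combination h2 - h1 - (sub_eq_zero.mp h)⟩
          obtain ⟨x1, x2⟩ := hroot ⟨x, hx.1.2⟩ hx.2.1 hx.2.2
          obtain ⟨y1, y2⟩ := hroot ⟨y, hy.1.2⟩ hy.2.1 hy.2.2
          obtain ⟨z1, z2⟩ := hroot ⟨z, hz.1.2⟩ hz.2.1 hz.2.2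
          have k1 := key x y hx.1.2 hy.1.2 _ _ x1 y1 x2 y2 hxy
          have k2 := key x z hx.1.2 hz.1.2 _ _ x1 z1 x2 z2 hxz
          exact hyz (congrArg Subtype.val (hinj' ⟨y, hy.1.2⟩ ⟨z, hz.1.2⟩ (k1.1.trans k2.1.symm)
            (k1.2.trans k2.2.symm)))
      omega
    · have hZ : Nat.card {g : G // ∃ c : k, ρ g = c • 1} ≤ 2 * e := by
        rw [Nat.card_eq_fintype_card, Fintype.card_subtype]
        refine card_le_mul_of_image_le _ (fun g : G => ((g : GL (Fin 2) (ZMod ℓ)) : (Matrix (Fin 2) (Fin 2) (ZMod ℓ))).det)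
          ((Finset.card_le_card ?_).trans hE) fun b => ?_
        · intro x hx
          obtain ⟨g, -, rfl⟩ := Finset.mem_image.mp hx
          exact hdet _ g.2
        · by_contra hgt
          obtain ⟨x, y, z, hx, hy, hz, hxy, hxz, hyz⟩ := Finset.two_lt_card_iff.mp (not_le.mp hgt)
          simp only [Finset.mem_filter, Finset.mem_univ, true_and] at hx hy hz
          have hscal : ∀ g : G, (∃ c : k, ρ g = c • 1) → ((g : GL (Fin 2) (ZMod ℓ)) : (Matrix (Fin 2) (Fin 2) (ZMod ℓ))).det = b →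
              ∃ c : k, c ^ 2 = algebraMap (ZMod ℓ) k b ∧
                ι ((g : GL (Fin 2) (ZMod ℓ)) : (Matrix (Fin 2) (Fin 2) (ZMod ℓ))) = c • (1 : Matrix (Fin 2) (Fin 2) k) := by
            rintro g ⟨c, hc⟩ hd
            have hι : ι ((g : GL (Fin 2) (ZMod ℓ)) : (Matrix (Fin 2) (Fin 2) (ZMod ℓ))) = c • (1 : Matrix (Fin 2) (Fin 2) k) := by
              refine Matrix.ext_of_mulVec_single fun i => ?_
              rw [← hρ, hc, Matrix.smul_mulVec, Matrix.one_mulVec]; simp
            refine ⟨c, ?_, hι⟩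
            rw [← hd, RingHom.map_det, show (algebraMap (ZMod ℓ) k).mapMatrix
              ((g : GL (Fin 2) (ZMod ℓ)) : (Matrix (Fin 2) (Fin 2) (ZMod ℓ))) = ι ((g : GL (Fin 2) (ZMod ℓ)) : (Matrix (Fin 2) (Fin 2) (ZMod ℓ))) from rfl, hι]
            simp
          obtain ⟨cx, hcx, hix⟩ := hscal x hx.1 hx.2
          obtain ⟨cy, hcy, hiy⟩ := hscal y hy.1 hy.2
          obtain ⟨cz, hcz, hiz⟩ := hscal z hz.1 hz.2
          rcases sq_eq_sq_iff_eq_or_eq_neg.mp (hcy.trans hcx.symm) with h1 | h1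
          · exact hxy (hinj x y (by rw [hix, hiy, h1]))
          rcases sq_eq_sq_iff_eq_or_eq_neg.mp (hcz.trans hcx.symm) with h2 | h2
          · exact hxz (hinj x z (by rw [hix, hiz, h2]))
          exact hyz (hinj y z (by rw [hiy, hiz, h1, h2]))
      omega

end FermatLib.Galois.DS

end
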