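import Mathlib.RingTheory.MvPowerSeries.Expand
import Mathlib.RingTheory.PowerSeries.Expand
import Fermat.Agent.Modular.JScale

/-!
# Twisting and Frobenius on Laurent series
-/

set_option autoImplicit false

noncomputable section

open UpperHalfPlane hiding I
open Filter Complex Topology ModularCurve
open scoped Manifold

namespace FermatLib.Galois.DS

open FermatLib.Modular

section Twist

variable {R : Type*} [CommRing R]

/-- `x(t) ↦ x(ζ t)`. -/
def twistHom (ζ : Rˣ) : LaurentSeries R →+* LaurentSeries R where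
  toFun x := ⟨fun n => ((ζ ^ n : Rˣ) : R) * x.coeff n, x.isPWO_support.mono fun n hn => by
    rw [HahnSeries.mem_support]
    intro h
    exact hn (by show _ * x.coeff n = 0; rw [h, mul_zero])⟩
  map_one' := by
    ext n
    show ((ζ ^ n : Rˣ) : R) * _ = _
    rw [HahnSeries.coeff_one]
    split_ifs with h
    · simp [h]
    · simp
  map_mul' x y := by
    ext n
    show ((ζ ^ n : Rˣ) : R) * (x * y).coeff n = _
    rw [HahnSeries.coeff_mul, HahnSeries.coeff_mul, Finset.mul_sum]
    refine (Finset.sum_congr rfl fun ij hij => ?_).trans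
      (Finset.sum_subset_zero_on_sdiff ?_ ?_ fun ij _ => rfl).symm
    · obtain ⟨-, -, hij⟩ := Finset.mem_antidiagonal.mp hij
      show _ = (((ζ ^ ij.1 : Rˣ) : R) * x.coeff ij.1) * (((ζ ^ ij.2 : Rˣ) : R) * y.coeff ij.2)
      rw [← hij, zpow_add, Units.val_mul]
      ring
    · intro ij hij
      obtain ⟨h1, h2, h3⟩ := Finset.mem_antidiagonal.mp hij
      refine Finset.mem_antidiagonal.mpr ⟨?_, ?_, h3⟩
      · exact fun h => h1 (by show _ * x.coeff ij.1 = 0; rw [h, mul_zero])
      · exact fun h => h2 (by show _ * y.coeff ij.2 = 0; rw [h, mul_zero])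
    · intro ij hij
      rw [Finset.mem_sdiff] at hij
      obtain ⟨h1, h2, h3⟩ := Finset.mem_antidiagonal.mp hij.1
      by_contra h
      refine hij.2 (Finset.mem_antidiagonal.mpr ⟨fun h0 => h ?_, fun h0 => h ?_, h3⟩)
      · exact mul_eq_zero_of_left h0 _
      · exact mul_eq_zero_of_right _ h0
  map_zero' := by
    ext n
    show _ * (0 : LaurentSeries R).coeff n = _
    simp
  map_add' x y := by
    ext n
    show _ * (x + y).coeff n = _
    rw [HahnSeries.coeff_add, mul_add]
    rfl

@[simp]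
theorem coeff_twistHom (ζ : Rˣ) (x : LaurentSeries R) (n : ℤ) :
    (twistHom ζ x).coeff n = ((ζ ^ n : Rˣ) : R) * x.coeff n := rfl

theorem twistHom_one (x : LaurentSeries R) : twistHom 1 x = x := by
  ext n; simp

theorem coeffMap_twistHom {S : Type*} [CommRing S] (f : R →+* S) (ζ : Rˣ) (x : LaurentSeries R) :
    coeffMap f (twistHom ζ x) = twistHom (Units.map f ζ) (coeffMap f x) := by
  ext n
  simp only [coeffMap_coeff, coeff_twistHom, map_mul]
  rw [← map_zpow, Units.coe_map]
  rfl

end Twist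

/-- Frobenius on Laurent series in characteristic `p`. -/
theorem pow_char_eq_qExpand {k : Type*} [CommRing k] (p : ℕ) [Fact p.Prime] [CharP k p]
    (x : LaurentSeries k) :
    x ^ p = qExpand k p (coeffMap (frobenius k p) x) := by
  have hp := (Fact.out : p.Prime)
  -- reduce to power series
  have key : ∀ y : PowerSeries k, (HahnSeries.ofPowerSeries ℤ k y) ^ p =
      qExpand k p (coeffMap (frobenius k p) (HahnSeries.ofPowerSeries ℤ k y)) := by
    intro y
    rw [← map_pow]
    have h1 : PowerSeries.map (frobenius k p) (PowerSeries.expand p hp.ne_zero y) = y ^ p :=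
      MvPowerSeries.map_frobenius_expand p hp.ne_zero
    rw [← h1]
    ext i
    rcases lt_or_ge i 0 with hi | hi
    · rw [ofPowerSeries_coeff_of_neg _ hi]
      by_cases hd : (p : ℤ) ∣ i
      · obtain ⟨j, rfl⟩ := hd
        rw [qExpand_coeff_mul, coeffMap_coeff, ofPowerSeries_coeff_of_neg, map_zero]
        have : (0 : ℤ) < p := by exact_mod_cast hp.pos
        by_contra hj
        have := mul_nonneg this.le (not_lt.mp hj)
        omega
      · rw [qExpand_coeff_of_not_dvd p _ hd]
    · obtain ⟨n, rfl⟩ := Int.eq_ofNat_of_zero_le hi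
      rw [HahnSeries.ofPowerSeries_apply_coeff, PowerSeries.coeff_map, PowerSeries.coeff_expand]
      split_ifs with hd
      · obtain ⟨j, rfl⟩ := hd
        rw [Nat.cast_mul, qExpand_coeff_mul, coeffMap_coeff, HahnSeries.ofPowerSeries_apply_coeff,
          Nat.mul_div_cancel_left j hp.pos]
      · rw [qExpand_coeff_of_not_dvd p _ (by exact_mod_cast hd), map_zero]
  conv_lhs => rw [← LaurentSeries.single_order_mul_powerSeriesPart x]
  rw [mul_pow, key, HahnSeries.single_pow, one_pow, nsmul_eq_mul, mul_comm (p : ℤ) x.order]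
  conv_rhs => rw [← LaurentSeries.single_order_mul_powerSeriesPart x]
  rw [map_mul, map_mul, coeffMap_single, map_one (frobenius k p), qExpand_single, mul_comm (p : ℤ)]

section Translate

/-- The root of unity `exp (2πi x)`. -/
def expUnit (x : ℝ) : ℂˣ := Units.mk0 (exp (2 * Real.pi * Complex.I * x)) (exp_ne_zero _)

theorem vadd_mem_qMero {G : ℍ → ℂ} (hG : G ∈ qMero) (x : ℝ) : (fun τ => G (x +ᵥ τ)) ∈ qMero := by
  obtain ⟨hper, hd, m, hm⟩ := mem_qMero.mp hG
  have hsmul : ∀ τ : ℍ,
      ModularForm.upperTriangularGL (1 : ℝ) x 1 (mul_pos one_pos one_pos).ne' • τ = x +ᵥ τ := by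
    intro τ
    apply UpperHalfPlane.ext
    rw [coe_upperTriangularGL_smul one_pos one_pos, UpperHalfPlane.coe_vadd]
    push_cast
    ring
  refine mem_qMero.mpr ⟨fun τ => ?_, ?_, ⟨1 * m, ?_⟩⟩
  · show G (x +ᵥ ((1 : ℝ) +ᵥ τ)) = G (x +ᵥ τ)
    rw [vadd_vadd, add_comm, ← vadd_vadd, hper]
  · have h := hd.comp (UpperHalfPlane.mdifferentiable_smul
      (g := ModularForm.upperTriangularGL (1 : ℝ) x 1 (mul_pos one_pos one_pos).ne')
      (by rw [Matrix.GeneralLinearGroup.val_det_apply, ModularForm.val_upperTriangularGL,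
          Matrix.det_fin_two_of]; norm_num))
    simpa only [Function.comp_def, hsmul] using h
  · have h := isBoundedAtImInfty_comp_triangular hm (b := x) one_pos one_pos (k := 1) (by simp)
    simpa only [hsmul] using h

theorem qExpL_vadd_of_bounded {G : ℍ → ℂ} (hG : G ∈ qMero) (hb : IsBoundedAtImInfty G) (x : ℝ) :
    qExpL (fun τ => G (x +ᵥ τ)) = twistHom (expUnit x) (qExpL G) := by
  have hmem := vadd_mem_qMero hG x
  have hb' : IsBoundedAtImInfty (fun τ : ℍ => G (x +ᵥ τ)) := by
    have : Tendsto (fun τ : ℍ => x +ᵥ τ) atImInfty atImInfty := by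
      rw [atImInfty, tendsto_comap_iff]
      exact tendsto_comap.congr fun τ => by simp
    exact hb.comp_tendsto this
  let c : ℕ → ℂ := fun m => ((expUnit x ^ (m : ℤ) : ℂˣ) : ℂ) * (qExpansion 1 G).coeff m
  have hc : ∀ m, c m = (qExpansion 1 fun τ => G (x +ᵥ τ)).coeff m := by
    intro m
    refine qExpansion_coeff_eq_of_hasSum (c := c)
      (analyticAt_cuspFunction_of_mem hmem hb') (fun τ => ?_) m
    refine (UpperHalfPlane.hasSum_qExpansion one_pos (periodic_comp_ofComplex_of_vadd hG.1) hG.2.1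
      hb (x +ᵥ τ)).congr_fun fun n => ?_
    simp only [c, smul_eq_mul, expUnit, zpow_natCast, Units.val_pow_eq_pow_val, Units.val_mk0]
    rw [Function.Periodic.qParam, Function.Periodic.qParam, UpperHalfPlane.coe_vadd, ← exp_nat_mul,
      ← exp_nat_mul, ← exp_nat_mul, mul_comm (exp _) ((qExpansion 1 G).coeff n), mul_assoc, ← exp_add]
    congr 1
    push_cast
    ring_nf
  rw [qExpL_of_bounded hmem hb', qExpL_of_bounded hG hb]
  ext k
  rw [coeff_twistHom]
  rcases lt_or_ge k 0 with hk | hk
  · rw [ofPowerSeries_coeff_of_neg _ hk, ofPowerSeries_coeff_of_neg _ hk, mul_zero]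
  · obtain ⟨n, rfl⟩ := Int.eq_ofNat_of_zero_le hk
    rw [HahnSeries.ofPowerSeries_apply_coeff, HahnSeries.ofPowerSeries_apply_coeff, ← hc]

/-- The expansion of a translate. -/
theorem qExpL_vadd {G : ℍ → ℂ} (hG : G ∈ qMero) (x : ℝ) :
    qExpL (fun τ => G (x +ᵥ τ)) = twistHom (expUnit x) (qExpL G) := by
  obtain ⟨m, hm⟩ := hG.2.2
  have hΔ := qExpL_vadd_of_bounded discriminant_mem_qMero
    ModularForm.discriminant_isZeroAtImInfty.isBoundedAtImInfty x
  have h := qExpL_vadd_of_bounded (mul_mem hG (pow_mem discriminant_mem_qMero m)) hm x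
  rw [show (fun τ => (G * (ModularForm.discriminant : ℍ → ℂ) ^ m) (x +ᵥ τ)) =
      (fun τ => G (x +ᵥ τ)) * (fun τ => ModularForm.discriminant (x +ᵥ τ)) ^ m from rfl,
    qExpL_mul (vadd_mem_qMero hG x) (pow_mem (vadd_mem_qMero discriminant_mem_qMero x) m),
    qExpL_pow (vadd_mem_qMero discriminant_mem_qMero x), hΔ,
    qExpL_mul hG (pow_mem discriminant_mem_qMero m), qExpL_pow discriminant_mem_qMero,
    map_mul, map_pow] at h
  refine mul_right_cancel₀ (pow_ne_zero m fun h0 => ?_) h
  have h1 : qExpL (ModularForm.discriminant : ℍ → ℂ) ≠ 0 := fun h1 =>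
    ModularForm.discriminant_ne_zero UpperHalfPlane.I
      (congrFun ((qExpL_eq_zero_iff discriminant_mem_qMero).mp h1) _)
  refine h1 (HahnSeries.ext (funext fun n => ?_))
  have := congrArg (fun z => HahnSeries.coeff z n) h0
  exact (by simpa using this : _ ∨ _).resolve_left (zpow_ne_zero _ (Units.ne_zero _))

end Translate

end FermatLib.Galois.DS

end
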