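import Mathlib.RingTheory.AdicCompletion.LocalRing
import Mathlib.Analysis.Complex.Cardinality
import Mathlib.Algebra.MvPolynomial.Cardinal
import Mathlib.FieldTheory.IsAlgClosed.Classification
import Fermat.Agent.Galois.PlaceFiniteLevel
import Fermat.Agent.Galois.PlaceBasic
import Fermat.Agent.Galois.DVRCompletion
import Fermat.Agent.Curve.Descent.AutFixed

/-!
# A complete discrete valuation ring inside `ℂ` at a place of a number field
-/

set_option autoImplicit false
set_option linter.unusedSectionVars false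
set_option linter.style.haveILetI false

noncomputable section

open IsLocalRing Cardinal
open scoped NumberField Cardinal

namespace FermatLib.Galois.DS

open FermatLib.Galois

local notation "Qbar" => AlgebraicClosure ℚ
local notation "ι₀" => complexEmbedding

variable {p : ℕ} (hp : p.Prime) (A : ValuationSubring Qbar) (hA : A.LiesOverPrime p)
  (K : IntermediateField ℚ Qbar) [FiniteDimensional ℚ K]

local instance numberField_placeLevel : NumberField K where

/-- The local ring of `K` at the place under `A`. -/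
abbrev PlaceLocal : Type := Localization.AtPrime (placePrime K A)

theorem isUnit_of_notMem_placePrime (s : (placePrime K A).primeCompl) :
    IsUnit (algebraMap (𝓞 K) K (s : 𝓞 K)) := by
  refine isUnit_iff_ne_zero.mpr fun h => s.2 ?_
  rw [(map_eq_zero_iff _ (IsFractionRing.injective (𝓞 K) K)).mp h]
  exact zero_mem _

/-- The inclusion in `K`. -/
def placeLocalMap : PlaceLocal A K →+* K :=
  IsLocalization.lift (isUnit_of_notMem_placePrime A K)

theorem placeLocalMap_algebraMap (a : 𝓞 K) :
    placeLocalMap A K (algebraMap (𝓞 K) (PlaceLocal A K) a) = (a : K) :=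
  IsLocalization.lift_eq _ a

theorem placeLocalMap_injective : Function.Injective (placeLocalMap A K) :=
  IsLocalization.lift_injective_iff _ |>.mpr fun a b => by
    rw [(IsLocalization.injective (PlaceLocal A K)
      (placePrime K A).primeCompl_le_nonZeroDivisors).eq_iff,
      (IsFractionRing.injective (𝓞 K) K).eq_iff]

include hp hA in
theorem placePrime_ne_bot : placePrime K A ≠ ⊥ := fun h => by
  have := natCast_mem_placePrime K hA
  rw [h, Ideal.mem_bot] at this
  exact hp.ne_zero (by exact_mod_cast this)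

theorem coe_mem_of_integer (a : 𝓞 K) : ((a : K) : Qbar) ∈ A :=
  integral_mem_place A ((NumberField.RingOfIntegers.isIntegral_coe a).map
    (algebraMap K Qbar).toIntAlgHom)

theorem inv_mem_of_notMem_placePrime (s : (placePrime K A).primeCompl) :
    (((s : 𝓞 K) : K) : Qbar)⁻¹ ∈ A := by
  by_contra h
  exact s.2 ((mem_placePrime_iff K).mpr ((ValuationSubring.mem_nonunits_iff_or _).mpr (Or.inr h)))

/-- The values lie in the place; the maximal ideal goes to the maximal ideal. -/
theorem placeLocalMap_mem (r : PlaceLocal A K) :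
    (placeLocalMap A K r : Qbar) ∈ A ∧
      (r ∈ maximalIdeal (PlaceLocal A K) → (placeLocalMap A K r : Qbar) ∈ A.nonunits) := by
  obtain ⟨a, s, rfl⟩ := IsLocalization.exists_mk'_eq (placePrime K A).primeCompl r
  have hs : (((s : 𝓞 K) : K) : Qbar) ≠ 0 := fun h => s.2 (by
    rw [show (s : 𝓞 K) = 0 from Subtype.ext (Subtype.ext h)]
    exact zero_mem _)
  have hval : (placeLocalMap A K (IsLocalization.mk' (PlaceLocal A K) a s) : Qbar) =
      ((a : K) : Qbar) * (((s : 𝓞 K) : K) : Qbar)⁻¹ := by
    have h := congrArg (fun x => ((placeLocalMap A K x : K) : Qbar))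
      (IsLocalization.mk'_spec (PlaceLocal A K) a s)
    simp only [map_mul, placeLocalMap_algebraMap, IntermediateField.coe_mul] at h
    rw [← h, mul_inv_cancel_right₀ hs]
  rw [hval]
  refine ⟨mul_mem (coe_mem_of_integer A K a) (inv_mem_of_notMem_placePrime A K s), fun hr => ?_⟩
  rw [IsLocalization.AtPrime.mk'_mem_maximal_iff _ (placePrime K A)] at hr
  have ha := (mem_placePrime_iff K).mp hr
  rw [ValuationSubring.mem_nonunits_iff] at ha ⊢
  rw [map_mul]
  exact (mul_le_of_le_one_right zero_le
    ((A.valuation_le_one_iff _).mpr (inv_mem_of_notMem_placePrime A K s))).trans_lt ha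

include hp hA in
theorem isDiscreteValuationRing_placeLocal : IsDiscreteValuationRing (PlaceLocal A K) :=
  IsLocalization.AtPrime.isDiscreteValuationRing_of_dedekind_domain (𝓞 K)
    (placePrime_ne_bot hp A hA K) _

include hp hA in
theorem exists_placeLocalMap_eq {x : K} (hx : (x : Qbar) ∈ A) :
    ∃ r, placeLocalMap A K r = x := by
  haveI := isDiscreteValuationRing_placeLocal hp A hA K
  obtain ⟨a, b, hb, rfl⟩ := IsFractionRing.div_surjective (A := 𝓞 K) x
  have hb0 : ((b : K) : Qbar) ≠ 0 := fun h =>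
    nonZeroDivisors.ne_zero hb (Subtype.ext (Subtype.ext h))
  have hbK : (b : K) ≠ 0 := fun h => hb0 (by rw [h]; rfl)
  set a' := algebraMap (𝓞 K) (PlaceLocal A K) a
  set b' := algebraMap (𝓞 K) (PlaceLocal A K) b
  have hab : ∀ c, a' = b' * c → placeLocalMap A K c = algebraMap (𝓞 K) K a / algebraMap (𝓞 K) K b := by
    intro c hc
    have h := congrArg (placeLocalMap A K) hc
    rw [map_mul, placeLocalMap_algebraMap, placeLocalMap_algebraMap] at h
    rw [eq_div_iff hbK, mul_comm]
    exact h.symm
  rcases ValuationRing.dvd_total a' b' with ⟨c, hc⟩ | ⟨c, hc⟩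
  · by_cases hcu : IsUnit c
    · obtain ⟨u, rfl⟩ := hcu
      exact ⟨_, hab _ (by rw [hc, mul_assoc, Units.mul_inv, mul_one])⟩
    · exfalso
      have hnu := (placeLocalMap_mem A K c).2 ((mem_maximalIdeal c).mpr hcu)
      have h := congrArg (fun r => ((placeLocalMap A K r : K) : Qbar)) hc
      simp only [a', b', map_mul, placeLocalMap_algebraMap, IntermediateField.coe_mul] at h
      have hx1 : A.valuation (((a : K) / (b : K) : K) : Qbar) ≤ 1 := (A.valuation_le_one_iff _).mpr hx
      have hone : (((a : K) / (b : K) : K) : Qbar) * (placeLocalMap A K c : Qbar) = 1 := by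
        push_cast
        rw [div_mul_eq_mul_div, ← h, div_self hb0]
      have h1 := congrArg A.valuation hone
      rw [map_mul, map_one] at h1
      exact ((mul_le_of_le_one_left zero_le hx1).trans_lt
        ((A.mem_nonunits_iff).mp hnu)).ne h1
  · exact ⟨c, hab c hc⟩

theorem countable_placeLocal : Countable (PlaceLocal A K) := by
  haveI : Countable K := by
    let b := Module.finBasis ℚ K
    exact b.equivFun.toEquiv.countable_iff.mpr inferInstance
  exact (placeLocalMap_injective A K).countable

/-- An algebraic number in `ℂ` lies in the image of `ℚ̄`. -/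
theorem mem_range_complexEmbedding_of_isAlgebraic {z : ℂ} (hz : IsAlgebraic ℚ z) :
    z ∈ (ι₀).range := by
  refine FermatLib.Curve.mem_range_complexEmbedding_of_finite_orbit
    (((minpoly ℚ z).rootSet_finite ℂ).subset ?_)
  rintro _ ⟨σ, rfl⟩
  rw [Polynomial.mem_rootSet]
  exact ⟨minpoly.ne_zero hz.isIntegral, by
    rw [Polynomial.aeval_algHom_apply, minpoly.aeval, map_zero]⟩

/-- A ring embedding of a number field in `ℂ` is `ι₀` up to an automorphism of `ℂ`. -/
theorem exists_aut_comp_eq (j : K →+* ℂ) :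
    ∃ s : ℂ ≃+* ℂ, ∀ x : K, s (ι₀ (x : Qbar)) = j x := by
  haveI : Algebra.IsAlgebraic ℚ Qbar := AlgebraicClosure.isAlgebraic ℚ
  haveI : Normal ℚ Qbar := normal_iff.mpr fun x =>
    ⟨(Algebra.IsAlgebraic.isAlgebraic (R := ℚ) x).isIntegral, IsAlgClosed.splits _⟩
  have hmem : ∀ x : K, j.toRatAlgHom x ∈ (ι₀).range := fun x =>
    mem_range_complexEmbedding_of_isAlgebraic
      ((Algebra.IsAlgebraic.isAlgebraic (R := ℚ) x).algHom j.toRatAlgHom)
  let eι := AlgEquiv.ofInjective (ι₀) (ι₀).injective
  let ψ : K →ₐ[ℚ] Qbar :=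
    (eι.symm : (ι₀).range →ₐ[ℚ] Qbar).comp (AlgHom.codRestrict j.toRatAlgHom (ι₀).range hmem)
  have hψ : ∀ x : K, ι₀ (ψ x) = j x := fun x =>
    congrArg Subtype.val (eι.apply_symm_apply ⟨_, hmem x⟩)
  let τ := AlgEquiv.ofBijective (ψ.liftNormal Qbar)
    (Algebra.IsAlgebraic.algHom_bijective _)
  obtain ⟨σ, hσ⟩ := FermatLib.Curve.exists_complexAlgEquiv_extends τ
  refine ⟨σ.toRingEquiv, fun x => ?_⟩
  show σ (ι₀ (x : Qbar)) = j x
  rw [hσ, ← hψ]
  exact congrArg _ (AlgHom.liftNormal_commutes ψ Qbar x)

/-- A domain of characteristic zero and at most continuum size embeds in `ℂ`. -/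
theorem exists_embedding_complex (S : Type) [CommRing S] [IsDomain S] [CharZero S] (hS : #S ≤ 𝔠) :
    ∃ em : S →+* ℂ, Function.Injective em := by
  let P := MvPolynomial ℝ S
  let Ω := AlgebraicClosure (FractionRing P)
  let em : S →+* Ω :=
    (algebraMap (FractionRing P) Ω).comp ((algebraMap P (FractionRing P)).comp MvPolynomial.C)
  have hem : Function.Injective em :=
    (algebraMap (FractionRing P) Ω).injective.comp
      ((IsFractionRing.injective P (FractionRing P)).comp (MvPolynomial.C_injective _ _))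
  haveI : CharZero Ω := (RingHom.charZero_iff hem).mp inferInstance
  have hP : #P ≤ 𝔠 := MvPolynomial.cardinalMk_le_max.trans
    (max_le (max_le hS (by rw [Cardinal.mk_real])) aleph0_le_continuum)
  have hΩ : #Ω = 𝔠 := by
    refine le_antisymm ?_ ?_
    · refine (Algebra.IsAlgebraic.cardinalMk_le_max (FractionRing P) Ω).trans
        (max_le ?_ aleph0_le_continuum)
      exact (FractionRing.cardinalMk P).trans_le hP
    · rw [← Cardinal.mk_real]
      exact Cardinal.mk_le_of_injective (f := fun x : ℝ =>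
        algebraMap (FractionRing P) Ω (algebraMap P _ (MvPolynomial.X x)))
        ((algebraMap (FractionRing P) Ω).injective.comp
          ((IsFractionRing.injective P (FractionRing P)).comp MvPolynomial.X_injective))
  obtain ⟨e⟩ := IsAlgClosed.ringEquiv_of_equiv_of_charZero (K := Ω) (L := ℂ)
    (hΩ ▸ aleph0_lt_continuum) (Cardinal.eq.mp (hΩ.trans mk_complex.symm))
  exact ⟨(e : Ω →+* ℂ).comp em, e.injective.comp hem⟩

include hp hA in
/-- The completion embeds in `ℂ`, compatibly with `ι₀`. -/
theorem exists_completion_embedding :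
    haveI := isDiscreteValuationRing_placeLocal hp A hA K
    ∃ J : AdicCompletion (maximalIdeal (PlaceLocal A K)) (PlaceLocal A K) →+* ℂ,
      Function.Injective J ∧
        ∀ r : PlaceLocal A K, J (algebraMap _ _ r) = ι₀ (placeLocalMap A K r : Qbar) := by
  haveI := isDiscreteValuationRing_placeLocal hp A hA K
  haveI := countable_placeLocal A K
  let R := PlaceLocal A K
  let Rh := AdicCompletion (maximalIdeal R) R
  haveI : IsDomain Rh := isDomain_dvrCompletion R
  haveI : CharZero R := (RingHom.charZero_iff (placeLocalMap_injective A K)).mpr inferInstance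
  haveI : CharZero Rh := charZero_dvrCompletion R
  have hRh : #Rh ≤ 𝔠 := by
    obtain ⟨c, hc⟩ := exists_injective_nat R
    refine (Cardinal.mk_le_of_injective (f := fun (x : Rh) (n : ℕ) => c (x.1 n).out)
      fun x y h => ?_).trans_eq (by simp)
    refine Subtype.ext (funext fun n => ?_)
    rw [← Quotient.out_eq (x.1 n), ← Quotient.out_eq (y.1 n), hc (congrFun h n)]
  obtain ⟨em, hem⟩ := exists_embedding_complex Rh hRh
  let j : R →+* ℂ := em.comp (algebraMap R Rh)
  have hj : Function.Injective j :=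
    hem.comp (dvrCompletion_algebraMap_injective R)
  have hj' : Function.Injective (j.comp (algebraMap (𝓞 K) R)) := fun a b h => by
    have := congrArg (placeLocalMap A K) (hj h)
    rw [placeLocalMap_algebraMap, placeLocalMap_algebraMap] at this
    exact Subtype.ext this
  obtain ⟨s, hs⟩ := exists_aut_comp_eq K (IsFractionRing.lift hj' : K →+* ℂ)
  have hjr : j = (IsFractionRing.lift hj' : K →+* ℂ).comp (placeLocalMap A K) :=
    IsLocalization.ringHom_ext (placePrime K A).primeCompl (RingHom.ext fun a => by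
      show j (algebraMap (𝓞 K) R a) = IsFractionRing.lift hj'
        (placeLocalMap A K (algebraMap (𝓞 K) R a))
      rw [placeLocalMap_algebraMap]
      exact (IsFractionRing.lift_algebraMap hj' a).symm)
  refine ⟨(s.symm : ℂ →+* ℂ).comp em,
    s.symm.injective.comp hem, fun r => ?_⟩
  show s.symm (j r) = _
  rw [RingHom.congr_fun hjr r, RingHom.comp_apply, ← hs, s.symm_apply_apply]

/-- Transport of a complete discrete valuation ring into `ℂ`. -/
theorem isAdicComplete_range {S : Type*} [CommRing S] [IsDomain S] [IsDiscreteValuationRing S]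
    [IsAdicComplete (maximalIdeal S) S] {J : S →+* ℂ} (hJ : Function.Injective J) :
    ∃ _ : IsDiscreteValuationRing J.range, IsAdicComplete (maximalIdeal J.range) J.range ∧
      (∀ x : S, J.rangeRestrict x ∈ maximalIdeal J.range ↔ x ∈ maximalIdeal S) ∧
      ∀ ϖ : S, Irreducible ϖ → Irreducible (J.rangeRestrict ϖ) := by
  let e : S ≃+* J.range :=
    RingEquiv.ofBijective J.rangeRestrict
      ⟨fun a b h => hJ (congrArg Subtype.val h), J.rangeRestrict_surjective⟩
  haveI hdvr : IsDiscreteValuationRing J.range :=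
    IsDiscreteValuationRing.RingEquivClass.isDiscreteValuationRing e
  obtain ⟨ϖ, hirr⟩ := IsDiscreteValuationRing.exists_irreducible S
  have hirrO : Irreducible (e ϖ) := hirr.map e
  refine ⟨hdvr, ?_, fun x => ?_, fun ϖ' h => h.map e⟩
  · have hI : ∀ n : ℕ, (maximalIdeal J.range ^ n • ⊤ : Submodule J.range J.range) =
        Ideal.span {e ϖ ^ n} := fun n => by
      rw [smul_eq_mul, Ideal.mul_top, hirrO.maximalIdeal_eq, Ideal.span_singleton_pow]
    have hI' : ∀ n : ℕ, (maximalIdeal S ^ n • ⊤ : Submodule S S) = Ideal.span {ϖ ^ n} := fun n => by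
      rw [smul_eq_mul, Ideal.mul_top, hirr.maximalIdeal_eq, Ideal.span_singleton_pow]
    refine { haus' := (inferInstance : IsHausdorff (maximalIdeal J.range) J.range).haus',
             prec' := fun f hf => ?_ }
    obtain ⟨L, hL⟩ := IsPrecomplete.prec (I := maximalIdeal S) (M := S) inferInstance
      (f := fun n => e.symm (f n)) fun {m n} hmn => by
      have := hf hmn
      rw [hI, SModEq.sub_mem, Ideal.mem_span_singleton] at this
      rw [hI', SModEq.sub_mem, Ideal.mem_span_singleton]
      simpa using map_dvd e.symm this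
    refine ⟨e L, fun n => ?_⟩
    have := hL n
    rw [hI', SModEq.sub_mem, Ideal.mem_span_singleton] at this
    rw [hI, SModEq.sub_mem, Ideal.mem_span_singleton]
    simpa using map_dvd e this
  · rw [show J.rangeRestrict x = e x from rfl, mem_maximalIdeal, mem_nonunits_iff, isUnit_map_iff]
    exact (mem_maximalIdeal x).symm

include hp hA in
/-- **A complete place inside `ℂ`.** -/
theorem exists_placeRing :
    ∃ (O : Subring ℂ) (_ : IsDiscreteValuationRing O),
      IsAdicComplete (maximalIdeal O) O ∧ (p : O) ∈ maximalIdeal O ∧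
      (∀ x ∈ K, ι₀ x ∈ O ↔ x ∈ A) ∧
      (∀ x ∈ K, ∀ hx : ι₀ x ∈ O, (⟨ι₀ x, hx⟩ : O) ∈ maximalIdeal O ↔ x ∈ A.nonunits) ∧
      ∃ ϖ : O, Irreducible ϖ ∧ ∃ π ∈ K, π ∈ A ∧ ι₀ π = (ϖ : ℂ) := by
  haveI := isDiscreteValuationRing_placeLocal hp A hA K
  obtain ⟨J, hJi, hJ⟩ := exists_completion_embedding hp A hA K
  haveI : IsDomain (AdicCompletion (maximalIdeal (PlaceLocal A K)) (PlaceLocal A K)) :=
    isDomain_dvrCompletion _
  haveI : IsDiscreteValuationRing (AdicCompletion (maximalIdeal (PlaceLocal A K)) (PlaceLocal A K)) :=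
    isDiscreteValuationRing_dvrCompletion _
  haveI : IsAdicComplete (maximalIdeal (AdicCompletion (maximalIdeal (PlaceLocal A K)) (PlaceLocal A K)))
      (AdicCompletion (maximalIdeal (PlaceLocal A K)) (PlaceLocal A K)) := by
    rw [AdicCompletion.maximalIdeal_eq_map]
    exact AdicCompletion.isAdicComplete_self _ (maximalIdeal (PlaceLocal A K)).fg_of_isNoetherianRing
  obtain ⟨hdvr, hcomp, hmax, hirr⟩ := isAdicComplete_range hJi
  haveI := hdvr
  set emb : PlaceLocal A K →+* J.range := J.rangeRestrict.comp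
    (algebraMap (PlaceLocal A K) (AdicCompletion (maximalIdeal (PlaceLocal A K)) (PlaceLocal A K)))
    with hemb
  have hval : ∀ r, (emb r : ℂ) = ι₀ (placeLocalMap A K r : Qbar) := hJ
  have hembmax : ∀ r ∈ maximalIdeal (PlaceLocal A K), emb r ∈ maximalIdeal J.range := fun r hr => by
    refine (hmax _).mpr ?_
    rw [AdicCompletion.maximalIdeal_eq_map]
    exact Ideal.mem_map_of_mem _ hr
  -- elements of the maximal ideal
  have hnu : ∀ r, (placeLocalMap A K r : Qbar) ∈ A.nonunits ↔ emb r ∈ maximalIdeal J.range := by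
    intro r
    refine ⟨fun hn => hembmax r ?_, fun hm => (placeLocalMap_mem A K r).2 ?_⟩
    · rw [mem_maximalIdeal]
      intro hu
      obtain ⟨u, rfl⟩ := hu
      have h1 : (placeLocalMap A K (u : PlaceLocal A K) : Qbar) *
          (placeLocalMap A K ((u⁻¹ : (PlaceLocal A K)ˣ) : PlaceLocal A K) : Qbar) = 1 := by
        rw [← IntermediateField.coe_mul, ← map_mul, Units.mul_inv, map_one, OneMemClass.coe_one]
      have h2 := congrArg A.valuation h1
      rw [map_mul, map_one] at h2
      exact ((mul_le_of_le_one_right zero_le ((A.valuation_le_one_iff _).mpr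
        (placeLocalMap_mem A K _).1)).trans_lt ((A.mem_nonunits_iff).mp hn)).ne h2
    · rw [mem_maximalIdeal]
      exact fun hu => (mem_maximalIdeal _).mp hm (hu.map emb)
  have hin : ∀ x ∈ K, x ∈ A → ∃ r, (emb r : ℂ) = ι₀ x ∧ (placeLocalMap A K r : Qbar) = x := by
    intro x hxK hxA
    obtain ⟨r, hr⟩ := exists_placeLocalMap_eq hp A hA K (x := ⟨x, hxK⟩) hxA
    exact ⟨r, by rw [hval, hr], by rw [hr]⟩
  have hmem : ∀ x ∈ K, ι₀ x ∈ J.range ↔ x ∈ A := by
    refine fun x hxK => ⟨fun hx => ?_, fun hxA => ?_⟩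
    · by_contra hxA
      have hx0 : x ≠ 0 := fun h => hxA (h ▸ zero_mem A)
      have hinv : x⁻¹ ∈ A.nonunits := A.mem_nonunits_iff_or.mpr (Or.inr (by rwa [inv_inv]))
      obtain ⟨r, hr, hr'⟩ := hin x⁻¹ (inv_mem hxK) (A.nonunits_subset hinv)
      refine (mem_maximalIdeal _).mp ((hnu r).mp (hr' ▸ hinv)) ?_
      refine IsUnit.of_mul_eq_one ⟨ι₀ x, hx⟩ (Subtype.ext ?_)
      show (emb r : ℂ) * ι₀ x = 1
      rw [hr, ← map_mul, inv_mul_cancel₀ hx0, map_one]
    · obtain ⟨r, hr, -⟩ := hin x hxK hxA
      exact hr ▸ (emb r).2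
  refine ⟨J.range, hdvr, hcomp, ?_, hmem, fun x hxK hx => ?_, ?_⟩
  · rw [← map_natCast emb]
    refine (hnu _).mp ?_
    rw [map_natCast]
    simpa using (show (p : Qbar) ∈ A.nonunits from hA)
  · obtain ⟨r, hr, hr'⟩ := hin x hxK ((hmem x hxK).mp hx)
    rw [show (⟨ι₀ x, hx⟩ : J.range) = emb r from Subtype.ext hr.symm, ← hnu, hr']
  · obtain ⟨ϖ₀, hϖ₀⟩ := IsDiscreteValuationRing.exists_irreducible (PlaceLocal A K)
    refine ⟨emb ϖ₀, hirr _ ?_, (placeLocalMap A K ϖ₀ : Qbar), (placeLocalMap A K ϖ₀).2,
      (placeLocalMap_mem A K ϖ₀).1, (hval ϖ₀).symm⟩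
    exact (IsDiscreteValuationRing.irreducible_iff_uniformizer _).mpr
      (maximalIdeal_dvrCompletion _ hϖ₀)

end FermatLib.Galois.DS

end
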