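import Mathlib.FieldTheory.Galois.Infinite
import Fermat.Prelude.Def_GaloisRep_Residual
import Fermat.Agent.Curve.Descent.AutFixed
import Fermat.Agent.Galois.DS.ConjClass

/-!
# The Galois representation on parabolic classes modulo `ℓ`
-/

set_option autoImplicit false
set_option linter.unusedSectionVars false

noncomputable section

open UpperHalfPlane CongruenceSubgroup ModularCurve
open scoped MatrixGroups Manifold

namespace FermatLib.Galois.DS

local notation "Γℚ" => (AlgebraicClosure ℚ ≃ₐ[ℚ] AlgebraicClosure ℚ)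
local notation "ι₀" => complexEmbedding

variable {M : ℕ} [NeZero M] {ℓ : ℕ} [Fact ℓ.Prime] (hM : 4 ∣ M ∨ 5 ∣ M) (hM5 : 5 ≤ M)
include hM hM5

omit hM hM5 in
theorem finiteIndex_of_ker_le {G H : Type*} [Group G] [Monoid H] [Finite H] (f : G →* H)
    {K : Subgroup G} (h : f.ker ≤ K) : K.FiniteIndex := by
  have hk : f.toHomUnits.ker ≤ K := fun σ hσ => h (by
    rw [MonoidHom.mem_ker] at hσ ⊢
    rw [← MonoidHom.coe_toHomUnits, hσ, Units.val_one])
  haveI : f.toHomUnits.ker.FiniteIndex := Subgroup.finiteIndex_ker f.toHomUnits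
  exact Subgroup.finiteIndex_of_le hk

/-- The coefficients of a distinguished representative are algebraic. -/
theorem IsMaxRep.coeff_mem_range {φ : ParHom M ℓ} {g : modRing M} (hg : IsMaxRep M ℓ φ.1 g)
    (n : ℤ) : (qExp1 M g).coeff n ∈ (ι₀).range := by
  have := finite_parHom (M := M) (ℓ := ℓ)
  choose R hR using fun ψ : ParHom M ℓ => exists_isMaxRep hM5 ψ.2
  refine FermatLib.Curve.mem_range_complexEmbedding_of_finite_orbit
    ((Set.finite_range fun ψ : ParHom M ℓ => (qExp1 M (R ψ)).coeff n).subset ?_)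
  rintro _ ⟨σ, rfl⟩
  exact ⟨galClass hM hM5 σ.toRingEquiv φ,
    hg.coeff_galClass hM hM5 (σ := σ.toRingEquiv) (hR _) n⟩

/-- An extension of an automorphism of `ℚ̄` to `ℂ`. -/
def qbarExt (σ : Γℚ) : ℂ ≃+* ℂ :=
  (FermatLib.Curve.exists_complexAlgEquiv_extends σ).choose.toRingEquiv

omit hM hM5 in
theorem qbarExt_apply (σ : Γℚ) (a : AlgebraicClosure ℚ) :
    qbarExt σ (ι₀ a) = ι₀ (σ a) :=
  (FermatLib.Curve.exists_complexAlgEquiv_extends σ).choose_spec a

/-- The action on classes depends only on the action on algebraic numbers. -/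
theorem galClass_congr {σ τ : ℂ ≃+* ℂ} (h : ∀ a, σ (ι₀ a) = τ (ι₀ a)) (φ : ParHom M ℓ) :
    galClass hM hM5 σ φ = galClass hM hM5 τ φ := by
  obtain ⟨g, hg⟩ := exists_isMaxRep hM5 φ.2
  have h1 : galClass hM hM5 (σ.trans τ.symm) φ = φ := by
    refine galClass_eq_self hM hM5 hg.1 fun n => ?_
    obtain ⟨a, ha⟩ := hg.coeff_mem_range hM hM5 n
    rw [← show ι₀ a = _ from ha]
    show τ.symm (σ (ι₀ a)) = _
    rw [h, τ.symm_apply_apply]
  conv_rhs => rw [← h1]
  rw [← galClass_trans hM hM5]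
  congr 1
  ext x
  simp

variable (ℓ) in
/-- The Galois representation on `Hom_par(Γ₁(M), ℤ/ℓ)`. -/
def galParRep : Γℚ →* Module.End (ZMod ℓ) (ParHom M ℓ) where
  toFun σ := galEnd ℓ hM hM5 (qbarExt σ)
  map_one' := LinearMap.ext fun φ => by
    rw [galEnd_apply, Module.End.one_apply]
    refine (galClass_congr hM hM5 (fun a => ?_) φ).trans (galClass_refl hM hM5 φ)
    rw [qbarExt_apply]; rfl
  map_mul' σ τ := LinearMap.ext fun φ => by
    rw [galEnd_apply, Module.End.mul_apply, galEnd_apply, galEnd_apply, ← galClass_trans hM hM5]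
    refine galClass_congr hM hM5 (fun a => ?_) φ
    rw [qbarExt_apply, RingEquiv.trans_apply, qbarExt_apply, qbarExt_apply]
    rfl

theorem galParRep_apply {σ : Γℚ} {s : ℂ ≃+* ℂ} (h : ∀ a, s (ι₀ a) = ι₀ (σ a)) (φ : ParHom M ℓ) :
    galParRep ℓ hM hM5 σ φ = galClass hM hM5 s φ := by
  show galEnd ℓ hM hM5 (qbarExt σ) φ = _
  rw [galEnd_apply]
  exact galClass_congr hM hM5 (fun a => by rw [qbarExt_apply, h]) φ

/-- An automorphism moves the coefficients as it moves the classes. -/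
theorem galParRep_coeff (σ : Γℚ) (ψ : ParHom M ℓ) {g g' : modRing M} (hg : IsMaxRep M ℓ ψ.1 g)
    (hg' : IsMaxRep M ℓ (galParRep ℓ hM hM5 σ ψ).1 g') (n : ℤ) (a b : AlgebraicClosure ℚ)
    (ha : ι₀ a = (qExp1 M g).coeff n) (hb : ι₀ b = (qExp1 M g').coeff n) : σ a = b := by
  refine (ι₀).injective ?_
  rw [galParRep_apply hM hM5 (s := qbarExt σ) (qbarExt_apply σ)] at hg'
  show ι₀ (σ a) = ι₀ b
  rw [← qbarExt_apply, ha, hb]
  exact (hg.coeff_galClass hM hM5 hg' n).symm

theorem galParRep_factors : GaloisFactorsThroughFiniteLevel (galParRep ℓ (M := M) hM hM5) := by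
  classical
  have := finite_parHom (M := M) (ℓ := ℓ)
  choose R hR using fun ψ : ParHom M ℓ => exists_isMaxRep hM5 ψ.2
  choose a ha using fun (ψ : ParHom M ℓ) (n : ℤ) => (hR ψ).coeff_mem_range hM hM5 n
  set L : IntermediateField ℚ (AlgebraicClosure ℚ) :=
    IntermediateField.adjoin ℚ (Set.range fun x : ParHom M ℓ × ℤ => a x.1 x.2) with hL
  -- an automorphism acts on the coefficients through the classes
  have hact : ∀ (σ : Γℚ) (ψ : ParHom M ℓ) (n : ℤ),
      σ (a ψ n) = a (galParRep ℓ hM hM5 σ ψ) n := fun σ ψ n =>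
    galParRep_coeff hM hM5 σ ψ (hR ψ) (hR _) n _ _ (ha ψ n) (ha _ n)
  have hfix : ∀ σ : Γℚ, (∀ ψ, galParRep ℓ hM hM5 σ ψ = ψ) → σ ∈ L.fixingSubgroup := by
    intro σ hσ
    rw [hL, IntermediateField.mem_fixingSubgroup_iff]
    intro x hx
    induction hx using IntermediateField.adjoin_induction with
    | mem x hx => obtain ⟨⟨ψ, n⟩, rfl⟩ := hx; simp only [hact, hσ]
    | algebraMap q => exact AlgEquiv.commutes _ _
    | add x y _ _ hx hy => rw [map_add, hx, hy]
    | inv x _ hx => rw [map_inv₀, hx]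
    | mul x y _ _ hx hy => rw [map_mul, hx, hy]
  haveI : Algebra.IsAlgebraic ℚ (AlgebraicClosure ℚ) := AlgebraicClosure.isAlgebraic ℚ
  haveI : IsAlgClosure ℚ (AlgebraicClosure ℚ) := ⟨inferInstance, inferInstance⟩
  haveI : IsGalois ℚ (AlgebraicClosure ℚ) := IsAlgClosure.isGalois ℚ _
  haveI hfi : L.fixingSubgroup.FiniteIndex := by
    haveI : Finite (Module.End (ZMod ℓ) (ParHom M ℓ)) :=
      Finite.of_injective _ (DFunLike.coe_injective (F := ParHom M ℓ →ₗ[ZMod ℓ] ParHom M ℓ))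
    refine finiteIndex_of_ker_le (galParRep ℓ (M := M) hM hM5) fun σ hσ => hfix σ fun ψ => ?_
    rw [MonoidHom.mem_ker.mp hσ, Module.End.one_apply]
  refine ⟨L, (InfiniteGalois.isOpen_iff_finite L).mp
    (Subgroup.isOpen_of_isClosed_of_finiteIndex _ (InfiniteGalois.fixingSubgroup_isClosed L)),
    fun σ hσ => ?_⟩
  refine LinearMap.ext fun φ => ?_
  show galEnd ℓ hM hM5 (qbarExt σ) φ = φ
  rw [galEnd_apply]
  refine galClass_eq_self hM hM5 (hR φ).1 fun n => ?_
  rw [← show ι₀ (a φ n) = _ from ha φ n, qbarExt_apply,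
    hσ _ (IntermediateField.subset_adjoin ℚ _ ⟨(φ, n), rfl⟩)]

end FermatLib.Galois.DS

end
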