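import Mathlib.FieldTheory.Normal.Closure
import Fermat.Agent.Galois.DS.QbarAction
import Fermat.Agent.Galois.DS.LaurentTwist
import Fermat.Agent.Galois.DS.PlaceRing

/-!
# A number field of definition for the distinguished functions
-/

set_option autoImplicit false
set_option linter.unusedSectionVars false
set_option linter.style.haveILetI false

noncomputable section

open UpperHalfPlane CongruenceSubgroup ModularCurve
open scoped MatrixGroups

namespace FermatLib.Galois.DS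

local notation "Qbar" => AlgebraicClosure ℚ
local notation "Γℚ" => (AlgebraicClosure ℚ ≃ₐ[ℚ] AlgebraicClosure ℚ)
local notation "ι₀" => complexEmbedding

variable {M : ℕ} [NeZero M]

/-- The coefficients at `∞` lie in `K`. -/
def HasCoeffIn (K : IntermediateField ℚ Qbar) (G : modRing M) : Prop :=
  ∀ n : ℤ, ∃ a ∈ K, ι₀ a = (qExp1 M G).coeff n

/-- `σ` carries the coefficients of `G` to those of `G'`. -/
def IsQConj (σ : Γℚ) (G G' : modRing M) : Prop :=
  ∀ (n : ℤ) (a : Qbar), ι₀ a = (qExp1 M G).coeff n → (qExp1 M G').coeff n = ι₀ (σ a)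

theorem isQConj_of_isConjFn {σ : Γℚ} {G G' : modRing M} (h : IsConjFn M (qbarExt σ) G G') :
    IsQConj σ G G' := fun n a ha => by
  rw [h.coeff_eq, ← ha, qbarExt_apply]

theorem HasCoeffIn.smul {K : IntermediateField ℚ Qbar} {G : modRing M} (hG : HasCoeffIn K G)
    {a : Qbar} (ha : a ∈ K) : HasCoeffIn K (ι₀ a • G) := fun n => by
  obtain ⟨b, hb, hbn⟩ := hG n
  refine ⟨a * b, mul_mem ha hb, ?_⟩
  rw [map_mul, hbn, qExp1_smul, HahnSeries.coeff_single_zero_mul]

variable {K : IntermediateField ℚ Qbar} [FiniteDimensional ℚ K]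

theorem normal_qbar_coeff : Normal ℚ Qbar :=
  haveI : Algebra.IsAlgebraic ℚ Qbar := AlgebraicClosure.isAlgebraic ℚ
  normal_iff.mpr fun x =>
    ⟨(Algebra.IsAlgebraic.isAlgebraic (R := ℚ) x).isIntegral, IsAlgClosed.splits _⟩

theorem mem_of_forall_fixing {a : Qbar} (h : ∀ τ : Γℚ, (∀ x ∈ K, τ x = x) → τ a = a) : a ∈ K := by
  haveI : Algebra.IsAlgebraic ℚ Qbar := AlgebraicClosure.isAlgebraic ℚ
  haveI := normal_qbar_coeff
  haveI : IsGalois ℚ Qbar := ⟨⟩
  rw [← InfiniteGalois.fixedField_fixingSubgroup K, IntermediateField.mem_fixedField_iff]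
  exact fun τ hτ => h τ ((IntermediateField.mem_fixingSubgroup_iff K τ).mp hτ)

/-- A number fixed by every automorphism fixing `K` lies in `K`. -/
theorem exists_mem_of_fixed {z : ℂ}
    (hz : ∀ s : ℂ ≃+* ℂ, (∀ x ∈ K, s (ι₀ x) = ι₀ x) → s z = z) : ∃ a ∈ K, ι₀ a = z := by
  obtain ⟨a, rfl⟩ : z ∈ (ι₀).range := by
    refine FermatLib.Curve.mem_range_complexEmbedding_of_finite_orbit ((Set.finite_iUnion
      (f := fun ψ : K →ₐ[ℚ] ℂ => {w | ∃ σ : ℂ ≃ₐ[ℚ] ℂ, (∀ x : K, σ (ι₀ (x : Qbar)) = ψ x) ∧ σ z = w})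
      fun ψ => Set.Subsingleton.finite ?_).subset ?_)
    · rintro _ ⟨σ, hσ, rfl⟩ _ ⟨τ, hτ, rfl⟩
      have := hz (σ.trans τ.symm).toRingEquiv fun x hx => by
        show τ.symm (σ (ι₀ x)) = _
        rw [hσ ⟨x, hx⟩, ← hτ ⟨x, hx⟩, τ.symm_apply_apply]
      exact τ.symm.injective (this.trans (τ.symm_apply_apply z).symm)
    · rintro _ ⟨σ, rfl⟩
      exact Set.mem_iUnion.mpr ⟨(σ : ℂ →ₐ[ℚ] ℂ).comp ((ι₀).comp K.val), σ, fun x => rfl, rfl⟩
  refine ⟨a, mem_of_forall_fixing fun τ hτ => (ι₀).injective ?_, rfl⟩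
  exact ((qbarExt_apply τ a).symm.trans
    (hz (qbarExt τ) fun x hx => by rw [qbarExt_apply, hτ x hx]))

variable (hM : 4 ∣ M ∨ 5 ∣ M) (hM5 : 5 ≤ M)
include hM hM5

/-- Diamond operators preserve the field of definition. -/
theorem HasCoeffIn.diamondFn {G : modRing M} (hG : HasCoeffIn K G) (γ : Gamma0 M) :
    HasCoeffIn K (diamondFn M γ G) := by
  intro n
  refine exists_mem_of_fixed fun s hs => ?_
  have h : IsConjFn M s G G := by
    refine HahnSeries.ext (funext fun m => ?_)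
    obtain ⟨a, ha, ham⟩ := hG m
    rw [coeffMap_coeff, ← ham]
    exact (hs a ha).symm
  exact ((isConjFn_diamondFn M hM hM5 s γ h).coeff_eq n).symm

/-- **The field of definition.** -/
theorem exists_coeffField (ℓ : ℕ) [Fact ℓ.Prime] (p : ℕ) [NeZero p] :
    ∃ K : IntermediateField ℚ Qbar, FiniteDimensional ℚ K ∧ Normal ℚ K ∧
      (∀ (φ : ParHom M ℓ) (g : modRing M), IsMaxRep M ℓ φ.1 g → HasCoeffIn K g) ∧
      (∃ z ∈ K, ι₀ z = Complex.exp (2 * Real.pi * Complex.I / M)) ∧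
      ∀ j : Fin p, ∃ z ∈ K, ι₀ z = (expUnit ((j : ℕ) / p) : ℂ) := by
  haveI := normal_qbar_coeff
  obtain ⟨L, hL, hL1⟩ := galParRep_factors (M := M) (ℓ := ℓ) hM hM5
  have hroot : ∀ (m : ℕ) [NeZero m], ∃ z : Qbar, IsIntegral ℚ z ∧
      ι₀ z = Complex.exp (2 * Real.pi * Complex.I / m) := by
    intro m _
    have hint : IsIntegral ℚ (Complex.exp (2 * Real.pi * Complex.I / m)) :=
      (Complex.isPrimitiveRoot_exp m (NeZero.ne m)).isIntegral (NeZero.pos m) |>.tower_top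
    obtain ⟨z, hz⟩ := mem_range_complexEmbedding_of_isAlgebraic hint.isAlgebraic
    exact ⟨z, (AlgebraicClosure.isAlgebraic ℚ).isAlgebraic z |>.isIntegral, hz⟩
  obtain ⟨zM, hzMi, hzM⟩ := hroot M
  obtain ⟨zp, hzpi, hzp⟩ := hroot p
  haveI := hL
  haveI : FiniteDimensional ℚ (IntermediateField.adjoin ℚ ({zM, zp} : Set Qbar)) :=
    IntermediateField.finiteDimensional_adjoin fun x hx =>
      ((AlgebraicClosure.isAlgebraic ℚ).isAlgebraic x).isIntegral
  set L' : IntermediateField ℚ Qbar := L ⊔ IntermediateField.adjoin ℚ ({zM, zp} : Set Qbar)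
  refine ⟨IntermediateField.normalClosure ℚ L' Qbar, inferInstance, normalClosure.normal ℚ L' Qbar,
    fun φ g hg n => ?_, ⟨zM, L'.le_normalClosure (SetLike.le_def.mp le_sup_right
      (IntermediateField.subset_adjoin ℚ _ (Set.mem_insert _ _))), hzM⟩, fun j => ?_⟩
  · obtain ⟨a, ha⟩ := hg.coeff_mem_range hM hM5 n
    refine ⟨a, L'.le_normalClosure (SetLike.le_def.mp le_sup_left
      (mem_of_forall_fixing fun τ hτ => ?_)), ha⟩
    refine galParRep_coeff hM hM5 τ φ hg ?_ n a a ha ha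
    rw [hL1 τ hτ]
    exact hg
  · refine ⟨zp ^ (j : ℕ), pow_mem (L'.le_normalClosure (SetLike.le_def.mp le_sup_right
      (IntermediateField.subset_adjoin ℚ _ (Set.mem_insert_of_mem _ (Set.mem_singleton _))))) _, ?_⟩
    rw [map_pow, hzp, ← Complex.exp_nat_mul]
    simp only [expUnit, Units.val_mk0]
    push_cast
    ring_nf

end FermatLib.Galois.DS

end
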