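import Fermat.Agent.Galois.DS.HeckeGamma1
import Mathlib.Algebra.FreeAlgebra
import Mathlib.GroupTheory.Schreier
import Mathlib.NumberTheory.ModularForms.ArithmeticSubgroups
import Mathlib.RingTheory.Polynomial.ScaleRoots
import Mathlib.LinearAlgebra.Charpoly.Basic
import Mathlib.LinearAlgebra.FreeModule.PID

/-!
# Hecke polynomials acting on parabolic homomorphisms of `Γ₁(M)`

Integral parabolic homomorphisms span the complex ones, and a residual character of the free
Hecke algebra which kills the kernel of the action on the integral ones kills what acts as a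
multiple of `ℓ`.
-/

set_option autoImplicit false

noncomputable section

open CongruenceSubgroup ModularCurve.Period
open scoped MatrixGroups

namespace FermatLib.Galois.DS

open FermatLib.Modular

theorem gamma1_fg' (M : ℕ) [NeZero M] : Group.FG (Gamma1 M) := by
  have : Group.FG SL(2, ℤ) := ⟨⟨{ModularGroup.S, ModularGroup.T}, by
    rw [Finset.coe_insert, Finset.coe_singleton]
    exact SpecialLinearGroup.SL2Z_generators⟩⟩
  infer_instance

variable (M : ℕ)

/-- Symbols `T p` and `⟨p⟩`, `p ∤ M`. -/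
abbrev HGen : Type := {p : ℕ // p.Prime ∧ Nat.Coprime p M} ⊕ {p : ℕ // p.Prime ∧ Nat.Coprime p M}

variable {M} (A : Type*) [AddCommGroup A]

/-- A generator acting on parabolic homomorphisms. -/
def parGen : HGen M → Module.End ℤ (parabolicHoms ℤ (Gamma1 M) A)
  | .inl p => ((heckeSystem1 M p.1 p.2.1 p.2.2).op ℤ).restrict fun _ hφ =>
      op1_mem ℤ p.2.1 p.2.2 hφ
  | .inr p =>
    { toFun := fun φ => ⟨diamondHom (diamondMat M p.1 p.2.2) φ.1, diamondHom_mem ℤ _ φ.2⟩
      map_add' := fun _ _ => rfl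
      map_smul' := fun _ _ => rfl }

variable (M) in
/-- Hecke polynomials acting on parabolic homomorphisms. -/
def parPolyRep : FreeAlgebra ℤ (HGen M) →ₐ[ℤ] Module.End ℤ (parabolicHoms ℤ (Gamma1 M) A) :=
  FreeAlgebra.lift ℤ (parGen A)

theorem parPolyRep_ι (g : HGen M) : parPolyRep M A (FreeAlgebra.ι ℤ g) = parGen A g :=
  FreeAlgebra.lift_ι_apply _ _

variable {A} {B : Type*} [AddCommGroup B]

/-- Change of coefficients. -/
def parMap (e : A →+ B) :
    parabolicHoms ℤ (Gamma1 M) A →ₗ[ℤ] parabolicHoms ℤ (Gamma1 M) B where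
  toFun φ := ⟨e.comp φ.1, fun γ hγ => by simp [φ.2 γ hγ]⟩
  map_add' φ ψ := Subtype.ext (AddMonoidHom.ext fun γ => map_add e _ _)
  map_smul' c φ := Subtype.ext (AddMonoidHom.ext fun γ => map_zsmul e c _)

theorem parMap_apply (e : A →+ B) (φ : parabolicHoms ℤ (Gamma1 M) A) :
    (parMap e φ).1 = e.comp φ.1 := rfl

theorem parPolyRep_natural (e : A →+ B) (P : FreeAlgebra ℤ (HGen M))
    (φ : parabolicHoms ℤ (Gamma1 M) A) :
    parPolyRep M B P (parMap e φ) = parMap e (parPolyRep M A P φ) := by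
  induction P using FreeAlgebra.induction generalizing φ with
  | grade0 r => simp
  | grade1 g =>
    rw [parPolyRep_ι, parPolyRep_ι]
    cases g with
    | inl p => exact Subtype.ext ((heckeSystem1 M p.1 p.2.1 p.2.2).op_comp_left ℤ e φ.1)
    | inr p => rfl
  | mul P Q hP hQ => simp [map_mul, Module.End.mul_apply, hP, hQ]
  | add P Q hP hQ => simp [map_add, hP, hQ]

variable [NeZero M]

instance finite_parInt : Module.Finite ℤ (parabolicHoms ℤ (Gamma1 M) ℤ) := by
  classical
  obtain ⟨s, hs⟩ := (gamma1_fg' M).out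
  let ev : parabolicHoms ℤ (Gamma1 M) ℤ →ₗ[ℤ] (s → ℤ) :=
    { toFun := fun φ x => φ.1 (Additive.ofMul (x : Gamma1 M))
      map_add' := fun _ _ => rfl
      map_smul' := fun _ _ => rfl }
  refine Module.Finite.of_injective ev fun φ ψ h => Subtype.ext (AddMonoidHom.ext fun γ => ?_)
  obtain ⟨x, rfl⟩ := Additive.ofMul.surjective γ
  have hx : x ∈ Subgroup.closure (s : Set (Gamma1 M)) := hs ▸ Subgroup.mem_top _
  induction hx using Subgroup.closure_induction with
  | mem x hx => exact congrFun h ⟨x, hx⟩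
  | one => simp
  | mul x y _ _ hx hy => simp [ofMul_mul, hx, hy]
  | inv x _ hx => simp [ofMul_inv, hx]

/-- A parabolic homomorphism with values in a torsion-free group is a combination of integral
ones. -/
theorem exists_eq_sum_parMap [Module.IsTorsionFree ℤ A] (φ : parabolicHoms ℤ (Gamma1 M) A) :
    ∃ (n : ℕ) (ψ : Fin n → parabolicHoms ℤ (Gamma1 M) ℤ) (c : Fin n → A),
      φ = ∑ i, parMap (zmultiplesHom A (c i)) (ψ i) := by
  classical
  obtain ⟨s, hs⟩ := (gamma1_fg' M).out
  set W : Submodule ℤ A := Submodule.span ℤ ((fun x => φ.1 (Additive.ofMul x)) '' (s : Set _))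
  have : Module.Finite ℤ W :=
    Module.Finite.iff_fg.mpr (Submodule.fg_span (s.finite_toSet.image _))
  have hW : ∀ γ : Gamma1 M, φ.1 (Additive.ofMul γ) ∈ W := by
    intro γ
    have hx : γ ∈ Subgroup.closure (s : Set (Gamma1 M)) := hs ▸ Subgroup.mem_top _
    induction hx using Subgroup.closure_induction with
    | mem x hx => exact Submodule.subset_span ⟨x, hx, rfl⟩
    | one => simp
    | mul x y _ _ hx hy => rw [ofMul_mul, map_add]; exact add_mem hx hy
    | inv x _ hx => rw [ofMul_inv, map_neg]; exact neg_mem hx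
  let b := Module.finBasis ℤ W
  let φW : Additive (Gamma1 M) →+ W :=
    { toFun := fun γ => ⟨φ.1 γ, hW (Additive.toMul γ)⟩
      map_zero' := Subtype.ext (map_zero _)
      map_add' := fun _ _ => Subtype.ext (map_add _ _ _) }
  refine ⟨_, fun i => ⟨(b.coord i).toAddMonoidHom.comp φW, fun γ hγ => ?_⟩, fun i => (b i : A),
    Subtype.ext (AddMonoidHom.ext fun γ => ?_)⟩
  · have h0 : φW (Additive.ofMul γ) = 0 := Subtype.ext (φ.2 γ hγ)
    simp [h0]
  · have h1 := congrArg (Subtype.val : W → A) (b.sum_repr (φW γ))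
    simp only [Submodule.coe_sum, Submodule.coe_smul_of_tower] at h1
    simp only [Submodule.coe_sum, parMap_apply, AddMonoidHom.finsetSum_apply]
    refine h1.symm.trans (Finset.sum_congr rfl fun i _ => ?_)
    simp [φW]

/-- A Hecke polynomial killing the integral classes kills those with torsion-free values. -/
theorem parPolyRep_eq_zero [Module.IsTorsionFree ℤ A] {P : FreeAlgebra ℤ (HGen M)}
    (hP : parPolyRep M ℤ P = 0) : parPolyRep M A P = 0 := by
  refine LinearMap.ext fun φ => ?_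
  obtain ⟨n, ψ, c, rfl⟩ := exists_eq_sum_parMap φ
  simp [parPolyRep_natural, hP]

omit [NeZero M] in
/-- A Hecke polynomial killing the classes modulo `ℓ` is a multiple of `ℓ` on integral ones. -/
theorem exists_eq_smul_of_parRep_zmod (ℓ : ℕ) [NeZero ℓ] {P : FreeAlgebra ℤ (HGen M)}
    (hP : parPolyRep M (ZMod ℓ) P = 0) :
    ∃ Q : Module.End ℤ (parabolicHoms ℤ (Gamma1 M) ℤ), parPolyRep M ℤ P = (ℓ : ℤ) • Q := by
  set e : ℤ →+ ZMod ℓ := Int.castAddHom (ZMod ℓ)
  have hdvd : ∀ (ψ : parabolicHoms ℤ (Gamma1 M) ℤ) γ, (ℓ : ℤ) ∣ (parPolyRep M ℤ P ψ).1 γ := by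
    intro ψ γ
    have h := parPolyRep_natural e P ψ
    rw [hP, LinearMap.zero_apply] at h
    exact (ZMod.intCast_zmod_eq_zero_iff_dvd _ _).mp
      (DFunLike.congr_fun (congrArg Subtype.val h.symm) γ)
  have hℓ : (ℓ : ℤ) ≠ 0 := by exact_mod_cast NeZero.ne ℓ
  refine ⟨{ toFun := fun ψ => ⟨AddMonoidHom.mk' (fun γ => (parPolyRep M ℤ P ψ).1 γ / ℓ) fun a b => by
              rw [map_add, Int.add_ediv_of_dvd_left (hdvd ψ a)],
              fun γ hγ => by simp [(parPolyRep M ℤ P ψ).2 γ hγ]⟩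
            map_add' := fun ψ χ => Subtype.ext (AddMonoidHom.ext fun γ => ?_)
            map_smul' := fun c ψ => Subtype.ext (AddMonoidHom.ext fun γ => ?_) }, ?_⟩
  · simp [Int.add_ediv_of_dvd_left (hdvd ψ γ)]
  · simp [Int.mul_ediv_assoc c (hdvd ψ γ)]
  · refine LinearMap.ext fun ψ => Subtype.ext (AddMonoidHom.ext fun γ => ?_)
    simp [Int.mul_ediv_cancel' (hdvd ψ γ)]

/-- The saturation argument. -/
theorem map_eq_zero_of_apply_eq_smul {R H k : Type*} [Ring R] [AddCommGroup H] [Module.Finite ℤ H]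
    [Field k] {ℓ : ℕ} [CharP k ℓ] (ρ : R →+* Module.End ℤ H) (τ : R →+* k)
    (hker : ∀ P, ρ P = 0 → τ P = 0) {P : R} {Q : Module.End ℤ H} (hQ : ρ P = (ℓ : ℤ) • Q) :
    τ P = 0 := by
  obtain ⟨f, hf, hfQ⟩ := LinearMap.exists_monic_and_aeval_eq_zero ℤ Q
  set g := Polynomial.scaleRoots f (ℓ : ℤ) with hg
  have hgP : Polynomial.aeval ((ℓ : ℤ) • Q) g = 0 := by
    rw [hg, zsmul_eq_mul]
    exact Polynomial.scaleRoots_aeval_eq_zero hfQ
  have h1 : ρ (Polynomial.aeval P g) = 0 := by
    rw [← hgP, ← hQ]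
    exact (Polynomial.aeval_algHom_apply ρ.toIntAlgHom P g).symm
  have h2 : Polynomial.aeval (τ P) g = 0 := by
    rw [← hker _ h1]
    exact Polynomial.aeval_algHom_apply τ.toIntAlgHom P g
  have hd : g.natDegree = f.natDegree := Polynomial.natDegree_scaleRoots _ _
  rw [Polynomial.aeval_eq_sum_range, hd, Finset.sum_range_succ, Finset.sum_eq_zero, zero_add,
    hg, Polynomial.coeff_scaleRoots_natDegree, hf.leadingCoeff, one_smul] at h2
  · exact eq_zero_of_pow_eq_zero h2
  · intro i hi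
    rw [hg, Polynomial.coeff_scaleRoots, zsmul_eq_mul]
    obtain ⟨j, hj⟩ := Nat.exists_eq_add_of_lt (Finset.mem_range.mp hi)
    rw [show f.natDegree - i = j + 1 by omega]
    simp

end FermatLib.Galois.DS

end
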