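import Mathlib.NumberTheory.DirichletCharacter.Basic
import Mathlib.NumberTheory.MulChar.Lemmas
import Mathlib.RingTheory.Polynomial.Cyclotomic.Roots
import Mathlib.RingTheory.RootsOfUnity.Complex
import Mathlib.RingTheory.IntegralClosure.IntegrallyClosed
import Mathlib.FieldTheory.Finite.Basic

/-!
# Teichmüller characters for a reduction map of the algebraic integers

Also the reduction of numbers which are integral up to a power of `D`.
-/

set_option autoImplicit false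

noncomputable section

namespace FermatLib.Galois.DS

/-- Values of a character on a finite ring are algebraic integers. -/
theorem isIntegral_mulChar {R : Type*} [CommRing R] [Finite R] (χ : MulChar R ℂ) (a : R) :
    IsIntegral ℤ (χ a) := by
  by_cases ha : IsUnit a
  · obtain ⟨u, rfl⟩ := ha
    have h : orderOf u ≠ 0 := (orderOf_pos u).ne'
    refine IsIntegral.of_pow (Nat.pos_of_ne_zero h) ?_
    rw [← map_pow, ← Units.val_pow_eq_pow_val, pow_orderOf_eq_one, Units.val_one, map_one]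
    exact isIntegral_one
  · rw [MulChar.map_nonunit χ ha]
    exact isIntegral_zero

variable (D : ℕ)

/-- Complex numbers integral up to a power of `D`. -/
def locRing : Subalgebra ℤ ℂ where
  carrier := {x | ∃ j : ℕ, IsIntegral ℤ ((D : ℂ) ^ j * x)}
  mul_mem' := by
    rintro x y ⟨i, hi⟩ ⟨j, hj⟩
    exact ⟨i + j, by rw [pow_add, mul_mul_mul_comm]; exact hi.mul hj⟩
  add_mem' := by
    rintro x y ⟨i, hi⟩ ⟨j, hj⟩
    refine ⟨i + j, ?_⟩
    have hD : IsIntegral ℤ (D : ℂ) := by simpa using isIntegral_algebraMap (R := ℤ) (A := ℂ) (x := (D : ℤ))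
    rw [show (D : ℂ) ^ (i + j) * (x + y) =
      (D : ℂ) ^ j * ((D : ℂ) ^ i * x) + (D : ℂ) ^ i * ((D : ℂ) ^ j * y) by ring]
    exact ((hD.pow j).mul hi).add ((hD.pow i).mul hj)
  algebraMap_mem' r := ⟨0, by simpa using isIntegral_algebraMap (R := ℤ) (A := ℂ) (x := r)⟩

variable {D}

theorem mem_locRing_of_isIntegral {x : ℂ} (hx : IsIntegral ℤ x) : x ∈ locRing D :=
  ⟨0, by simpa using hx⟩

variable {k : Type*} [Field k] (red : integralClosure ℤ ℂ →+* k)

variable (D)

/-- Underlying function of `locRed`. -/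
def locRedFun (x : locRing D) : k := red ⟨_, x.2.choose_spec⟩ / (D : k) ^ x.2.choose

variable {D}

theorem locRedFun_spec (hD : (D : k) ≠ 0) (x : locRing D) (j : ℕ) (a : integralClosure ℤ ℂ)
    (ha : (a : ℂ) = (D : ℂ) ^ j * x) : (D : k) ^ j * locRedFun D red x = red a := by
  set i := x.2.choose
  set b : integralClosure ℤ ℂ := ⟨_, x.2.choose_spec⟩
  have h : (D : integralClosure ℤ ℂ) ^ j * b = (D : integralClosure ℤ ℂ) ^ i * a :=
    Subtype.ext (by push_cast; rw [ha]; show (D : ℂ) ^ j * ((D : ℂ) ^ i * x) = _; ring)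
  have h' := congrArg red h
  simp only [map_mul, map_pow, map_natCast] at h'
  show (D : k) ^ j * (red b / (D : k) ^ i) = red a
  rw [← mul_div_assoc, h', mul_div_cancel_left₀ _ (pow_ne_zero _ hD)]

/-- The extension of `red`. -/
def locRed (hD : (D : k) ≠ 0) : locRing D →+* k where
  toFun := locRedFun D red
  map_one' := by simpa using locRedFun_spec red hD 1 0 1 (by simp)
  map_zero' := by simpa using locRedFun_spec red hD 0 0 0 (by simp)
  map_mul' x y := by
    obtain ⟨i, hi⟩ := x.2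
    obtain ⟨j, hj⟩ := y.2
    have h1 := locRedFun_spec red hD x i ⟨_, hi⟩ rfl
    have h2 := locRedFun_spec red hD y j ⟨_, hj⟩ rfl
    have h3 := locRedFun_spec red hD (x * y) (i + j) (⟨_, hi⟩ * ⟨_, hj⟩)
      (by push_cast; ring)
    rw [map_mul, ← h1, ← h2] at h3
    refine mul_left_cancel₀ (pow_ne_zero (i + j) hD) (h3.trans ?_)
    ring
  map_add' x y := by
    obtain ⟨i, hi⟩ := x.2
    obtain ⟨j, hj⟩ := y.2
    have h1 := locRedFun_spec red hD x i ⟨_, hi⟩ rfl
    have h2 := locRedFun_spec red hD y j ⟨_, hj⟩ rfl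
    have h3 := locRedFun_spec red hD (x + y) (i + j)
      ((D : integralClosure ℤ ℂ) ^ j * ⟨_, hi⟩ + (D : integralClosure ℤ ℂ) ^ i * ⟨_, hj⟩)
      (by push_cast; ring)
    simp only [map_add, map_mul, map_pow, map_natCast, ← h1, ← h2] at h3
    refine mul_left_cancel₀ (pow_ne_zero (i + j) hD) (h3.trans ?_)
    ring

theorem locRed_spec (hD : (D : k) ≠ 0) (x : locRing D) (j : ℕ) (a : integralClosure ℤ ℂ)
    (ha : (a : ℂ) = (D : ℂ) ^ j * x) : (D : k) ^ j * locRed red hD x = red a :=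
  locRedFun_spec red hD x j a ha

theorem locRed_of_isIntegral (hD : (D : k) ≠ 0) (x : locRing D) (a : integralClosure ℤ ℂ)
    (ha : (a : ℂ) = x) : locRed red hD x = red a := by
  simpa using locRed_spec red hD x 0 a (by simpa using ha)

/-- A character lifting the inverse of the reduction modulo `ℓ`. -/
theorem exists_teichmullerChar {ℓ : ℕ} [Fact ℓ.Prime] (hℓ : ℓ ≠ 2) [CharP k ℓ] :
    ∃ χ : DirichletCharacter ℂ ℓ, χ.Odd ∧
      ∀ (n : ℕ) (e : integralClosure ℤ ℂ), ¬ ℓ ∣ n → (e : ℂ) = χ (n : ZMod ℓ) →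
        red e * (n : k) = 1 := by
  classical
  have hp : ℓ.Prime := Fact.out
  have : NeZero (ℓ - 1) := ⟨by have := hp.two_le; omega⟩
  have hn : ((ℓ - 1 : ℕ) : k) = -1 := by
    rw [Nat.cast_sub hp.pos, CharP.cast_eq_zero k ℓ]; simp
  have : NeZero ((ℓ - 1 : ℕ) : k) := ⟨by rw [hn]; exact neg_ne_zero.mpr one_ne_zero⟩
  set ζ : ℂ := Complex.exp (2 * Real.pi * Complex.I / ((ℓ - 1 : ℕ) : ℂ))
  have hζ : IsPrimitiveRoot ζ (ℓ - 1) := Complex.isPrimitiveRoot_exp _ (NeZero.ne _)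
  set ζO : integralClosure ℤ ℂ := ⟨ζ, hζ.isIntegral (NeZero.pos _)⟩
  have hζO : IsPrimitiveRoot ζO (ℓ - 1) :=
    IsPrimitiveRoot.of_map_of_injective (f := (integralClosure ℤ ℂ).val) hζ Subtype.val_injective
  have hz : IsPrimitiveRoot (red ζO) (ℓ - 1) := by
    rw [← Polynomial.isRoot_cyclotomic_iff]
    have h1 : Polynomial.IsRoot (Polynomial.cyclotomic (ℓ - 1) (integralClosure ℤ ℂ)) ζO :=
      hζO.isRoot_cyclotomic (NeZero.pos _)
    rw [← Polynomial.map_cyclotomic (ℓ - 1) red]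
    exact h1.map
  obtain ⟨g, hg⟩ := IsCyclic.exists_generator (α := (ZMod ℓ)ˣ)
  set c : k := ZMod.castHom (dvd_refl ℓ) k ((g⁻¹ : (ZMod ℓ)ˣ) : ZMod ℓ) with hc
  have hcard : Fintype.card (ZMod ℓ)ˣ = ℓ - 1 := by
    rw [ZMod.card_units_eq_totient, Nat.totient_prime hp]
  have hcpow : c ^ (ℓ - 1) = 1 := by
    rw [hc, ← map_pow, ← Units.val_pow_eq_pow_val, ← hcard, pow_card_eq_one, Units.val_one, map_one]
  obtain ⟨i, -, hi⟩ := hz.eq_pow_of_pow_eq_one hcpow
  set ζu : ℂˣ := (hζ.isUnit (NeZero.ne _)).unit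
  have hζu : ζu ^ i ∈ rootsOfUnity (Fintype.card (ZMod ℓ)ˣ) ℂ := by
    rw [mem_rootsOfUnity, hcard, ← pow_mul, mul_comm, pow_mul]
    rw [show ζu ^ (ℓ - 1) = 1 from Units.ext (by simpa [ζu] using hζ.pow_eq_one), one_pow]
  set χ : DirichletCharacter ℂ ℓ := MulChar.ofRootOfUnity hζu hg
  have key : ∀ (n : ℕ) (e : integralClosure ℤ ℂ), ¬ ℓ ∣ n → (e : ℂ) = χ (n : ZMod ℓ) →
      red e * (n : k) = 1 := by
    intro n e hn' he
    have h0 : (n : ZMod ℓ) ≠ 0 := by rwa [Ne, ZMod.natCast_eq_zero_iff]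
    obtain ⟨m, hm⟩ := mem_powers_iff_mem_zpowers.mpr (hg (Units.mk0 _ h0))
    have hm' : (n : ZMod ℓ) = ((g ^ m : (ZMod ℓ)ˣ) : ZMod ℓ) :=
      (congrArg Units.val hm).symm
    have hχg : χ (g : ZMod ℓ) = ζ ^ i := by
      rw [show χ (g : ZMod ℓ) = ((ζu ^ i : ℂˣ) : ℂ) from MulChar.ofRootOfUnity_spec hζu hg]
      simp [ζu]
    have he' : e = ζO ^ (i * m) := Subtype.ext (by
      rw [he, hm', Units.val_pow_eq_pow_val, map_pow, hχg, ← pow_mul]
      push_cast
      rfl)
    have hnk : (n : k) = ZMod.castHom (dvd_refl ℓ) k (n : ZMod ℓ) := (map_natCast _ _).symm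
    rw [he', map_pow, pow_mul, hi, hnk, hm', hc, ← map_pow, ← map_mul,
      ← Units.val_pow_eq_pow_val, ← Units.val_mul, inv_pow, inv_mul_cancel, Units.val_one, map_one]
  refine ⟨χ, ?_, key⟩
  have hsq : χ (-1) * χ (-1) = 1 := by rw [← map_mul, neg_mul_neg, one_mul, map_one]
  rcases mul_self_eq_one_iff.mp hsq with h | h
  · exfalso
    have hd : ¬ ℓ ∣ (ℓ - 1) := fun hd => by
      have := Nat.le_of_dvd (NeZero.pos _) hd
      have := hp.two_le
      omega
    have h1 := key (ℓ - 1) 1 hd (by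
      rw [Nat.cast_sub hp.pos, ZMod.natCast_self, zero_sub, Nat.cast_one, h]; simp)
    rw [map_one, one_mul, hn] at h1
    have : ((2 : ℕ) : k) = 0 := by
      push_cast
      linear_combination -h1
    exact hℓ ((Nat.prime_dvd_prime_iff_eq hp Nat.prime_two).mp
      ((CharP.cast_eq_zero_iff k ℓ 2).mp this))
  · exact h

end FermatLib.Galois.DS

end
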