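import Fermat.Agent.Galois.DS.ResidualHecke
import Fermat.Agent.Galois.DS.ResidualLattice
import Fermat.Agent.Galois.DS.ResidualTeichmuller
import Fermat.Prelude.Def_FLTPrelim_Modularity

/-!
# Residual characters from forms with congruent coefficients

If the Hecke polynomials multiply the reduced coefficients of a weight two form by scalars, then
these scalars vanish on the polynomials killing the parabolic classes modulo `ℓ`.
-/

set_option autoImplicit false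

noncomputable section

open UpperHalfPlane hiding I
open CongruenceSubgroup ModularCurve.Period
open scoped MatrixGroups ModularForm

namespace FermatLib.Galois.DS

open FermatLib.Modular

variable {M : ℕ} [NeZero M] {ψ : ℤ → ℂ}

/-- The periods as a parabolic homomorphism. -/
def perPar {h : ℍ → ℂ} (hh : h ∈ charSpace M ψ) : parabolicHoms ℤ (Gamma1 M) ℂ :=
  ⟨per1 M ⟨h, hh.1⟩, per1_mem _⟩

variable {D : ℕ} {k : Type*} [Field k] (L : locRing D →+* k) (a : ℕ → k)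

/-- The reduced coefficients of `h` are `c` times `a`. -/
def RedMul (h : ℍ → ℂ) (c : k) : Prop :=
  ∀ n : ℕ, ∃ x : locRing D, (x : ℂ) = ModularFormClass.qCoeff h n ∧ L x = c * a n

variable {L a}

theorem exists_redMul_form (hψ : IsCharFun M ψ) (t : HGen M → k)
    (hψL : ∀ p : {p : ℕ // p.Prime ∧ Nat.Coprime p M}, ∃ x : locRing D,
      (x : ℂ) = ψ (p.1 : ℤ) ∧ L x = t (.inr p))
    (hrec : ∀ (p : {p : ℕ // p.Prime ∧ Nat.Coprime p M}) (n : ℕ),
      a (p.1 * n) + t (.inr p) * p.1 * (if p.1 ∣ n then a (n / p.1) else 0) = t (.inl p) * a n)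
    (P : FreeAlgebra ℤ (HGen M)) {h : ℍ → ℂ} (hh : h ∈ charSpace M ψ) {c : k}
    (hc : RedMul L a h c) :
    ∃ (h' : ℍ → ℂ) (hh' : h' ∈ charSpace M ψ),
      perPar hh' = parPolyRep M ℂ P (perPar hh) ∧ RedMul L a h' (FreeAlgebra.lift ℤ t P * c) := by
  induction P using FreeAlgebra.induction generalizing h c with
  | grade0 r =>
    refine ⟨(r : ℂ) • h, Submodule.smul_mem _ _ hh, Subtype.ext ?_, fun n => ?_⟩
    · rw [AlgHom.commutes, Module.algebraMap_end_apply]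
      show per1 M ((r : ℂ) • ⟨h, hh.1⟩) = r • per1 M ⟨h, hh.1⟩
      rw [map_smul, Int.cast_smul_eq_zsmul]
    · obtain ⟨x, hx, hx'⟩ := hc n
      refine ⟨r • x, ?_, ?_⟩
      · rw [qCoeff_smul_of_mem hh.1, ← hx]
        simp
      · rw [map_zsmul, hx', AlgHom.commutes, algebraMap_int_eq, eq_intCast, zsmul_eq_mul, mul_assoc]
  | grade1 g =>
    cases g with
    | inl p =>
      refine ⟨opFun1 M p.1 p.2.2 h, opFun1_mem_charSpace hψ hh p.2.1 p.2.2, Subtype.ext ?_,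
        fun n => ?_⟩
      · rw [parPolyRep_ι]
        exact per1_opFun1 p.2.1 p.2.2 ⟨h, hh.1⟩
      · obtain ⟨x₁, hx₁, hx₁'⟩ := hc (p.1 * n)
        obtain ⟨x₂, hx₂, hx₂'⟩ := hc (n / p.1)
        obtain ⟨e, he, he'⟩ := hψL p
        refine ⟨x₁ + e * p.1 * (if p.1 ∣ n then x₂ else 0), ?_, ?_⟩
        · rw [qCoeff_opFun1 hh p.2.1 p.2.2 n, ← hx₁, ← he]
          split_ifs <;> simp [hx₂]
        · rw [map_add, map_mul, map_mul, map_natCast, hx₁', he', FreeAlgebra.lift_ι_apply,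
            mul_right_comm (t (Sum.inl p)) c, ← hrec p n]
          split_ifs
          · rw [hx₂']; ring
          · rw [map_zero]; ring
    | inr p =>
      refine ⟨ψ (p.1 : ℤ) • h, Submodule.smul_mem _ _ hh, Subtype.ext ?_, fun n => ?_⟩
      · rw [parPolyRep_ι]
        have heq : (⟨ψ (p.1 : ℤ) • h, (Submodule.smul_mem (charSpace M ψ) _ hh).1⟩ : cusp1Space M) =
            ⟨h ∣[(2 : ℤ)] ((diamondMat M p.1 p.2.2 : Gamma0 M) : SL(2, ℤ)),
              slash_diamond_mem _ hh.1⟩ :=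
          Subtype.ext (hh.2 _ (diamondMat M p.1 p.2.2).2).symm
        show per1 M _ = diamondHom (diamondMat M p.1 p.2.2) (per1 M ⟨h, hh.1⟩)
        rw [← per1_diamond, ← heq]
      · obtain ⟨x, hx, hx'⟩ := hc n
        obtain ⟨e, he, he'⟩ := hψL p
        refine ⟨e * x, ?_, ?_⟩
        · rw [qCoeff_smul_of_mem hh.1, ← hx, ← he]
          rfl
        · rw [map_mul, hx', he', FreeAlgebra.lift_ι_apply, mul_assoc]
  | mul P Q hP hQ =>
    obtain ⟨h₁, hh₁, he₁, hc₁⟩ := hQ hh hc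
    obtain ⟨h₂, hh₂, he₂, hc₂⟩ := hP hh₁ hc₁
    exact ⟨h₂, hh₂, by rw [he₂, he₁, map_mul, Module.End.mul_apply],
      by rwa [map_mul, mul_assoc]⟩
  | add P Q hP hQ =>
    obtain ⟨h₁, hh₁, he₁, hc₁⟩ := hP hh hc
    obtain ⟨h₂, hh₂, he₂, hc₂⟩ := hQ hh hc
    refine ⟨h₁ + h₂, add_mem hh₁ hh₂, ?_, fun n => ?_⟩
    · rw [map_add, LinearMap.add_apply, ← he₁, ← he₂]
      refine Subtype.ext ?_
      show per1 M ((⟨h₁, hh₁.1⟩ : cusp1Space M) + ⟨h₂, hh₂.1⟩) =
        per1 M ⟨h₁, hh₁.1⟩ + per1 M ⟨h₂, hh₂.1⟩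
      exact map_add _ _ _
    · obtain ⟨x₁, hx₁, hx₁'⟩ := hc₁ n
      obtain ⟨x₂, hx₂, hx₂'⟩ := hc₂ n
      refine ⟨x₁ + x₂, ?_, ?_⟩
      · rw [qCoeff_add_of_mem hh₁.1 hh₂.1, ← hx₁, ← hx₂]
        rfl
      · rw [map_add, hx₁', hx₂', map_add, add_mul, add_mul]

/-- The residual character vanishes on polynomials killing the classes modulo `ℓ`. -/
theorem lift_eq_zero_of_parRep_zmod (ℓ : ℕ) [NeZero ℓ] [CharP k ℓ] (hψ : IsCharFun M ψ)
    (t : HGen M → k)
    (hψL : ∀ p : {p : ℕ // p.Prime ∧ Nat.Coprime p M}, ∃ x : locRing D,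
      (x : ℂ) = ψ (p.1 : ℤ) ∧ L x = t (.inr p))
    (hrec : ∀ (p : {p : ℕ // p.Prime ∧ Nat.Coprime p M}) (n : ℕ),
      a (p.1 * n) + t (.inr p) * p.1 * (if p.1 ∣ n then a (n / p.1) else 0) = t (.inl p) * a n)
    {g : ℍ → ℂ} (hg : g ∈ charSpace M ψ) {c : k} (hc : RedMul L a g c) (hca : c * a 1 ≠ 0)
    {P : FreeAlgebra ℤ (HGen M)} (hP : parPolyRep M (ZMod ℓ) P = 0) :
    FreeAlgebra.lift ℤ t P = 0 := by
  have hker : ∀ R, parPolyRep M ℤ R = 0 → FreeAlgebra.lift ℤ t R = 0 := by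
    intro R hR
    obtain ⟨h', hh', he, hc'⟩ := exists_redMul_form hψ t hψL hrec R hg hc
    rw [parPolyRep_eq_zero hR, LinearMap.zero_apply] at he
    have h0 := eq_zero_of_per1 ⟨h', hh'.1⟩ (congrArg Subtype.val he)
    have h1 : h' = 0 := congrArg Subtype.val h0
    obtain ⟨x, hx, hx'⟩ := hc' 1
    rw [h1] at hx
    have hx0 : x = 0 := Subtype.ext (by rw [hx]; simp [ModularFormClass.qCoeff, qExpansion_zero])
    rw [hx0, map_zero, mul_assoc, eq_comm, mul_eq_zero] at hx'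
    exact hx'.resolve_right hca
  obtain ⟨Q, hQ⟩ := exists_eq_smul_of_parRep_zmod ℓ hP
  exact map_eq_zero_of_apply_eq_smul (ρ := (parPolyRep M ℤ).toRingHom)
    (τ := (FreeAlgebra.lift ℤ t).toRingHom) hker hQ

end FermatLib.Galois.DS

end
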