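import Mathlib.NumberTheory.DirichletCharacter.Basic
import Fermat.Prelude.Def_FLTPrelim_Modularity
import Fermat.Agent.Galois.DS.HeckeGamma1
import Fermat.Agent.Galois.DS.KummerClass
import Fermat.Agent.Galois.DS.ResidualCharacter
import Fermat.Agent.Galois.DS.ResidualProduct

/-!
# The residual eigen-character of a weight one eigenform

A weight one eigenform times an Eisenstein series of weight one congruent to `1` modulo `ℓ`
is a weight two form on `Γ₁(N ℓ)`; its periods give a character of the Hecke algebra acting on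
`Hom_par(Γ₁(N ℓ), ℤ/ℓ)`.
-/

set_option autoImplicit false

noncomputable section

open CongruenceSubgroup ModularCurve.Period UpperHalfPlane
open scoped MatrixGroups ModularForm

namespace FermatLib.Galois.DS

open FermatLib.Modular

variable (M : ℕ) [NeZero M] (ℓ : ℕ) [Fact ℓ.Prime]

/-- `T p` on parabolic classes. -/
def parT {p : ℕ} (hp : p.Prime) (h : Nat.Coprime p M) : Module.End (ZMod ℓ) (ParHom M ℓ) :=
  ((heckeSystem1 M p hp h).op (ZMod ℓ)).restrict fun _ hφ => op1_mem (ZMod ℓ) hp h hφ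

/-- Diamond operators on parabolic classes. -/
def parDiamond (γ : Gamma0 M) : Module.End (ZMod ℓ) (ParHom M ℓ) where
  toFun φ := ⟨diamondHom γ φ.1, diamondHom_mem (ZMod ℓ) γ φ.2⟩
  map_add' _ _ := rfl
  map_smul' _ _ := rfl

/-- The algebra generated by `T p` and `⟨p⟩`, `p ∤ M`. -/
def heckeAlg1 : Subalgebra (ZMod ℓ) (Module.End (ZMod ℓ) (ParHom M ℓ)) :=
  Algebra.adjoin (ZMod ℓ)
    {T | ∃ (p : ℕ) (hp : p.Prime) (h : Nat.Coprime p M),
      T = parT M ℓ hp h ∨ T = parDiamond M ℓ (diamondMat M p h)}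

local instance intAlgebraHeckeAlg1 : Algebra ℤ (heckeAlg1 M ℓ) := Ring.toIntAlgebra _

/-- The symbols, as elements of the Hecke algebra. -/
def heckeGen : HGen M → heckeAlg1 M ℓ
  | .inl p => ⟨parT M ℓ p.2.1 p.2.2, Algebra.subset_adjoin ⟨p.1, p.2.1, p.2.2, Or.inl rfl⟩⟩
  | .inr p => ⟨parDiamond M ℓ (diamondMat M p.1 p.2.2),
      Algebra.subset_adjoin ⟨p.1, p.2.1, p.2.2, Or.inr rfl⟩⟩

/-- Hecke polynomials, as elements of the Hecke algebra. -/
def heckePoly : FreeAlgebra ℤ (HGen M) →ₐ[ℤ] heckeAlg1 M ℓ :=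
  FreeAlgebra.lift ℤ (heckeGen M ℓ)

theorem heckePoly_surjective : Function.Surjective (heckePoly M ℓ) := by
  rintro ⟨x, hx⟩
  induction hx using Algebra.adjoin_induction with
  | mem x hx =>
    obtain ⟨p, hp, h, rfl | rfl⟩ := hx
    · exact ⟨FreeAlgebra.ι ℤ (.inl ⟨p, hp, h⟩), FreeAlgebra.lift_ι_apply _ _⟩
    · exact ⟨FreeAlgebra.ι ℤ (.inr ⟨p, hp, h⟩), FreeAlgebra.lift_ι_apply _ _⟩
  | algebraMap r =>
    refine ⟨((r.val : ℤ) : FreeAlgebra ℤ (HGen M)), ?_⟩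
    rw [map_intCast, Int.cast_natCast]
    refine Subtype.ext ?_
    rw [SubringClass.coe_natCast, ← map_natCast (algebraMap (ZMod ℓ) (Module.End (ZMod ℓ) (ParHom M ℓ))),
      ZMod.natCast_zmod_val]
  | add x y hx hy ihx ihy =>
    obtain ⟨P, hP⟩ := ihx
    obtain ⟨Q, hQ⟩ := ihy
    exact ⟨P + Q, by rw [map_add, hP, hQ]; rfl⟩
  | mul x y hx hy ihx ihy =>
    obtain ⟨P, hP⟩ := ihx
    obtain ⟨Q, hQ⟩ := ihy
    exact ⟨P * Q, by rw [map_mul, hP, hQ]; rfl⟩

theorem heckePoly_apply (P : FreeAlgebra ℤ (HGen M)) (φ : ParHom M ℓ) :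
    ((heckePoly M ℓ P).1 φ).1 = (parPolyRep M (ZMod ℓ) P ⟨φ.1, φ.2⟩).1 := by
  induction P using FreeAlgebra.induction generalizing φ with
  | grade0 r =>
    rw [AlgHom.commutes, AlgHom.commutes]
    simp only [algebraMap_int_eq, eq_intCast, SubringClass.coe_intCast, Module.End.intCast_apply]
    exact map_zsmul (ParHom M ℓ).subtype r φ
  | grade1 g =>
    rw [heckePoly, FreeAlgebra.lift_ι_apply, parPolyRep_ι]
    cases g <;> rfl
  | mul P Q hP hQ =>
    rw [map_mul, map_mul, Subalgebra.coe_mul, Module.End.mul_apply, Module.End.mul_apply, hP]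
    congr 2
    exact Subtype.ext (hQ φ)
  | add P Q hP hQ =>
    rw [map_add, map_add, Subalgebra.coe_add, LinearMap.add_apply, LinearMap.add_apply,
      Submodule.coe_add, Submodule.coe_add, hP, hQ]

/-- **The residual eigen-character.** -/
theorem exists_residual_character (N : ℕ) [NeZero N] (hℓ5 : 5 ≤ ℓ) (hℓN : ¬ ℓ ∣ N) (hN5 : 4 ≤ N)
    [NeZero (N * ℓ)] (ε : DirichletCharacter ℂ N) (f : CuspForm (Gamma1 N) 1)
    (hf₁ : ModularFormClass.qCoeff f 1 = 1)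
    (hT : ∀ p : ℕ, p.Prime → ¬ p ∣ N → ∀ n : ℕ,
        ModularFormClass.qCoeff f (p * n) +
            ε (p : ZMod N) * (if p ∣ n then ModularFormClass.qCoeff f (n / p) else 0) =
          ModularFormClass.qCoeff f p * ModularFormClass.qCoeff f n)
    (hε : ∀ γ ∈ Gamma0 N, (f : ℍ → ℂ) ∣[(1 : ℤ)] γ = (ε ((γ 1 1 : ℤ) : ZMod N)) • (f : ℍ → ℂ))
    (D : ℕ) (hD : ¬ ℓ ∣ D)
    (hint : ∀ n : ℕ, ∃ j : ℕ, IsIntegral ℤ ((D : ℂ) ^ j * ModularFormClass.qCoeff f n))
    {k : Type*} [Field k] [CharP k ℓ] (red : integralClosure ℤ ℂ →+* k) :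
    ∃ θ : heckeAlg1 (N * ℓ) ℓ →+* k,
      ∀ (p : ℕ) (hp : p.Prime) (h : Nat.Coprime p (N * ℓ)),
        (∀ (j : ℕ) (a : integralClosure ℤ ℂ),
          (a : ℂ) = (D : ℂ) ^ j * ModularFormClass.qCoeff f p →
          (D : k) ^ j * θ ⟨parT (N * ℓ) ℓ hp h,
            Algebra.subset_adjoin ⟨p, hp, h, Or.inl rfl⟩⟩ = red a) ∧
        ∀ e : integralClosure ℤ ℂ, (e : ℂ) = ε (p : ZMod N) →
          (p : k) * θ ⟨parDiamond (N * ℓ) ℓ (diamondMat (N * ℓ) p h),
            Algebra.subset_adjoin ⟨p, hp, h, Or.inr rfl⟩⟩ = red e := by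
  have hℓ2 : ℓ ≠ 2 := by omega
  have hDk : (D : k) ≠ 0 := fun h => hD ((CharP.cast_eq_zero_iff k ℓ D).mp h)
  obtain ⟨χ, hχ, hχred⟩ := exists_teichmullerChar red hℓ2
  set L := locRed red hDk
  set a : ℕ → k := fun n => L ⟨ModularFormClass.qCoeff f n, hint n⟩
  set eb : ℕ → k := fun n =>
    L ⟨ε (n : ZMod N), mem_locRing_of_isIntegral (isIntegral_mulChar ε _)⟩
  set t : HGen (N * ℓ) → k := Sum.elim (fun p => a p.1) (fun p => eb p.1 * (p.1 : k)⁻¹)
  have hℓp : ∀ p : {p : ℕ // p.Prime ∧ Nat.Coprime p (N * ℓ)}, ¬ ℓ ∣ p.1 := by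
    intro p hd
    exact (Nat.Prime.coprime_iff_not_dvd p.2.1).mp p.2.2
      ((((Nat.prime_dvd_prime_iff_eq Fact.out p.2.1).mp hd) ▸ dvd_mul_left ℓ N))
  have hpk : ∀ p : {p : ℕ // p.Prime ∧ Nat.Coprime p (N * ℓ)}, (p.1 : k) ≠ 0 := fun p h =>
    hℓp p ((CharP.cast_eq_zero_iff k ℓ p.1).mp h)
  have hψL : ∀ p : {p : ℕ // p.Prime ∧ Nat.Coprime p (N * ℓ)}, ∃ x : locRing D,
      (x : ℂ) = prodChar ε χ (p.1 : ℤ) ∧ L x = t (.inr p) := by
    intro p
    refine ⟨⟨ε (p.1 : ZMod N), mem_locRing_of_isIntegral (isIntegral_mulChar ε _)⟩ *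
      ⟨χ (p.1 : ZMod ℓ), mem_locRing_of_isIntegral (isIntegral_mulChar χ _)⟩,
      by simp [prodChar], ?_⟩
    rw [map_mul, locRed_of_isIntegral red hDk ⟨χ (p.1 : ZMod ℓ), _⟩
      ⟨χ (p.1 : ZMod ℓ), isIntegral_mulChar χ _⟩ rfl,
      eq_inv_of_mul_eq_one_left (hχred p.1 _ (hℓp p) rfl)]
    rfl
  have hrec : ∀ (p : {p : ℕ // p.Prime ∧ Nat.Coprime p (N * ℓ)}) (n : ℕ),
      a (p.1 * n) + t (.inr p) * p.1 * (if p.1 ∣ n then a (n / p.1) else 0) =
        t (.inl p) * a n := by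
    intro p n
    have hpN : ¬ p.1 ∣ N := fun hd =>
      (Nat.Prime.coprime_iff_not_dvd p.2.1).mp p.2.2 (hd.mul_right ℓ)
    have h1 : (⟨ModularFormClass.qCoeff f (p.1 * n), hint _⟩ : locRing D) +
        ⟨ε (p.1 : ZMod N), mem_locRing_of_isIntegral (isIntegral_mulChar ε _)⟩ *
          (if p.1 ∣ n then ⟨ModularFormClass.qCoeff f (n / p.1), hint _⟩ else 0) =
        ⟨ModularFormClass.qCoeff f p.1, hint _⟩ * ⟨ModularFormClass.qCoeff f n, hint _⟩ := by
      refine Subtype.ext ?_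
      have h2 := hT p.1 p.2.1 hpN n
      split_ifs at h2 ⊢ with hd <;> simpa using h2
    have h3 := congrArg L h1
    rw [map_add, map_mul, map_mul, apply_ite L, map_zero] at h3
    rw [show t (.inr p) * (p.1 : k) = eb p.1 from inv_mul_cancel_right₀ (hpk p) _]
    exact h3
  have hg := mul_eisF_mem χ ε f hℓ2 hχ hε
  have hcoef : ∀ j : ℕ, ∃ e : locRing D,
      (e : ℂ) = eisCoeff χ j ∧ L e = if j = 0 then -1 else 0 := by
    intro j
    have hχi : ∀ b, IsIntegral ℤ (χ b) := isIntegral_mulChar χ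
    refine ⟨⟨eisCoeff χ j, mem_locRing_of_isIntegral (isIntegral_eisCoeff χ hχi j)⟩, rfl, ?_⟩
    rcases eq_or_ne j 0 with rfl | hj
    · rw [if_pos rfl, locRed_of_isIntegral red hDk _
        (∑ i ∈ Finset.range ℓ, (i : integralClosure ℤ ℂ) * ⟨χ (i : ZMod ℓ), hχi _⟩)
        (by simp [eisCoeff, eisConst])]
      rw [map_sum, Finset.sum_eq_add_sum_sdiff_singleton_of_mem
        (Finset.mem_range.mpr (NeZero.pos ℓ))]
      rw [Finset.sum_congr rfl (g := fun _ => (1 : k))]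
      · simp [Finset.card_sdiff, NeZero.pos ℓ, Nat.cast_sub (show 1 ≤ ℓ from NeZero.pos ℓ)]
      · intro i hi
        simp only [Finset.mem_sdiff, Finset.mem_range, Finset.mem_singleton] at hi
        rw [map_mul, map_natCast, mul_comm]
        exact hχred i _ (fun hd => hi.2 (Nat.eq_zero_of_dvd_of_lt hd hi.1)) rfl
    · rw [if_neg hj, locRed_of_isIntegral red hDk _ ((ℓ : integralClosure ℤ ℂ) *
        (((-2 : ℤ) : integralClosure ℤ ℂ) * ∑ d ∈ j.divisors, ⟨χ (d : ZMod ℓ), hχi _⟩))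
        (by simp [eisCoeff, hj, show ((2 : integralClosure ℤ ℂ) : ℂ) = 2 from rfl]; ring)]
      rw [map_mul, map_natCast, CharP.cast_eq_zero, zero_mul]
  have hc : RedMul L a ((f : ℍ → ℂ) * eisF χ) (-1) := by
    intro n
    choose e he he' using hcoef
    refine ⟨∑ x ∈ Finset.HasAntidiagonal.antidiagonal n,
      ⟨ModularFormClass.qCoeff f x.1, hint _⟩ * e x.2, ?_, ?_⟩
    · rw [qCoeff_mul_eisF χ f hℓ2 hχ n]
      simp [he]
    · rw [map_sum, Finset.sum_eq_single (n, 0)]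
      · rw [map_mul, he', if_pos rfl, mul_comm]
      · intro x hx hne
        have hx0 : x.2 ≠ 0 := fun h0 => hne (by
          rw [Finset.HasAntidiagonal.mem_antidiagonal, h0, add_zero] at hx
          exact Prod.ext hx h0)
        rw [map_mul, he', if_neg hx0, mul_zero]
      · simp
  have ha1 : a 1 = 1 := by
    rw [show a 1 = L 1 from congrArg L (Subtype.ext hf₁), map_one]
  have hker : RingHom.ker (heckePoly (N * ℓ) ℓ).toRingHom ≤
      RingHom.ker (FreeAlgebra.lift ℤ t).toRingHom := by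
    intro P hP
    rw [RingHom.mem_ker] at hP ⊢
    refine lift_eq_zero_of_parRep_zmod (L := L) (a := a) ℓ (isCharFun_prodChar ε χ) t hψL hrec hg
      hc (by rw [ha1]; simp) ?_
    refine LinearMap.ext fun φ => Subtype.ext ?_
    have h := heckePoly_apply (N * ℓ) ℓ P ⟨φ.1, φ.2⟩
    rw [show heckePoly (N * ℓ) ℓ P = 0 from hP] at h
    simpa using h.symm
  set θ := (heckePoly (N * ℓ) ℓ).toRingHom.liftOfSurjective (heckePoly_surjective (N * ℓ) ℓ)
    ⟨(FreeAlgebra.lift ℤ t).toRingHom, hker⟩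
  refine ⟨θ, fun p hp h => ?_⟩
  have hθ : ∀ g : HGen (N * ℓ), θ (heckeGen (N * ℓ) ℓ g) = t g := by
    intro g
    have h1 : heckeGen (N * ℓ) ℓ g = (heckePoly (N * ℓ) ℓ).toRingHom (FreeAlgebra.ι ℤ g) :=
      (FreeAlgebra.lift_ι_apply _ _).symm
    rw [h1, RingHom.liftOfSurjective_comp_apply]
    exact FreeAlgebra.lift_ι_apply _ _
  refine ⟨fun j x hx => ?_, fun e he => ?_⟩
  · refine (congrArg ((D : k) ^ j * ·) (hθ (.inl ⟨p, hp, h⟩))).trans ?_
    exact locRed_spec red hDk ⟨ModularFormClass.qCoeff f p, hint p⟩ j x hx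
  · refine (congrArg ((p : k) * ·) (hθ (.inr ⟨p, hp, h⟩))).trans ?_
    show (p : k) * (eb p * (p : k)⁻¹) = red e
    rw [mul_comm, inv_mul_cancel_right₀ (hpk ⟨p, hp, h⟩)]
    exact locRed_of_isIntegral red hDk _ e he

end FermatLib.Galois.DS

end
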