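import Mathlib.RingTheory.RootsOfUnity.Complex
import Mathlib.RingTheory.RootsOfUnity.PrimitiveRoots
import Fermat.Agent.Modular.CorrTranslate
import Fermat.Agent.Galois.DS.HeckeGamma1
import Fermat.Agent.Galois.DS.ResidualEigen
import Fermat.Agent.Galois.DS.QbarAction
import Fermat.Agent.Galois.DS.ConjClass
import Fermat.Agent.Galois.DS.LaurentTwist
import Fermat.Prelude.Thm_ModularCurve_coeffMap_qExpand

/-!
# `T p` on functions: products over the Hecke system

The product `∏ g ∘ β` has class `T p φ`; its expansion in `q^(1/p)`.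
-/

set_option autoImplicit false
set_option linter.unusedSectionVars false

noncomputable section

open UpperHalfPlane hiding I
open Filter Complex Topology CongruenceSubgroup ModularCurve
open scoped Manifold MatrixGroups ModularForm

namespace FermatLib.Galois.DS

open FermatLib.Modular FermatLib.Modular.Corr

local notation "Δ" => ModularForm.discriminant

variable {M : ℕ} [NeZero M] {p : ℕ} (hp : p.Prime) (h : Nat.Coprime p M)

theorem det_rep_pos (x : Option (Fin p)) : 0 < ((heckeSystem1 M p hp h).rep x).det := by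
  show 0 < (heckeRep1 M p h x).det
  rw [det_heckeRep1]
  exact_mod_cast hp.pos

theorem glOfInt_rep_smul (γ : Gamma1 M) (x : Option (Fin p)) (τ : ℍ) :
    glOfInt ((heckeSystem1 M p hp h).rep x) • ((γ : SL(2, ℤ)) • τ) =
      ((heckeSystem1 M p hp h).elt γ x : SL(2, ℤ)) •
        (glOfInt ((heckeSystem1 M p hp h).rep ((heckeSystem1 M p hp h).next γ x)) • τ) := by
  have hS := (heckeSystem1 M p hp h).rep_mul γ x
  have e := congrArg glOfInt hS
  rw [glOfInt_mul (det_rep_pos hp h x).ne' (det_coe_ne_zero _),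
    glOfInt_mul (det_coe_ne_zero _) (det_rep_pos hp h _).ne', glOfInt_coe, glOfInt_coe] at e
  have e2 := congrArg (fun G : GL (Fin 2) ℝ => G • τ) e
  simp only [mul_smul] at e2
  exact e2

/-- `∏ G ∘ β`. -/
def heckeFunFn (G : ℍ → ℂ) : ℍ → ℂ :=
  fun τ => ∏ x, G (glOfInt ((heckeSystem1 M p hp h).rep x) • τ)

theorem mdiff_comp_rep {G : ℍ → ℂ} (hG : MDiff G) (x : Option (Fin p)) :
    MDiff fun τ : ℍ => G (glOfInt ((heckeSystem1 M p hp h).rep x) • τ) :=
  hG.comp (UpperHalfPlane.mdifferentiable_smul (det_glOfInt_pos (det_rep_pos hp h x)))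

theorem mdiff_heckeFunFn {G : ℍ → ℂ} (hG : MDiff G) : MDiff (heckeFunFn hp h G) := by
  have := MDifferentiable.prod (t := (Finset.univ : Finset (Option (Fin p))))
    (f := fun x (τ : ℍ) => G (glOfInt ((heckeSystem1 M p hp h).rep x) • τ))
    (I := modelWithCornersSelf ℂ ℂ) (fun x _ => mdiff_comp_rep hp h hG x)
  rw [Finset.prod_fn] at this
  exact this

theorem heckeFunFn_smul {G : ℍ → ℂ} {χ : Gamma1 M → ℂ}
    (hG : ∀ (γ : Gamma1 M) (τ : ℍ), G ((γ : SL(2, ℤ)) • τ) = χ γ * G τ) (γ : Gamma1 M) (τ : ℍ) :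
    heckeFunFn hp h G ((γ : SL(2, ℤ)) • τ) =
      (∏ x, χ ((heckeSystem1 M p hp h).elt γ x)) * heckeFunFn hp h G τ := by
  show ∏ x, G (glOfInt ((heckeSystem1 M p hp h).rep x) • ((γ : SL(2, ℤ)) • τ)) = _
  rw [Finset.prod_congr rfl fun x _ =>
    (congrArg G (glOfInt_rep_smul hp h γ x τ)).trans (hG _ _), Finset.prod_mul_distrib]
  generalize hS : heckeSystem1 M p hp h = S
  rw [show heckeFunFn hp h G τ = ∏ x, G (glOfInt (S.rep x) • τ) by rw [← hS]; rfl]
  congr 1
  exact (S.next_bijective γ).prod_comp fun x => G (glOfInt (S.rep x) • τ)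

/-- An integral matrix of positive determinant is `SL(2, ℤ)` times a positive triangular one. -/
theorem exists_triangular_pos (B : Matrix (Fin 2) (Fin 2) ℤ) (hB : 0 < B.det) :
    ∃ (A : SL(2, ℤ)) (a e : ℕ) (b : ℤ) (ha : (0 : ℝ) < a) (he : (0 : ℝ) < e),
      glOfInt B = (Matrix.SpecialLinearGroup.mapGL ℝ A : GL (Fin 2) ℝ) *
        ModularForm.upperTriangularGL (a : ℝ) (b : ℝ) (e : ℝ) (mul_pos ha he).ne' := by
  suffices key : ∃ (A : SL(2, ℤ)) (U : Matrix (Fin 2) (Fin 2) ℤ),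
      B = (A : Matrix (Fin 2) (Fin 2) ℤ) * U ∧ U 1 0 = 0 ∧ 0 < U 0 0 ∧ 0 < U 1 1 by
    obtain ⟨A, U, hBU, h10, h00, h11⟩ := key
    obtain ⟨a, ha⟩ := Int.eq_ofNat_of_zero_le h00.le
    obtain ⟨e, he⟩ := Int.eq_ofNat_of_zero_le h11.le
    have hU : U.det ≠ 0 := by
      rw [Matrix.det_fin_two, h10, mul_zero, sub_zero]
      exact (mul_pos h00 h11).ne'
    have haR : (0 : ℝ) < a := by exact_mod_cast (ha ▸ h00 : (0 : ℤ) < a)
    have heR : (0 : ℝ) < e := by exact_mod_cast (he ▸ h11 : (0 : ℤ) < e)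
    refine ⟨A, a, e, U 0 1, haR, heR, ?_⟩
    rw [hBU, glOfInt_mul (det_coe_ne_zero A) hU, glOfInt_coe]
    congr 1
    refine Units.ext ?_
    rw [val_glOfInt hU, ModularForm.val_upperTriangularGL]
    ext i j
    fin_cases i <;> fin_cases j <;> simp [ha, he, h10]
  obtain ⟨A, U, hBU, h10, hdet⟩ := exists_upperTriangular B hB
  rw [Matrix.det_fin_two, h10, mul_zero, sub_zero] at hdet
  rcases pos_and_pos_or_neg_and_neg_of_mul_pos hdet with ⟨ha, he⟩ | ⟨ha, he⟩
  · exact ⟨A, U, hBU, h10, ha, he⟩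
  · refine ⟨-A, -U, ?_, by simp [h10], by simpa using ha, by simpa using he⟩
    rw [hBU, Matrix.SpecialLinearGroup.coe_neg, neg_mul_neg]

theorem heckeFunFn_mem {G : ℍ → ℂ} (hG : G ∈ modRing M) : heckeFunFn hp h G ∈ modRing M := by
  classical
  obtain ⟨hd, hinv, hc⟩ := mem_weakMod.mp hG
  refine mem_weakMod.mpr ⟨mdiff_heckeFunFn hp h hd, fun γ hγ τ => ?_, fun δ => ?_⟩
  · rw [heckeFunFn_smul hp h (χ := fun _ => 1) (fun δ' τ => by rw [one_mul]; exact hinv _ δ'.2 τ)
      ⟨γ, hγ⟩, Finset.prod_const_one, one_mul]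
  have hx : ∀ x : Option (Fin p), ∃ m : ℕ, IsBoundedAtImInfty
      ((fun τ : ℍ => G (glOfInt ((heckeSystem1 M p hp h).rep x) • (δ • τ))) * (Δ : ℍ → ℂ) ^ m) := by
    intro x
    obtain ⟨A, a, e, b, ha, he, hBA⟩ := exists_triangular_pos
      ((heckeSystem1 M p hp h).rep x * (δ : Matrix (Fin 2) (Fin 2) ℤ))
      (by rw [Matrix.det_mul, Matrix.SpecialLinearGroup.det_coe, mul_one]; exact det_rep_pos hp h x)
    rw [glOfInt_mul (det_rep_pos hp h x).ne' (det_coe_ne_zero δ), glOfInt_coe] at hBA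
    obtain ⟨m, hm⟩ := hc A
    refine ⟨a * e * m, ?_⟩
    have h1 := isBoundedAtImInfty_comp_triangular hm (b := (b : ℝ)) ha he (k := a * e) (by
      rw [div_le_iff₀ he, Nat.cast_mul, mul_assoc]
      have h1e : (1 : ℝ) ≤ e := by exact_mod_cast (show 1 ≤ e by exact_mod_cast he)
      nlinarith [mul_le_mul h1e h1e zero_le_one he.le])
    refine h1.congr' (Eventually.of_forall fun τ => ?_) EventuallyEq.rfl
    have h2 := congrArg (fun g : GL (Fin 2) ℝ => g • τ) hBA
    simp only [mul_smul] at h2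
    simp only [Pi.mul_apply, Pi.pow_apply]
    rw [show glOfInt ((heckeSystem1 M p hp h).rep x) • (δ • τ) = _ from h2]
    rfl
  choose m hm using hx
  refine ⟨∑ x, m x, ?_⟩
  have hprod : ∀ s : Finset (Option (Fin p)), IsBoundedAtImInfty
      ((fun τ : ℍ => ∏ x ∈ s, G (glOfInt ((heckeSystem1 M p hp h).rep x) • (δ • τ))) *
        (Δ : ℍ → ℂ) ^ (∑ x ∈ s, m x)) := by
    intro s
    induction s using Finset.induction with
    | empty =>
      simp only [Finset.prod_empty, Finset.sum_empty, pow_zero, mul_one]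
      exact const_boundedAtFilter atImInfty (1 : ℂ)
    | insert x s hxs ih =>
      refine ((hm x).mul ih).congr' (Eventually.of_forall fun τ => ?_) EventuallyEq.rfl
      simp only [Pi.mul_apply, Pi.pow_apply, Finset.sum_insert hxs, Finset.prod_insert hxs, pow_add]
      ring
  exact hprod Finset.univ

/-- `T p` on functions. -/
def heckeFun (G : modRing M) : modRing M := ⟨heckeFunFn hp h G, heckeFunFn_mem hp h G.2⟩

theorem coe_heckeFun (G : modRing M) :
    (heckeFun hp h G : ℍ → ℂ) = heckeFunFn hp h (G : ℍ → ℂ) := rfl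

theorem mdiff_prod_ne_zero {ι : Type} (s : Finset ι) {F : ι → ℍ → ℂ} (hd : ∀ i, MDiff (F i))
    (hne : ∀ i ∈ s, F i ≠ 0) : (fun τ => ∏ i ∈ s, F i τ) ≠ 0 := by
  classical
  induction s using Finset.induction with
  | empty => simp [funext_iff]
  | insert i s his ih =>
    intro h0
    have h2 := ih fun j hj => hne j (Finset.mem_insert_of_mem hj)
    have hP : MDiff fun τ => ∏ j ∈ s, F j τ := by
      have := MDifferentiable.prod (t := s) (I := modelWithCornersSelf ℂ ℂ)
        (f := F) (fun (j : ι) (_ : j ∈ s) => hd j)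
      rw [Finset.prod_fn] at this
      exact this
    have han : ∀ {G : ℍ → ℂ}, MDiff G → AnalyticOnNhd ℂ (G ∘ ofComplex) {z : ℂ | 0 < z.im} :=
      fun hG => (UpperHalfPlane.mdifferentiable_iff.mp hG).analyticOnNhd isOpen_upperHalfPlaneSet
    rcases AnalyticOnNhd.eq_zero_or_eq_zero_of_mul_eq_zero (han (hd i)) (han hP)
      (fun z hz => by
        have := congrFun h0 (ofComplex z)
        simpa [Finset.prod_insert his] using this)
      (convex_halfSpace_im_gt 0).isPreconnected with h3 | h3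
    · exact hne i (Finset.mem_insert_self _ _) (funext fun τ => by simpa using h3 τ τ.im_pos)
    · exact h2 (funext fun τ => by simpa using h3 τ τ.im_pos)

variable {ℓ : ℕ} [Fact ℓ.Prime]

/-- The product has the transferred class. -/
theorem hasClass_heckeFun {g : modRing M} {φ : Additive (Gamma1 M) →+ ZMod ℓ}
    (hg : HasClass M ℓ g φ) :
    HasClass M ℓ (heckeFun hp h g) ((heckeSystem1 M p hp h).op (ZMod ℓ) φ) := by
  obtain ⟨hg0, r, hr, hrt, hrp⟩ := hg
  have hroot : ∀ τ, heckeFunFn hp h r τ ^ ℓ = (heckeFun hp h g : ℍ → ℂ) τ := fun τ => by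
    simp only [coe_heckeFun, heckeFunFn, ← Finset.prod_pow, hrp]
  refine ⟨?_, heckeFunFn hp h r, mdiff_heckeFunFn hp h hr, fun γ τ => ?_, hroot⟩
  · intro h0
    refine mdiff_prod_ne_zero Finset.univ (fun x => mdiff_comp_rep hp h hr x) ?_ (funext fun τ => ?_)
    · intro x _ hx
      refine root_ne_zero hg0 hrp (funext fun τ => ?_)
      have := congrFun hx ((glOfInt ((heckeSystem1 M p hp h).rep x))⁻¹ • τ)
      simpa [smul_inv_smul] using this
    · have := hroot τ
      rw [h0] at this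
      exact (pow_eq_zero_iff (Fact.out : ℓ.Prime).ne_zero).mp this
  · rw [heckeFunFn_smul hp h hrt, HeckeSystem.op_apply]
    congr 1
    generalize (Finset.univ : Finset (Option (Fin p))) = s
    induction s using Finset.induction with
    | empty => simp
    | insert x s hxs ih => rw [Finset.prod_insert hxs, Finset.sum_insert hxs, AddChar.map_add_eq_mul, ih]

theorem hasClass_diamondFn {g : modRing M} {φ : Additive (Gamma1 M) →+ ZMod ℓ}
    (hg : HasClass M ℓ g φ) (γ : Gamma0 M) :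
    HasClass M ℓ (diamondFn M γ g) (diamondHom γ φ) := by
  obtain ⟨hg0, r, hr, hrt, hrp⟩ := hg
  refine ⟨?_, fun τ => r ((γ : SL(2, ℤ)) • τ), ?_, fun δ τ => ?_, fun τ => hrp _⟩
  · intro h0
    refine hg0 (Subtype.ext (funext fun τ => ?_))
    have := congrFun (congrArg Subtype.val h0) ((γ : SL(2, ℤ))⁻¹ • τ)
    simpa [diamondFn] using this
  · exact hr.comp (UpperHalfPlane.mdifferentiable_smul
      (g := ((γ : SL(2, ℤ)) : GL (Fin 2) ℝ)) (by simp))
  · rw [diamondHom_apply, ← hrt (gamma1Conj γ δ)]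
    show r ((γ : SL(2, ℤ)) • ((δ : SL(2, ℤ)) • τ)) = _
    congr 1
    show _ = ((γ : SL(2, ℤ)) * δ * (γ : SL(2, ℤ))⁻¹) • ((γ : SL(2, ℤ)) • τ)
    rw [← mul_smul, ← mul_smul, inv_mul_cancel_right]

section Expansion

theorem qExpand_qExpand (R : Type*) [CommRing R] (a b : ℕ) [NeZero a] [NeZero b]
    (x : LaurentSeries R) :
    qExpand R a (qExpand R b x) = qExpand R (a * b) x := by
  ext i
  by_cases hd : (a : ℤ) ∣ i
  · obtain ⟨j, rfl⟩ := hd
    rw [qExpand_coeff_mul]
    by_cases hd' : (b : ℤ) ∣ j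
    · obtain ⟨k, rfl⟩ := hd'
      rw [qExpand_coeff_mul, ← mul_assoc, ← Nat.cast_mul, qExpand_coeff_mul]
    · rw [qExpand_coeff_of_not_dvd b _ hd', qExpand_coeff_of_not_dvd]
      rw [Nat.cast_mul]
      exact fun hh => hd' ((mul_dvd_mul_iff_left (by exact_mod_cast NeZero.ne a)).mp hh)
  · rw [qExpand_coeff_of_not_dvd a _ hd, qExpand_coeff_of_not_dvd]
    rw [Nat.cast_mul]
    exact fun hh => hd ((dvd_mul_right _ _).trans hh)

variable [NeZero p]

/-- **The expansion of `∏ g ∘ β` in `q^(1/p)`.** -/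
theorem qExpand_heckeFun (g : modRing M) :
    qExpand ℂ p (qExp1 M (heckeFun hp h g)) =
      (∏ j : Fin p, twistHom (expUnit ((j : ℕ) / p)) (qExp1 M g)) *
        qExpand ℂ (p * p) (qExp1 M (diamondFn M (diamondMat M p h) g)) := by
  have hT : heckeFunFn hp h (g : ℍ → ℂ) ∈ qMero :=
    weakMod_le_qMero (modularGroup_T_mem_Gamma1 M) (heckeFunFn_mem hp h g.2)
  have hg : (g : ℍ → ℂ) ∈ qMero := weakMod_le_qMero (modularGroup_T_mem_Gamma1 M) g.2
  set g' := diamondFn M (diamondMat M p h) g with hg'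
  have hg'' : (g' : ℍ → ℂ) ∈ qMero := weakMod_le_qMero (modularGroup_T_mem_Gamma1 M) g'.2
  rw [qExp1_apply, coe_heckeFun, ← qExpL_comp_diag hT p, qExp1_apply, qExp1_apply,
    ← qExpand_qExpand, ← qExpL_comp_diag hg'' p, ← qExpL_comp_diag (comp_diag_mem_qMero hg'' p) p]
  simp only [← qExpL_vadd hg]
  have hfun : (fun τ => heckeFunFn hp h (g : ℍ → ℂ) (ModularForm.heckeDiagMatrix p • τ)) =
      (∏ j : Fin p, fun τ : ℍ => (g : ℍ → ℂ) ((((j : ℕ) : ℝ) / p) +ᵥ τ)) *
        fun τ => (g' : ℍ → ℂ)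
          (ModularForm.heckeDiagMatrix p • ModularForm.heckeDiagMatrix p • τ) := by
    funext τ
    have hp0 : (p : ℂ) ≠ 0 := Nat.cast_ne_zero.mpr hp.ne_zero
    have hpR : (0 : ℝ) < p := by exact_mod_cast hp.pos
    rw [heckeFunFn, Fintype.prod_option, Pi.mul_apply, Finset.prod_apply, mul_comm]
    congr 1
    · refine Finset.prod_congr rfl fun j _ => ?_
      show (g : ℍ → ℂ) _ = (g : ℍ → ℂ) _
      refine congrArg (g : ℍ → ℂ) ?_
      apply UpperHalfPlane.ext
      rw [UpperHalfPlane.coe_smul_of_det_pos (det_glOfInt_pos (det_rep_pos hp h (some j)))]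
      have hrep : (heckeSystem1 M p hp h).rep (some j) = !![1, ((j : ℕ) : ℤ); 0, (p : ℤ)] := by
        show heckeRep1 M p h (some j) = _
        simp [heckeRep1, cosetTwist, heckeRepInt]
      have he : ((glOfInt ((heckeSystem1 M p hp h).rep (some j)) : GL (Fin 2) ℝ) :
          Matrix (Fin 2) (Fin 2) ℝ) = !![1, ((j : ℕ) : ℝ); 0, (p : ℝ)] := by
        rw [val_glOfInt (det_rep_pos hp h (some j)).ne', hrep]
        ext a b; fin_cases a <;> fin_cases b <;> simp
      simp [UpperHalfPlane.num, UpperHalfPlane.denom, he,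
        ModularForm.coe_heckeDiagMatrix_smul (NeZero.ne p), UpperHalfPlane.coe_vadd]
      field_simp
      ring
    · show (g : ℍ → ℂ) _ = (g : ℍ → ℂ) ((diamondMat M p h : SL(2, ℤ)) • _)
      have hdiag : glOfInt (heckeRepInt p none) • (ModularForm.heckeDiagMatrix p • τ) =
          ModularForm.heckeDiagMatrix p • ModularForm.heckeDiagMatrix p • τ := by
        have hdet : 0 < (heckeRepInt p none).det := by
          rw [det_heckeRepInt]; exact_mod_cast hp.pos
        apply UpperHalfPlane.ext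
        rw [UpperHalfPlane.coe_smul_of_det_pos (det_glOfInt_pos hdet)]
        have he : ((glOfInt (heckeRepInt p none) : GL (Fin 2) ℝ) :
            Matrix (Fin 2) (Fin 2) ℝ) = !![(p : ℝ), 0; 0, 1] := by
          rw [val_glOfInt hdet.ne']
          ext a b; fin_cases a <;> fin_cases b <;> simp [heckeRepInt]
        simp [UpperHalfPlane.num, UpperHalfPlane.denom, he,
          ModularForm.coe_heckeDiagMatrix_smul (NeZero.ne p)]
      rw [← hdiag]
      have hrep : (heckeSystem1 M p hp h).rep none =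
          ((cosetTwist M p h none : SL(2, ℤ)) : Matrix (Fin 2) (Fin 2) ℤ) * heckeRepInt p none := rfl
      rw [hrep, glOfInt_mul (det_coe_ne_zero _) (by rw [det_heckeRepInt]; exact_mod_cast hp.ne_zero),
        glOfInt_coe, mul_smul]
      rfl
  rw [hfun, qExpL_mul (prod_mem fun j _ => vadd_mem_qMero hg _)
    (comp_diag_mem_qMero (comp_diag_mem_qMero hg'' p) p)]
  congr 1
  have := map_prod qExpLHom
    (fun j : Fin p => (⟨fun τ => (g : ℍ → ℂ) ((((j : ℕ) : ℝ) / p) +ᵥ τ),
      vadd_mem_qMero hg (((j : ℕ) : ℝ) / p)⟩ : qMero)) Finset.univ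
  simp only [qExpLHom_apply] at this
  rw [← this]
  congr 1
  exact (map_prod qMero.val (fun j : Fin p =>
    (⟨fun τ => (g : ℍ → ℂ) ((((j : ℕ) : ℝ) / p) +ᵥ τ),
      vadd_mem_qMero hg (((j : ℕ) : ℝ) / p)⟩ : qMero)) Finset.univ).symm

end Expansion

section Conj

variable [NeZero p]

attribute [local instance] Fintype.ofFinite

theorem prod_expUnit_eq (x : LaurentSeries ℂ) :
    ∏ j : Fin p, twistHom (expUnit ((j : ℕ) / p)) x =
      ∏ z ∈ (Finset.univ : Finset (rootsOfUnity p ℂ)), twistHom (z : ℂˣ) x := by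
  have hmem : ∀ j : Fin p, expUnit ((j : ℕ) / p) ∈ rootsOfUnity p ℂ := by
    intro j
    rw [_root_.mem_rootsOfUnity]
    refine Units.ext ?_
    rw [Units.val_pow_eq_pow_val, Units.val_one]
    simp only [expUnit, Units.val_mk0]
    rw [← exp_nat_mul, exp_eq_one_iff]
    refine ⟨(j : ℕ), ?_⟩
    have hp0 : (p : ℂ) ≠ 0 := Nat.cast_ne_zero.mpr (NeZero.ne p)
    push_cast
    field_simp
  have hprim : IsPrimitiveRoot (exp (2 * Real.pi * Complex.I / p)) p :=
    Complex.isPrimitiveRoot_exp p (NeZero.ne p)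
  refine Fintype.prod_bijective (fun j => (⟨_, hmem j⟩ : rootsOfUnity p ℂ)) ⟨?_, ?_⟩ _ _
    fun j => rfl
  · intro i j hij
    have h1 : (expUnit ((i : ℕ) / p) : ℂ) = expUnit ((j : ℕ) / p) :=
      congrArg (fun z : rootsOfUnity p ℂ => ((z : ℂˣ) : ℂ)) hij
    refine Fin.ext (hprim.pow_inj i.isLt j.isLt ?_)
    rw [← exp_nat_mul, ← exp_nat_mul]
    simp only [expUnit, Units.val_mk0] at h1
    push_cast at h1 ⊢
    convert h1 using 2 <;> ring
  · rintro ⟨z, hz⟩
    obtain ⟨i, hi, hiz⟩ := hprim.eq_pow_of_pow_eq_one (ξ := (z : ℂ)) (by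
      rw [← Units.val_pow_eq_pow_val, (_root_.mem_rootsOfUnity p z).mp hz, Units.val_one])
    refine ⟨⟨i, hi⟩, Subtype.ext (Units.ext ?_)⟩
    show (expUnit _ : ℂ) = z
    rw [← hiz, ← exp_nat_mul]
    simp only [expUnit, Units.val_mk0]
    push_cast
    ring_nf

theorem isConjFn_heckeFun (hM : 4 ∣ M ∨ 5 ∣ M) (hM5 : 5 ≤ M) {σ : ℂ ≃+* ℂ} {g g' : modRing M}
    (hg : IsConjFn M σ g g') : IsConjFn M σ (heckeFun hp h g) (heckeFun hp h g') := by
  refine qExpand_injective p ?_
  rw [← ModularCurve.coeffMap_qExpand (σ : ℂ →+* ℂ) p, qExpand_heckeFun, qExpand_heckeFun,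
    show qExp1 M g' = _ from hg,
    show qExp1 M (diamondFn M (diamondMat M p h) g') = _ from
      isConjFn_diamondFn M hM hM5 σ (diamondMat M p h) hg,
    map_mul, map_prod, ModularCurve.coeffMap_qExpand (σ : ℂ →+* ℂ)]
  congr 1
  simp only [coeffMap_twistHom]
  rw [prod_expUnit_eq]
  let e : rootsOfUnity p ℂ ≃ rootsOfUnity p ℂ :=
    { toFun := fun z => restrictRootsOfUnity (σ : ℂ →+* ℂ) p z
      invFun := fun z => restrictRootsOfUnity (σ.symm : ℂ →+* ℂ) p z
      left_inv := fun z => by ext; simp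
      right_inv := fun z => by ext; simp }
  have h2 : ∀ x : LaurentSeries ℂ,
      ∏ j : Fin p, twistHom (Units.map ((σ : ℂ →+* ℂ) : ℂ →* ℂ) (expUnit ((j : ℕ) / p))) x =
        ∏ z ∈ (Finset.univ : Finset (rootsOfUnity p ℂ)), twistHom (z : ℂˣ) x := by
    intro x
    have hsig : ∀ (z : ℂˣ) (y : LaurentSeries ℂ), twistHom (Units.map ((σ : ℂ →+* ℂ) : ℂ →* ℂ) z) y =
        coeffMap (σ : ℂ →+* ℂ) (twistHom z (coeffMap (σ.symm : ℂ →+* ℂ) y)) := fun z y => by
      rw [coeffMap_twistHom]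
      congr 1
      ext n
      simp
    simp only [hsig, ← map_prod]
    rw [prod_expUnit_eq, map_prod]
    refine Fintype.prod_equiv e _ _ fun z => ?_
    rw [coeffMap_twistHom, coeffMap_coeffMap]
    congr 1
    ext n
    simp
  exact (h2 _).symm

end Conj

section Commute

variable (hM : 4 ∣ M ∨ 5 ∣ M) (hM5 : 5 ≤ M)

/-- `T p` commutes with the Galois action. -/
theorem galParRep_parT (σ : AlgebraicClosure ℚ ≃ₐ[ℚ] AlgebraicClosure ℚ) :
    galParRep ℓ hM hM5 σ * parT M ℓ hp h = parT M ℓ hp h * galParRep ℓ hM hM5 σ := by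
  haveI : NeZero p := ⟨hp.ne_zero⟩
  refine LinearMap.ext fun φ => ?_
  rw [Module.End.mul_apply, Module.End.mul_apply,
    galParRep_apply hM hM5 (s := qbarExt σ) (qbarExt_apply σ),
    galParRep_apply hM hM5 (s := qbarExt σ) (qbarExt_apply σ)]
  obtain ⟨g, hg⟩ := exists_isMaxRep hM5 φ.2
  obtain ⟨g', hg'⟩ := exists_isConjFn M hM hM5 (qbarExt σ) g
  exact galClass_eq_of_hasClass hM hM5 (φ := parT M ℓ hp h φ) (hasClass_heckeFun hp h hg.1)
    (isConjFn_heckeFun hp h hM hM5 hg')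
    (hasClass_heckeFun hp h (hasClass_galClass hM hM5 hg.1 hg'))

/-- Diamond operators commute with the Galois action. -/
theorem galParRep_parDiamond (σ : AlgebraicClosure ℚ ≃ₐ[ℚ] AlgebraicClosure ℚ) (γ : Gamma0 M) :
    galParRep ℓ hM hM5 σ * parDiamond M ℓ γ = parDiamond M ℓ γ * galParRep ℓ hM hM5 σ := by
  refine LinearMap.ext fun φ => ?_
  rw [Module.End.mul_apply, Module.End.mul_apply,
    galParRep_apply hM hM5 (s := qbarExt σ) (qbarExt_apply σ),
    galParRep_apply hM hM5 (s := qbarExt σ) (qbarExt_apply σ)]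
  obtain ⟨g, hg⟩ := exists_isMaxRep hM5 φ.2
  obtain ⟨g', hg'⟩ := exists_isConjFn M hM hM5 (qbarExt σ) g
  exact galClass_eq_of_hasClass hM hM5 (φ := parDiamond M ℓ γ φ) (hasClass_diamondFn hg.1 γ)
    (isConjFn_diamondFn M hM hM5 (qbarExt σ) γ hg')
    (hasClass_diamondFn (hasClass_galClass hM hM5 hg.1 hg') γ)

end Commute

end FermatLib.Galois.DS

end
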