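import Fermat.Agent.Galois.DS.Reduction
import Fermat.Agent.Galois.DS.HeckeFn
import Fermat.Prelude.Thm_ModularCurve_coeffMap_qExpand

/-!
# Reduced expansions at `∞`, and the reduction of `T p`
-/

set_option autoImplicit false
set_option linter.unusedSectionVars false
set_option linter.style.haveILetI false

noncomputable section

open UpperHalfPlane CongruenceSubgroup ModularCurve
open scoped MatrixGroups

namespace FermatLib.Galois.DS

variable {M : ℕ} [NeZero M] {O : Subring ℂ} [IsDiscreteValuationRing O]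

theorem coeff_qExp1_mem (G : intRing M O) (n : ℤ) : (qExp1 M (G : modRing M)).coeff n ∈ O := by
  have h := mem_coeff 1 G ((M : ℤ) * n)
  rwa [cuspExp_eq_of_isInftyCusp M (isInftyCusp_one M), qExpand_coeff_mul] at h

theorem exists_qExpO (G : intRing M O) :
    ∃ x : LaurentSeries O, coeffMap O.subtype x = qExp1 M (G : modRing M) :=
  ⟨⟨fun n => ⟨_, coeff_qExp1_mem G n⟩, (qExp1 M (G : modRing M)).isPWO_support.mono fun n hn => by
    rw [HahnSeries.mem_support]
    exact fun h0 => hn (Subtype.ext h0)⟩, by ext n; rfl⟩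

variable (M O) in
/-- The expansion at `∞` with coefficients in `O`. -/
def qExpO : intRing M O →+* LaurentSeries O where
  toFun G := (exists_qExpO G).choose
  map_one' := coeffMap_subtype_injective (by
    rw [(exists_qExpO 1).choose_spec, OneMemClass.coe_one, map_one, map_one])
  map_mul' G H := coeffMap_subtype_injective (by
    rw [(exists_qExpO (G * H)).choose_spec, map_mul, (exists_qExpO G).choose_spec,
      (exists_qExpO H).choose_spec, MulMemClass.coe_mul, map_mul])
  map_zero' := coeffMap_subtype_injective (by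
    rw [(exists_qExpO 0).choose_spec, ZeroMemClass.coe_zero, map_zero, map_zero])
  map_add' G H := coeffMap_subtype_injective (by
    rw [(exists_qExpO (G + H)).choose_spec, map_add, (exists_qExpO G).choose_spec,
      (exists_qExpO H).choose_spec, AddMemClass.coe_add, map_add])

theorem coeffMap_qExpO (G : intRing M O) :
    coeffMap O.subtype (qExpO M O G) = qExp1 M (G : modRing M) :=
  (exists_qExpO G).choose_spec

theorem coe_coeff_qExpO (G : intRing M O) (n : ℤ) :
    ((qExpO M O G).coeff n : ℂ) = (qExp1 M (G : modRing M)).coeff n := by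
  rw [← coeffMap_qExpO, coeffMap_coeff]
  rfl

variable (M O) in
/-- The reduced expansion at `∞` in `q`. -/
def redInf : intRing M O →+* LaurentSeries (IsLocalRing.ResidueField O) :=
  (coeffMap (IsLocalRing.residue O)).comp (qExpO M O)

theorem coeff_redInf (G : intRing M O) (n : ℤ) :
    (redInf M O G).coeff n = IsLocalRing.residue O ((qExpO M O G).coeff n) := by
  rw [redInf, RingHom.comp_apply, coeffMap_coeff]

theorem cuspExpO_one (G : intRing M O) : cuspExpO M O 1 G = qExpand O M (qExpO M O G) :=
  coeffMap_subtype_injective (by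
    rw [coeffMap_cuspExpO, ModularCurve.coeffMap_qExpand, coeffMap_qExpO,
      cuspExp_eq_of_isInftyCusp M (isInftyCusp_one M)])

theorem redExp_one (G : intRing M O) :
    redExp M O 1 G = qExpand (IsLocalRing.ResidueField O) M (redInf M O G) := by
  rw [redExp, redInf, RingHom.comp_apply, RingHom.comp_apply, cuspExpO_one,
    ModularCurve.coeffMap_qExpand]

variable [IsAdicComplete (IsLocalRing.maximalIdeal O) O] {ϖ : O}

theorem redInf_eq_zero_iff (hg : GoodPlace M O) (hϖ : Irreducible ϖ) (G : intRing M O) :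
    redInf M O G = 0 ↔ algebraMap O (intRing M O) ϖ ∣ G := by
  rw [← redExp_eq_zero_iff hϖ hg 1, redExp_one,
    map_eq_zero_iff _ (qExpand_injective (R := IsLocalRing.ResidueField O) M)]

section Diamond

theorem cuspExp_diamondFn (γ : Gamma0 M) (A : SL(2, ℤ)) (G : modRing M) :
    cuspExp M A (diamondFn M γ G) = cuspExp M ((γ : SL(2, ℤ)) * A) G := by
  rw [cuspExp_apply, cuspExp_apply]
  congr 1
  funext τ
  simp only [cuspFun, mul_smul]
  rfl

theorem diamondFn_mem_intRing (γ : Gamma0 M) {G : modRing M} (hG : G ∈ intRing M O) :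
    diamondFn M γ G ∈ intRing M O := fun A => by
  rw [cuspExp_diamondFn]
  exact hG _

/-- Diamond operators on `intRing`. -/
def diamondInt (γ : Gamma0 M) (G : intRing M O) : intRing M O :=
  ⟨diamondFn M γ G, diamondFn_mem_intRing γ G.2⟩

theorem redExp_diamondInt (γ : Gamma0 M) (A : SL(2, ℤ)) (G : intRing M O) :
    redExp M O A (diamondInt γ G) = redExp M O ((γ : SL(2, ℤ)) * A) G := by
  rw [redExp, redExp, RingHom.comp_apply, RingHom.comp_apply]
  congr 1
  refine coeffMap_subtype_injective ?_
  rw [coeffMap_cuspExpO, coeffMap_cuspExpO]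
  exact cuspExp_diamondFn γ A _

theorem not_dvd_diamondInt (hϖ : Irreducible ϖ) (γ : Gamma0 M) {G : intRing M O}
    (hG : ¬ algebraMap O (intRing M O) ϖ ∣ G) :
    ¬ algebraMap O (intRing M O) ϖ ∣ diamondInt γ G := by
  rw [algebraMap_dvd_iff_redExp hϖ] at hG ⊢
  intro h
  refine hG fun A => ?_
  have := h ((γ : SL(2, ℤ))⁻¹ * A)
  rwa [redExp_diamondInt, mul_inv_cancel_left] at this

end Diamond

section Hecke

variable {p : ℕ} (hp : p.Prime) (h : Nat.Coprime p M)

/-- A `p`-th root of unity is `1` in residue characteristic `p`. -/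
theorem residue_eq_one_of_pow {k : Type*} [Field k] [Fact p.Prime] [CharP k p] {z : k}
    (hz : z ^ p = 1) : z = 1 := by
  have h1 : (z - 1) ^ p = 0 := by rw [sub_pow_char, hz, one_pow, sub_self]
  exact sub_eq_zero.mp (eq_zero_of_pow_eq_zero h1)

/-- **`T p` on reduced expansions.** -/
theorem exists_redInf_heckeFun [NeZero p] (hg : GoodPlace M O) (hϖ : Irreducible ϖ)
    (hpO : (p : O) ∈ IsLocalRing.maximalIdeal O)
    (hζ : ∀ j : Fin p, (expUnit ((j : ℕ) / p) : ℂ) ∈ O) (g : intRing M O) :
    ∃ T : intRing M O, (T : modRing M) = heckeFun hp h (g : modRing M) ∧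
      qExpand (IsLocalRing.ResidueField O) p (redInf M O T) =
        redInf M O g ^ p * qExpand (IsLocalRing.ResidueField O) (p * p)
          (redInf M O (diamondInt (diamondMat M p h) g)) := by
  haveI : Fact p.Prime := ⟨hp⟩
  haveI : CharP (IsLocalRing.ResidueField O) p := (CharP.charP_iff_prime_eq_zero hp).mpr (by
    rw [← map_natCast (IsLocalRing.residue O), IsLocalRing.residue_eq_zero_iff]
    exact hpO)
  have hpow : ∀ j : Fin p, (expUnit ((j : ℕ) / p) : ℂ) ^ p = 1 := fun j => by
    simp only [expUnit, Units.val_mk0]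
    rw [← Complex.exp_nat_mul, Complex.exp_eq_one_iff]
    refine ⟨(j : ℕ), ?_⟩
    have hp0 : (p : ℂ) ≠ 0 := Nat.cast_ne_zero.mpr hp.ne_zero
    push_cast
    field_simp
  let z : Fin p → Oˣ := fun j => Units.ofPowEqOne (⟨_, hζ j⟩ : O) p (Subtype.ext (hpow j)) hp.ne_zero
  have hz : ∀ j, Units.map (O.subtype : O →* ℂ) (z j) = expUnit ((j : ℕ) / p) := fun j =>
    Units.ext rfl
  set x : LaurentSeries O := (∏ j : Fin p, twistHom (z j) (qExpO M O g)) *
    qExpand O (p * p) (qExpO M O (diamondInt (diamondMat M p h) g)) with hx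
  have hxT : coeffMap O.subtype x = qExpand ℂ p (qExp1 M (heckeFun hp h (g : modRing M))) := by
    rw [qExpand_heckeFun, hx, map_mul, map_prod, ModularCurve.coeffMap_qExpand, coeffMap_qExpO]
    congr 1
    refine Finset.prod_congr rfl fun j _ => ?_
    rw [coeffMap_twistHom, coeffMap_qExpO, hz]
  have hT : heckeFun hp h (g : modRing M) ∈ intRing M O := by
    refine mem_intRing_of_qExp1 hϖ hg fun n => ?_
    rw [← qExpand_coeff_mul (R := ℂ) p, ← hxT, coeffMap_coeff]
    exact (x.coeff ((p : ℤ) * n)).2
  refine ⟨⟨_, hT⟩, rfl, ?_⟩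
  have hqT : qExpand O p (qExpO M O ⟨_, hT⟩) = x := coeffMap_subtype_injective (by
    rw [ModularCurve.coeffMap_qExpand, coeffMap_qExpO, hxT])
  have hres : ∀ j, Units.map (IsLocalRing.residue O : O →* IsLocalRing.ResidueField O) (z j) = 1 := by
    intro j
    refine Units.ext (residue_eq_one_of_pow (p := p) ?_)
    rw [← Units.val_pow_eq_pow_val, ← map_pow,
      show z j ^ p = 1 from Units.ext (Subtype.ext (hpow j)), map_one, Units.val_one]
  have h1 := congrArg (coeffMap (IsLocalRing.residue O)) hqT
  rw [ModularCurve.coeffMap_qExpand, hx, map_mul, map_prod, ModularCurve.coeffMap_qExpand] at h1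
  rw [redInf, RingHom.comp_apply, RingHom.comp_apply, RingHom.comp_apply, h1]
  congr 1
  rw [Finset.prod_congr rfl fun j _ => (coeffMap_twistHom _ (z j) _).trans
    (by rw [hres j, twistHom_one]), Finset.prod_const, Finset.card_univ, Fintype.card_fin]

end Hecke

end FermatLib.Galois.DS

end
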