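import Mathlib.RingTheory.UniqueFactorizationDomain.Kaplansky
import Mathlib.RingTheory.DiscreteValuationRing.TFAE
import Mathlib.RingTheory.Nakayama

/-!
# Roots modulo powers of a uniformiser

Local algebra for the reduction lemma: `ℓ`-th roots modulo `ϖ ^ n`, and factoriality of two
dimensional regular local rings.
-/

set_option autoImplicit false

namespace FermatLib.Galois.DS

variable {S : Type*} [CommRing S]

/-- The first order term of the binomial formula. -/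
theorem exists_add_pow_eq (x y : S) (n : ℕ) :
    ∃ k : S, (x + y) ^ n = x ^ n + x ^ (n - 1) * y * n + y ^ 2 * k := by
  induction n with
  | zero => exact ⟨0, by simp⟩
  | succ n ih =>
    obtain ⟨k, hk⟩ := ih
    rcases Nat.eq_zero_or_pos n with rfl | hn
    · exact ⟨0, by simp⟩
    refine ⟨k * (x + y) + x ^ (n - 1) * n, ?_⟩
    have hxn : x ^ n = x ^ (n - 1) * x := by rw [← pow_succ, Nat.sub_add_cancel hn]
    rw [pow_succ (x + y), hk, show n + 1 - 1 = n from rfl, pow_succ x, hxn]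
    push_cast
    ring

/-- Newton iteration for `v ^ ℓ ≡ u`. -/
theorem exists_pow_root_mod [IsLocalRing S] {ϖ : S} (hϖ : ¬ IsUnit ϖ) {ℓ : ℕ}
    (hℓ : IsUnit (ℓ : S)) {u v : S} (hv : IsUnit v) (h : ϖ ∣ u - v ^ ℓ) (n : ℕ) :
    ∃ w : S, ϖ ∣ w - v ∧ IsUnit w ∧ ϖ ^ n ∣ u - w ^ ℓ := by
  induction n with
  | zero => exact ⟨v, by simp, hv, by simp⟩
  | succ n ih =>
    obtain ⟨w, hwv, hw, r, hr⟩ := ih
    rcases Nat.eq_zero_or_pos n with rfl | hn
    · exact ⟨v, by simp, hv, by simpa using h⟩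
    obtain ⟨i, hi⟩ := (hℓ.mul (hw.pow (ℓ - 1))).exists_left_inv
    obtain ⟨k, hk⟩ := exists_add_pow_eq w (ϖ ^ n * (i * r)) ℓ
    refine ⟨w + ϖ ^ n * (i * r), ?_, ?_, ?_⟩
    · rw [add_sub_right_comm]
      exact dvd_add hwv (dvd_mul_of_dvd_left (dvd_pow_self _ hn.ne') _)
    · by_contra h'
      refine (IsLocalRing.mem_maximalIdeal w).mp ?_ hw
      have h1 : ϖ ^ n * (i * r) ∈ IsLocalRing.maximalIdeal S :=
        Ideal.mul_mem_right _ _ ((IsLocalRing.mem_maximalIdeal _).mpr fun hu => hϖ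
          (isUnit_of_dvd_unit (dvd_pow_self ϖ hn.ne') hu))
      simpa using Ideal.sub_mem _ ((IsLocalRing.mem_maximalIdeal _).mpr h') h1
    · rw [hk]
      have : u - (w ^ ℓ + w ^ (ℓ - 1) * (ϖ ^ n * (i * r)) * ℓ + (ϖ ^ n * (i * r)) ^ 2 * k) =
          ϖ ^ n * (r * (1 - i * (ℓ * w ^ (ℓ - 1)))) -
            ϖ ^ (n + 1) * (ϖ ^ (n - 1) * (i * r) ^ 2 * k) := by
        rw [show ϖ ^ (n + 1) * (ϖ ^ (n - 1) * (i * r) ^ 2 * k) =
          (ϖ ^ (n + 1) * ϖ ^ (n - 1)) * ((i * r) ^ 2 * k) by ring, ← pow_add,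
          show n + 1 + (n - 1) = n * 2 by omega, pow_mul]
        linear_combination hr
      rw [this, hi]
      simp

variable {ϖ : S}

/-- Congruent modulo `ϖ` and equal `ℓ`-th powers modulo `ϖ ^ n` gives congruent modulo `ϖ ^ n`. -/
theorem sub_dvd_of_pow_sub_dvd [IsDomain S] (hϖ : Prime ϖ) {ℓ : ℕ} (hℓ : ¬ ϖ ∣ (ℓ : S)) {a b : S}
    (hb : ¬ ϖ ∣ b) (hab : ϖ ∣ a - b) {n : ℕ} (h : ϖ ^ n ∣ a ^ ℓ - b ^ ℓ) : ϖ ^ n ∣ a - b := by
  obtain ⟨d, hd⟩ := hab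
  obtain ⟨k, hk⟩ := exists_add_pow_eq b (ϖ * d) ℓ
  have ha : a = b + ϖ * d := by rw [← hd]; ring
  have h' : ϖ ^ n ∣ (ϖ * d) * (b ^ (ℓ - 1) * ℓ + ϖ * (d * k)) := by
    refine h.trans (dvd_of_eq ?_)
    rw [ha, hk]; ring
  rw [hd]
  refine hϖ.pow_dvd_of_dvd_mul_right n ?_ h'
  intro hc
  have : ϖ ∣ b ^ (ℓ - 1) * ℓ := by
    simpa using dvd_sub hc (dvd_mul_right ϖ (d * k))
  rcases hϖ.dvd_or_dvd this with h1 | h1
  · exact hb (hϖ.dvd_of_dvd_pow h1)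
  · exact hℓ h1

/-- The correction term: if `g = u Q ^ ℓ` and `a` is a root modulo `ϖ ^ n`, then
`(g - a ^ ℓ) / ϖ ^ n` is divisible by `a ^ (ℓ - 1)` modulo `ϖ`. -/
theorem exists_sub_dvd_of_factor [IsDomain S] [IsLocalRing S] (hϖ : Prime ϖ) {ℓ : ℕ}
    (hℓ0 : ℓ ≠ 0) (hℓ : IsUnit (ℓ : S)) {g u Q a v : S} (hu : IsUnit u) (hg : g = u * Q ^ ℓ)
    (hQ : ¬ ϖ ∣ Q) (hv : IsUnit v) (hv' : ϖ ∣ a - v * Q) {n : ℕ} (hn : 1 ≤ n) {r : S}
    (hr : g - a ^ ℓ = ϖ ^ n * r) :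
    ∃ e : S, ϖ ∣ (ℓ : S) * a ^ (ℓ - 1) * e - r := by
  have hϖu : ¬ IsUnit ϖ := hϖ.not_isUnit
  have h1 : ϖ ∣ u - v ^ ℓ := by
    have h2 : ϖ ∣ (u - v ^ ℓ) * Q ^ ℓ := by
      have h3 : ϖ ∣ a ^ ℓ - (v * Q) ^ ℓ := hv'.trans (sub_dvd_pow_sub_pow _ _ _)
      have h4 : ϖ ∣ g - a ^ ℓ := ⟨ϖ ^ (n - 1) * r, by
        rw [← mul_assoc, ← pow_succ', Nat.sub_add_cancel hn, hr]⟩
      have := dvd_add h4 h3
      rw [hg, mul_pow] at this
      refine this.trans (dvd_of_eq ?_)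
      ring
    exact (hϖ.dvd_or_dvd h2).resolve_right fun h => hQ (hϖ.dvd_of_dvd_pow h)
  obtain ⟨w, hwv, hw, r', hr'⟩ := exists_pow_root_mod hϖu hℓ hv h1 n
  have hℓϖ : ¬ ϖ ∣ (ℓ : S) := fun h => hϖu (isUnit_of_dvd_unit h hℓ)
  have hwQ : ¬ ϖ ∣ w * Q := fun h => (hϖ.dvd_or_dvd h).elim
    (fun h => hϖu (isUnit_of_dvd_unit h hw)) hQ
  have hclose : ϖ ^ n ∣ a - w * Q := by
    refine sub_dvd_of_pow_sub_dvd hϖ hℓϖ hwQ ?_ ?_
    · have := dvd_sub hv' (hwv.mul_right Q)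
      refine this.trans (dvd_of_eq ?_)
      ring
    · refine ⟨r' * Q ^ ℓ - r, ?_⟩
      rw [mul_pow]
      linear_combination -hr + hg + Q ^ ℓ * hr'
  obtain ⟨d, hd⟩ := hclose
  obtain ⟨k, hk⟩ := exists_add_pow_eq (w * Q) (ϖ ^ n * d) ℓ
  have ha : a = w * Q + ϖ ^ n * d := by rw [← hd]; ring
  have hr2 : ϖ ^ n * r =
      ϖ ^ n * (r' * Q ^ ℓ - (w * Q) ^ (ℓ - 1) * d * ℓ - ϖ ^ n * d ^ 2 * k) := by
    rw [← hr, ha, hk, hg]
    linear_combination Q ^ ℓ * hr'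
  have hr3 := mul_left_cancel₀ (pow_ne_zero n hϖ.ne_zero) hr2
  obtain ⟨i, hi⟩ := (hℓ.mul (hw.pow (ℓ - 1))).exists_left_inv
  refine ⟨i * r' * Q - d, ?_⟩
  obtain ⟨t, ht⟩ := sub_dvd_pow_sub_pow a (w * Q) (ℓ - 1)
  have hQℓ : Q ^ ℓ = Q ^ (ℓ - 1) * Q := by
    rw [← pow_succ, Nat.sub_add_cancel (Nat.pos_of_ne_zero hℓ0)]
  refine ⟨ℓ * (ϖ ^ (n - 1) * d * t) * (i * r' * Q - d) + ϖ ^ (n - 1) * d ^ 2 * k, ?_⟩
  have hpow : ϖ * ϖ ^ (n - 1) = ϖ ^ n := by rw [← pow_succ', Nat.sub_add_cancel hn]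
  rw [hr3, hQℓ, mul_pow] at *
  have hat : a ^ (ℓ - 1) = w ^ (ℓ - 1) * Q ^ (ℓ - 1) + ϖ ^ n * d * t := by
    linear_combination ht + t * hd
  rw [hat, ← hpow]
  linear_combination (r' * Q * Q ^ (ℓ - 1)) * hi

/-- An element all whose multiplicities are divisible by `ℓ` is an `ℓ`-th power up to a unit. -/
theorem exists_eq_unit_mul_pow [IsDomain S] [UniqueFactorizationMonoid S] {ℓ : ℕ} (hℓ : ℓ ≠ 0)
    {g : S} (hg : g ≠ 0)
    (h : ∀ π : S, Prime π → ∀ (k : ℕ) (c : S), ¬ π ∣ c → g = π ^ k * c → ℓ ∣ k) :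
    ∃ (u Q : S), IsUnit u ∧ g = u * Q ^ ℓ := by
  induction g using (wellFounded_dvdNotUnit (α := S)).induction with
  | _ g ih =>
    by_cases hu : IsUnit g
    · exact ⟨g, 1, hu, by simp⟩
    obtain ⟨π, hπ, hdvd⟩ := WfDvdMonoid.exists_irreducible_factor hu hg
    have hπ' := UniqueFactorizationMonoid.irreducible_iff_prime.mp hπ
    obtain ⟨k, c, hc, rfl⟩ := WfDvdMonoid.max_power_factor hg hπ
    have hℓk := h π hπ' k c hc rfl
    have hk : k ≠ 0 := by rintro rfl; simp at hdvd; exact hc hdvd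
    have hc0 : c ≠ 0 := right_ne_zero_of_mul hg
    obtain ⟨u, Q, hu', rfl⟩ := ih c ⟨hc0, π ^ k, fun hu' => hπ'.not_isUnit
      ((isUnit_pow_iff hk).mp hu'), mul_comm _ _⟩ hc0 fun π' hπ'' j c' hc' hj => by
      by_cases hass : π' ∣ π
      · -- `π'` is associated to `π`, which does not divide `c`
        rcases Nat.eq_zero_or_pos j with rfl | hjpos
        · exact dvd_zero _
        · refine absurd ?_ hc
          have h1 : Associated π' π := hπ''.associated_of_dvd hπ' hass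
          rw [hj]
          exact h1.symm.dvd.trans (dvd_mul_of_dvd_left (dvd_pow_self _ hjpos.ne') _)
      · refine h π' hπ'' j (π ^ k * c') (fun hd => ?_) (by rw [hj]; ring)
        rcases hπ''.dvd_or_dvd hd with h1 | h1
        · exact hass (hπ''.dvd_of_dvd_pow h1)
        · exact hc' h1
    obtain ⟨m, rfl⟩ := hℓk
    exact ⟨u, π ^ m * Q, hu', by rw [mul_pow, ← pow_mul, mul_comm ℓ m]; ring⟩

/-- A two dimensional regular local ring `(S, (ϖ, f))` with `S / ϖ` a domain is factorial. -/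
theorem ufm_of_two_generators [IsDomain S] [IsNoetherianRing S] [IsLocalRing S] (hϖ : Prime ϖ)
    {f : S} (hmax : IsLocalRing.maximalIdeal S = Ideal.span {ϖ, f}) :
    UniqueFactorizationMonoid S := by
  rw [UniqueFactorizationMonoid.iff_exists_prime_mem_of_isPrime]
  intro P hP hPprime
  by_cases hϖP : ϖ ∈ P
  · exact ⟨ϖ, hϖP, hϖ⟩
  set T := S ⧸ Ideal.span {ϖ}
  set q := Ideal.Quotient.mk (Ideal.span {ϖ}) with hq
  haveI : (Ideal.span {ϖ}).IsPrime := (Ideal.span_singleton_prime hϖ.ne_zero).mpr hϖ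
  haveI : IsLocalRing T := IsLocalRing.of_surjective' q Ideal.Quotient.mk_surjective
  haveI : IsNoetherianRing T := isNoetherianRing_of_surjective S T q Ideal.Quotient.mk_surjective
  haveI : IsDomain T := Ideal.Quotient.isDomain _
  have hT : IsLocalRing.maximalIdeal T = Ideal.span {q f} := by
    rw [← IsLocalRing.map_maximalIdeal_of_surjective q Ideal.Quotient.mk_surjective, hmax,
      Ideal.map_span, Set.image_pair, show q ϖ = 0 from
        Ideal.Quotient.eq_zero_iff_mem.mpr (Ideal.mem_span_singleton_self ϖ),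
      Ideal.span_insert_zero]
  have hjac : Ideal.span {ϖ} ≤ Ideal.jacobson ⊥ := by
    rw [IsLocalRing.jacobson_eq_maximalIdeal ⊥ bot_ne_top, hmax]
    exact Ideal.span_mono (by simp)
  have hnak : ∀ N : Ideal S, (∀ z ∈ P, ∃ y ∈ N, ∃ w ∈ P, z = y + ϖ * w) → P ≤ N := by
    intro N hN
    refine Submodule.le_of_le_smul_of_le_jacobson_bot (IsNoetherian.noetherian P) hjac ?_
    intro z hz
    obtain ⟨y, hy, w, hw, rfl⟩ := hN z hz
    exact Submodule.add_mem_sup hy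
      (Submodule.smul_mem_smul (Ideal.mem_span_singleton_self ϖ) hw)
  have hdiv : ∀ z ∈ P, ∀ w, z = ϖ * w → w ∈ P := fun z hz w hzw =>
    (hPprime.mem_or_mem (hzw ▸ hz : ϖ * w ∈ P)).resolve_left hϖP
  by_cases hP' : P.map q = ⊥
  · exfalso
    refine hP (le_bot_iff.mp (hnak ⊥ fun z hz => ?_))
    have hz' : q z = 0 := by
      have := Ideal.mem_map_of_mem q hz
      rwa [hP', Ideal.mem_bot] at this
    obtain ⟨w, rfl⟩ := Ideal.mem_span_singleton.mp (Ideal.Quotient.eq_zero_iff_mem.mp hz')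
    exact ⟨0, zero_mem _, w, hdiv _ hz w rfl, by simp⟩
  obtain ⟨k, hk⟩ := exists_maximalIdeal_pow_eq_of_principal T
    ⟨⟨q f, by rw [hT]⟩⟩ (P.map q) hP'
  rw [hT, Ideal.span_singleton_pow] at hk
  obtain ⟨y, hy, hyk⟩ := (Ideal.mem_map_iff_of_surjective q Ideal.Quotient.mk_surjective).mp
    (hk ▸ Ideal.mem_span_singleton_self _ : q f ^ k ∈ P.map q)
  have hPy : P = Ideal.span {y} := by
    refine le_antisymm (hnak _ fun z hz => ?_)
      ((Ideal.span_singleton_le_iff_mem _).mpr hy)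
    obtain ⟨c, hc⟩ := Ideal.mem_span_singleton.mp (hk ▸ Ideal.mem_map_of_mem q hz :
      q z ∈ Ideal.span {q f ^ k})
    obtain ⟨c', rfl⟩ := Ideal.Quotient.mk_surjective c
    rw [← hyk, ← map_mul, hq, Ideal.Quotient.eq, Ideal.mem_span_singleton] at hc
    obtain ⟨w, hw⟩ := hc
    refine ⟨y * c', Ideal.mem_span_singleton.mpr (dvd_mul_right _ _), w, ?_, by
      linear_combination hw⟩
    exact hdiv (z - y * c') (P.sub_mem hz (P.mul_mem_right _ hy)) w hw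
  refine ⟨y, hy, (Ideal.span_singleton_prime ?_).mp (hPy ▸ hPprime)⟩
  rintro rfl
  exact hP (by rw [hPy, Ideal.span_singleton_eq_bot.mpr rfl])

end FermatLib.Galois.DS
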