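import Mathlib.RingTheory.Ideal.MinimalPrime.Noetherian
import Mathlib.RingTheory.Nakayama
import Fermat.Agent.Galois.DS.RootMod

/-!
# The special fibre of a regular two dimensional ring

If `R / π` is reduced, connected and every maximal ideal over `π` is `(π, f)` locally, then
`π` is prime and the primes strictly over it are maximal.
-/

set_option autoImplicit false
set_option linter.unusedSectionVars false

namespace FermatLib.Galois.DS

variable {R : Type*} [CommRing R] {π : R}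

/-- Locally at `x` the ideal `x` is `(π, f)`. -/
def IsTwoGenerated (π : R) (x : Ideal R) : Prop :=
  ∃ f ∈ x, ∀ a ∈ x, ∃ s ∉ x, s * a ∈ Ideal.span {π, f}

theorem eq_or_exists_mul_mem [IsNoetherianRing R] {x Q : Ideal R} [x.IsMaximal] [Q.IsPrime]
    (hπ : π ∈ Q) (hQx : Q ≤ x) (hx : IsTwoGenerated π x) :
    Q = x ∨ ∃ r ∉ x, ∀ a ∈ Q, r * a ∈ Ideal.span {π} := by
  obtain ⟨f, hf, hloc⟩ := hx
  by_cases hfQ : f ∈ Q
  · refine Or.inl (le_antisymm hQx fun a ha => ?_)
    obtain ⟨s, hs, hsa⟩ := hloc a ha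
    have h1 : s * a ∈ Q :=
      (Ideal.span_le.mpr (by rintro _ (rfl | rfl) <;> assumption) : Ideal.span {π, f} ≤ Q) hsa
    exact (Ideal.IsPrime.mem_or_mem ‹_› h1).resolve_left fun h => hs (hQx h)
  refine Or.inr ?_
  have hle : Q ≤ Ideal.span {π} ⊔ x • Q := by
    intro a ha
    obtain ⟨s, hs, hsa⟩ := hloc a (hQx ha)
    obtain ⟨c, d, hcd⟩ := Ideal.mem_span_pair.mp hsa
    have hd : d ∈ Q := by
      have h1 : d * f ∈ Q := by
        rw [show d * f = s * a - c * π by linear_combination hcd]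
        exact Q.sub_mem (Q.mul_mem_left _ ha) (Q.mul_mem_left _ hπ)
      exact (Ideal.IsPrime.mem_or_mem ‹_› h1).resolve_right hfQ
    obtain ⟨t, m, hm, ht⟩ := Ideal.IsMaximal.exists_inv ‹x.IsMaximal› hs
    have h2 : a = t * c * π + (f * (t * d) + m * a) := by
      linear_combination (-a) * ht - t * hcd
    rw [h2]
    refine Submodule.add_mem_sup (Ideal.mem_span_singleton'.mpr ⟨_, rfl⟩) (Submodule.add_mem _ ?_ ?_)
    · exact Submodule.smul_mem_smul hf (Q.mul_mem_left _ hd)
    · exact Submodule.smul_mem_smul hm ha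
  obtain ⟨r, hr, hrle⟩ := Submodule.exists_sub_one_mem_and_smul_le_of_fg_of_le_sup
    (IsNoetherian.noetherian Q) le_rfl hle
  refine ⟨r, fun h => ?_, fun a ha => hrle (Submodule.smul_mem_pointwise_smul a r Q ha)⟩
  exact Ideal.IsMaximal.ne_top ‹_› ((Ideal.eq_top_iff_one x).mpr (by
    simpa using x.sub_mem h hr))

/-- **`π` is prime.** -/
theorem prime_span_of_twoGenerated [IsNoetherianRing R] (hunit : ¬ IsUnit π)
    (hred : ∀ (a : R) (n : ℕ), π ∣ a ^ n → π ∣ a)
    (hidem : ∀ e : R, π ∣ e * e - e → π ∣ e ∨ π ∣ 1 - e)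
    (hloc : ∀ x : Ideal R, x.IsMaximal → π ∈ x → IsTwoGenerated π x) :
    (Ideal.span {π}).IsPrime := by
  classical
  set I := Ideal.span {π} with hI
  have hfin : I.minimalPrimes.Finite := I.finite_minimalPrimes_of_isNoetherianRing R
  have hrad : sInf I.minimalPrimes = I := by
    rw [Ideal.sInf_minimalPrimes]
    refine le_antisymm ?_ Ideal.le_radical
    rintro a ⟨n, hn⟩
    exact Ideal.mem_span_singleton.mpr (hred a n (Ideal.mem_span_singleton.mp hn))
  obtain ⟨P, hP⟩ : I.minimalPrimes.Nonempty := by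
    by_contra h
    rw [Set.not_nonempty_iff_eq_empty.mp h, sInf_empty] at hrad
    exact hunit (Ideal.span_singleton_eq_top.mp hrad.symm)
  have hπmem : ∀ {Q}, Q ∈ I.minimalPrimes → π ∈ Q := fun hQ =>
    hQ.1.2 (Ideal.mem_span_singleton_self π)
  -- distinct minimal primes are coprime
  have hco : ∀ Q ∈ hfin.toFinset.erase P, P ⊔ Q = ⊤ := by
    intro Q hQ
    obtain ⟨hne, hQ⟩ := Finset.mem_erase.mp hQ
    rw [Set.Finite.mem_toFinset] at hQ
    by_contra htop
    obtain ⟨x, hx, hle⟩ := Ideal.exists_le_maximal _ htop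
    haveI := hP.1.1
    haveI := hQ.1.1
    haveI := hx
    have hPx : P ≤ x := le_sup_left.trans hle
    have hQx : Q ≤ x := le_sup_right.trans hle
    rcases eq_or_exists_mul_mem (hπmem hP) hPx (hloc x hx (hPx (hπmem hP))) with h | ⟨r, hr, hrQ⟩
    · exact hne (le_antisymm (h ▸ hQx) (hP.2 hQ.1 (h ▸ hQx)))
    · have hPQ : P ≤ Q := fun a ha =>
        ((Ideal.IsPrime.mem_or_mem ‹_› (hQ.1.2 (hrQ a ha))).resolve_left fun h => hr (hQx h))
      exact hne (le_antisymm (hQ.2 hP.1 hPQ) hPQ)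
  set J := ∏ Q ∈ hfin.toFinset.erase P, Q with hJ
  obtain ⟨e, he, g, hg, heg⟩ := Submodule.mem_sup.mp
    ((Ideal.eq_top_iff_one _).mp (Ideal.sup_prod_eq_top hco))
  have hzero : π ∣ e * e - e := by
    rw [← Ideal.mem_span_singleton, ← hI, ← hrad, Submodule.mem_sInf]
    intro Q hQ
    by_cases hQP : Q = P
    · subst hQP
      exact Ideal.sub_mem Q (Ideal.mul_mem_left Q _ he) he
    · have : g ∈ Q := by
        have h := Ideal.prod_le_inf hg
        rw [Submodule.mem_finsetInf] at h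
        exact h Q (Finset.mem_erase.mpr ⟨hQP, hfin.mem_toFinset.mpr hQ⟩)
      rw [show e * e - e = -(e * g) by linear_combination e * heg]
      exact Submodule.neg_mem Q (Ideal.mul_mem_left Q _ this)
  rcases hidem e hzero with h | h
  · -- then no other minimal prime
    have hempty : ∀ Q ∈ I.minimalPrimes, Q = P := by
      intro Q hQ
      by_contra hne
      have h1 : g ∈ Q := by
        have h' := Ideal.prod_le_inf hg
        rw [Submodule.mem_finsetInf] at h'
        exact h' Q (Finset.mem_erase.mpr ⟨hne, hfin.mem_toFinset.mpr hQ⟩)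
      have h2 : e ∈ Q := by
        obtain ⟨w, rfl⟩ := h
        exact Q.mul_mem_right _ (hπmem hQ)
      exact hQ.1.1.ne_top ((Ideal.eq_top_iff_one Q).mpr (heg ▸ Q.add_mem h2 h1))
    have : I = P := by
      rw [← hrad]
      exact le_antisymm (sInf_le hP) (le_sInf fun Q hQ => (hempty Q hQ).ge)
    rw [this]
    exact hP.1.1
  · exfalso
    obtain ⟨w, hw⟩ := h
    refine hP.1.1.ne_top ((Ideal.eq_top_iff_one P).mpr ?_)
    rw [show (1 : R) = e + π * w by linear_combination hw]
    exact P.add_mem he (P.mul_mem_right _ (hπmem hP))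

/-- The primes strictly over `π` are maximal. -/
theorem isMaximal_of_span_lt [IsNoetherianRing R] (hprime : (Ideal.span {π}).IsPrime)
    (hloc : ∀ x : Ideal R, x.IsMaximal → π ∈ x → IsTwoGenerated π x) {Q : Ideal R} [Q.IsPrime]
    (hlt : Ideal.span {π} < Q) : Q.IsMaximal := by
  obtain ⟨x, hx, hQx⟩ := Q.exists_le_maximal (Ideal.IsPrime.ne_top ‹_›)
  have hπ : π ∈ Q := hlt.le (Ideal.mem_span_singleton_self π)
  rcases eq_or_exists_mul_mem hπ hQx (hloc x hx (hQx hπ)) with h | ⟨r, hr, hrQ⟩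
  · exact h ▸ hx
  · refine absurd ?_ (not_le_of_gt hlt)
    intro a ha
    exact (hprime.mem_or_mem (hrQ a ha)).resolve_left fun h => hr (hQx (hlt.le h))

/-- Idempotents modulo `π` lift modulo every power. -/
theorem exists_idempotent_lift {e : R} (he : π ∣ e * e - e) :
    ∃ f : ℕ → R, f 0 = e ∧ (∀ k, π ^ (k + 1) ∣ f k * f k - f k) ∧
      ∀ k, π ^ (k + 1) ∣ f (k + 1) - f k := by
  set f : ℕ → R := fun k => (fun a => 3 * a ^ 2 - 2 * a ^ 3)^[k] e with hf
  have hsucc : ∀ k, f (k + 1) = 3 * f k ^ 2 - 2 * f k ^ 3 := fun k =>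
    Function.iterate_succ_apply' _ k e
  have hid : ∀ k, π ^ (k + 1) ∣ f k * f k - f k := by
    intro k
    induction k with
    | zero => simpa [hf] using he
    | succ k ih =>
      rw [hsucc, show (3 * f k ^ 2 - 2 * f k ^ 3) * (3 * f k ^ 2 - 2 * f k ^ 3) -
        (3 * f k ^ 2 - 2 * f k ^ 3) = (f k * f k - f k) ^ 2 * (4 * f k ^ 2 - 4 * f k - 3) by ring]
      refine dvd_mul_of_dvd_left ?_ _
      exact (pow_dvd_pow π (show k + 1 + 1 ≤ (k + 1) * 2 by omega)).trans
        (by rw [pow_mul]; exact pow_dvd_pow_of_dvd ih 2)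
  refine ⟨f, rfl, hid, fun k => ?_⟩
  rw [hsucc, show 3 * f k ^ 2 - 2 * f k ^ 3 - f k = (f k * f k - f k) * (1 - 2 * f k) by ring]
  exact dvd_mul_of_dvd_left (hid k) _

/-- An idempotent modulo `π ^ n` congruent to an idempotent modulo `π` is congruent modulo
`π ^ n`. -/
theorem pow_dvd_sub_of_idempotent {e c : R} (hc : c * c = c) (h1 : π ∣ e - c) {n : ℕ}
    (h : π ^ n ∣ e * e - e) : π ^ n ∣ e - c := by
  have key : ∀ j, j ≤ n → π ^ j ∣ e - c := by
    intro j
    induction j with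
    | zero => simp
    | succ j ih =>
      intro hj
      rcases Nat.eq_zero_or_pos j with rfl | hjpos
      · simpa using h1
      have ih' := ih (by omega)
      rw [show e - c = (2 * c - 1) * ((e * e - e) - (e - c) ^ 2) by
        linear_combination -(4 * e - 2 * c - 1) * hc]
      refine dvd_mul_of_dvd_right (dvd_sub ((pow_dvd_pow π hj).trans h) ?_) _
      exact (pow_dvd_pow π (show j + 1 ≤ j * 2 by omega)).trans
        (by rw [pow_mul]; exact pow_dvd_pow_of_dvd ih' 2)
  exact key n le_rfl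

/-- In `S / ϖ` a valuation ring: an `ℓ`-th root of `u Q ^ ℓ` is a unit times `Q`. -/
theorem exists_unit_sub_dvd [IsDomain R] [IsNoetherianRing R] [IsLocalRing R] (hπ : Prime π) {f : R}
    (hmax : IsLocalRing.maximalIdeal R = Ideal.span {π, f}) {ℓ : ℕ} (hℓ : ℓ ≠ 0) {u Q a : R}
    (hu : IsUnit u) (hQ : ¬ π ∣ Q) (ha : π ∣ u * Q ^ ℓ - a ^ ℓ) :
    ∃ v : R, IsUnit v ∧ π ∣ a - v * Q := by
  set T := R ⧸ Ideal.span {π}
  set q := Ideal.Quotient.mk (Ideal.span {π}) with hq
  haveI : (Ideal.span {π}).IsPrime := (Ideal.span_singleton_prime hπ.ne_zero).mpr hπ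
  haveI : IsLocalRing T := IsLocalRing.of_surjective' q Ideal.Quotient.mk_surjective
  haveI : IsNoetherianRing T := isNoetherianRing_of_surjective R T q Ideal.Quotient.mk_surjective
  haveI : IsDomain T := Ideal.Quotient.isDomain _
  have hzero : ∀ z, q z = 0 ↔ π ∣ z := fun z => by
    rw [hq, Ideal.Quotient.eq_zero_iff_mem, Ideal.mem_span_singleton]
  have hT : IsLocalRing.maximalIdeal T = Ideal.span {q f} := by
    rw [← IsLocalRing.map_maximalIdeal_of_surjective q Ideal.Quotient.mk_surjective, hmax,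
      Ideal.map_span, Set.image_pair, show q π = 0 from (hzero π).mpr dvd_rfl,
      Ideal.span_insert_zero]
  haveI : ValuationRing T :=
    ((tfae_of_isNoetherianRing_of_isLocalRing_of_isDomain T).out 4 1 :
      (IsLocalRing.maximalIdeal T).IsPrincipal ↔ ValuationRing T).mp ⟨⟨q f, by rw [hT]⟩⟩
  have heq : q u * q Q ^ ℓ = q a ^ ℓ := by
    rw [← map_pow, ← map_mul, ← map_pow, ← sub_eq_zero, ← map_sub]
    exact (hzero _).mpr ha
  have hQ0 : q Q ≠ 0 := fun h => hQ ((hzero Q).mp h)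
  obtain ⟨c, hc⟩ : ∃ c : T, IsUnit c ∧ q a = c * q Q := by
    obtain ⟨c, hc⟩ := ValuationRing.cond (q a) (q Q)
    rcases hc with hc | hc
    · -- `q a * c = q Q`
      have h1 : q a ^ ℓ * 1 = q a ^ ℓ * (q u * c ^ ℓ) := by
        conv_lhs => rw [← heq, ← hc, mul_pow]
        ring
      have ha0 : q a ^ ℓ ≠ 0 := pow_ne_zero _ fun h => hQ0 (by rw [← hc, h, zero_mul])
      have h2 : IsUnit c :=
        (isUnit_pow_iff hℓ).mp (IsUnit.of_mul_eq_one (q u) (by
          rw [mul_comm]; exact (mul_left_cancel₀ ha0 h1).symm))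
      obtain ⟨i, hi⟩ := h2.exists_right_inv
      exact ⟨i, IsUnit.of_mul_eq_one c (by rw [mul_comm]; exact hi),
        by rw [← hc, mul_comm i, mul_assoc, hi, mul_one]⟩
    · refine ⟨c, ?_, by rw [← hc, mul_comm]⟩
      have h1 : q u * q Q ^ ℓ = c ^ ℓ * q Q ^ ℓ := by rw [heq, ← hc]; ring
      have h2 := mul_right_cancel₀ (pow_ne_zero _ hQ0) h1
      exact (isUnit_pow_iff hℓ).mp (h2 ▸ hu.map q)
  obtain ⟨v, rfl⟩ := Ideal.Quotient.mk_surjective c
  refine ⟨v, ?_, (hzero _).mp ?_⟩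
  · by_contra h
    have h1 : v ∈ IsLocalRing.maximalIdeal R := h
    have h2 := Ideal.mem_map_of_mem q h1
    rw [IsLocalRing.map_maximalIdeal_of_surjective q Ideal.Quotient.mk_surjective] at h2
    exact h2 hc.1
  · rw [map_sub, map_mul, hc.2, sub_self]

end FermatLib.Galois.DS
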