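import Mathlib.RingTheory.Localization.AtPrime.Basic
import Mathlib.RingTheory.Localization.Submodule
import Fermat.Agent.Galois.DS.SpecialFibre

/-!
# The lifting step at a closed point
-/

set_option autoImplicit false
set_option linter.style.haveILetI false

namespace FermatLib.Galois.DS

/-- One step of the lifting, at a closed point over `π`. -/
theorem exists_step_twoGenerated {R : Type*} [CommRing R] [IsDomain R] [IsNoetherianRing R] {π : R}
    (hπ : Prime π) {ℓ : ℕ} (hℓ0 : ℓ ≠ 0) (hℓ : IsUnit (ℓ : R)) {g a r : R} {n : ℕ} (hn : 1 ≤ n)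
    (ha : ¬ π ∣ a) (hr : g - a ^ ℓ = π ^ n * r) (x : Ideal R) [hx : x.IsMaximal] (hπx : π ∈ x)
    (htwo : IsTwoGenerated π x)
    (hmult : ∀ ρ : Localization.AtPrime x, Prime ρ →
      ¬ ρ ∣ algebraMap R (Localization.AtPrime x) π → ∀ (k : ℕ) (c : Localization.AtPrime x),
        ¬ ρ ∣ c → algebraMap R (Localization.AtPrime x) g = ρ ^ k * c → ℓ ∣ k) :
    ∃ s ∉ x, s * r ∈ Ideal.span {π, (ℓ : R) * a ^ (ℓ - 1)} := by
  haveI : x.IsPrime := hx.isPrime
  set S := Localization.AtPrime x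
  set φ : R →+* S := algebraMap (R) S with hφ
  haveI : IsNoetherianRing S := IsLocalization.isNoetherianRing x.primeCompl _ inferInstance
  have hle : x.primeCompl ≤ nonZeroDivisors (R) := x.primeCompl_le_nonZeroDivisors
  haveI : IsDomain S := IsLocalization.isDomain_localization hle
  have hinj : Function.Injective φ := IsLocalization.injective S hle
  -- divisibility by the uniformiser is preserved
  have hdvd : ∀ b : R, φ π ∣ φ b → π ∣ b := by
    rintro b ⟨w, hw⟩
    obtain ⟨⟨w', t⟩, hwt⟩ := IsLocalization.surj x.primeCompl w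
    have h1 : b * (t : R) = π * w' := hinj (by
      show φ _ = φ _
      rw [map_mul, map_mul, hw, mul_assoc, hwt])
    refine (hπ.dvd_or_dvd ⟨w', h1⟩).resolve_right fun h => t.2 ?_
    obtain ⟨q, hq⟩ := h
    rw [hq]
    exact x.mul_mem_right _ hπx
  have hφπ : Prime (φ π) := by
    refine ⟨(map_ne_zero_iff _ hinj).mpr hπ.ne_zero, fun hu => ?_, fun b c hbc => ?_⟩
    · exact (IsLocalization.AtPrime.isUnit_to_map_iff S x π).mp hu hπx
    · obtain ⟨⟨b', s⟩, hb⟩ := IsLocalization.surj x.primeCompl b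
      obtain ⟨⟨c', t⟩, hc⟩ := IsLocalization.surj x.primeCompl c
      have h1 : φ π ∣ φ (b' * c') := by
        rw [map_mul, ← hb, ← hc]
        exact hbc.trans ⟨φ s * φ t, by ring⟩
      refine (hπ.dvd_or_dvd (hdvd _ h1)).imp (fun h => ?_) (fun h => ?_)
      · exact (IsUnit.dvd_mul_right (IsLocalization.map_units S s)).mp (hb.symm ▸ map_dvd φ h)
      · exact (IsUnit.dvd_mul_right (IsLocalization.map_units S t)).mp (hc.symm ▸ map_dvd φ h)
  obtain ⟨f, hf, hloc⟩ := htwo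
  have hmax : IsLocalRing.maximalIdeal S = Ideal.span {φ π, φ f} := by
    rw [← IsLocalization.AtPrime.map_eq_maximalIdeal x S]
    refine le_antisymm (Ideal.map_le_iff_le_comap.mpr fun b hb => ?_) (Ideal.span_le.mpr ?_)
    · obtain ⟨s, hs, hsb⟩ := hloc b hb
      have h1 : φ s * φ b ∈ Ideal.span {φ π, φ f} := by
        rw [← map_mul, ← Set.image_pair, ← Ideal.map_span]
        exact Ideal.mem_map_of_mem φ hsb
      exact (Ideal.unit_mul_mem_iff_mem _ (IsLocalization.map_units S (⟨s, hs⟩ : x.primeCompl))).mp h1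
    · rintro _ (rfl | rfl)
      · exact Ideal.mem_map_of_mem φ hπx
      · exact Ideal.mem_map_of_mem φ hf
  haveI := ufm_of_two_generators hφπ hmax
  have hℓS : IsUnit (ℓ : S) := by
    have h := hℓ.map φ
    rwa [map_natCast] at h
  have hga : φ g - φ a ^ ℓ = φ π ^ n * φ r := by
    rw [← map_pow, ← map_sub, hr, map_mul, map_pow]
  have hg1 : ¬ φ π ∣ φ g := fun h => by
    have h2 : φ π ∣ φ a ^ ℓ := by
      rw [show φ a ^ ℓ = φ g - φ π ^ n * φ r by rw [← hga]; ring]
      exact dvd_sub h (dvd_mul_of_dvd_left (dvd_pow_self _ (by omega)) _)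
    exact ha (hdvd a (hφπ.dvd_of_dvd_pow h2))
  have hg : g ≠ 0 := fun h => hg1 (by rw [h, map_zero]; exact dvd_zero _)
  obtain ⟨u, Q, hu, hgQ⟩ := exists_eq_unit_mul_pow (S := S) hℓ0
    ((map_ne_zero_iff _ hinj).mpr hg) fun ρ hρp k c hc hk => by
      by_cases hdiv : ρ ∣ φ π
      · rcases Nat.eq_zero_or_pos k with rfl | hk0
        · exact dvd_zero _
        refine absurd ?_ hg1
        rw [hk]
        exact (hρp.associated_of_dvd hφπ hdiv).symm.dvd.trans
          (dvd_mul_of_dvd_left (dvd_pow_self ρ hk0.ne') c)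
      · exact hmult ρ hρp hdiv k c hc hk
  have hQ : ¬ φ π ∣ Q := fun h => hg1 (by
    rw [hgQ]; exact dvd_mul_of_dvd_right (dvd_pow h hℓ0) _)
  obtain ⟨v, hv, hv'⟩ := exists_unit_sub_dvd hφπ hmax hℓ0 (a := φ a) hu hQ (by
    rw [← hgQ, hga]
    exact dvd_mul_of_dvd_left (dvd_pow_self _ (by omega)) _)
  obtain ⟨e, w, hew⟩ := exists_sub_dvd_of_factor hφπ hℓ0 hℓS hu hgQ hQ hv hv' hn hga
  obtain ⟨⟨e', s⟩, he⟩ := IsLocalization.surj x.primeCompl e
  obtain ⟨⟨w', t⟩, hw⟩ := IsLocalization.surj x.primeCompl w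
  refine ⟨(s * t : x.primeCompl), (s * t).2, ?_⟩
  have key : ((s * t : x.primeCompl) : R) * r =
      (t : R) * e' * ((ℓ : R) * a ^ (ℓ - 1)) - s * w' * π := by
    refine hinj ?_
    show φ _ = φ _
    simp only [Submonoid.coe_mul, map_mul, map_sub, map_pow, map_natCast]
    linear_combination (φ t * ((ℓ : S) * φ a ^ (ℓ - 1))) * he - (φ s * φ π) * hw -
      (φ s * φ t) * hew
  rw [key]
  exact Ideal.sub_mem _ (Ideal.mul_mem_left _ _ (Ideal.subset_span (by simp)))
    (Ideal.mul_mem_left _ _ (Ideal.subset_span (by simp)))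

/-- The lifting step. -/
theorem exists_step_global {R : Type} [CommRing R] [IsDomain R] [IsNoetherianRing R] {π : R}
    (hπ : Prime π) {ℓ : ℕ} (hℓ0 : ℓ ≠ 0) (hℓ : IsUnit (ℓ : R)) {g a : R} {n : ℕ} (hn : 1 ≤ n)
    (ha : ¬ π ∣ a) (h : π ^ n ∣ g - a ^ ℓ)
    (htwo : ∀ x : Ideal R, x.IsMaximal → π ∈ x → IsTwoGenerated π x)
    (hmult : ∀ (S : Type) [CommRing S] [IsDomain S] [WfDvdMonoid S] (φ : R →+* S) (ρ : S),
      Prime ρ → ¬ ρ ∣ φ π → ∀ (k : ℕ) (c : S), ¬ ρ ∣ c → φ g = ρ ^ k * c → ℓ ∣ k) :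
    ∃ e : R, π ^ (n + 1) ∣ g - (a + π ^ n * e) ^ ℓ := by
  obtain ⟨r, hr⟩ := h
  set b := (ℓ : R) * a ^ (ℓ - 1)
  let J : Ideal R :=
    { carrier := {s | s * r ∈ Ideal.span {π, b}}
      add_mem' := fun hs ht => by
        simp only [Set.mem_ofPred_eq, add_mul] at *
        exact Ideal.add_mem _ hs ht
      zero_mem' := by simp
      smul_mem' := fun c s hs => by
        simp only [Set.mem_ofPred_eq, smul_eq_mul, mul_assoc] at *
        exact Ideal.mul_mem_left _ c hs }
  have hJ : J = ⊤ := by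
    by_contra hne
    obtain ⟨x, hx, hle⟩ := Ideal.exists_le_maximal J hne
    have hπJ : π ∈ J := Ideal.mul_mem_right r _ (Ideal.subset_span (by simp) : π ∈ Ideal.span {π, b})
    haveI := hx
    haveI : IsDomain (Localization.AtPrime x) :=
      IsLocalization.isDomain_localization x.primeCompl_le_nonZeroDivisors
    haveI : IsNoetherianRing (Localization.AtPrime x) :=
      IsLocalization.isNoetherianRing x.primeCompl _ inferInstance
    obtain ⟨s, hs, hsr⟩ := exists_step_twoGenerated hπ hℓ0 hℓ hn ha hr x (hle hπJ)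
      (htwo x hx (hle hπJ)) fun ρ hρ hρπ k c hc hk => hmult _ _ ρ hρ hρπ k c hc hk
    exact hs (hle hsr)
  have h1 : (1 : R) * r ∈ Ideal.span {π, b} := (Ideal.eq_top_iff_one J).mp hJ
  rw [one_mul, Ideal.mem_span_pair] at h1
  obtain ⟨c, e, hce⟩ := h1
  refine ⟨e, ?_⟩
  obtain ⟨k, hk⟩ := exists_add_pow_eq a (π ^ n * e) ℓ
  refine ⟨c - π ^ (n - 1) * e ^ 2 * k, ?_⟩
  have h2 : π ^ n * π ^ n = π ^ n * π * π ^ (n - 1) := by
    rw [mul_assoc, ← pow_succ', Nat.sub_add_cancel hn]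
  rw [hk, pow_succ]
  linear_combination hr - π ^ n * hce - (e ^ 2 * k) * h2

end FermatLib.Galois.DS
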