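import Fermat.Agent.Galois.DS.RootLocal
import Fermat.Agent.Galois.DS.StepLocal
import Mathlib.RingTheory.Localization.Submodule

/-!
# Reduction detects `ℓ`-th powers

If `g` has `ℓ`-divisible orders and is an `ℓ`-th power modulo `ϖ`, it is an `ℓ`-th power.
-/

set_option autoImplicit false
set_option linter.unusedSectionVars false
set_option linter.style.haveILetI false

noncomputable section

open UpperHalfPlane CongruenceSubgroup ModularCurve
open scoped MatrixGroups

namespace FermatLib.Galois.DS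

variable {M : ℕ} [NeZero M] {O : Subring ℂ} [IsDiscreteValuationRing O]
  [IsAdicComplete (IsLocalRing.maximalIdeal O) O] {ϖ : O}
  (hg0 : GoodPlace M O) (hϖ : Irreducible ϖ) {ℓ : ℕ} (hℓ0 : ℓ ≠ 0) (hℓ : IsUnit (ℓ : O))
include hg0 hϖ hℓ0 hℓ

local notation "πR" => algebraMap O (intRing M O) ϖ

theorem exists_step {g a : intRing M O} {n : ℕ}
    (hord : ∀ τ, ℓ ∣ ordAt ((g : modRing M) : ℍ → ℂ) τ)
    (hn : 1 ≤ n) (ha : ¬ πR ∣ a) (h : πR ^ n ∣ g - a ^ ℓ) :
    ∃ e : intRing M O, πR ^ (n + 1) ∣ g - (a + πR ^ n * e) ^ ℓ := by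
  haveI := hg0.isNoetherianRing
  have hπ := prime_pi hϖ hg0
  have hℓR : IsUnit (ℓ : intRing M O) := by
    have h := hℓ.map (algebraMap O (intRing M O))
    rwa [map_natCast] at h
  have hg : g ≠ 0 := by
    rintro rfl
    rw [zero_sub, dvd_neg] at h
    exact ha (hπ.dvd_of_dvd_pow ((dvd_pow_self _ (by omega)).trans h))
  exact exists_step_global hπ hℓ0 hℓR hn ha h (isTwoGenerated_pi hϖ hg0)
    fun S _ _ _ φ ρ hρ hρπ k c hc hk => dvd_multiplicity_of_ordAt hg0 hϖ φ hρ hρπ hg hord hc hk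

/-- The lifts have poles bounded by the poles of `g`. -/
theorem exists_coeff_dvd {g : intRing M O} (hord : ∀ τ, ℓ ∣ ordAt ((g : modRing M) : ℍ → ℂ) τ)
    {A : SL(2, ℤ)} (hcusp : (ℓ : ℤ) ∣ (cuspExp M A (g : modRing M)).order)
    {N : ℕ} (hN : (g : modRing M) ∈ polarSpace M N)
    {a b : intRing M O} (ha : ¬ πR ∣ a) (hga : πR ∣ g - a ^ ℓ) {n : ℕ}
    (hb : πR ∣ b - a) (hgb : πR ^ n ∣ g - b ^ ℓ) {i : ℤ} (hi : i < -(N : ℤ)) :
    ϖ ^ n ∣ (cuspExpO M O A b).coeff i := by
  classical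
  set φ := cuspExpO M O A with hφdef
  set ρ := coeffMap (IsLocalRing.residue O) with hρ
  set π' : LaurentSeries O := HahnSeries.single 0 ϖ with hπ'def
  have hπ' := prime_single (O := O) hϖ
  have hφπ : φ πR = π' := by
    ext j
    have h := cuspExp_algebraMap_mul (M := M) A ϖ 1 j
    rw [mul_one, map_one] at h
    rw [hφdef, h, HahnSeries.coeff_one, hπ'def, HahnSeries.coeff_single]
    split_ifs <;> simp
  have hG : ρ (φ g) = ρ (φ a) ^ ℓ := by
    rw [← map_pow, ← map_pow, ← sub_eq_zero, ← RingHom.map_sub, ← RingHom.map_sub,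
      coeffMap_residue_eq_zero_iff hϖ, ← hπ'def, ← hφπ]
    exact map_dvd φ hga
  have hG0 : ρ (φ g) ≠ 0 := by
    rw [hG]
    exact pow_ne_zero _ fun h => ha ((redExp_eq_zero_iff hϖ hg0 A a).mp h)
  have hφg : φ g ≠ 0 := fun h => hG0 (by rw [h, map_zero])
  have hgne : g ≠ 0 := fun h => hφg (by rw [h, map_zero])
  set K := (φ g).order with hK
  set q := (φ g).powerSeriesPart with hq
  have hgq : φ g = HahnSeries.single K 1 * HahnSeries.ofPowerSeries ℤ O q :=
    (LaurentSeries.single_order_mul_powerSeriesPart _).symm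
  have hq0 : q ≠ 0 := fun h => hφg (by rw [hgq, h, map_zero, mul_zero])
  have hqX : PowerSeries.constantCoeff q ≠ 0 := by
    rw [← PowerSeries.coeff_zero_eq_constantCoeff, hq, LaurentSeries.powerSeriesPart_coeff,
      Nat.cast_zero, add_zero]
    exact HahnSeries.coeff_order_eq_zero.not.mpr hφg
  have hqϖ : ¬ PowerSeries.C ϖ ∣ q := fun hd => hG0 (by
    rw [hgq, map_mul, hρ, coeffMap_ofPowerSeries, (map_residue_eq_zero_iff hϖ q).mpr hd, map_zero,
      mul_zero])
  haveI hloc : IsLocalization (Submonoid.powers (PowerSeries.X : PowerSeries O)) (LaurentSeries O) :=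
    inferInstance
  obtain ⟨U, Q, hU, hqQ⟩ := exists_eq_unit_mul_pow (S := PowerSeries O) hℓ0 hq0
    fun π hπ k c hc hk => by
      rcases Nat.eq_zero_or_pos k with rfl | hk0
      · exact dvd_zero _
      have hπX : ¬ π ∣ PowerSeries.X := fun h => hqX (by
        have hass : Associated π PowerSeries.X := hπ.associated_of_dvd PowerSeries.X_prime h
        rw [hk, ← PowerSeries.X_dvd_iff]
        exact hass.symm.dvd.trans (dvd_mul_of_dvd_left (dvd_pow_self π hk0.ne') c))
      have hπC : ¬ π ∣ PowerSeries.C ϖ := fun h => hqϖ (by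
        rw [hk]
        exact (hπ.associated_of_dvd (prime_powerSeries_C hϖ) h).symm.dvd.trans
          (dvd_mul_of_dvd_left (dvd_pow_self π hk0.ne') c))
      -- `π` stays prime in the Laurent series
      set ι := HahnSeries.ofPowerSeries ℤ O with hι
      have hdown : ∀ y : PowerSeries O, ι π ∣ ι y → π ∣ y := by
        rintro y ⟨w, hw⟩
        obtain ⟨⟨w', ⟨_, m, rfl⟩⟩, hwt⟩ :=
          IsLocalization.surj (Submonoid.powers (PowerSeries.X : PowerSeries O)) w
        have h1 : y * PowerSeries.X ^ m = π * w' := HahnSeries.ofPowerSeries_injective (Γ := ℤ) (by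
          rw [map_mul, map_mul, hw, mul_assoc]
          exact congrArg (ι π * ·) hwt)
        exact (hπ.dvd_or_dvd ⟨w', h1⟩).resolve_right fun h => hπX (hπ.dvd_of_dvd_pow h)
      have hπι : Prime (ι π) := by
        refine ⟨(map_ne_zero_iff _ HahnSeries.ofPowerSeries_injective).mpr hπ.ne_zero,
          fun hu => ?_, fun y z hyz => ?_⟩
        · exact hπ.not_isUnit (isUnit_of_dvd_one (hdown 1 (by rw [map_one]; exact hu.dvd)))
        · obtain ⟨⟨y', s⟩, hy⟩ :=
            IsLocalization.surj (Submonoid.powers (PowerSeries.X : PowerSeries O)) y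
          obtain ⟨⟨z', t⟩, hz⟩ :=
            IsLocalization.surj (Submonoid.powers (PowerSeries.X : PowerSeries O)) z
          have h1 : ι π ∣ ι (y' * z') := by
            rw [map_mul, show ι y' = _ from hy.symm, show ι z' = _ from hz.symm]
            exact hyz.trans ⟨algebraMap _ (LaurentSeries O) (s : PowerSeries O) *
              algebraMap _ (LaurentSeries O) (t : PowerSeries O), by ring⟩
          refine (hπ.dvd_or_dvd (hdown _ h1)).imp (fun h => ?_) (fun h => ?_)
          · exact (IsUnit.dvd_mul_right (IsLocalization.map_units (LaurentSeries O) s)).mp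
              (by rw [hy]; exact map_dvd ι h)
          · exact (IsUnit.dvd_mul_right (IsLocalization.map_units (LaurentSeries O) t)).mp
              (by rw [hz]; exact map_dvd ι h)
      have hsingle : IsUnit (HahnSeries.single K (1 : O) : LaurentSeries O) :=
        IsUnit.of_mul_eq_one (HahnSeries.single (-K) (1 : O))
          (by rw [HahnSeries.single_mul_single, add_neg_cancel, one_mul, HahnSeries.single_zero_one])
      haveI : IsNoetherianRing (LaurentSeries O) :=
        IsLocalization.isNoetherianRing (Submonoid.powers (PowerSeries.X : PowerSeries O)) _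
          inferInstance
      refine dvd_multiplicity_of_ordAt hg0 hϖ φ hπι (fun h => ?_) hgne hord
        (c := HahnSeries.single K 1 * ι c) (fun h => hc (hdown _ ((hsingle.dvd_mul_left).mp h))) ?_
      · rw [hφπ, show π' = ι (PowerSeries.C ϖ) from (HahnSeries.ofPowerSeries_C ϖ).symm] at h
        exact hπC (hdown _ h)
      · rw [hgq, hk, map_mul, map_pow]; ring
  have horder : (cuspExp M A (g : modRing M)).order = K := by
    rw [← coeffMap_cuspExpO]
    refine le_antisymm (HahnSeries.order_le_of_coeff_ne_zero ?_)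
      (HahnSeries.order_le_of_coeff_ne_zero ?_)
    · rw [coeffMap_coeff]
      exact fun h0 => HahnSeries.coeff_order_eq_zero.not.mpr hφg (Subtype.ext h0)
    · intro h0
      have hne : coeffMap O.subtype (φ g) ≠ 0 :=
        (map_ne_zero_iff _ coeffMap_subtype_injective).mpr hφg
      exact HahnSeries.coeff_order_eq_zero.not.mpr hne (by rw [coeffMap_coeff, h0]; rfl)
  obtain ⟨K', hK'⟩ : (ℓ : ℤ) ∣ K := horder ▸ hcusp
  set B : LaurentSeries O := HahnSeries.single K' 1 * HahnSeries.ofPowerSeries ℤ O Q with hB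
  have hgB : φ g = HahnSeries.ofPowerSeries ℤ O U * B ^ ℓ := by
    rw [hgq, hqQ, map_mul, map_pow, hB, mul_pow, HahnSeries.single_pow, one_pow, nsmul_eq_mul,
      ← hK']
    ring
  have hρB : ρ B ≠ 0 := fun h => hG0 (by rw [hgB, map_mul, map_pow, h, zero_pow hℓ0, mul_zero])
  obtain ⟨v, hv, hUv, hρv⟩ := exists_unit_root_mod hϖ hℓ0 hU (x := ρ (φ a) / ρ B) (by
    rw [div_pow, ← hG, hgB, map_mul, map_pow, mul_div_cancel_right₀ _ (pow_ne_zero _ hρB)])
  obtain ⟨w, hwv, hw, hUw⟩ := exists_pow_root_mod (prime_powerSeries_C hϖ).not_isUnit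
    (ℓ := ℓ) (by
      have := hℓ.map (PowerSeries.C (R := O))
      rwa [map_natCast] at this) hv hUv n
  set ι := HahnSeries.ofPowerSeries ℤ O
  have hιC : ι (PowerSeries.C ϖ) = π' := HahnSeries.ofPowerSeries_C ϖ
  have hρw : ρ (ι w) * ρ B = ρ (φ a) := by
    have h1 : ρ (ι w) = ρ (ι v) := by
      rw [← sub_eq_zero, ← RingHom.map_sub, ← RingHom.map_sub, coeffMap_residue_eq_zero_iff hϖ, ← hπ'def, ← hιC]
      exact map_dvd ι hwv
    rw [h1, hρv, div_mul_cancel₀ _ hρB]
  have hclose : π' ^ n ∣ φ b - ι w * B := by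
    refine sub_dvd_of_pow_sub_dvd hπ' (ℓ := ℓ) ?_ ?_ ?_ ?_
    · intro hd
      refine hπ'.not_isUnit (isUnit_of_dvd_unit hd ?_)
      have := hℓ.map (HahnSeries.C : O →+* LaurentSeries O)
      rwa [map_natCast] at this
    · intro hd
      rw [← coeffMap_residue_eq_zero_iff hϖ, map_mul] at hd
      rw [hρw] at hd
      exact ha ((redExp_eq_zero_iff hϖ hg0 A a).mp hd)
    · rw [← coeffMap_residue_eq_zero_iff hϖ, RingHom.map_sub, map_mul, hρw, ← RingHom.map_sub, ← RingHom.map_sub,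
        coeffMap_residue_eq_zero_iff hϖ, ← hπ'def, ← hφπ]
      exact map_dvd φ hb
    · have h1 := map_dvd φ hgb
      rw [map_pow, hφπ, RingHom.map_sub, map_pow, hgB] at h1
      have h2 : π' ^ n ∣ ι U * B ^ ℓ - ι w ^ ℓ * B ^ ℓ := by
        rw [← sub_mul, ← map_pow ι, ← RingHom.map_sub, ← hιC, ← map_pow]
        exact dvd_mul_of_dvd_left (map_dvd ι hUw) _
      rw [mul_pow]
      refine (dvd_sub h2 h1).trans (dvd_of_eq ?_)
      ring
  rw [hπ'def, HahnSeries.single_pow, smul_zero, single_dvd_iff_forall] at hclose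
  have hlow : (ι w * B).coeff i = 0 := by
    rw [hB, mul_left_comm, ← map_mul, HahnSeries.coeff_single_mul, one_mul]
    refine ofPowerSeries_coeff_of_neg _ ?_
    have hKN : -(N : ℤ) ≤ K := by
      have hne : cuspExp M A (g : modRing M) ≠ 0 :=
        cuspExp_ne_zero (fun h => hgne (Subtype.ext h)) A
      exact horder ▸ le_order_of_forall_coeff hne (hN A)
    have hℓ1 : (1 : ℤ) ≤ ℓ := by exact_mod_cast Nat.pos_of_ne_zero hℓ0
    nlinarith
  simpa [hlow] using hclose i

/-- **An admissible function which is an `ℓ`-th power modulo `ϖ` is an `ℓ`-th power.** -/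
theorem exists_pow_eq_of_congr {g a : intRing M O} (hadm : IsAdmissible M ℓ (g : modRing M))
    (ha : ¬ πR ∣ a) (h : πR ∣ g - a ^ ℓ) : ∃ k : modRing M, k ^ ℓ = (g : modRing M) := by
  classical
  obtain ⟨p, hp, hpM, hpO⟩ := hg0.exists_prime
  obtain ⟨N, hN⟩ := exists_pole_bound (g : modRing M)
  -- the sequence of approximate roots
  have hstep : ∀ (n : ℕ) (b : intRing M O), πR ∣ b - a → πR ^ (n + 1) ∣ g - b ^ ℓ →
      ∃ b', (πR ∣ b' - a ∧ πR ^ (n + 2) ∣ g - b' ^ ℓ) ∧ πR ^ (n + 1) ∣ b' - b := by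
    intro n b hba hb
    have hb0 : ¬ πR ∣ b := fun hd => ha (by
      have := dvd_sub hd hba
      rwa [sub_sub_cancel] at this)
    obtain ⟨e, he⟩ := exists_step hg0 hϖ hℓ0 hℓ hadm.2.1 (Nat.succ_le_succ (Nat.zero_le n)) hb0 hb
    refine ⟨b + πR ^ (n + 1) * e, ⟨?_, he⟩, by rw [add_sub_cancel_left]; exact dvd_mul_right _ _⟩
    rw [add_sub_right_comm]
    exact dvd_add hba (dvd_mul_of_dvd_left (dvd_pow_self _ n.succ_ne_zero) _)
  choose nxt hnxt using hstep
  let seq : (n : ℕ) → {b : intRing M O // πR ∣ b - a ∧ πR ^ (n + 1) ∣ g - b ^ ℓ} :=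
    fun n => Nat.rec ⟨a, by rw [sub_self]; exact dvd_zero _, (pow_one πR).symm ▸ h⟩
      (fun k b => ⟨nxt k b.1 b.2.1 b.2.2, (hnxt k b.1 b.2.1 b.2.2).1⟩) n
  have hseq : ∀ n, πR ^ (n + 1) ∣ ((seq (n + 1)).1 - (seq n).1) := fun n =>
    (hnxt n (seq n).1 (seq n).2.1 (seq n).2.2).2
  obtain ⟨n', hn'⟩ := exists_approx_bounded_poles M O hg0.hM hg0.hM5 hp hpM hpO hg0.hζ hϖ N
  have hpoles : ∀ (k : ℕ) (A : SL(2, ℤ)) (i : ℤ), i < -(N : ℤ) →
      ∃ b : O, (cuspExp M A ((seq k).1 : modRing M)).coeff i = (ϖ : ℂ) ^ (k + 1) * b := by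
    intro k A i hi
    have hA : (ℓ : ℤ) ∣ (cuspExp M A (g : modRing M)).order :=
      (Int.natCast_dvd_natCast.mpr (dvd_mul_right ℓ _)).trans (hadm.2.2 A)
    obtain ⟨b, hb⟩ := exists_coeff_dvd hg0 hϖ hℓ0 hℓ hadm.2.1 hA hN ha h (seq k).2.1 (seq k).2.2 hi
    refine ⟨b, ?_⟩
    rw [← coe_coeff_cuspExpO, hb]
    push_cast
    rfl
  choose H G₁ hH hHpole using fun k => hn' (k + 1) (seq k).1 (hpoles k)
  have hcl : ∀ k, πR ^ (k + 1) ∣ (seq k).1 - H k := fun k => ⟨G₁ k, by
    conv_lhs => rw [hH k]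
    rw [add_sub_cancel_left]⟩
  obtain ⟨E, hE⟩ := exists_lattice_limit (M := M) hϖ n'
      (H := fun k => ⟨H k, hHpole k⟩) fun k => by
    have h1 : πR ^ (k + 1) ∣ H (k + 1) - H k := by
      rw [show H (k + 1) - H k = ((seq k).1 - H k) - ((seq (k + 1)).1 - H (k + 1)) +
        ((seq (k + 1)).1 - (seq k).1) by ring]
      exact dvd_add (dvd_sub (hcl k) ((pow_dvd_pow _ (Nat.le_succ _)).trans (hcl (k + 1))))
        (hseq k)
    obtain ⟨D, hD⟩ := (pow_dvd_pow πR (Nat.le_succ k)).trans h1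
    have hDmem : D ∈ polarLattice M O n' := by
      intro A i hi
      have h2 : ((H (k + 1) - H k : intRing M O) : modRing M) ∈ polarSpace M n' :=
        (polarLattice M O n').sub_mem (hHpole (k + 1)) (hHpole k)
      rw [hD, ← map_pow, coe_algebraMap_mul] at h2
      have h3 := h2 A i hi
      rw [coeff_map_smul] at h3
      exact (mul_eq_zero.mp h3).resolve_left fun h0 =>
        pow_ne_zero k hϖ.ne_zero (Subtype.ext h0)
    refine ⟨⟨D, hDmem⟩, Subtype.ext ?_⟩
    show H (k + 1) - H k = ϖ ^ k • D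
    rw [hD, Algebra.smul_def, map_pow]
  have hEg : (E : intRing M O) ^ ℓ - g = 0 := eq_zero_of_forall_pi_pow_dvd hϖ fun k => by
    obtain ⟨D, hD⟩ := hE k
    have h1 : (E : intRing M O) - H k = πR ^ k * (D : intRing M O) := by
      have := congrArg (fun z : polarLattice M O n' => (z : intRing M O)) hD
      exact this.trans ((Algebra.smul_def _ _).trans (congrArg (· * _) (RingHom.map_pow _ _ _)))
    have h2 : πR ^ k ∣ (E : intRing M O) - (seq k).1 := by
      rw [show (E : intRing M O) - (seq k).1 = ((E : intRing M O) - H k) - ((seq k).1 - H k) by ring]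
      exact dvd_sub ⟨_, h1⟩ ((pow_dvd_pow _ (Nat.le_succ _)).trans (hcl k))
    rw [show (E : intRing M O) ^ ℓ - g =
      ((E : intRing M O) ^ ℓ - (seq k).1 ^ ℓ) - (g - (seq k).1 ^ ℓ) by ring]
    exact dvd_sub (h2.trans (sub_dvd_pow_sub_pow _ _ _))
      ((pow_dvd_pow _ (Nat.le_succ _)).trans (seq k).2.2)
  refine ⟨((E : intRing M O) : modRing M), ?_⟩
  rw [← SubmonoidClass.coe_pow, sub_eq_zero.mp hEg]

end FermatLib.Galois.DS

end
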