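import Fermat.Agent.Galois.FrobeniusElement
import Fermat.Agent.Galois.DS.RootLift
import Fermat.Agent.Galois.DS.RedInf
import Fermat.Agent.Galois.DS.CoeffField

/-!
# The congruence relation on parabolic classes
-/

set_option autoImplicit false
set_option linter.unusedSectionVars false
set_option linter.style.haveILetI false

noncomputable section

open UpperHalfPlane CongruenceSubgroup ModularCurve
open scoped MatrixGroups

namespace FermatLib.Galois.DS

local notation "Qbar" => AlgebraicClosure ℚ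
local notation "Γℚ" => (AlgebraicClosure ℚ ≃ₐ[ℚ] AlgebraicClosure ℚ)
local notation "ι₀" => complexEmbedding

/-- `O` is a good place of level `M` inside `ℂ` restricting to `A` on `K`, away from `ℓ`. -/
structure IsFrame (M : ℕ) [NeZero M] (ℓ : ℕ) (A : ValuationSubring Qbar)
    (K : IntermediateField ℚ Qbar) (O : Subring ℂ) [IsDiscreteValuationRing O] (ϖ : O) : Prop where
  good : GoodPlace M O
  irr : Irreducible ϖ
  unitℓ : IsUnit (ℓ : O)
  mem_iff : ∀ x ∈ K, ι₀ x ∈ O ↔ x ∈ A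
  max_iff : ∀ x ∈ K, ∀ hx : ι₀ x ∈ O,
    (⟨ι₀ x, hx⟩ : O) ∈ IsLocalRing.maximalIdeal O ↔ x ∈ A.nonunits
  unif : ∃ π ∈ K, ι₀ π = (ϖ : ℂ)

variable {M : ℕ} [NeZero M] {ℓ : ℕ} [Fact ℓ.Prime] {A : ValuationSubring Qbar}
  {K : IntermediateField ℚ Qbar}
  {O : Subring ℂ} [IsDiscreteValuationRing O] [IsAdicComplete (IsLocalRing.maximalIdeal O) O]
  {ϖ : O}

local notation "πR" => algebraMap O (intRing M O) ϖ

theorem smul_apply_mem_normal [Normal ℚ K] (σ : Γℚ) {x : Qbar} (hx : x ∈ K) : σ x ∈ K := by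
  have h := AlgEquiv.restrictNormal_commutes σ K ⟨x, hx⟩
  rw [show σ x = _ from h.symm]
  exact (σ.restrictNormal K ⟨x, hx⟩).2

theorem IsQConj.hasCoeffIn [Normal ℚ K] {σ : Γℚ} {G G' : modRing M} (h : IsQConj σ G G')
    (hG : HasCoeffIn K G) : HasCoeffIn K G' := fun n => by
  obtain ⟨a, ha, han⟩ := hG n
  exact ⟨σ a, smul_apply_mem_normal σ ha, (h n a han).symm⟩

theorem IsQConj.inv {σ : Γℚ} {G G' : modRing M} (h : IsQConj σ⁻¹ G G') (hG : HasCoeffIn K G) :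
    IsQConj σ G' G := fun n b hb => by
  obtain ⟨a, -, ha⟩ := hG n
  rw [← ha]
  congr 1
  have hb' : b = σ⁻¹ a := (ι₀).injective (hb.trans (h n a ha))
  rw [hb', ← AlgEquiv.mul_apply, mul_inv_cancel, AlgEquiv.one_apply]

variable (hF : IsFrame M ℓ A K O ϖ)
include hF

/-- An integral primitive multiple with the same field of definition. -/
theorem IsFrame.exists_primitive {g : modRing M} (hg : g ≠ 0) (hK : HasCoeffIn K g) :
    ∃ (G : intRing M O) (c : ℂ), c ≠ 0 ∧ (G : modRing M) = c • g ∧ ¬ πR ∣ G ∧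
      HasCoeffIn K (G : modRing M) := by
  obtain ⟨p, hp, hpM, hpO⟩ := hF.good.exists_prime
  obtain ⟨π, hπK, hπ⟩ := hF.unif
  obtain ⟨c₀, hc₀, hc₀g⟩ :=
    exists_smul_mem_intRing M O hF.good.hM hF.good.hM5 hp hpM hpO hF.good.hζ g fun n => by
    obtain ⟨x, hxK, hx⟩ := hK n
    rcases A.mem_or_inv_mem x with h | h
    · exact ⟨⟨ι₀ x, (hF.mem_iff x hxK).mpr h⟩, 1, one_ne_zero, by simp [hx]⟩
    · rcases eq_or_ne x 0 with rfl | hx0
      · exact ⟨0, 1, one_ne_zero, by simp [← hx]⟩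
      · refine ⟨1, ⟨ι₀ x⁻¹, (hF.mem_iff _ (inv_mem hxK)).mpr h⟩, fun h0 => ?_, ?_⟩
        · exact inv_ne_zero hx0 ((ι₀).injective (by
            rw [map_zero]; exact congrArg Subtype.val h0))
        · show ι₀ x⁻¹ * _ = _
          rw [← hx, ← map_mul, inv_mul_cancel₀ hx0, map_one]
          rfl
  obtain ⟨m, u, rfl⟩ := IsDiscreteValuationRing.eq_unit_mul_pow_irreducible hc₀ hF.irr
  have hϖC : (ϖ : ℂ) ≠ 0 := fun h0 => hF.irr.ne_zero (Subtype.ext h0)
  have hH : ((ϖ : ℂ) ^ m) • g ∈ intRing M O := by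
    have h1 := (intRing M O).smul_mem hc₀g ((u⁻¹ : Oˣ) : O)
    rw [smul_smul, ← mul_assoc, Units.inv_mul, one_mul] at h1
    exact h1
  set H : intRing M O := ⟨_, hH⟩
  have hHne : H ≠ 0 := fun h0 =>
    smul_ne_zero (pow_ne_zero m hϖC) hg (congrArg Subtype.val h0)
  obtain ⟨k, hk, hk1⟩ : ∃ k, πR ^ k ∣ H ∧ ¬ πR ^ (k + 1) ∣ H := by
    classical
    by_contra hcon
    push Not at hcon
    refine hHne (eq_zero_of_forall_pi_pow_dvd hF.irr fun k => ?_)
    induction k with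
    | zero => rw [pow_zero]; exact one_dvd _
    | succ k ih => exact hcon k ih
  obtain ⟨G, hG⟩ := hk
  have hGg : (G : modRing M) = ι₀ (π ^ m / π ^ k) • g := by
    have h1 : ((ϖ : ℂ) ^ m) • g = ((ϖ : ℂ) ^ k) • (G : modRing M) := by
      rw [← SubmonoidClass.coe_pow ϖ k, ← coe_algebraMap_mul, map_pow, ← hG]
    rw [map_div₀, map_pow, map_pow, hπ, div_eq_inv_mul, mul_smul, h1,
      inv_smul_smul₀ (pow_ne_zero k hϖC)]
  refine ⟨G, _, ?_, hGg, fun hd => hk1 ?_, hGg ▸ hK.smul (div_mem (pow_mem hπK m) (pow_mem hπK k))⟩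
  · rw [map_div₀, map_pow, map_pow, hπ]
    exact div_ne_zero (pow_ne_zero m hϖC) (pow_ne_zero k hϖC)
  · rw [hG, pow_succ]
    exact mul_dvd_mul_left _ hd

theorem IsFrame.mem_place {G : intRing M O} {n : ℤ} {a : Qbar} (ha : a ∈ K)
    (han : ι₀ a = (qExp1 M (G : modRing M)).coeff n) : a ∈ A :=
  (hF.mem_iff a ha).mp (han ▸ coeff_qExp1_mem G n)

/-- Conjugates by the decomposition group are integral. -/
theorem IsFrame.exists_conjInt [Normal ℚ K] {σ : Γℚ} (hσ : σ ∈ A.decompositionSubgroup ℚ)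
    {G : intRing M O} (hG : HasCoeffIn K (G : modRing M)) :
    ∃ G' : intRing M O, IsConjFn M (qbarExt σ) (G : modRing M) G' ∧
      HasCoeffIn K (G' : modRing M) := by
  obtain ⟨G', hG'⟩ := exists_isConjFn M hF.good.hM hF.good.hM5 (qbarExt σ) (G : modRing M)
  refine ⟨⟨G', mem_intRing_of_qExp1 hF.irr hF.good fun n => ?_⟩, hG',
    (isQConj_of_isConjFn hG').hasCoeffIn hG⟩
  obtain ⟨a, ha, han⟩ := hG n
  rw [isQConj_of_isConjFn hG' n a han]
  exact (hF.mem_iff _ (smul_apply_mem_normal σ ha)).mpr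
    ((decomposition_apply_mem hσ).mpr (hF.mem_place ha han))

/-- Congruences on `A` give congruences on reduced expansions. -/
theorem IsFrame.coeff_redInf_conj [Normal ℚ K] {σ : Γℚ} {e : ℕ}
    (hσ : ∀ x ∈ A, σ x - x ^ e ∈ A.nonunits) {G G' : intRing M O}
    (h : IsQConj σ (G : modRing M) G') (hG : HasCoeffIn K (G : modRing M)) (n : ℤ) :
    (redInf M O G').coeff n = (redInf M O G).coeff n ^ e := by
  obtain ⟨a, ha, han⟩ := hG n
  have haA := hF.mem_place ha han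
  have hmemK : σ a - a ^ e ∈ K := sub_mem (smul_apply_mem_normal σ ha) (pow_mem ha e)
  have hval : ((qExpO M O G').coeff n - (qExpO M O G).coeff n ^ e : O) =
      (⟨ι₀ (σ a - a ^ e), (hF.mem_iff _ hmemK).mpr (A.nonunits_subset (hσ a haA))⟩ : O) := by
    refine Subtype.ext ?_
    rw [AddSubgroupClass.coe_sub, SubmonoidClass.coe_pow, coe_coeff_qExpO, coe_coeff_qExpO,
      h n a han, ← han]
    show _ = ι₀ (σ a - a ^ e)
    rw [map_sub, map_pow]
  have h0 : IsLocalRing.residue O ((qExpO M O G').coeff n - (qExpO M O G).coeff n ^ e) = 0 := by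
    rw [hval, IsLocalRing.residue_eq_zero_iff, hF.max_iff _ hmemK]
    exact hσ a haA
  rw [map_sub, map_pow, sub_eq_zero] at h0
  rw [coeff_redInf, coeff_redInf, h0]

/-- An admissible function congruent to an `ℓ`-th power has trivial class. -/
theorem IsFrame.class_eq_zero {G a : intRing M O} {ψ : ParHom M ℓ}
    (hG : HasClass M ℓ (G : modRing M) ψ.1) (ha : ¬ πR ∣ a)
    (h : redInf M O G = redInf M O a ^ ℓ) : ψ = 0 := by
  obtain ⟨k, hk⟩ := exists_pow_eq_of_congr hF.good hF.irr (Fact.out : ℓ.Prime).ne_zero hF.unitℓ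
    ((hG.mem_parHom_iff hF.good.hM5).mp ψ.2) ha
    ((redInf_eq_zero_iff hF.good hF.irr _).mp (by rw [RingHom.map_sub, map_pow, h, sub_self]))
  have hk0 : k ≠ 0 := fun h0 => hG.1 (by rw [← hk, h0, zero_pow (Fact.out : ℓ.Prime).ne_zero])
  exact Subtype.ext (hG.unique (hk ▸ hasClass_pow_self hk0))

omit hF

theorem natCast_ne_nonunits {p : ℕ} (hA : A.LiesOverPrime p) {q : ℕ} (hpq : Nat.Coprime q p) :
    (q : Qbar) ∉ A.nonunits := by
  intro hq
  have hp' : (p : Qbar) ∈ A.nonunits := hA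
  have h1 := Int.gcd_eq_gcd_ab q p
  rw [Int.gcd_natCast_natCast, hpq] at h1
  have h2 : (1 : Qbar) = (q : Qbar) * (Int.gcdA q p : Qbar) + (p : Qbar) * (Int.gcdB q p : Qbar) := by
    exact_mod_cast congrArg (Int.cast : ℤ → Qbar) h1
  have hmem : ∀ {x : Qbar}, x ∈ A.nonunits → ∀ z : ℤ, A.valuation (x * z) < 1 := fun hx z => by
    rw [map_mul]
    exact (mul_le_of_le_one_right zero_le
      ((A.valuation_le_one_iff _).mpr (intCast_mem A z))).trans_lt ((A.mem_nonunits_iff).mp hx)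
  have h3 := A.valuation.map_add_lt (hmem hq (Int.gcdA q p)) (hmem hp' (Int.gcdB q p))
  rw [← h2, map_one] at h3
  exact lt_irrefl _ h3

variable (ℓ) in
/-- Frames exist. -/
theorem exists_frame (hM : 4 ∣ M ∨ 5 ∣ M) (hM5 : 5 ≤ M) {p : ℕ} [NeZero p] (hp : p.Prime)
    (hpM : ¬ p ∣ M) (hpℓ : p ≠ ℓ) (hA : A.LiesOverPrime p) :
    ∃ (K : IntermediateField ℚ Qbar) (O : Subring ℂ) (_ : IsDiscreteValuationRing O) (ϖ : O),
      IsAdicComplete (IsLocalRing.maximalIdeal O) O ∧ Normal ℚ K ∧ FiniteDimensional ℚ K ∧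
      IsFrame M ℓ A K O ϖ ∧ (p : O) ∈ IsLocalRing.maximalIdeal O ∧
      (∀ (φ : ParHom M ℓ) (g : modRing M), IsMaxRep M ℓ φ.1 g → HasCoeffIn K g) ∧
      ∀ j : Fin p, (expUnit ((j : ℕ) / p) : ℂ) ∈ O := by
  obtain ⟨K, hKf, hKn, hcoef, ⟨zM, hzMK, hzM⟩, hzp⟩ := exists_coeffField (M := M) hM hM5 ℓ p
  haveI := hKf
  obtain ⟨O, hO, hOc, hpO, hmem, hmax, ϖ, hϖ, π, hπK, -, hπ⟩ := exists_placeRing hp A hA K
  haveI := hO
  have hint : ∀ {z : Qbar} {m : ℕ}, 0 < m → ι₀ z ^ m = 1 → z ∈ A := fun {z m} hm hz => by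
    refine integral_mem_place A (IsIntegral.of_pow hm ?_)
    rw [show z ^ m = 1 from (ι₀).injective (by
      show ι₀ (z ^ m) = ι₀ 1
      rw [map_pow, hz, map_one])]
    exact isIntegral_one
  refine ⟨K, O, hO, ϖ, hOc, hKn, hKf,
    ⟨⟨hM, hM5, ⟨p, hp, hpM, hpO⟩, ?_⟩, hϖ, ?_, hmem, hmax, π, hπK, hπ⟩, hpO, hcoef, fun j => ?_⟩
  · rw [← hzM]
    refine (hmem zM hzMK).mpr (hint (Nat.pos_of_ne_zero (NeZero.ne M)) ?_)
    rw [hzM]
    exact (Complex.isPrimitiveRoot_exp M (NeZero.ne M)).pow_eq_one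
  · refine IsLocalRing.notMem_maximalIdeal.mp fun hm => ?_
    have hℓO : ι₀ (ℓ : Qbar) ∈ O := (hmem _ (natCast_mem K ℓ)).mpr (natCast_mem A ℓ)
    refine natCast_ne_nonunits hA ((Nat.coprime_primes Fact.out hp).mpr hpℓ.symm)
      ((hmax _ (natCast_mem K ℓ) hℓO).mp ?_)
    rwa [show (⟨ι₀ (ℓ : Qbar), hℓO⟩ : O) = (ℓ : O) from Subtype.ext (map_natCast _ ℓ)]
  · obtain ⟨z, hzK, hz⟩ := hzp j
    rw [← hz]
    refine (hmem z hzK).mpr (hint hp.pos ?_)
    rw [hz]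
    simp only [expUnit, Units.val_mk0]
    rw [← Complex.exp_nat_mul, Complex.exp_eq_one_iff]
    refine ⟨(j : ℕ), ?_⟩
    have hp0 : (p : ℂ) ≠ 0 := Nat.cast_ne_zero.mpr hp.ne_zero
    push_cast
    field_simp

omit [IsAdicComplete (IsLocalRing.maximalIdeal O) O] in
theorem sub_smul_eq_zero {R : Type*} [AddCommGroup R] [Module (ZMod ℓ) R] (x : R) :
    ℓ • x = 0 := by
  rw [← Nat.cast_smul_eq_nsmul (ZMod ℓ), ZMod.natCast_self, zero_smul]

private theorem eq_apply_of_add_nsmul_eq_zero {V : Type*} [AddCommGroup V] [Module (ZMod ℓ) V]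
    {n : ℕ} {T G G' D : Module.End (ZMod ℓ) V} (φ : V) {α : V} (hα : α = G φ + n • G' (D φ))
    (h0 : T φ + (ℓ - 1) • α = 0) (hℓ : 1 ≤ ℓ) (hℓα : ℓ • α = 0) :
    T φ = (G + (n : ZMod ℓ) • (G' * D)) φ := by
  rw [LinearMap.add_apply, LinearMap.smul_apply, Module.End.mul_apply,
    Nat.cast_smul_eq_nsmul (ZMod ℓ), ← hα]
  refine add_right_cancel (h0.trans ?_)
  rw [← succ_nsmul', Nat.sub_add_cancel hℓ]
  exact hℓα.symm

variable (hM : 4 ∣ M ∨ 5 ∣ M) (hM5 : 5 ≤ M)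
include hM hM5

/-- **Inertia away from `M ℓ` acts trivially.** -/
theorem galParRep_inertia {p : ℕ} (hp : p.Prime) (hpM : ¬ p ∣ M) (hpℓ : p ≠ ℓ)
    (hA : A.LiesOverPrime p) {σ : Γℚ} (hσ : σ ∈ A.inertiaSubgroupIn ℚ) :
    galParRep ℓ (M := M) hM hM5 σ = 1 := by
  haveI : NeZero p := ⟨hp.ne_zero⟩
  obtain ⟨hσd, hσr⟩ := mem_inertiaSubgroupIn_iff_forall_mem.mp hσ
  obtain ⟨K, O, hO, ϖ, hOc, hKn, hKf, hF, hpO, hcoef, -⟩ := exists_frame ℓ hM hM5 hp hpM hpℓ hA
  refine LinearMap.ext fun φ => ?_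
  obtain ⟨g, hg⟩ := exists_isMaxRep hM5 φ.2
  obtain ⟨G, c, hc, hGg, hGπ, hGK⟩ := hF.exists_primitive hg.1.1 (hcoef φ g hg)
  obtain ⟨G', hG', hG'K⟩ := hF.exists_conjInt hσd hGK
  have hclG : HasClass M ℓ (G : modRing M) φ.1 := hGg ▸ hg.1.smul hc
  have hclG' : HasClass M ℓ (G' : modRing M) (galParRep ℓ hM hM5 σ φ).1 := by
    rw [galParRep_apply hM hM5 (qbarExt_apply σ)]
    exact hasClass_galClass hM hM5 hclG hG'
  have hred : redInf M O G' = redInf M O G := HahnSeries.ext (funext fun n => by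
    rw [hF.coeff_redInf_conj (e := 1) (fun x hx => by rw [pow_one]; exact hσr x hx)
      (isQConj_of_isConjFn hG') hGK n, pow_one])
  have h0 := hF.class_eq_zero (G := G' * G ^ (ℓ - 1)) (a := G)
    (ψ := galParRep ℓ hM hM5 σ φ + (ℓ - 1) • φ)
    (by
      rw [MulMemClass.coe_mul, SubmonoidClass.coe_pow, Submodule.coe_add, Submodule.coe_smul_of_tower]
      exact hclG'.mul (hclG.pow _))
    hGπ (by rw [map_mul, map_pow, hred, ← pow_succ', Nat.sub_add_cancel (Fact.out : ℓ.Prime).one_le])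
  rw [Module.End.one_apply]
  refine add_right_cancel (h0.trans ?_)
  rw [← succ_nsmul', Nat.sub_add_cancel (Fact.out : ℓ.Prime).one_le]
  exact (sub_smul_eq_zero φ).symm

/-- **The congruence relation.** -/
theorem parT_eq_frobenius {p : ℕ} (hp : p.Prime) (h : Nat.Coprime p M) (hpℓ : p ≠ ℓ)
    (hA : A.LiesOverPrime p) {F : Γℚ} (hFr : A.IsFrobeniusAt F p) :
    parT M ℓ hp h = galParRep ℓ hM hM5 F +
      (p : ZMod ℓ) • (galParRep ℓ hM hM5 F⁻¹ * parDiamond M ℓ (diamondMat M p h)) := by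
  haveI : NeZero p := ⟨hp.ne_zero⟩
  haveI : Fact p.Prime := ⟨hp⟩
  have hpM : ¬ p ∣ M := (Nat.Prime.coprime_iff_not_dvd hp).mp h
  obtain ⟨K, O, hO, ϖ, hOc, hKn, hKf, hF, hpO, hcoef, hζ⟩ := exists_frame ℓ hM hM5 hp hpM hpℓ hA
  haveI : CharP (IsLocalRing.ResidueField O) p := (CharP.charP_iff_prime_eq_zero hp).mpr (by
    rw [← map_natCast (IsLocalRing.residue O), IsLocalRing.residue_eq_zero_iff]
    exact hpO)
  obtain ⟨hFd, hFr'⟩ := isFrobeniusAt_iff_forall_mem.mp hFr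
  refine LinearMap.ext fun φ => ?_
  obtain ⟨g, hg⟩ := exists_isMaxRep hM5 φ.2
  obtain ⟨G, c, hc, hGg, hGπ, hGK⟩ := hF.exists_primitive hg.1.1 (hcoef φ g hg)
  have hclG : HasClass M ℓ (G : modRing M) φ.1 := hGg ▸ hg.1.smul hc
  -- the conjugates
  obtain ⟨G', hG', hG'K⟩ := hF.exists_conjInt hFd hGK
  set D := diamondInt (diamondMat M p h) G
  have hDK : HasCoeffIn K (D : modRing M) := hGK.diamondFn hM hM5 _
  obtain ⟨G₃, hG₃, hG₃K⟩ := hF.exists_conjInt (inv_mem hFd) hDK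
  have hclG' : HasClass M ℓ (G' : modRing M) (galParRep ℓ hM hM5 F φ).1 := by
    rw [galParRep_apply hM hM5 (qbarExt_apply F)]
    exact hasClass_galClass hM hM5 hclG hG'
  have hclD : HasClass M ℓ (D : modRing M) (parDiamond M ℓ (diamondMat M p h) φ).1 :=
    hasClass_diamondFn hclG _
  have hclG₃ : HasClass M ℓ (G₃ : modRing M)
      (galParRep ℓ hM hM5 F⁻¹ (parDiamond M ℓ (diamondMat M p h) φ)).1 := by
    rw [galParRep_apply hM hM5 (qbarExt_apply F⁻¹)]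
    exact hasClass_galClass hM hM5 hclD hG₃
  -- their reductions
  have hfrob : ∀ {X Y : intRing M O}, IsQConj F (X : modRing M) Y → HasCoeffIn K (X : modRing M) →
      redInf M O X ^ p = qExpand (IsLocalRing.ResidueField O) p (redInf M O Y) := by
    intro X Y hXY hXK
    rw [pow_char_eq_qExpand p]
    congr 1
    refine HahnSeries.ext (funext fun n => ?_)
    rw [coeffMap_coeff, frobenius_def, hF.coeff_redInf_conj hFr' hXY hXK n]
  have h₁ := hfrob (isQConj_of_isConjFn hG') hGK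
  have h₃ := hfrob ((isQConj_of_isConjFn hG₃).inv hDK) hG₃K
  obtain ⟨T, hT, hTred⟩ := exists_redInf_heckeFun hp h hF.good hF.irr hpO hζ G
  have hclT : HasClass M ℓ (T : modRing M) (parT M ℓ hp h φ).1 :=
    hT ▸ hasClass_heckeFun hp h hclG
  obtain ⟨a, ha⟩ : ∃ a, a = G' * G₃ ^ p := ⟨_, rfl⟩
  have e1 : redInf M O a = redInf M O G' * redInf M O G₃ ^ p := by rw [ha, map_mul, map_pow]
  have e2 : qExpand (IsLocalRing.ResidueField O) p (redInf M O T) =
      qExpand (IsLocalRing.ResidueField O) p (redInf M O a) := by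
    rw [hTred, e1, map_mul, h₁, h₃, qExpand_qExpand]
  have hTa : redInf M O T = redInf M O a :=
    qExpand_injective (R := IsLocalRing.ResidueField O) p e2
  have haπ : ¬ algebraMap O (intRing M O) ϖ ∣ a := by
    intro hd
    have hd' := (redInf_eq_zero_iff hF.good hF.irr a).mpr hd
    rw [ha, map_mul, map_pow, mul_eq_zero] at hd'
    have hG0 : redInf M O G ≠ 0 := fun h0 => hGπ ((redInf_eq_zero_iff hF.good hF.irr _).mp h0)
    rcases hd' with h0 | h0
    · refine hG0 (eq_zero_of_pow_eq_zero (n := p) ?_)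
      rw [h₁, h0, map_zero]
    · rw [h₃] at h0
      exact not_dvd_diamondInt hF.irr _ hGπ ((redInf_eq_zero_iff hF.good hF.irr _).mp
        ((map_eq_zero_iff _ (qExpand_injective (R := IsLocalRing.ResidueField O) p)).mp h0))
  obtain ⟨α, hα⟩ : ∃ α : ParHom M ℓ, α = galParRep ℓ hM hM5 F φ +
    p • galParRep ℓ hM hM5 F⁻¹ (parDiamond M ℓ (diamondMat M p h) φ) := ⟨_, rfl⟩
  have hclA : HasClass M ℓ (a : modRing M) α.1 := by
    rw [ha, hα]
    exact hclG'.mul (hclG₃.pow _)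
  have h0 := hF.class_eq_zero (G := T * a ^ (ℓ - 1)) (a := a)
    (ψ := parT M ℓ hp h φ + (ℓ - 1) • α)
    (by
      rw [MulMemClass.coe_mul, SubmonoidClass.coe_pow, Submodule.coe_add, Submodule.coe_smul_of_tower]
      exact hclT.mul (hclA.pow _))
    haπ (by rw [map_mul, map_pow, hTa, ← pow_succ', Nat.sub_add_cancel (Fact.out : ℓ.Prime).one_le])
  exact eq_apply_of_add_nsmul_eq_zero φ hα h0 (Fact.out : ℓ.Prime).one_le (sub_smul_eq_zero α)

end FermatLib.Galois.DS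

end
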