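import Fermat.Agent.Basic.FrobeniusExists
import Fermat.Agent.Galois.DS.HeckeFn
import Fermat.Agent.Galois.DS.Frobenius

/-!
# The Hecke algebra on parabolic classes is commutative

`T p = F + p F⁻¹ ⟨p⟩` commutes with diamonds since `F` does.
-/

set_option autoImplicit false
set_option linter.unusedSectionVars false
set_option linter.style.haveILetI false

noncomputable section

open CongruenceSubgroup
open scoped MatrixGroups

namespace FermatLib.Galois.DS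

variable {M : ℕ} [NeZero M] {ℓ : ℕ} [Fact ℓ.Prime]

/-- Diamond operators commute. -/
theorem parDiamond_comm (γ δ : Gamma0 M) :
    parDiamond M ℓ γ * parDiamond M ℓ δ = parDiamond M ℓ δ * parDiamond M ℓ γ := by
  refine LinearMap.ext fun φ => Subtype.ext (AddMonoidHom.ext fun x => ?_)
  have hη : (δ : SL(2, ℤ)) * (γ : SL(2, ℤ)) * ((γ : SL(2, ℤ)) * (δ : SL(2, ℤ)))⁻¹ ∈ Gamma1 M := by
    have hval : ∀ a b : Gamma0 M, ((((a : SL(2, ℤ)) * (b : SL(2, ℤ))) 0 0 : ℤ) : ZMod M) =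
        ((a : SL(2, ℤ)) 0 0 : ZMod M) * ((b : SL(2, ℤ)) 0 0 : ZMod M) ∧
        ((((a : SL(2, ℤ)) * (b : SL(2, ℤ))) 1 1 : ℤ) : ZMod M) =
        ((a : SL(2, ℤ)) 1 1 : ZMod M) * ((b : SL(2, ℤ)) 1 1 : ZMod M) := by
      intro a b
      have ha := Gamma0_mem.mp a.2
      have hb := Gamma0_mem.mp b.2
      simp [Matrix.SpecialLinearGroup.coe_mul, Matrix.mul_apply, Fin.sum_univ_two, ha, hb]
    have h10 : ∀ a b : Gamma0 M, ((((a : SL(2, ℤ)) * (b : SL(2, ℤ))) 1 0 : ℤ) : ZMod M) = 0 := fun a b =>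
      Gamma0_mem.mp (mul_mem a.2 b.2)
    have hd : ((((γ : SL(2, ℤ)) * (δ : SL(2, ℤ))) 0 0 : ℤ) : ZMod M) * (((γ : SL(2, ℤ)) * (δ : SL(2, ℤ))) 1 1 : ℤ) = 1 := by
      have h := congrArg (fun n : ℤ => (n : ZMod M))
        (Matrix.SpecialLinearGroup.det_coe ((γ : SL(2, ℤ)) * (δ : SL(2, ℤ))))
      rw [Matrix.det_fin_two] at h
      push_cast at h
      rwa [h10, mul_zero, sub_zero] at h
    obtain ⟨e00, e11⟩ := hval γ δ
    obtain ⟨f00, f11⟩ := hval δ γ
    have g00 : ((((δ : SL(2, ℤ)) * (γ : SL(2, ℤ))) 0 0 : ℤ) : ZMod M) = (((γ : SL(2, ℤ)) * (δ : SL(2, ℤ))) 0 0 : ℤ) := by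
      rw [e00, f00, mul_comm]
    have g11 : ((((δ : SL(2, ℤ)) * (γ : SL(2, ℤ))) 1 1 : ℤ) : ZMod M) = (((γ : SL(2, ℤ)) * (δ : SL(2, ℤ))) 1 1 : ℤ) := by
      rw [e11, f11, mul_comm]
    have g10 := h10 δ γ
    have e10 := h10 γ δ
    revert g00 g11 g10 e10 hd
    generalize (δ : SL(2, ℤ)) * (γ : SL(2, ℤ)) = X
    generalize (γ : SL(2, ℤ)) * (δ : SL(2, ℤ)) = Y
    intro hd g00 g11 g10 e10
    rw [Gamma1_mem]
    simp only [Matrix.SpecialLinearGroup.coe_mul, Matrix.SpecialLinearGroup.coe_inv,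
      Matrix.adjugate_fin_two, Matrix.mul_apply, Fin.sum_univ_two, Matrix.of_apply,
      Matrix.cons_val', Matrix.cons_val_zero, Matrix.cons_val_one, Matrix.cons_val_fin_one]
    push_cast
    refine ⟨?_, ?_, ?_⟩
    · linear_combination (Y 1 1 : ZMod M) * g00 + hd - (X 0 1 : ZMod M) * e10
    · linear_combination (Y 0 0 : ZMod M) * g11 + hd - (Y 0 1 : ZMod M) * g10
    · linear_combination (Y 1 1 : ZMod M) * g10 - (X 1 1 : ZMod M) * e10
  set η : Gamma1 M := ⟨_, hη⟩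
  set φ' : Additive (Gamma1 M) →+ ZMod ℓ := φ.1
  show φ' (Additive.ofMul (gamma1Conj δ (gamma1Conj γ (Additive.toMul x)))) =
    φ' (Additive.ofMul (gamma1Conj γ (gamma1Conj δ (Additive.toMul x))))
  have hconj : gamma1Conj δ (gamma1Conj γ (Additive.toMul x)) =
      η * gamma1Conj γ (gamma1Conj δ (Additive.toMul x)) * η⁻¹ := by
    refine Subtype.ext ?_
    simp only [gamma1Conj, MonoidHom.coe_mk, OneHom.coe_mk, Subgroup.coe_mul, Subgroup.coe_inv, η]
    group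
  rw [hconj, ofMul_mul, ofMul_mul, ofMul_inv, map_add, map_add, map_neg]
  abel

variable (hM : 4 ∣ M ∨ 5 ∣ M) (hM5 : 5 ≤ M)
include hM hM5

/-- `T p` commutes with diamond operators, `p ∤ M ℓ`. -/
theorem parT_comm_parDiamond {p : ℕ} (hp : p.Prime) (h : Nat.Coprime p M) (hpℓ : p ≠ ℓ)
    (γ : Gamma0 M) :
    parT M ℓ hp h * parDiamond M ℓ γ = parDiamond M ℓ γ * parT M ℓ hp h := by
  obtain ⟨A, hA⟩ := FermatLib.Basic.exists_liesOverPrime hp
  obtain ⟨F, hF⟩ := FermatLib.Basic.exists_isFrobeniusAt hp A hA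
  rw [parT_eq_frobenius hM hM5 hp h hpℓ hA hF, add_mul, mul_add, smul_mul_assoc, mul_smul_comm]
  congr 1
  · exact galParRep_parDiamond hM hM5 F γ
  · congr 1
    rw [mul_assoc, parDiamond_comm (diamondMat M p h) γ, ← mul_assoc, galParRep_parDiamond hM hM5,
      mul_assoc]

/-- `T p` and `T q` commute. -/
theorem parT_comm {p q : ℕ} (hp : p.Prime) (h : Nat.Coprime p M) (hpℓ : p ≠ ℓ)
    (hq : q.Prime) (h' : Nat.Coprime q M) (hqℓ : q ≠ ℓ) :
    parT M ℓ hp h * parT M ℓ hq h' = parT M ℓ hq h' * parT M ℓ hp h := by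
  obtain ⟨A, hA⟩ := FermatLib.Basic.exists_liesOverPrime hp
  obtain ⟨F, hF⟩ := FermatLib.Basic.exists_isFrobeniusAt hp A hA
  rw [parT_eq_frobenius hM hM5 hp h hpℓ hA hF, add_mul, mul_add, smul_mul_assoc, mul_smul_comm]
  congr 1
  · exact galParRep_parT hq h' hM hM5 F
  · congr 1
    rw [mul_assoc, ← parT_comm_parDiamond hM hM5 hq h' hqℓ, ← mul_assoc, galParRep_parT hq h' hM hM5,
      mul_assoc]

theorem galParRep_commute_heckeAlg1 (σ : AlgebraicClosure ℚ ≃ₐ[ℚ] AlgebraicClosure ℚ) :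
    ∀ T ∈ heckeAlg1 M ℓ, galParRep ℓ hM hM5 σ * T = T * galParRep ℓ hM hM5 σ := by
  intro T hT
  induction hT using Algebra.adjoin_induction with
  | mem x hx =>
    obtain ⟨p, hp, h, rfl | rfl⟩ := hx
    · exact galParRep_parT hp h hM hM5 σ
    · exact galParRep_parDiamond hM hM5 σ _
  | algebraMap r => exact (Algebra.commutes r _).symm
  | add x y _ _ hx hy => rw [mul_add, add_mul, hx, hy]
  | mul x y _ _ hx hy => rw [← mul_assoc, hx, mul_assoc, hy, mul_assoc]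

theorem heckeAlg1_comm (hℓM : ℓ ∣ M) :
    ∀ S ∈ heckeAlg1 M ℓ, ∀ T ∈ heckeAlg1 M ℓ, S * T = T * S := by
  have hne : ∀ {p : ℕ}, p.Prime → Nat.Coprime p M → p ≠ ℓ := fun hp h e =>
    (Nat.Prime.coprime_iff_not_dvd hp).mp h (e ▸ hℓM)
  have key : ∀ x ∈ {T | ∃ (p : ℕ) (hp : p.Prime) (h : Nat.Coprime p M),
      T = parT M ℓ hp h ∨ T = parDiamond M ℓ (diamondMat M p h)},
      ∀ y ∈ {T | ∃ (p : ℕ) (hp : p.Prime) (h : Nat.Coprime p M),
      T = parT M ℓ hp h ∨ T = parDiamond M ℓ (diamondMat M p h)}, x * y = y * x := by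
    rintro _ ⟨p, hp, h, rfl | rfl⟩ _ ⟨q, hq, h', rfl | rfl⟩
    · exact parT_comm hM hM5 hp h (hne hp h) hq h' (hne hq h')
    · exact parT_comm_parDiamond hM hM5 hp h (hne hp h) _
    · exact (parT_comm_parDiamond hM hM5 hq h' (hne hq h') _).symm
    · exact parDiamond_comm _ _
  intro S hS T hT
  induction hS using Algebra.adjoin_induction with
  | mem x hx =>
    induction hT using Algebra.adjoin_induction with
    | mem y hy => exact key x hx y hy
    | algebraMap r => exact (Algebra.commutes r x).symm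
    | add a b _ _ ha hb => rw [mul_add, add_mul, ha, hb]
    | mul a b _ _ ha hb => rw [← mul_assoc, ha, mul_assoc, hb, mul_assoc]
  | algebraMap r => exact Algebra.commutes r T
  | add a b _ _ ha hb => rw [mul_add, add_mul, ha, hb]
  | mul a b _ _ ha hb => rw [mul_assoc, hb, ← mul_assoc, ha, mul_assoc]

end FermatLib.Galois.DS

end
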