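import Fermat.Agent.Galois.AttachQuadratic
import Fermat.Agent.Galois.DS.GroupBound

/-!
# Two-dimensional representations from quadratic relations

A group acts on a finite `𝔽_ℓ`-space so that every element satisfies `g² - t g + d = 0` with
commuting operators `t`, `d` evaluated by a character `θ`.  If some involution has `θ d = -1`
there is a semisimple representation into `GL₂(𝔽_ℓ)` with trace `θ t` and determinant `θ d`.
-/

set_option autoImplicit false

noncomputable section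

namespace FermatLib.Galois.DS

open Module Matrix Polynomial
open FermatLib.Galois.Attach (IsInvariantSubspace HasTraceRelation)

local notation "M₂" R:max => Matrix (Fin 2) (Fin 2) R

variable {G : Type*} [Group G] {ℓ : ℕ} [Fact ℓ.Prime]

section descent

variable {k : Type*} [Field k] [Algebra (ZMod ℓ) k]

/-- An element of `k` lying in the prime field. -/
def IsRational (ℓ : ℕ) {k : Type*} [Field k] [Algebra (ZMod ℓ) k] (x : k) : Prop :=
  x ∈ Set.range (algebraMap (ZMod ℓ) k)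

theorem isRational_mul {x y : k} (hx : IsRational ℓ x) (hy : IsRational ℓ y) :
    IsRational ℓ (x * y) := by
  obtain ⟨a, rfl⟩ := hx; obtain ⟨b, rfl⟩ := hy; exact ⟨a * b, map_mul _ a b⟩

theorem isRational_sub {x y : k} (hx : IsRational ℓ x) (hy : IsRational ℓ y) :
    IsRational ℓ (x - y) := by
  obtain ⟨a, rfl⟩ := hx; obtain ⟨b, rfl⟩ := hy; exact ⟨a - b, map_sub _ a b⟩

theorem isRational_add {x y : k} (hx : IsRational ℓ x) (hy : IsRational ℓ y) :
    IsRational ℓ (x + y) := by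
  obtain ⟨a, rfl⟩ := hx; obtain ⟨b, rfl⟩ := hy; exact ⟨a + b, map_add _ a b⟩

theorem isRational_inv {x : k} (hx : IsRational ℓ x) : IsRational ℓ x⁻¹ := by
  obtain ⟨a, rfl⟩ := hx; exact ⟨a⁻¹, map_inv₀ _ a⟩

/-- A representation with entries in `𝔽_ℓ` descends. -/
theorem exists_descent_rational (π : G →* M₂ k) (hπ : ∀ g i j, IsRational ℓ (π g i j)) :
    ∃ ρ : G →* GL (Fin 2) (ZMod ℓ),
      (∀ g, (ρ g : M₂ (ZMod ℓ)).map (algebraMap (ZMod ℓ) k) = π g) ∧
      ∀ g, π g = 1 → ρ g = 1 := by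
  choose m hm using hπ
  have hinj : Function.Injective fun X : M₂ (ZMod ℓ) => X.map (algebraMap (ZMod ℓ) k) :=
    Matrix.map_injective (algebraMap (ZMod ℓ) k).injective
  have hg : ∀ g, (Matrix.of (m g) : M₂ (ZMod ℓ)).map (algebraMap (ZMod ℓ) k) = π g := fun g => by
    ext i j; exact hm g i j
  have h1 : (Matrix.of (m 1) : M₂ (ZMod ℓ)) = 1 := hinj (by
    show (Matrix.of (m 1) : M₂ (ZMod ℓ)).map (algebraMap (ZMod ℓ) k) = (1 : M₂ (ZMod ℓ)).map (algebraMap (ZMod ℓ) k)
    rw [hg, map_one, Matrix.map_one _ (map_zero _) (map_one _)])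
  let ρ₀ : G →* M₂ (ZMod ℓ) :=
    { toFun := fun g => Matrix.of (m g)
      map_one' := h1
      map_mul' := fun g h => hinj (by
        show (Matrix.of (m (g * h)) : M₂ (ZMod ℓ)).map (algebraMap (ZMod ℓ) k) = (Matrix.of (m g) * Matrix.of (m h)).map (algebraMap (ZMod ℓ) k)
        rw [Matrix.map_mul, hg, hg, hg, map_mul]) }
  refine ⟨ρ₀.toHomUnits, hg, fun g hπg => Units.ext (hinj ?_)⟩
  show (Matrix.of (m g)).map (algebraMap (ZMod ℓ) k) = (1 : M₂ (ZMod ℓ)).map _
  rw [hg, hπg, Matrix.map_one _ (map_zero _) (map_one _)]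

end descent

section relation

variable {k : Type*} [Field k] [IsAlgClosed k]

/-- A quadratic relation gives an irreducible constituent of dimension at most two: an absolutely
irreducible plane, or a line. -/
theorem exists_plane_or_line {V : Type*} [AddCommGroup V] [Module k V] [FiniteDimensional k V]
    [Nontrivial V] (R : G →* Module.End k V) (e : G →* k) (a : G → k)
    (h : HasTraceRelation R e a) :
    (∃ π : G →* M₂ k, (∀ g, (π g).trace = a g ∧ (π g).det = e g) ∧
      (∀ v : Fin 2 → k, v ≠ 0 → ∃ g, ∀ c : k, π g *ᵥ v ≠ c • v) ∧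
      ∀ g, R g = 1 → π g = 1) ∨
    ∃ ψ : G →* k, (∀ g, a g = ψ g + e g * ψ g⁻¹) ∧ ∀ g, R g = 1 → ψ g = 1 := by
  classical
  obtain ⟨W, ⟨hW0, hWi⟩, hWmin⟩ := IsArtinian.set_has_minimal
    {U : Submodule k V | U ≠ ⊥ ∧ IsInvariantSubspace R U}
    ⟨⊤, by simp, fun _ _ _ => Submodule.mem_top⟩
  let S : G →* Module.End k W :=
    { toFun := fun g => (R g).restrict (hWi g)
      map_one' := LinearMap.ext fun x => Subtype.ext (by simp)
      map_mul' := fun g g' => LinearMap.ext fun x => Subtype.ext (by simp) }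
  have hS : ∀ g (x : W), (S g x : V) = R g x := fun g x => rfl
  have hker : ∀ g, R g = 1 → S g = 1 := fun g hg => LinearMap.ext fun x => Subtype.ext (by
    rw [hS, hg]; rfl)
  have hSrel : HasTraceRelation S e a := fun g => LinearMap.ext fun x => Subtype.ext (by
    simpa [hS] using congr($(h g) (x : V)))
  have hirr : ∀ U, IsInvariantSubspace S U → U = ⊥ ∨ U = ⊤ := by
    intro U hU
    refine or_iff_not_imp_left.2 fun hU0 => ?_
    have hmem : U.map W.subtype ∈ {U : Submodule k V | U ≠ ⊥ ∧ IsInvariantSubspace R U} := by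
      refine ⟨fun h0 => hU0 (Submodule.map_injective_of_injective W.injective_subtype
        (h0.trans (Submodule.map_bot _).symm)), ?_⟩
      rintro g _ ⟨x, hx, rfl⟩
      exact ⟨S g x, hU g x hx, rfl⟩
    have heq : U.map W.subtype = W :=
      eq_of_le_of_not_lt (Submodule.map_subtype_le _ _) (hWmin _ hmem)
    refine Submodule.map_injective_of_injective W.injective_subtype ?_
    rw [heq, Submodule.map_subtype_top]
  have : Nontrivial W := Submodule.nontrivial_iff_ne_bot.2 hW0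
  rcases Nat.lt_or_ge (finrank k W) 2 with hd | hd
  · right
    have hd1 : finrank k W = 1 := by
      have := Module.finrank_pos (R := k) (M := W)
      omega
    obtain ⟨w, hw0, hw⟩ := finrank_eq_one_iff'.1 hd1
    choose c hc using fun g => hw (S g w)
    have hinj : Function.Injective fun r : k => r • w := smul_left_injective k hw0
    let ψ : G →* k :=
      { toFun := c
        map_one' := hinj (by simp [hc])
        map_mul' := fun g g' => hinj (by
          simp only [hc, map_mul, Module.End.mul_apply]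
          rw [← hc g', map_smul, ← hc g, smul_smul, mul_comm]) }
    refine ⟨ψ, fun g => hinj ?_, fun g hg => hinj ?_⟩
    · have := congr($(hSrel g) w)
      simp only [LinearMap.add_apply, LinearMap.smul_apply, Module.End.one_apply, ← hc,
        smul_smul, ← add_smul] at this
      exact this.symm
    · show c g • w = (1 : k) • w
      rw [hc, hker g hg, Module.End.one_apply, one_smul]
  · left
    obtain ⟨hd2, hch⟩ := Attach.finrank_le_two_and_charpoly hSrel hirr hd
    let b := Module.finBasisOfFinrankEq k W hd2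
    let π : G →* M₂ k := ((LinearMap.toMatrixAlgEquiv b).toMonoidHom.comp S)
    have hπ : ∀ g, π g = LinearMap.toMatrix b b (S g) := fun g => rfl
    refine ⟨π, fun g => ?_, fun v hv => ?_, fun g hg => ?_⟩
    · have hcp : (π g).charpoly = X ^ 2 - C (a g) * X + C (e g) := by
        rw [hπ, LinearMap.charpoly_toMatrix, hch]
      rw [Matrix.charpoly_fin_two] at hcp
      have h1 := congrArg (fun p => p.coeff 1) hcp
      have h0 := congrArg (fun p => p.coeff 0) hcp
      simp [coeff_X_pow] at h1 h0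
      exact ⟨h1, h0⟩
    · by_contra! hc
      set x := b.equivFun.symm v
      have hx0 : x ≠ 0 := fun h0 => hv (b.equivFun.symm.injective (h0.trans (map_zero _).symm))
      have hline : IsInvariantSubspace S (k ∙ x) := by
        intro g y hy
        obtain ⟨r, rfl⟩ := Submodule.mem_span_singleton.1 hy
        obtain ⟨c, hc'⟩ := hc g
        refine Submodule.mem_span_singleton.2 ⟨r * c, ?_⟩
        have hSx : S g x = c • x := by
          apply b.equivFun.injective
          rw [map_smul, show b.equivFun x = v from b.equivFun.apply_symm_apply v, ← hc', hπ]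
          have h3 := LinearMap.toMatrix_mulVec_repr b b (S g) x
          rw [show (b.repr x : Fin 2 → k) = v from b.equivFun.apply_symm_apply v] at h3
          exact h3.symm
        rw [map_smul, hSx, smul_smul]
      rcases hirr _ hline with h0 | h0
      · exact hx0 (Submodule.span_singleton_eq_bot.1 h0)
      · have h1 : finrank k (k ∙ x) ≤ 1 := by rw [finrank_span_singleton hx0]
        rw [h0, finrank_top, hd2] at h1
        omega
    · rw [hπ, hker g hg]
      exact LinearMap.toMatrix_one b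

end relation

section realise

variable {k : Type*} [Field k] [Algebra (ZMod ℓ) k]

theorem pow_card_eq_self_of_isRational {x : k} (hx : IsRational ℓ x) : x ^ ℓ = x := by
  obtain ⟨a, rfl⟩ := hx
  rw [← map_pow, ZMod.pow_card]

theorem isRational_of_pow_card {x : k} (hx : x ^ ℓ = x) : IsRational ℓ x := by
  classical
  have hℓ : 1 < ℓ := (Fact.out : ℓ.Prime).one_lt
  let S : Finset k := Finset.univ.image (algebraMap (ZMod ℓ) k)
  by_contra hnx
  have hx' : x ∉ S := fun hS => by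
    obtain ⟨a, -, ha⟩ := Finset.mem_image.1 hS
    exact hnx ⟨a, ha⟩
  have hne : (Polynomial.X ^ ℓ - Polynomial.X : k[X]) ≠ 0 :=
    FiniteField.X_pow_card_sub_X_ne_zero k hℓ
  have hle : (insert x S).card ≤ ℓ := by
    refine (Finset.card_le_card fun y hy => ?_).trans
      ((Multiset.toFinset_card_le _).trans ((Polynomial.card_roots' _).trans
        (FiniteField.X_pow_card_sub_X_natDegree_eq k hℓ).le))
    rw [Multiset.mem_toFinset, Polynomial.mem_roots hne, Polynomial.IsRoot.def]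
    rcases Finset.mem_insert.1 hy with rfl | hy
    · simp [hx]
    · obtain ⟨a, -, rfl⟩ := Finset.mem_image.1 hy
      simp [pow_card_eq_self_of_isRational ⟨a, rfl⟩]
  rw [Finset.card_insert_of_notMem hx',
    Finset.card_image_of_injective _ (algebraMap (ZMod ℓ) k).injective, Finset.card_univ,
    ZMod.card] at hle
  omega

/-- A character with `ψ + e ψ⁻¹` rational, not equal to its conjugate at an involution, is
rational. -/
theorem isRational_line (hℓ : ℓ ≠ 2) (ψ : G →* k) (e : G →* k) (he : ∀ g, IsRational ℓ (e g))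
    (ha : ∀ g, IsRational ℓ (ψ g + e g * ψ g⁻¹)) {c : G} (hc2 : c * c = 1) (hec : e c = -1) :
    ∀ g, IsRational ℓ (ψ g) := by
  haveI := charP_of_injective_algebraMap (algebraMap (ZMod ℓ) k).injective ℓ
  have hψinv : ∀ g, ψ g * ψ g⁻¹ = 1 := fun g => by rw [← map_mul, mul_inv_cancel, map_one]
  -- the Frobenius conjugate is `ψ` or `e ψ⁻¹`
  have hcases : ∀ g, ψ g ^ ℓ = ψ g ∨ ψ g ^ ℓ = e g * ψ g⁻¹ := by
    intro g
    have h1 : ψ g * ψ g - (ψ g + e g * ψ g⁻¹) * ψ g + e g = 0 := by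
      linear_combination (-e g) * hψinv g
    have h2 := congrArg (frobenius k ℓ) h1
    rw [map_add, map_sub, map_mul, map_mul, map_zero] at h2
    simp only [frobenius_def] at h2
    rw [pow_card_eq_self_of_isRational (ha g), pow_card_eq_self_of_isRational (he g)] at h2
    have h3 : (ψ g ^ ℓ - ψ g) * (ψ g ^ ℓ - e g * ψ g⁻¹) = 0 := by
      linear_combination h2 + e g * hψinv g
    rcases mul_eq_zero.1 h3 with h4 | h4
    · exact Or.inl (sub_eq_zero.1 h4)
    · exact Or.inr (sub_eq_zero.1 h4)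
  have hc : ψ c ^ ℓ = ψ c ∧ ψ c ^ ℓ ≠ e c * ψ c⁻¹ := by
    have hsq : ψ c * ψ c = 1 := by rw [← map_mul, hc2, map_one]
    have hinv : ψ c⁻¹ = ψ c := by rw [inv_eq_of_mul_eq_one_right hc2]
    have hself : ψ c ^ ℓ = ψ c := by
      rcases mul_self_eq_one_iff.1 hsq with h | h
      · rw [h, one_pow]
      · rw [h, ((Fact.out : ℓ.Prime).odd_of_ne_two hℓ).neg_one_pow]
    refine ⟨hself, fun h => ?_⟩
    rw [hself, hinv, hec, neg_one_mul] at h
    have h2 : (2 : k) * ψ c = 0 := by linear_combination h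
    have h2ne : (2 : k) ≠ 0 := by
      intro h0
      have := (CharP.cast_eq_zero_iff k ℓ 2).1 (by exact_mod_cast h0)
      exact hℓ ((Nat.prime_dvd_prime_iff_eq Fact.out Nat.prime_two).1 this)
    rw [(mul_eq_zero.1 h2).resolve_left h2ne, mul_zero] at hsq
    exact zero_ne_one hsq
  intro g
  refine isRational_of_pow_card ?_
  rcases hcases g with h | h
  · exact h
  rcases hcases (g * c) with h' | h'
  · rw [map_mul, mul_pow, hc.1] at h'
    exact mul_right_cancel₀ (fun h0 => by simpa [h0] using hψinv c) h'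
  · refine absurd ?_ hc.2
    rw [_root_.mul_inv_rev, map_mul, map_mul, map_mul, mul_pow, h] at h'
    have hne : e g * ψ g⁻¹ ≠ 0 := by
      refine mul_ne_zero (fun h0 => ?_) fun h0 => by simpa [h0] using hψinv g
      have := map_mul e g g⁻¹
      rw [mul_inv_cancel, map_one, h0, zero_mul] at this
      exact one_ne_zero this
    exact mul_left_cancel₀ hne (h'.trans (by ring))

/-- An absolutely irreducible plane with rational traces and an odd involution is rational. -/
theorem exists_rational_conj (hℓ : ℓ ≠ 2) (π : G →* M₂ k)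
    (htr : ∀ g, IsRational ℓ (π g).trace)
    (hirr : ∀ v : Fin 2 → k, v ≠ 0 → ∃ g, ∀ c : k, π g *ᵥ v ≠ c • v)
    {c : G} (hc2 : c * c = 1) (hdc : (π c).det = -1) :
    ∃ P : GL (Fin 2) k, ∀ g i j, IsRational ℓ ((((P⁻¹ : GL (Fin 2) k) : M₂ k) * π g * P) i j) := by
  haveI := charP_of_injective_algebraMap (algebraMap (ZMod ℓ) k).injective ℓ
  have h2ne : (2 : k) ≠ 0 := by
    intro h0
    have := (CharP.cast_eq_zero_iff k ℓ 2).1 (by exact_mod_cast h0)
    exact hℓ ((Nat.prime_dvd_prime_iff_eq Fact.out Nat.prime_two).1 this)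
  have hsq : π c * π c = 1 := by rw [← map_mul, hc2, map_one]
  have htr0 : (π c).trace = 0 := by
    have hne : π c ≠ 0 := fun h0 => by rw [h0, zero_mul] at hsq; exact zero_ne_one hsq
    have h := congrArg (fun X : M₂ k => X - (π c * π c)) hsq
    have hCH : π c * π c = (π c).trace • π c - (π c).det • 1 := by
      ext i j
      fin_cases i <;> fin_cases j <;>
        simp [Matrix.mul_apply, Fin.sum_univ_two, Matrix.trace_fin_two, Matrix.det_fin_two] <;> ring
    rw [hsq, hdc, neg_smul, one_smul, sub_neg_eq_add, right_eq_add] at hCH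
    exact (smul_eq_zero.1 hCH).resolve_right hne
  -- eigenvectors
  have hev : ∀ s : k, s * s = 1 → ∃ v : Fin 2 → k, v ≠ 0 ∧ π c *ᵥ v = s • v := by
    intro s hs
    obtain ⟨v, hv, hv'⟩ := Matrix.exists_mulVec_eq_zero_iff.2
      (show (π c - s • (1 : M₂ k)).det = 0 by
        rw [Matrix.det_fin_two] at hdc ⊢
        rw [Matrix.trace_fin_two] at htr0
        simp
        linear_combination hdc - s * htr0 + hs)
    refine ⟨v, hv, sub_eq_zero.1 ?_⟩
    rwa [Matrix.sub_mulVec, Matrix.smul_mulVec, Matrix.one_mulVec] at hv'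
  obtain ⟨v, hv, hcv⟩ := hev 1 (one_mul 1)
  obtain ⟨w, hw, hcw⟩ := hev (-1) (by ring)
  have hli : LinearIndependent k ![v, w] := by
    rw [LinearIndependent.pair_iff' hv]
    intro r hr
    rw [← hr, Matrix.mulVec_smul, hcv, smul_smul, smul_smul] at hcw
    have h2 : ((2 : k) * r) • v = 0 := by
      linear_combination (norm := module) hcw
    exact hw (by rw [← hr, (mul_eq_zero.1 ((smul_eq_zero.1 h2).resolve_right hv)).resolve_left h2ne,
      zero_smul])
  obtain ⟨B, hB⟩ : ∃ B : M₂ k, IsUnit B ∧ (∀ i, B i 0 = v i) ∧ ∀ i, B i 1 = w i := by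
    refine ⟨(Matrix.of ![v, w])ᵀ, ?_, fun i => rfl, fun i => rfl⟩
    rw [Matrix.isUnit_transpose]
    exact (Matrix.linearIndependent_rows_iff_isUnit (A := Matrix.of ![v, w])).1 hli
  set P₀ : GL (Fin 2) k := hB.1.unit
  have hP₀ : (P₀ : M₂ k) = B := hB.1.unit_spec
  let π₀ : G →* M₂ k :=
    { toFun := fun g => ((P₀⁻¹ : GL (Fin 2) k) : M₂ k) * π g * P₀
      map_one' := by simp
      map_mul' := fun g g' => by
        rw [map_mul]
        simp [mul_assoc] }
  have hπ₀ : ∀ g, (P₀ : M₂ k) * π₀ g = π g * P₀ := fun g => by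
    show (P₀ : M₂ k) * (((P₀⁻¹ : GL (Fin 2) k) : M₂ k) * π g * P₀) = _
    rw [← mul_assoc, ← mul_assoc, Units.mul_inv, one_mul]
  have hC : π₀ c = !![1, 0; 0, -1] := by
    have h : π c * (P₀ : M₂ k) = (P₀ : M₂ k) * !![1, 0; 0, -1] := by
      rw [hP₀]
      have e1 := fun i => congrFun hcv i
      have e2 := fun i => congrFun hcw i
      simp only [Matrix.mulVec, dotProduct, Fin.sum_univ_two, Pi.smul_apply, smul_eq_mul] at e1 e2
      ext i j
      fin_cases j <;>
        simp [Matrix.mul_apply, Fin.sum_univ_two, hB.2.1, hB.2.2, e1, e2]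
    show ((P₀⁻¹ : GL (Fin 2) k) : M₂ k) * π c * P₀ = _
    rw [mul_assoc, h, ← mul_assoc, Units.inv_mul, one_mul]
  have htr₀ : ∀ g, IsRational ℓ (π₀ g).trace := fun g => by
    show IsRational ℓ (((P₀⁻¹ : GL (Fin 2) k) : M₂ k) * π g * P₀).trace
    rw [Matrix.trace_mul_comm, ← mul_assoc, Units.mul_inv, one_mul]
    exact htr g
  have htwo : IsRational ℓ (2 : k) := ⟨2, map_ofNat _ 2⟩
  have hCg : ∀ g, π₀ (c * g) = !![π₀ g 0 0, π₀ g 0 1; -π₀ g 1 0, -π₀ g 1 1] := by
    intro g
    rw [map_mul, hC]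
    ext i j
    fin_cases i <;> fin_cases j <;> simp [Matrix.mul_apply, Fin.sum_univ_two]
  have hdiag : ∀ g, IsRational ℓ (π₀ g 0 0) ∧ IsRational ℓ (π₀ g 1 1) := by
    intro g
    have h1 := htr₀ g
    have h2 := htr₀ (c * g)
    rw [hCg, Matrix.trace_fin_two] at h2
    simp at h2
    rw [Matrix.trace_fin_two] at h1
    constructor
    · have := isRational_mul (isRational_inv htwo) (isRational_add h1 h2)
      rwa [show π₀ g 0 0 + π₀ g 1 1 + (π₀ g 0 0 + -π₀ g 1 1) = 2 * π₀ g 0 0 by ring,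
        inv_mul_cancel_left₀ h2ne] at this
    · have := isRational_mul (isRational_inv htwo) (isRational_sub h1 h2)
      rwa [show π₀ g 0 0 + π₀ g 1 1 - (π₀ g 0 0 + -π₀ g 1 1) = 2 * π₀ g 1 1 by ring,
        inv_mul_cancel_left₀ h2ne] at this
  -- both coordinate lines are moved
  have hmove : ∀ j : Fin 2, ∃ g, π₀ g (1 - j) j ≠ 0 := by
    intro j
    by_contra! h0
    obtain ⟨g, hg⟩ := hirr ((P₀ : M₂ k) *ᵥ Pi.single j 1) (fun h => by
      have := congrArg (((P₀⁻¹ : GL (Fin 2) k) : M₂ k) *ᵥ ·) h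
      simp only [Matrix.mulVec_mulVec, Units.inv_mul, Matrix.one_mulVec, Matrix.mulVec_zero] at this
      exact one_ne_zero (α := k) (by simpa using congrFun this j))
    refine hg (π₀ g j j) ?_
    rw [Matrix.mulVec_mulVec, ← hπ₀, ← Matrix.mulVec_mulVec, ← Matrix.mulVec_smul]
    congr 1
    ext i
    fin_cases j <;> fin_cases i <;>
      simp <;> simpa using h0 g
  obtain ⟨g₁, hg₁⟩ := hmove 1
  obtain ⟨g₂, hg₂⟩ := hmove 0
  rw [show (1 : Fin 2) - 1 = 0 from rfl] at hg₁
  rw [show (1 : Fin 2) - 0 = 1 from rfl] at hg₂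
  -- rescale the second vector
  set β := π₀ g₁ 0 1 with hβ
  set P₁ : GL (Fin 2) k := Units.mk !![1, 0; 0, β⁻¹] !![1, 0; 0, β]
    (by ext i j; fin_cases i <;> fin_cases j <;> simp [hg₁])
    (by ext i j; fin_cases i <;> fin_cases j <;> simp [hg₁]) with hP₁
  refine ⟨P₀ * P₁, fun g => ?_⟩
  have hval : ((((P₀ * P₁)⁻¹ : GL (Fin 2) k)) : M₂ k) * π g * ((P₀ * P₁ : GL (Fin 2) k) : M₂ k)
      = !![π₀ g 0 0, π₀ g 0 1 * β⁻¹; β * π₀ g 1 0, π₀ g 1 1] := by
    rw [_root_.mul_inv_rev, Units.val_mul, Units.val_mul]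
    calc _ = ((P₁⁻¹ : GL (Fin 2) k) : M₂ k) * π₀ g * (P₁ : M₂ k) := by
          show _ = ((P₁⁻¹ : GL (Fin 2) k) : M₂ k) *
            (((P₀⁻¹ : GL (Fin 2) k) : M₂ k) * π g * P₀) * (P₁ : M₂ k)
          simp only [mul_assoc]
      _ = _ := by
          show !![1, 0; 0, β] * π₀ g * !![1, 0; 0, β⁻¹] = _
          ext i j
          fin_cases i <;> fin_cases j <;>
            simp [Matrix.mul_apply, Matrix.vecMul, dotProduct, Fin.sum_univ_two, hg₁,
              mul_right_comm β _ β⁻¹]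
  -- lower left entries from traces against `g₁`
  have hlow : ∀ g, IsRational ℓ (β * π₀ g 1 0) := by
    intro g
    have h1 := htr₀ (g₁ * g)
    have h2 := htr₀ (g₁ * (c * g))
    rw [map_mul, Matrix.trace_fin_two] at h1 h2
    rw [hCg] at h2
    simp [Matrix.mul_apply, Fin.sum_univ_two, ← hβ] at h1 h2
    have hd := hdiag g₁
    have hd' := hdiag g
    have hsum := isRational_sub (isRational_sub h1 h2)
      (isRational_mul htwo (isRational_mul hd.2 hd'.2))
    have := isRational_mul (isRational_inv htwo) hsum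
    rwa [show π₀ g₁ 0 0 * π₀ g 0 0 + β * π₀ g 1 0 +
        (π₀ g₁ 1 0 * π₀ g 0 1 + π₀ g₁ 1 1 * π₀ g 1 1) -
        (π₀ g₁ 0 0 * π₀ g 0 0 + -(β * π₀ g 1 0) +
          (π₀ g₁ 1 0 * π₀ g 0 1 + -(π₀ g₁ 1 1 * π₀ g 1 1))) -
        2 * (π₀ g₁ 1 1 * π₀ g 1 1) = 2 * (β * π₀ g 1 0) by ring,
      inv_mul_cancel_left₀ h2ne] at this
  have hup : ∀ g, IsRational ℓ (π₀ g 0 1 * β⁻¹) := by
    intro g
    have h1 := htr₀ (g₂ * g)
    have h2 := htr₀ (g₂ * (c * g))
    rw [map_mul, Matrix.trace_fin_two] at h1 h2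
    rw [hCg] at h2
    simp [Matrix.mul_apply, Fin.sum_univ_two] at h1 h2
    have hd := hdiag g₂
    have hd' := hdiag g
    have hsum := isRational_sub (isRational_add h1 h2)
      (isRational_mul htwo (isRational_mul hd.1 hd'.1))
    have h3 := isRational_mul (isRational_inv htwo) hsum
    rw [show π₀ g₂ 0 0 * π₀ g 0 0 + π₀ g₂ 0 1 * π₀ g 1 0 +
        (π₀ g₂ 1 0 * π₀ g 0 1 + π₀ g₂ 1 1 * π₀ g 1 1) +
        (π₀ g₂ 0 0 * π₀ g 0 0 + -(π₀ g₂ 0 1 * π₀ g 1 0) +
          (π₀ g₂ 1 0 * π₀ g 0 1 + -(π₀ g₂ 1 1 * π₀ g 1 1))) -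
        2 * (π₀ g₂ 0 0 * π₀ g 0 0) = 2 * (π₀ g₂ 1 0 * π₀ g 0 1) by ring,
      inv_mul_cancel_left₀ h2ne] at h3
    have := isRational_mul h3 (isRational_inv (hlow g₂))
    rwa [show π₀ g₂ 1 0 * π₀ g 0 1 * (β * π₀ g₂ 1 0)⁻¹ = π₀ g 0 1 * β⁻¹ by
      rw [mul_inv]; field_simp] at this
  intro i j
  rw [hval]
  fin_cases i <;> fin_cases j <;> simp
  exacts [(hdiag g).1, hup g, hlow g, (hdiag g).2]

end realise

theorem exists_joint_eigenvector {V : Type*} [AddCommGroup V] [Module (ZMod ℓ) V] [Finite V]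
    (H : Subalgebra (ZMod ℓ) (Module.End (ZMod ℓ) V)) [IsMulCommutative H]
    (θ : H →+* ZMod ℓ) : ∃ v : V, v ≠ 0 ∧ ∀ h : H, (h : Module.End (ZMod ℓ) V) v = θ h • v := by
  open scoped IsMulCommutative in
  haveI : Finite (Module.End (ZMod ℓ) V) :=
    Finite.of_injective (fun f => (f : V → V)) DFunLike.coe_injective
  haveI : Finite H := Subtype.finite
  have hsurj : Function.Surjective θ := ZMod.ringHom_surjective θ
  haveI hmax : (RingHom.ker θ).IsMaximal := RingHom.ker_isMaximal_of_surjective θ hsurj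
  letI : Module H V := Module.compHom V H.val.toRingHom
  haveI : Module.Finite H V := Module.Finite.of_finite
  have hann : Module.annihilator H V = ⊥ := by
    refine (Submodule.eq_bot_iff _).2 fun h hh => Subtype.ext (LinearMap.ext fun v => ?_)
    exact Module.mem_annihilator.1 hh v
  have hmem : RingHom.ker θ ∈ associatedPrimes H V :=
    Module.associatedPrimes.minimalPrimes_annihilator_subset_associatedPrimes H V
      (IsArtinianRing.mem_minimalPrimes (hann ▸ bot_le))
  obtain ⟨hp, v, hv⟩ := isAssociatedPrime_iff.1 hmem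
  have hv0 : v ≠ 0 := by
    rintro rfl
    refine hp.ne_top (hv.trans ?_)
    ext r
    simp only [Submodule.mem_colon_singleton, Submodule.mem_bot, Submodule.mem_top]
    exact iff_true_intro (smul_zero r)
  refine ⟨v, hv0, fun h => ?_⟩
  have hmem' : h - algebraMap (ZMod ℓ) H (θ h) ∈ RingHom.ker θ := by
    rw [RingHom.mem_ker, map_sub, sub_eq_zero]
    exact (RingHom.congr_fun (Subsingleton.elim (θ.comp (algebraMap (ZMod ℓ) H))
      (RingHom.id _)) (θ h)).symm
  rw [hv, Submodule.mem_colon_singleton, Submodule.mem_bot] at hmem'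
  change (h : Module.End (ZMod ℓ) V) v -
    (algebraMap (ZMod ℓ) (Module.End (ZMod ℓ) V) (θ h)) v = 0 at hmem'
  rwa [Module.algebraMap_end_apply, sub_eq_zero] at hmem'

theorem isSemisimpleSubgroup_of_diagonal {F : Type*} [Field F] (S : Subgroup (GL (Fin 2) F))
    (h : ∀ g ∈ S, (g : M₂ F) 0 1 = 0 ∧ (g : M₂ F) 1 0 = 0) : IsSemisimpleSubgroup S := by
  intro v hv _
  have hev : ∀ j : Fin 2, ∀ g ∈ S, ∃ a : F, (g : M₂ F) *ᵥ Pi.single j 1 = a • Pi.single j 1 := by
    intro j g hg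
    refine ⟨(g : M₂ F) j j, ?_⟩
    obtain ⟨h1, h2⟩ := h g hg
    ext i
    fin_cases j <;> fin_cases i <;> simp [h1, h2]
  by_cases h1 : v 1 = 0
  · refine ⟨Pi.single 1 1, (LinearIndependent.pair_iff' hv).2 fun a ha => ?_, hev 1⟩
    have := congrFun ha 1
    simp [h1] at this
  · refine ⟨Pi.single 0 1, (LinearIndependent.pair_iff' hv).2 fun a ha => ?_, hev 0⟩
    have h' := congrFun ha 1
    simp [h1] at h'
    have := congrFun ha 0
    simp [h'] at this

/-- **Realisation of quadratic relations in `GL₂(𝔽_ℓ)`.** -/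
theorem exists_semisimple_rep_of_quadratic (hℓ : ℓ ≠ 2) {V : Type*} [AddCommGroup V]
    [Module (ZMod ℓ) V] [Finite V] (R : G →* Module.End (ZMod ℓ) V)
    (t d : G → Module.End (ZMod ℓ) V)
    (hrel : ∀ g, R g * R g - t g * R g + d g = 0)
    (hRd : ∀ g h, Commute (R g) (d h)) (hdd : ∀ g h, Commute (d g) (d h))
    (hRt : ∀ g h, Commute (R g) (t h))
    (H : Subalgebra (ZMod ℓ) (Module.End (ZMod ℓ) V)) (htH : ∀ g, t g ∈ H) (hdH : ∀ g, d g ∈ H)
    (θ : H →+* ZMod ℓ) (a : G → ZMod ℓ) (e : G →* ZMod ℓ)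
    (hθt : ∀ g, θ ⟨t g, htH g⟩ = a g) (hθd : ∀ g, θ ⟨d g, hdH g⟩ = e g)
    {c : G} (hc2 : c * c = 1) (hec : e c = -1) :
    ∃ ρ : G →* GL (Fin 2) (ZMod ℓ), IsSemisimpleSubgroup ρ.range ∧
      (∀ g, R g = 1 → e g = 1 → ρ g = 1) ∧
      ∀ g, (ρ g : M₂ (ZMod ℓ)).trace = a g ∧ (ρ g : M₂ (ZMod ℓ)).det = e g := by
  classical
  -- the operators generate a commutative algebra
  have hte : ∀ g, t g = (R g * R g + d g) * R g⁻¹ := fun g => by
    have h1 : R g * R g + d g = t g * R g := by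
      have := hrel g
      rwa [sub_add_eq_add_sub, sub_eq_zero] at this
    rw [h1, mul_assoc, ← map_mul, mul_inv_cancel, map_one, mul_one]
  have htd : ∀ g h, Commute (t g) (d h) := fun g h => by
    rw [hte g]
    exact (((hRd g h).mul_left (hRd g h)).add_left (hdd g h)).mul_left (hRd g⁻¹ h)
  have htt : ∀ g h, Commute (t g) (t h) := fun g h => by
    rw [hte h]
    exact (((hRt h g).symm.mul_right (hRt h g).symm).add_right (htd g h)).mul_right (hRt h⁻¹ g).symm
  set H₀ : Subalgebra (ZMod ℓ) (Module.End (ZMod ℓ) V) :=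
    Algebra.adjoin (ZMod ℓ) (Set.range t ∪ Set.range d)
  haveI : IsMulCommutative H₀ := Algebra.isMulCommutative_adjoin (ZMod ℓ) (by
    rintro x (⟨g, rfl⟩ | ⟨g, rfl⟩) y (⟨h, rfl⟩ | ⟨h, rfl⟩)
    exacts [htt g h, htd g h, (htd h g).symm, hdd g h])
  have hle : H₀ ≤ H := Algebra.adjoin_le (by
    rintro _ (⟨g, rfl⟩ | ⟨g, rfl⟩)
    exacts [htH g, hdH g])
  let θ₀ : H₀ →+* ZMod ℓ := θ.comp (Subalgebra.inclusion hle).toRingHom
  obtain ⟨v₀, hv₀, hev₀⟩ := exists_joint_eigenvector H₀ θ₀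
  have ht₀ : ∀ g, t g v₀ = a g • v₀ := fun g => by
    rw [← hθt g]; exact hev₀ ⟨t g, Algebra.subset_adjoin (Or.inl ⟨g, rfl⟩)⟩
  have hd₀ : ∀ g, d g v₀ = e g • v₀ := fun g => by
    rw [← hθd g]; exact hev₀ ⟨d g, Algebra.subset_adjoin (Or.inr ⟨g, rfl⟩)⟩
  -- the eigenspace
  let X : Submodule (ZMod ℓ) V :=
    ⨅ g, (LinearMap.ker (t g - a g • 1) ⊓ LinearMap.ker (d g - e g • 1))
  have hX : ∀ x, x ∈ X ↔ ∀ g, t g x = a g • x ∧ d g x = e g • x := by
    intro x
    simp [X, Submodule.mem_iInf, sub_eq_zero]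
  have hinv : ∀ g, ∀ x ∈ X, R g x ∈ X := by
    intro g x hx
    rw [hX] at hx ⊢
    intro h
    constructor
    · rw [← Module.End.mul_apply, ← (hRt g h).eq, Module.End.mul_apply, (hx h).1, map_smul]
    · rw [← Module.End.mul_apply, ← (hRd g h).eq, Module.End.mul_apply, (hx h).2, map_smul]
  let S : G →* Module.End (ZMod ℓ) X :=
    { toFun := fun g => (R g).restrict (hinv g)
      map_one' := LinearMap.ext fun x => Subtype.ext (by simp)
      map_mul' := fun g g' => LinearMap.ext fun x => Subtype.ext (by simp) }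
  have hSrel : ∀ g, S g + e g • S g⁻¹ = a g • 1 := fun g => LinearMap.ext fun x => Subtype.ext (by
    show R g (x : V) + e g • R g⁻¹ (x : V) = a g • (x : V)
    have hx := ((hX _).1 (hinv g⁻¹ x x.2) g)
    have h1 : R g (R g⁻¹ (x : V)) = (x : V) := by
      rw [← Module.End.mul_apply, ← map_mul, mul_inv_cancel, map_one, Module.End.one_apply]
    have h2 := congr($(hrel g) (R g⁻¹ (x : V)))
    simp only [LinearMap.add_apply, LinearMap.sub_apply, Module.End.mul_apply, h1,
      LinearMap.zero_apply, ((hX _).1 x.2 g).1, hx.2] at h2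
    linear_combination (norm := module) h2)
  have hXne : Nontrivial X := Submodule.nontrivial_iff_ne_bot.2 (by
    intro h
    exact hv₀ ((Submodule.mem_bot (ZMod ℓ)).1 (h ▸ (hX v₀).2 fun g => ⟨ht₀ g, hd₀ g⟩)))
  -- extend to an algebraic closure
  let k := AlgebraicClosure (ZMod ℓ)
  let b := Module.finBasis (ZMod ℓ) X
  let Sk : G →* Module.End k (Fin (finrank (ZMod ℓ) X) → k) :=
    (Matrix.toLinAlgEquiv'.toAlgHom.toMonoidHom.comp
      (algebraMap (ZMod ℓ) k).mapMatrix.toMonoidHom).comp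
        ((LinearMap.toMatrixAlgEquiv b).toAlgHom.toMonoidHom.comp S)
  have hSk : ∀ g, Sk g = Matrix.toLinAlgEquiv'
      ((algebraMap (ZMod ℓ) k).mapMatrix (LinearMap.toMatrixAlgEquiv b (S g))) := fun g => rfl
  let ek : G →* k := (algebraMap (ZMod ℓ) k).toMonoidHom.comp e
  let ak : G → k := fun g => algebraMap (ZMod ℓ) k (a g)
  have hrelk : HasTraceRelation Sk ek ak := fun g => by
    let Φ : Module.End (ZMod ℓ) X →ₐ[ZMod ℓ] Module.End k (Fin (finrank (ZMod ℓ) X) → k) :=
      ((Matrix.toLinAlgEquiv' (R := k) (n := Fin (finrank (ZMod ℓ) X))).toAlgHom.restrictScalars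
        (ZMod ℓ)).comp ((Algebra.ofId (ZMod ℓ) k).mapMatrix.comp
          (LinearMap.toMatrixAlgEquiv b).toAlgHom)
    have h1 := congrArg Φ (hSrel g)
    rw [map_add, map_smul, map_smul, map_one, ← algebraMap_smul k (e g), ← algebraMap_smul k (a g)] at h1
    exact h1
  haveI : Nontrivial (Fin (finrank (ZMod ℓ) X) → k) := by
    haveI : Nonempty (Fin (finrank (ZMod ℓ) X)) := ⟨⟨0, Module.finrank_pos⟩⟩
    exact Function.nontrivial
  have hkerS : ∀ g, R g = 1 → Sk g = 1 := fun g hg => by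
    have : S g = 1 := LinearMap.ext fun x => Subtype.ext (by show R g (x : V) = _; rw [hg]; rfl)
    rw [hSk, this, map_one, map_one, map_one]
  have hinj : Function.Injective (algebraMap (ZMod ℓ) k) := (algebraMap (ZMod ℓ) k).injective
  have hfinish : ∀ (π : G →* M₂ k), (∀ g i j, IsRational ℓ (π g i j)) →
      (∀ g, (π g).trace = ak g ∧ (π g).det = ek g) → ∃ ρ : G →* GL (Fin 2) (ZMod ℓ),
      (∀ g, (ρ g : M₂ (ZMod ℓ)).map (algebraMap (ZMod ℓ) k) = π g) ∧
      (∀ g, π g = 1 → ρ g = 1) ∧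
      ∀ g, (ρ g : M₂ (ZMod ℓ)).trace = a g ∧ (ρ g : M₂ (ZMod ℓ)).det = e g := by
    intro π hrat htd'
    obtain ⟨ρ, hρ, hker⟩ := exists_descent_rational π hrat
    refine ⟨ρ, hρ, hker, fun g => ⟨hinj ?_, hinj ?_⟩⟩
    · rw [AddMonoidHom.map_trace (algebraMap (ZMod ℓ) k).toAddMonoidHom |> fun h =>
        show algebraMap (ZMod ℓ) k (ρ g : M₂ (ZMod ℓ)).trace
          = ((ρ g : M₂ (ZMod ℓ)).map (algebraMap (ZMod ℓ) k)).trace from h _, hρ]
      exact (htd' g).1
    · rw [RingHom.map_det, RingHom.mapMatrix_apply, hρ]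
      exact (htd' g).2
  rcases exists_plane_or_line Sk ek ak hrelk with ⟨π, hπ, hirr, hker⟩ | ⟨ψ, hψ, hker⟩
  · obtain ⟨P, hP⟩ := exists_rational_conj hℓ π (fun g => ⟨a g, (hπ g).1.symm⟩) hirr hc2
      (by rw [(hπ c).2]; simp [ek, hec])
    let π' : G →* M₂ k :=
      { toFun := fun g => ((P⁻¹ : GL (Fin 2) k) : M₂ k) * π g * P
        map_one' := by simp
        map_mul' := fun g g' => by rw [map_mul]; simp [mul_assoc] }
    obtain ⟨ρ, hρ, hρker, hρtd⟩ := hfinish π' hP (fun g => by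
      refine ⟨?_, ?_⟩
      · show (((P⁻¹ : GL (Fin 2) k) : M₂ k) * π g * P).trace = _
        rw [Matrix.trace_mul_comm, ← mul_assoc, Units.mul_inv, one_mul]
        exact (hπ g).1
      · show (((P⁻¹ : GL (Fin 2) k) : M₂ k) * π g * P).det = _
        rw [Matrix.det_units_conj']
        exact (hπ g).2)
    refine ⟨ρ, fun v hv hline => ?_, fun g hg _ => hρker g ?_, hρtd⟩
    · exfalso
      set vk : Fin 2 → k := fun i => algebraMap (ZMod ℓ) k (v i) with hvk
      have hvk0 : (P : M₂ k) *ᵥ vk ≠ 0 := fun h0 => hv (by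
        have := Matrix.mulVec_injective_iff_isUnit.2 P.isUnit (h0.trans (Matrix.mulVec_zero _).symm)
        exact funext fun i => hinj (by simpa [hvk] using congrFun this i))
      obtain ⟨g, hg⟩ := hirr _ hvk0
      obtain ⟨r, hr⟩ := hline _ ⟨g, rfl⟩
      refine hg (algebraMap (ZMod ℓ) k r) ?_
      rw [Matrix.mulVec_mulVec, ← Matrix.mulVec_smul]
      have h1 : π g * (P : M₂ k) = (P : M₂ k) * π' g := by
        show _ = (P : M₂ k) * (((P⁻¹ : GL (Fin 2) k) : M₂ k) * π g * P)
        rw [← mul_assoc, ← mul_assoc, Units.mul_inv, one_mul]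
      rw [h1, ← Matrix.mulVec_mulVec, ← hρ]
      congr 1
      ext i
      rw [show vk = algebraMap (ZMod ℓ) k ∘ v from rfl, ← RingHom.map_mulVec, hr]
      simp
    · show ((P⁻¹ : GL (Fin 2) k) : M₂ k) * π g * P = 1
      rw [hker g (hkerS g hg), mul_one, Units.inv_mul]
  · have hrat := isRational_line hℓ ψ ek (fun g => ⟨e g, rfl⟩)
      (fun g => ⟨a g, hψ g⟩) hc2 (by simp [ek, hec])
    let π : G →* M₂ k :=
      { toFun := fun g => !![ψ g, 0; 0, ek g * ψ g⁻¹]
        map_one' := by simp [Matrix.one_fin_two]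
        map_mul' := fun g g' => by
          simp only [map_mul, _root_.mul_inv_rev]
          ext i j
          fin_cases i <;> fin_cases j <;> simp [Matrix.mul_apply, Fin.sum_univ_two]
          ring }
    obtain ⟨ρ, hρ, hρker, hρtd⟩ := hfinish π (fun g i j => by
        fin_cases i <;> fin_cases j <;> simp [π]
        exacts [hrat g, ⟨0, map_zero _⟩, ⟨0, map_zero _⟩,
          isRational_mul ⟨e g, rfl⟩ (isRational_inv (hrat g))])
      (fun g => by
        refine ⟨?_, ?_⟩
        · show (!![ψ g, 0; 0, ek g * ψ g⁻¹] : M₂ k).trace = _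
          rw [Matrix.trace_fin_two_of]
          exact (hψ g).symm
        · show (!![ψ g, 0; 0, ek g * ψ g⁻¹] : M₂ k).det = _
          rw [Matrix.det_fin_two_of, mul_left_comm, ← map_mul ψ, mul_inv_cancel, map_one]
          ring)
    refine ⟨ρ, isSemisimpleSubgroup_of_diagonal _ ?_, fun g hg hg' => hρker g ?_, hρtd⟩
    · rintro _ ⟨g, rfl⟩
      constructor <;>
      · apply hinj
        rw [map_zero, ← Matrix.map_apply (f := algebraMap (ZMod ℓ) k) (M := (ρ g : M₂ (ZMod ℓ))), hρ]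
        rfl
    · have h1 : R g⁻¹ = 1 := by
        have := map_mul R g⁻¹ g
        rwa [inv_mul_cancel, map_one, hg, mul_one, eq_comm] at this
      show (!![ψ g, 0; 0, ek g * ψ g⁻¹] : M₂ k) = 1
      rw [hker g (hkerS g hg), hker g⁻¹ (hkerS g⁻¹ h1), Matrix.one_fin_two]
      simp [ek, hg']

/-- The same, from a relation `T = ρ g + D ρ g⁻¹` inside a commuting algebra. -/
theorem exists_semisimple_rep {ℓ : ℕ} [Fact ℓ.Prime] (hℓ2 : ℓ ≠ 2) {G V : Type*} [Group G]
    [AddCommGroup V] [Module (ZMod ℓ) V] [FiniteDimensional (ZMod ℓ) V]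
    (ρ : G →* Module.End (ZMod ℓ) V) (H : Subalgebra (ZMod ℓ) (Module.End (ZMod ℓ) V))
    (hHc : ∀ S ∈ H, ∀ T ∈ H, S * T = T * S) (hH : ∀ g, ∀ T ∈ H, ρ g * T = T * ρ g)
    (θ : H →ₐ[ZMod ℓ] ZMod ℓ) (e : G →* ZMod ℓ) (c : G) (hc : c * c = 1) (hec : e c = -1)
    (t : G → ZMod ℓ)
    (hrel : ∀ g, ∃ T D : H, θ T = t g ∧ θ D = e g ∧
      (T : Module.End (ZMod ℓ) V) = ρ g + (D : Module.End (ZMod ℓ) V) * ρ g⁻¹) :
    ∃ R : G →* GL (Fin 2) (ZMod ℓ), IsSemisimpleSubgroup R.range ∧
      (∀ g, ρ g = 1 → e g = 1 → R g = 1) ∧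
      ∀ g, (R g : Matrix (Fin 2) (Fin 2) (ZMod ℓ)).trace = t g ∧
        (R g : Matrix (Fin 2) (Fin 2) (ZMod ℓ)).det = e g := by
  haveI : Finite V := Module.finite_of_finite (ZMod ℓ)
  choose T D hT hD hTD using hrel
  refine exists_semisimple_rep_of_quadratic hℓ2 ρ (fun g => (T g : Module.End (ZMod ℓ) V))
    (fun g => (D g : Module.End (ZMod ℓ) V)) (fun g => ?_) (fun g h => hH g _ (D h).2)
    (fun g h => hHc _ (D g).2 _ (D h).2) (fun g h => hH g _ (T h).2) H (fun g => (T g).2)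
    (fun g => (D g).2) θ.toRingHom t e hT hD hc hec
  have h : ρ g⁻¹ * ρ g = 1 := by rw [← map_mul, inv_mul_cancel, map_one]
  rw [hTD g, add_mul, mul_assoc, h, mul_one, sub_add_eq_add_sub, add_sub_add_right_eq_sub,
    sub_self]

end FermatLib.Galois.DS

end
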