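import Fermat.Prelude.Def_GaloisRep_Residual
import Fermat.Prelude.Def_GaloisRep_ComplexConjugation
import Fermat.Agent.Galois.CyclotomicFrobenius
import Fermat.Agent.Galois.Chebotarev
import Fermat.Agent.Galois.DS.AssemblyLift
import Fermat.Agent.Galois.DS.GroupBound
import Fermat.Agent.Galois.DS.HeckeComm
import Fermat.Agent.Galois.DS.RepRealise
import Fermat.Agent.Galois.DS.ResidualEigen

/-!
# The residual representation of a weight one eigenform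

For a level `N` divisible by `4` or `5`, a prime `ℓ ≥ 5` prime to `N` and a reduction of the
coefficients to `ℤ/ℓ`: a semisimple representation with Frobenius polynomial
`X ^ 2 - a_p X + ε(p)` at every `p ∤ N ℓ`.
-/

set_option autoImplicit false
set_option linter.unusedSectionVars false
set_option linter.style.haveILetI false

noncomputable section

open CongruenceSubgroup UpperHalfPlane
open scoped MatrixGroups ModularForm

namespace FermatLib.Galois.DS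

local notation "Γℚ" => (AlgebraicClosure ℚ ≃ₐ[ℚ] AlgebraicClosure ℚ)

local notation "ι₀" => complexEmbedding

/-- A weight one nebentypus is odd. -/
theorem nebentypus_neg_one {N : ℕ} [NeZero N] (ε : DirichletCharacter ℂ N)
    (f : CuspForm (Gamma1 N) 1) (hf₁ : ModularFormClass.qCoeff f 1 = 1)
    (hε : ∀ γ ∈ Gamma0 N, (f : ℍ → ℂ) ∣[(1 : ℤ)] γ = (ε ((γ 1 1 : ℤ) : ZMod N)) • (f : ℍ → ℂ)) :
    ε (-1) = -1 := by
  obtain ⟨τ, hτ⟩ : ∃ τ : ℍ, f τ ≠ 0 := by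
    by_contra hcon
    push Not at hcon
    have h0 : (f : ℍ → ℂ) = 0 := funext hcon
    rw [ModularFormClass.qCoeff, h0, qExpansion_zero, map_zero] at hf₁
    exact zero_ne_one hf₁
  have h := congrFun (hε (-1) (Gamma0_mem.mpr (by simp))) τ
  rw [ModularForm.SL_slash_apply, ModularGroup.denom_apply, Pi.smul_apply, smul_eq_mul] at h
  simp at h
  exact mul_right_cancel₀ hτ (by linear_combination -h)

/-- The cyclotomic character of complex conjugation. -/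
theorem modCycloChar_complexConjugation (N : ℕ) [NeZero N] :
    (modCycloChar N complexConjugation : ZMod N) = -1 := by
  obtain ⟨ζ, hζ⟩ := HasEnoughRootsOfUnity.exists_primitiveRoot (AlgebraicClosure ℚ) N
  have hN1 : 1 ≤ N := Nat.pos_of_ne_zero (NeZero.ne N)
  have hc : complexConjugation ζ = ζ ^ (N - 1) := by
    apply (complexEmbedding : AlgebraicClosure ℚ →ₐ[ℚ] ℂ).injective
    show ι₀ (complexConjugation ζ) = ι₀ (ζ ^ (N - 1))
    rw [complexEmbedding_complexConjugation, map_pow]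
    have h1 : ι₀ ζ ^ N = 1 := by rw [← map_pow, hζ.pow_eq_one, map_one]
    have h2 : starRingEnd ℂ (ι₀ ζ) * ι₀ ζ = 1 := by
      rw [mul_comm, Complex.mul_conj, Complex.normSq_eq_norm_sq,
        Complex.norm_eq_one_of_pow_eq_one h1 (NeZero.ne N)]
      simp
    calc starRingEnd ℂ (ι₀ ζ) = starRingEnd ℂ (ι₀ ζ) * ι₀ ζ ^ N := by rw [h1, mul_one]
      _ = ι₀ ζ ^ (N - 1) := by
        nth_rewrite 1 [← Nat.sub_add_cancel hN1]
        rw [pow_succ', ← mul_assoc, h2, one_mul]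
  have h := modularCyclotomicCharacter_eq_natCast_of_apply
    (IsAlgClosed.card_rootsOfUnity_eq (AlgebraicClosure ℚ) N) hζ
    (complexConjugation : AlgebraicClosure ℚ ≃+* AlgebraicClosure ℚ) hc
  rw [modCycloChar_apply, h, Nat.cast_sub hN1, ZMod.natCast_self, Nat.cast_one, zero_sub]

/-- The mod `ℓ` determinant character `red ∘ ε ∘ χ`. -/
def detChar {N : ℕ} [NeZero N] {ℓ : ℕ} (ε : DirichletCharacter ℂ N) {R : Subring ℂ}
    (hεR : ∀ x : ZMod N, ε x ∈ R) (red : R →+* ZMod ℓ) : Γℚ →* ZMod ℓ where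
  toFun σ := red ⟨ε (modCycloChar N σ : ZMod N), hεR _⟩
  map_one' := by
    rw [← map_one red]
    congr 1
    exact Subtype.ext (by simp)
  map_mul' σ τ := by
    rw [← map_mul red]
    congr 1
    exact Subtype.ext (by simp)

/-- A reduction of a subring of algebraic integers extends to all of them. -/
theorem exists_red_extend {ℓ : ℕ} [Fact ℓ.Prime] (R : Subring ℂ)
    (hR : ∀ x ∈ R, IsIntegral ℤ x) (red : R →+* ZMod ℓ) :
    ∃ red' : integralClosure ℤ ℂ →+* AlgebraicClosure (ZMod ℓ), ∀ x : R,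
      red' ⟨x, hR x x.2⟩ = algebraMap (ZMod ℓ) _ (red x) := by
  let i : R →+* integralClosure ℤ ℂ :=
    (R.subtype).codRestrict (integralClosure ℤ ℂ).toSubring fun x => hR x x.2
  letI : Algebra R (integralClosure ℤ ℂ) := i.toAlgebra
  haveI : IsScalarTower ℤ R (integralClosure ℤ ℂ) :=
    IsScalarTower.of_algebraMap_eq' (RingHom.ext_int _ _)
  haveI : Algebra.IsIntegral R (integralClosure ℤ ℂ) :=
    ⟨fun x => (Algebra.IsIntegral.isIntegral (R := ℤ) x).tower_top⟩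
  obtain ⟨ψ, hψ⟩ := exists_ringHom_extend_integral (A := R) (B := integralClosure ℤ ℂ)
    (fun a b h => Subtype.ext (show (a : ℂ) = b from congrArg (fun z : integralClosure ℤ ℂ => (z : ℂ)) h))
    ((algebraMap (ZMod ℓ) (AlgebraicClosure (ZMod ℓ))).comp red)
  exact ⟨ψ, fun x => RingHom.congr_fun hψ x⟩

/-- A character with values in the prime field on generators has values in the prime field. -/
theorem exists_algHom_zmod {ℓ : ℕ} [Fact ℓ.Prime] {B k : Type*} [Ring B] [Algebra (ZMod ℓ) B]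
    [Field k] [Algebra (ZMod ℓ) k] {s : Set B} (θ : Algebra.adjoin (ZMod ℓ) s →+* k)
    (hs : ∀ x (hx : x ∈ s), θ ⟨x, Algebra.subset_adjoin hx⟩ ∈ (algebraMap (ZMod ℓ) k).range) :
    ∃ θ₀ : Algebra.adjoin (ZMod ℓ) s →ₐ[ZMod ℓ] ZMod ℓ,
      ∀ x, algebraMap (ZMod ℓ) k (θ₀ x) = θ x := by
  have hscal : ∀ r : ZMod ℓ, θ (algebraMap (ZMod ℓ) _ r) = algebraMap (ZMod ℓ) k r := fun r =>
    RingHom.congr_fun (Subsingleton.elim (θ.comp (algebraMap (ZMod ℓ) _)) (algebraMap (ZMod ℓ) k)) r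
  have hmem : ∀ x, θ x ∈ (algebraMap (ZMod ℓ) k).range := by
    rintro ⟨x, hx⟩
    induction hx using Algebra.adjoin_induction with
    | mem x hx => exact hs x hx
    | algebraMap r => exact ⟨r, (hscal r).symm⟩
    | add x y hx hy ihx ihy =>
      have h := map_add θ ⟨x, hx⟩ ⟨y, hy⟩
      exact h ▸ add_mem ihx ihy
    | mul x y hx hy ihx ihy =>
      have h := map_mul θ ⟨x, hx⟩ ⟨y, hy⟩
      exact h ▸ mul_mem ihx ihy
  choose v hv using hmem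
  have hinj := (algebraMap (ZMod ℓ) k).injective
  exact ⟨{ toFun := v
           map_one' := hinj (by rw [hv, map_one, map_one])
           map_mul' := fun x y => hinj (by rw [hv, map_mul, map_mul, hv, hv])
           map_zero' := hinj (by rw [hv, map_zero, map_zero])
           map_add' := fun x y => hinj (by rw [hv, map_add, map_add, hv, hv])
           commutes' := fun r => hinj (by rw [hv, hscal, Algebra.algebraMap_self_apply]) }, hv⟩

/-- Two relations `T = u + D u⁻¹` with the same `θ D` have the same `θ T`. -/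
theorem eval_eq_of_relations {F B : Type*} [Field F] [Ring B] [Algebra F B] [Finite B]
    {H : Subalgebra F B} (θ : H →ₐ[F] F) {T D T' D' : H} {u : B} (w : Bˣ)
    (hc : ∀ x ∈ H, (w : B) * x = x * w) (h : (T : B) = u + (D : B) * w)
    (h' : (T' : B) = u + (D' : B) * w) (hD : θ D' = θ D) : θ T' = θ T := by
  obtain ⟨n, hn, hpow⟩ := (isOfFinOrder_of_finite w).exists_pow_eq_one
  have hdiff : (T' : B) - T = ((D' : B) - D) * w := by rw [h, h', sub_mul]; abel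
  have hkey : (T' - T) ^ n = (D' - D) ^ n := Subtype.ext (by
    rw [SubmonoidClass.coe_pow, SubmonoidClass.coe_pow, AddSubgroupClass.coe_sub,
      AddSubgroupClass.coe_sub, hdiff, Commute.mul_pow (hc _ (sub_mem D'.2 D.2)).symm,
      ← Units.val_pow_eq_pow_val, hpow, Units.val_one, mul_one])
  have h0 := congrArg θ hkey
  rw [map_pow, map_pow, map_sub, map_sub, hD, sub_self, zero_pow hn.ne'] at h0
  exact sub_eq_zero.mp (eq_zero_of_pow_eq_zero h0)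

theorem mem_range_of_natCast_mul {F k : Type*} [Field F] [Field k] [Algebra F k] {n : ℕ} {x : k}
    {r : F} (hn : (n : F) ≠ 0) (h : (n : k) * x = algebraMap F k r) :
    x ∈ (algebraMap F k).range :=
  ⟨(n : F)⁻¹ * r, by
    rw [map_mul, ← h, ← map_natCast (algebraMap F k) n, ← mul_assoc, ← map_mul,
      inv_mul_cancel₀ hn, map_one, one_mul]⟩

section Abstract

variable {ℓ : ℕ} [Fact ℓ.Prime] {V : Type} [AddCommGroup V] [Module (ZMod ℓ) V]

/-- A representation with the congruence relation at every Frobenius gives a two-dimensional one. -/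
theorem exists_rep_of_frobenius (hℓ2 : ℓ ≠ 2) [Finite V] (ρ : Γℚ →* Module.End (ZMod ℓ) V)
    (H : Subalgebra (ZMod ℓ) (Module.End (ZMod ℓ) V))
    (hHc : ∀ S ∈ H, ∀ T ∈ H, S * T = T * S) (hH : ∀ g, ∀ T ∈ H, ρ g * T = T * ρ g)
    (θ : H →ₐ[ZMod ℓ] ZMod ℓ) (e : Γℚ →* ZMod ℓ) (hc : e complexConjugation = -1)
    (hρ : GaloisFactorsThroughFiniteLevel ρ) (he : GaloisFactorsThroughFiniteLevel e)
    (M : ℕ) [NeZero M] (t : ℕ → ZMod ℓ)
    (hrel : ∀ p : ℕ, p.Prime → ¬ p ∣ M → ∀ A : ValuationSubring (AlgebraicClosure ℚ),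
      A.LiesOverPrime p → ∀ F : Γℚ, A.IsFrobeniusAt F p →
        ∃ T D : H, θ T = t p ∧ θ D = e F ∧
          (T : Module.End (ZMod ℓ) V) = ρ F + (D : Module.End (ZMod ℓ) V) * ρ F⁻¹) :
    ∃ R : Γℚ →* GL (Fin 2) (ZMod ℓ), GaloisFactorsThroughFiniteLevel R ∧
      IsSemisimpleSubgroup R.range ∧ (∀ g, ρ g = 1 → e g = 1 → R g = 1) ∧
      ∀ p : ℕ, p.Prime → ¬ p ∣ M → ∀ A : ValuationSubring (AlgebraicClosure ℚ),
        A.LiesOverPrime p → ∀ σ : Γℚ, A.IsFrobeniusAt σ p →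
          (R σ : Matrix (Fin 2) (Fin 2) (ZMod ℓ)).trace = t p ∧
            (R σ : Matrix (Fin 2) (Fin 2) (ZMod ℓ)).det = e σ := by
  obtain ⟨L₁, hL₁, hL₁ρ⟩ := hρ
  obtain ⟨L₂, hL₂, hL₂e⟩ := he
  haveI := hL₁
  haveI := hL₂
  have hLρ : ∀ σ : Γℚ, (∀ x ∈ L₁ ⊔ L₂, σ x = x) → ρ σ = 1 ∧ e σ = 1 := fun σ hσ =>
    ⟨hL₁ρ σ fun x hx => hσ x (SetLike.le_def.mp le_sup_left hx),
      hL₂e σ fun x hx => hσ x (SetLike.le_def.mp le_sup_right hx)⟩
  have hcheb : ∀ g : Γℚ, ∃ (p : ℕ) (_ : p.Prime) (_ : ¬ p ∣ M)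
      (A : ValuationSubring (AlgebraicClosure ℚ)) (F : Γℚ), A.LiesOverPrime p ∧
        A.IsFrobeniusAt F p ∧ ρ F = ρ g ∧ e F = e g ∧ ρ F⁻¹ = ρ g⁻¹ := by
    intro g
    obtain ⟨p, hp, hpS, A, hA, F, hF, hFg⟩ :=
      exists_isFrobeniusAt_eqOn (L₁ ⊔ L₂) g M.primeFactors
    have h1 := hLρ (g⁻¹ * F) fun x hx => by
      rw [AlgEquiv.mul_apply, hFg x hx, ← AlgEquiv.mul_apply, inv_mul_cancel, AlgEquiv.one_apply]
    have hρF : ρ F = ρ g := by
      rw [← mul_inv_cancel_left g F, map_mul, h1.1, mul_one]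
    refine ⟨p, hp, fun hd => hpS (Nat.mem_primeFactors.mpr ⟨hp, hd, NeZero.ne _⟩), A, F, hA, hF,
      hρF, ?_, ?_⟩
    · rw [← mul_inv_cancel_left g F, map_mul, h1.2, mul_one]
    · calc ρ F⁻¹ = ρ F⁻¹ * (ρ g * ρ g⁻¹) := by rw [← map_mul, mul_inv_cancel, map_one, mul_one]
        _ = ρ g⁻¹ := by rw [← hρF, ← mul_assoc, ← map_mul, inv_mul_cancel, map_one, one_mul]
  choose P hP hPM PA PF hPA hPF hPρ hPe hPi using hcheb
  have hrelg : ∀ g, ∃ T D : H, θ T = t (P g) ∧ θ D = e g ∧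
      (T : Module.End (ZMod ℓ) V) = ρ g + (D : Module.End (ZMod ℓ) V) * ρ g⁻¹ := by
    intro g
    obtain ⟨T, D, hT, hD, hTD⟩ := hrel _ (hP g) (hPM g) (PA g) (hPA g) (PF g) (hPF g)
    exact ⟨T, D, hT, hD.trans (hPe g), by rw [hTD, hPρ g, hPi g]⟩
  haveI : FiniteDimensional (ZMod ℓ) V := Module.Finite.of_finite
  obtain ⟨R, hss, hker, htd⟩ := exists_semisimple_rep hℓ2 ρ H hHc hH θ e complexConjugation
    complexConjugation_mul_self hc (fun g => t (P g)) hrelg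
  refine ⟨R, ⟨L₁ ⊔ L₂, inferInstance, fun σ hσ => hker σ (hLρ σ hσ).1 (hLρ σ hσ).2⟩, hss, hker,
    fun p hp hpM A hA σ hσ => ⟨?_, (htd σ).2⟩⟩
  haveI : Finite (Module.End (ZMod ℓ) V) :=
    Finite.of_injective _ (DFunLike.coe_injective (F := V →ₗ[ZMod ℓ] V))
  obtain ⟨T, D, hT, hD, hTD⟩ := hrel p hp hpM A hA σ hσ
  obtain ⟨T', D', hT', hD', hTD'⟩ := hrelg σ
  rw [(htd σ).1, ← hT', ← hT]
  exact eval_eq_of_relations θ (u := ρ σ) (ρ.toHomUnits σ⁻¹) (hH σ⁻¹) hTD hTD' (hD'.trans hD.symm)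

end Abstract

/-- `ε ∘ χ` factors through `ℚ(ζ_N)`. -/
theorem detChar_factors {N : ℕ} [NeZero N] {ℓ : ℕ} (ε : DirichletCharacter ℂ N) {R : Subring ℂ}
    (hεR : ∀ x : ZMod N, ε x ∈ R) (red : R →+* ZMod ℓ) :
    GaloisFactorsThroughFiniteLevel (detChar ε hεR red) := by
  obtain ⟨ζ, hζ⟩ := HasEnoughRootsOfUnity.exists_primitiveRoot (AlgebraicClosure ℚ) N
  refine ⟨IntermediateField.adjoin ℚ ({ζ} : Set (AlgebraicClosure ℚ)),
    IntermediateField.adjoin.finiteDimensional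
      (hζ.isIntegral (Nat.pos_of_ne_zero (NeZero.ne N))).tower_top, fun σ hσ => ?_⟩
  have h1 : (modCycloChar N σ : ZMod N) = 1 := by
    rw [modCycloChar_apply, modularCyclotomicCharacter_eq_natCast_of_apply _ hζ _ (m := 1)
      (by rw [pow_one]; exact hσ ζ (IntermediateField.mem_adjoin_simple_self ℚ ζ)), Nat.cast_one]
  show red ⟨_, _⟩ = 1
  rw [← map_one red]
  congr 1
  exact Subtype.ext (by simp [h1])

/-- The value of the determinant character at complex conjugation. -/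
theorem detChar_complexConjugation {N : ℕ} [NeZero N] {ℓ : ℕ} (ε : DirichletCharacter ℂ N)
    {R : Subring ℂ} (hεR : ∀ x : ZMod N, ε x ∈ R) (red : R →+* ZMod ℓ) (h : ε (-1) = -1) :
    detChar ε hεR red complexConjugation = -1 := by
  show red ⟨_, _⟩ = -1
  rw [← map_one red, ← map_neg]
  congr 1
  exact Subtype.ext (by
    show ε _ = -1
    rw [modCycloChar_complexConjugation, h])

private theorem exists_relation_of {R E : Type*} [CommRing R] [Ring E] [Algebra R E]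
    {S : Subalgebra R E} (θ : S →ₐ[R] R) (r : R) {t g g' d : E} (ht : t ∈ S) (hd : d ∈ S)
    (h : t = g + r • (g' * d)) (hc : g' * d = d * g') :
    ∃ T D : S, θ T = θ ⟨t, ht⟩ ∧ θ D = r * θ ⟨d, hd⟩ ∧ (T : E) = g + (D : E) * g' :=
  ⟨⟨t, ht⟩, r • ⟨d, hd⟩, rfl, (θ.toLinearMap.map_smul _ _).trans (smul_eq_mul _ _),
    h.trans (congrArg (g + ·) (by rw [hc, Subalgebra.coe_smul, smul_mul_assoc]))⟩

/-- The congruence relation inside the Hecke algebra. -/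
theorem exists_relation {M : ℕ} [NeZero M] {ℓ : ℕ} [Fact ℓ.Prime] (hM : 4 ∣ M ∨ 5 ∣ M)
    (hM5 : 5 ≤ M) (θ : heckeAlg1 M ℓ →ₐ[ZMod ℓ] ZMod ℓ) {p : ℕ} (hp : p.Prime)
    (h : Nat.Coprime p M) (hpℓ : p ≠ ℓ) {A : ValuationSubring (AlgebraicClosure ℚ)}
    (hA : A.LiesOverPrime p) {F : Γℚ} (hF : A.IsFrobeniusAt F p) :
    ∃ T D : heckeAlg1 M ℓ,
      θ T = θ ⟨parT M ℓ hp h, Algebra.subset_adjoin ⟨p, hp, h, Or.inl rfl⟩⟩ ∧
      θ D = (p : ZMod ℓ) * θ ⟨parDiamond M ℓ (diamondMat M p h),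
        Algebra.subset_adjoin ⟨p, hp, h, Or.inr rfl⟩⟩ ∧
      (T : Module.End (ZMod ℓ) (ParHom M ℓ)) = galParRep ℓ hM hM5 F +
        (D : Module.End (ZMod ℓ) (ParHom M ℓ)) * galParRep ℓ hM hM5 F⁻¹ := by
  exact exists_relation_of θ _ _ _ (parT_eq_frobenius hM hM5 hp h hpℓ hA hF)
    (galParRep_parDiamond hM hM5 F⁻¹ _)

/-- The residual character with values in `ℤ/ℓ`. -/
theorem exists_residual_zmodChar (N : ℕ) [NeZero N] (hN4 : 4 ≤ N) (ℓ : ℕ) [Fact ℓ.Prime]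
    [NeZero (N * ℓ)] (hℓ5 : 5 ≤ ℓ) (hℓN : ¬ ℓ ∣ N) (ε : DirichletCharacter ℂ N)
    (f : CuspForm (Gamma1 N) 1) (hf₁ : ModularFormClass.qCoeff f 1 = 1)
    (hT : ∀ p : ℕ, p.Prime → ¬ p ∣ N → ∀ n : ℕ,
        ModularFormClass.qCoeff f (p * n) +
            ε (p : ZMod N) * (if p ∣ n then ModularFormClass.qCoeff f (n / p) else 0) =
          ModularFormClass.qCoeff f p * ModularFormClass.qCoeff f n)
    (hε : ∀ γ ∈ Gamma0 N, (f : ℍ → ℂ) ∣[(1 : ℤ)] γ = (ε ((γ 1 1 : ℤ) : ZMod N)) • (f : ℍ → ℂ))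
    (R : Subring ℂ) (hR : ∀ x ∈ R, IsIntegral ℤ x)
    (hcoef : ∀ n : ℕ, ModularFormClass.qCoeff f n ∈ R) (hεR : ∀ x : ZMod N, ε x ∈ R)
    (red : R →+* ZMod ℓ) :
    ∃ θ₀ : heckeAlg1 (N * ℓ) ℓ →ₐ[ZMod ℓ] ZMod ℓ,
      ∀ (p : ℕ) (hp : p.Prime) (h : Nat.Coprime p (N * ℓ)),
        θ₀ ⟨parT (N * ℓ) ℓ hp h, Algebra.subset_adjoin ⟨p, hp, h, Or.inl rfl⟩⟩ =
          red ⟨_, hcoef p⟩ ∧
        (p : ZMod ℓ) * θ₀ ⟨parDiamond (N * ℓ) ℓ (diamondMat (N * ℓ) p h),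
          Algebra.subset_adjoin ⟨p, hp, h, Or.inr rfl⟩⟩ = red ⟨_, hεR (p : ZMod N)⟩ := by
  -- the eigen-character
  haveI : CharP (AlgebraicClosure (ZMod ℓ)) ℓ :=
    charP_of_injective_algebraMap (algebraMap (ZMod ℓ) (AlgebraicClosure (ZMod ℓ))).injective ℓ
  refine (exists_red_extend R hR red).elim fun red' hred' => ?_
  refine (exists_residual_character ℓ N hℓ5 hℓN hN4 ε f hf₁ hT hε 1
    (fun h => (Fact.out : ℓ.Prime).one_lt.not_ge (Nat.le_of_dvd one_pos h))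
    (fun n => ⟨0, by simpa using hR _ (hcoef n)⟩) red').elim fun θ hθ => ?_
  have hθT : ∀ {p : ℕ} (hp : p.Prime) (h : Nat.Coprime p (N * ℓ)),
      θ ⟨parT (N * ℓ) ℓ hp h, Algebra.subset_adjoin ⟨p, hp, h, Or.inl rfl⟩⟩ =
        algebraMap (ZMod ℓ) _ (red ⟨_, hcoef p⟩) := fun {p} hp h => by
    have h1 := (hθ p hp h).1 0 ⟨_, hR _ (hcoef p)⟩ (by simp)
    rw [pow_zero, one_mul] at h1
    rw [h1]
    exact hred' ⟨_, hcoef p⟩
  have hθD : ∀ {p : ℕ} (hp : p.Prime) (h : Nat.Coprime p (N * ℓ)),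
      (p : AlgebraicClosure (ZMod ℓ)) * θ ⟨parDiamond (N * ℓ) ℓ (diamondMat (N * ℓ) p h),
        Algebra.subset_adjoin ⟨p, hp, h, Or.inr rfl⟩⟩ =
        algebraMap (ZMod ℓ) _ (red ⟨_, hεR (p : ZMod N)⟩) := fun {p} hp h => by
    rw [(hθ p hp h).2 ⟨_, hR _ (hεR (p : ZMod N))⟩ rfl]
    exact hred' ⟨_, hεR (p : ZMod N)⟩
  have hpℓ : ∀ {p : ℕ}, p.Prime → Nat.Coprime p (N * ℓ) → p ≠ ℓ := fun hp h e =>
    (Nat.Prime.coprime_iff_not_dvd hp).mp h (e ▸ dvd_mul_left _ N)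
  -- it takes values in `ℤ/ℓ`
  have hgen : ∀ x (hx : x ∈ {T | ∃ (p : ℕ) (hp : p.Prime) (h : Nat.Coprime p (N * ℓ)),
      T = parT (N * ℓ) ℓ hp h ∨ T = parDiamond (N * ℓ) ℓ (diamondMat (N * ℓ) p h)}),
      θ ⟨x, Algebra.subset_adjoin hx⟩ ∈
        (algebraMap (ZMod ℓ) (AlgebraicClosure (ZMod ℓ))).range := by
    rintro _ ⟨p, hp, h, rfl | rfl⟩
    · exact ⟨_, (hθT hp h).symm⟩
    · have hp0 : (p : ZMod ℓ) ≠ 0 := fun h0 =>
        hpℓ hp h ((Nat.prime_dvd_prime_iff_eq Fact.out hp).mp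
          ((ZMod.natCast_eq_zero_iff p ℓ).mp h0)).symm
      exact mem_range_of_natCast_mul hp0 (hθD hp h)
  refine (exists_algHom_zmod θ hgen).elim fun θ₀ hθ₀ => ?_
  have hinj := (algebraMap (ZMod ℓ) (AlgebraicClosure (ZMod ℓ))).injective
  refine ⟨θ₀, fun p hp h => ⟨hinj ((hθ₀ _).trans (hθT hp h)), hinj ?_⟩⟩
  exact (RingHom.map_mul _ _ _).trans ((congrArg₂ (· * ·) (map_natCast _ p) (hθ₀ _)).trans (hθD hp h))

/-- **Residual representations.** -/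
theorem exists_residualRep (N : ℕ) [NeZero N] (hN : 4 ∣ N ∨ 5 ∣ N) (ℓ : ℕ) [Fact ℓ.Prime]
    (hℓ5 : 5 ≤ ℓ) (hℓN : ¬ ℓ ∣ N) (ε : DirichletCharacter ℂ N) (f : CuspForm (Gamma1 N) 1)
    (hf₁ : ModularFormClass.qCoeff f 1 = 1)
    (hT : ∀ p : ℕ, p.Prime → ¬ p ∣ N → ∀ n : ℕ,
        ModularFormClass.qCoeff f (p * n) +
            ε (p : ZMod N) * (if p ∣ n then ModularFormClass.qCoeff f (n / p) else 0) =
          ModularFormClass.qCoeff f p * ModularFormClass.qCoeff f n)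
    (hε : ∀ γ ∈ Gamma0 N, (f : ℍ → ℂ) ∣[(1 : ℤ)] γ = (ε ((γ 1 1 : ℤ) : ZMod N)) • (f : ℍ → ℂ))
    (R : Subring ℂ) (hR : ∀ x ∈ R, IsIntegral ℤ x)
    (hcoef : ∀ n : ℕ, ModularFormClass.qCoeff f n ∈ R) (hεR : ∀ x : ZMod N, ε x ∈ R)
    (red : R →+* ZMod ℓ) :
    ∃ ρ : Γℚ →* GL (Fin 2) (ZMod ℓ), GaloisFactorsThroughFiniteLevel ρ ∧
      IsSemisimpleSubgroup ρ.range ∧
      ∀ p : ℕ, p.Prime → ¬ p ∣ N * ℓ →
        ∀ A : ValuationSubring (AlgebraicClosure ℚ), A.LiesOverPrime p →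
          (∀ σ ∈ A.inertiaSubgroupIn ℚ, ρ σ = 1) ∧
          ∀ σ : Γℚ, A.IsFrobeniusAt σ p →
            ((ρ σ : GL (Fin 2) (ZMod ℓ)) : Matrix (Fin 2) (Fin 2) (ZMod ℓ)).trace =
                red ⟨_, hcoef p⟩ ∧
            ((ρ σ : GL (Fin 2) (ZMod ℓ)) : Matrix (Fin 2) (Fin 2) (ZMod ℓ)).det =
                red ⟨_, hεR (p : ZMod N)⟩ := by
  haveI : NeZero (N * ℓ) := ⟨mul_ne_zero (NeZero.ne N) (Fact.out : ℓ.Prime).ne_zero⟩
  have hN4 : 4 ≤ N := by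
    rcases hN with h | h
    · exact Nat.le_of_dvd (Nat.pos_of_ne_zero (NeZero.ne N)) h
    · exact le_trans (by norm_num) (Nat.le_of_dvd (Nat.pos_of_ne_zero (NeZero.ne N)) h)
  have hM : 4 ∣ N * ℓ ∨ 5 ∣ N * ℓ := hN.imp (dvd_mul_of_dvd_left · ℓ) (dvd_mul_of_dvd_left · ℓ)
  have hM5 : 5 ≤ N * ℓ := le_trans hℓ5 (Nat.le_mul_of_pos_left _ (Nat.pos_of_ne_zero (NeZero.ne N)))
  have hpℓ : ∀ {p : ℕ}, ¬ p ∣ N * ℓ → p ≠ ℓ := fun h e => h (e ▸ dvd_mul_left _ N)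
  have hpN : ∀ {p : ℕ}, ¬ p ∣ N * ℓ → ¬ p ∣ N := fun h hd => h (hd.mul_right ℓ)
  obtain ⟨θ₀, hθ₀⟩ := exists_residual_zmodChar N hN4 ℓ hℓ5 hℓN ε f hf₁ hT hε R hR hcoef hεR red
  haveI := finite_parHom (M := N * ℓ) (ℓ := ℓ)
  have hdet : ∀ {p : ℕ}, p.Prime → ¬ p ∣ N * ℓ → ∀ {A : ValuationSubring (AlgebraicClosure ℚ)},
      A.LiesOverPrime p → ∀ {σ : Γℚ}, A.IsFrobeniusAt σ p →
        detChar ε hεR red σ = red ⟨_, hεR (p : ZMod N)⟩ := fun {p} hp hpM {A} hA {σ} hσ => by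
    show red ⟨_, _⟩ = red ⟨_, _⟩
    congr 1
    exact Subtype.ext (congrArg ε (modCycloChar_frobenius hp (hpN hpM) hA hσ))
  obtain ⟨Rρ, hfac, hss, hker, htd⟩ := exists_rep_of_frobenius (by omega)
    (galParRep ℓ (M := N * ℓ) hM hM5) (heckeAlg1 (N * ℓ) ℓ)
    (heckeAlg1_comm hM hM5 (dvd_mul_left ℓ N)) (galParRep_commute_heckeAlg1 hM hM5) θ₀
    (detChar ε hεR red) (detChar_complexConjugation ε hεR red (nebentypus_neg_one ε f hf₁ hε))
    (galParRep_factors hM hM5) (detChar_factors ε hεR red) (N * ℓ) (fun p => red ⟨_, hcoef p⟩)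
    fun p hp hpM A hA F hF => by
      obtain ⟨T, D, hT, hD, hTD⟩ := exists_relation hM hM5 θ₀ hp
        ((Nat.Prime.coprime_iff_not_dvd hp).mpr hpM) (hpℓ hpM) hA hF
      exact ⟨T, D, hT.trans (hθ₀ p hp _).1,
        (hD.trans (hθ₀ p hp _).2).trans (hdet hp hpM hA hF).symm, hTD⟩
  refine ⟨Rρ, hfac, hss, fun p hp hpM A hA => ⟨fun σ hσ => hker σ
    (galParRep_inertia hM hM5 hp hpM (hpℓ hpM) hA hσ) ?_, fun σ hσ => ?_⟩⟩
  · show red ⟨_, _⟩ = 1
    rw [← map_one red]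
    congr 1
    exact Subtype.ext (by simp [modCycloChar_inertia hp (hpN hpM) hA hσ])
  · obtain ⟨h1, h2⟩ := htd p hp hpM A hA σ hσ
    exact ⟨h1, h2.trans (hdet hp hpM hA hσ)⟩

end FermatLib.Galois.DS

end
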