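import Mathlib.NumberTheory.DirichletCharacter.Basic
import Fermat.Agent.Galois.DS.AssemblyArtin
import Fermat.Agent.Galois.DS.AssemblyConjugate
import Fermat.Agent.Galois.DS.AssemblyIntegral
import Fermat.Agent.Galois.DS.ResidualRep

/-!
# The Deligne–Serre theorem

Twist to the levels `(4N)²` and `(5N)²`, attach an Artin representation at each, and compare them.
-/

set_option autoImplicit false
set_option linter.unusedSectionVars false
set_option linter.style.haveILetI false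

noncomputable section

open UpperHalfPlane CongruenceSubgroup ModularFormClass
open scoped MatrixGroups ModularForm

namespace FermatLib.Galois.DS

local notation "Qbar" => AlgebraicClosure ℚ
local notation "Γℚ" => (AlgebraicClosure ℚ ≃ₐ[ℚ] AlgebraicClosure ℚ)
local notation "M2C" => Matrix (Fin 2) (Fin 2) ℂ

/-- The representation has the prescribed properties away from `L`. -/
def IsAttachedOne {N : ℕ} (ε : DirichletCharacter ℂ N) (a : ℕ → ℂ) (L : ℕ)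
    (ρ : Γℚ →* GL (Fin 2) ℂ) : Prop :=
  ∀ p : ℕ, p.Prime → ¬ p ∣ L → ∀ A : ValuationSubring Qbar, A.LiesOverPrime p →
    (∀ σ ∈ A.inertiaSubgroupIn ℚ, ρ σ = 1) ∧
    ∀ σ : Γℚ, A.IsFrobeniusAt σ p →
      ((ρ σ : GL (Fin 2) ℂ) : M2C).trace = a p ∧
      ((ρ σ : GL (Fin 2) ℂ) : M2C).det = ε (p : ZMod N)

variable {N : ℕ} [NeZero N] (ε : DirichletCharacter ℂ N) (f : CuspForm (Gamma1 N) 1)
  (hf₁ : qCoeff f 1 = 1)
  (hT : ∀ p : ℕ, p.Prime → ¬ p ∣ N → ∀ n : ℕ,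
      qCoeff f (p * n) + ε (p : ZMod N) * (if p ∣ n then qCoeff f (n / p) else 0) =
        qCoeff f p * qCoeff f n)
include hf₁ hT

/-- The representation attached at level `(c N)²`, `c = 4, 5`. -/
theorem exists_attachedOne (c : ℕ) (hc : c = 4 ∨ c = 5) :
    ∃ ρ : Γℚ →* GL (Fin 2) ℂ, GaloisFactorsThroughFiniteLevel ρ ∧
      (Deformation.matrixRepresentation ρ).IsIrreducible ∧
      IsAttachedOne ε (fun p => qCoeff f p) (c * N) ρ := by
  classical
  set L := c * N with hL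
  have hN0 : 1 ≤ N := Nat.pos_of_ne_zero (NeZero.ne N)
  have hL4 : 4 ≤ L := by rcases hc with rfl | rfl <;> omega
  haveI : NeZero L := ⟨by omega⟩
  have hNL : N ∣ L := dvd_mul_left N c
  have hNM : N ∣ L ^ 2 := hNL.trans (dvd_pow_self L two_ne_zero)
  have hLM : L ∣ L ^ 2 := dvd_pow_self L two_ne_zero
  have hM5 : 5 ≤ L ^ 2 := by nlinarith
  have hM : 4 ∣ L ^ 2 ∨ 5 ∣ L ^ 2 :=
    hc.imp (fun h => (show 4 ∣ L from ⟨N, by rw [hL, h]⟩).trans hLM)
      (fun h => (show 5 ∣ L from ⟨N, by rw [hL, h]⟩).trans hLM)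
  have hε := slash_gamma0_eq ε f hT
  -- the twist
  have hFmem : primTwist L (f : ℍ → ℂ) ∈ cuspOneSpace (L ^ 2) :=
    primTwist_mem hNL ε (cuspForm_mem_cuspOneSpace f) hε
  set F : CuspForm (Gamma1 (L ^ 2)) 1 := toCuspOne hFmem with hFdef
  have hFq : ∀ n : ℕ, qCoeff F n = if Nat.Coprime n L then qCoeff f n else 0 := fun n => by
    rw [hFdef, coe_toCuspOne, qCoeff_primTwist hNL ε (cuspForm_mem_cuspOneSpace f) hε]
  set ε' : DirichletCharacter ℂ (L ^ 2) := DirichletCharacter.changeLevel hNM ε with hε'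
  have hε'val : ∀ {x : ℤ}, IsUnit ((x : ℤ) : ZMod (L ^ 2)) →
      ε' ((x : ℤ) : ZMod (L ^ 2)) = ε ((x : ℤ) : ZMod N) := fun {x} hx => by
    rw [hε', ← hx.unit_spec, DirichletCharacter.changeLevel_eq_cast_of_dvd]
    rw [hx.unit_spec, ← ZMod.castHom_apply (h := hNM) (R := ZMod N), map_intCast]
  have hcopL : ∀ {p : ℕ}, p.Prime → ¬ p ∣ L ^ 2 → Nat.Coprime p L := fun hp h =>
    (Nat.Prime.coprime_iff_not_dvd hp).mpr fun hd => h (hd.trans hLM)
  have hε'p : ∀ {p : ℕ}, p.Prime → ¬ p ∣ L ^ 2 → ε' (p : ZMod (L ^ 2)) = ε (p : ZMod N) :=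
    fun {p} hp h => by
      have hu : IsUnit (((p : ℤ)) : ZMod (L ^ 2)) := by
        rw [Int.cast_natCast, ZMod.isUnit_iff_coprime]
        exact (Nat.Prime.coprime_iff_not_dvd hp).mpr h
      simpa using hε'val hu
  -- coefficient ring
  set R := Subring.closure (coeffGens ε f N) with hR
  haveI : Module.Finite ℤ R := finite_coeffRing ε f hf₁ hT
  have hFR : ∀ n : ℕ, qCoeff F n ∈ R := fun n => by
    rw [hFq]
    split_ifs with h
    · refine qCoeff_mem_coeffRing ε f hf₁ hT hNL h fun h0 => ?_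
      rw [h0, Nat.coprime_zero_left] at h
      omega
    · exact zero_mem _
  have hεR : ∀ x : ZMod (L ^ 2), ε' x ∈ R := fun x => by
    by_cases hx : IsUnit x
    · obtain ⟨u, rfl⟩ := hx
      rw [hε', DirichletCharacter.changeLevel_eq_cast_of_dvd]
      exact Subring.subset_closure (Or.inl ⟨_, rfl⟩)
    · rw [MulChar.map_nonunit ε' hx]
      exact zero_mem _
  have hF1 : qCoeff F 1 = 1 := by rw [hFq, if_pos (Nat.coprime_one_left L), hf₁]
  have hFT : ∀ p : ℕ, p.Prime → ¬ p ∣ L ^ 2 → ∀ n : ℕ,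
      qCoeff F (p * n) + ε' (p : ZMod (L ^ 2)) * (if p ∣ n then qCoeff F (n / p) else 0) =
        qCoeff F p * qCoeff F n := by
    intro p hp hpM n
    have hpL := hcopL hp hpM
    have hpN : ¬ p ∣ N := fun h => hpM (h.trans hNM)
    rw [hFq, hFq p, hFq n, if_pos hpL, hε'p hp hpM]
    by_cases hn : Nat.Coprime n L
    · rw [if_pos (Nat.Coprime.mul_left hpL hn), if_pos hn, ← hT p hp hpN n]
      split_ifs with hd
      · rw [hFq, if_pos (Nat.Coprime.coprime_dvd_left (Nat.div_dvd_of_dvd hd) hn)]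
      · rfl
    · rw [if_neg fun h => hn (Nat.Coprime.coprime_mul_left h), if_neg hn]
      split_ifs with hd
      · rw [hFq, if_neg fun h => hn ?_]
        · simp
        · obtain ⟨m, rfl⟩ := hd
          rw [Nat.mul_div_cancel_left m hp.pos] at h
          exact Nat.Coprime.mul_left hpL h
      · simp
  have hFε : ∀ γ ∈ Gamma0 (L ^ 2), (F : ℍ → ℂ) ∣[(1 : ℤ)] γ =
      (ε' ((γ 1 1 : ℤ) : ZMod (L ^ 2))) • (F : ℍ → ℂ) := fun γ hγ => by
    have hu : IsUnit ((γ 1 1 : ℤ) : ZMod (L ^ 2)) :=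
      (Group.isUnit (⟨γ, hγ⟩ : Gamma0 (L ^ 2))).map (Gamma0Map (L ^ 2))
    rw [hFdef, coe_toCuspOne, hε'val hu]
    exact primTwist_slash hNL ε hε hγ
  set a : ℕ → R := fun p => ⟨qCoeff F p, hFR p⟩
  set e : ℕ → R := fun p => ⟨ε' (p : ZMod (L ^ 2)), hεR _⟩
  have hres : ∃ B : ℕ, ∀ ℓ : ℕ, ∀ [Fact ℓ.Prime], B < ℓ → ∀ red : R →+* ZMod ℓ,
      HasResidualRep (L ^ 2) ℓ a e red := by
    refine ⟨L ^ 2, fun ℓ _ hℓ red => ?_⟩
    exact exists_residualRep (L ^ 2) hM ℓ (by omega)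
      (fun hd => absurd (Nat.le_of_dvd (by positivity) hd) (not_le.mpr hℓ)) ε' F hF1 hFT hFε R
      (fun x hx => isIntegral_subring (⟨x, hx⟩ : R)) hFR hεR red
  obtain ⟨ρ, hρ, hirr, hprop⟩ := exists_artinRep (L ^ 2) (pow_ne_zero 2 (NeZero.ne L)) R a e
    (Finset.univ.image fun x : ZMod (L ^ 2) => (⟨ε' x, hεR x⟩ : R))
    (fun p _ _ => Finset.mem_image.mpr ⟨_, Finset.mem_univ _, rfl⟩)
    (fun σ T hTT => primeSumBound_of_coeff (L ^ 2) hM hM5 F R hF1 hFR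
      (fun p hp hpM n hn => by
        have h := hFT p hp hpM n
        rwa [if_neg hn, mul_zero, add_zero] at h) σ T hTT) hres
  refine ⟨ρ, hρ, hirr, fun p hp hpL A hA => ?_⟩
  have hpM : ¬ p ∣ L ^ 2 := fun h => hpL (hp.dvd_of_dvd_pow h)
  obtain ⟨hI, hF'⟩ := hprop p hp hpM A hA
  refine ⟨hI, fun σ hσ => ?_⟩
  obtain ⟨h1, h2⟩ := hF' σ hσ
  refine ⟨h1.trans ?_, h2.trans (hε'p hp hpM)⟩
  show qCoeff F p = qCoeff f p
  rw [hFq, if_pos (hcopL hp hpM)]

/-- **Deligne–Serre.** -/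
theorem exists_galoisRep_weightOne :
    ∃ ρ : Γℚ →* GL (Fin 2) ℂ, GaloisFactorsThroughFiniteLevel ρ ∧
      (Deformation.matrixRepresentation ρ).IsIrreducible ∧
      IsAttachedOne ε (fun p => qCoeff f p) N ρ := by
  obtain ⟨ρ, hρ, hirr, h4⟩ := exists_attachedOne ε f hf₁ hT 4 (Or.inl rfl)
  obtain ⟨ρ', hρ', -, h5⟩ := exists_attachedOne ε f hf₁ hT 5 (Or.inr rfl)
  have heq : ∀ γ : Γℚ, ((ρ γ : GL (Fin 2) ℂ) : M2C).trace = ((ρ' γ : GL (Fin 2) ℂ) : M2C).trace ∧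
      ((ρ γ : GL (Fin 2) ℂ) : M2C).det = ((ρ' γ : GL (Fin 2) ℂ) : M2C).det := by
    intro γ
    obtain ⟨q, hq, hqS, A, hA, σ, hσ, hσγ⟩ :=
      exists_frobenius_eq (factors_prod hρ hρ') γ (20 * N).primeFactors
    have hq20 : ¬ q ∣ 20 * N := fun h => hqS (Nat.mem_primeFactors.mpr
      ⟨hq, h, mul_ne_zero (by norm_num) (NeZero.ne N)⟩)
    obtain ⟨h1, h2⟩ := (h4 q hq (fun h => hq20 (h.trans
      (Nat.mul_dvd_mul_right (by norm_num) N))) A hA).2 σ hσ
    obtain ⟨k1, k2⟩ := (h5 q hq (fun h => hq20 (h.trans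
      (Nat.mul_dvd_mul_right (by norm_num) N))) A hA).2 σ hσ
    rw [show ρ γ = ρ σ from (congrArg Prod.fst hσγ).symm,
      show ρ' γ = ρ' σ from (congrArg Prod.snd hσγ).symm, h1, h2, k1, k2]
    exact ⟨rfl, rfl⟩
  refine ⟨ρ, hρ, hirr, fun p hp hpN A hA => ?_⟩
  by_cases hp4 : p ∣ 4
  · have hp2 : p = 2 := (Nat.prime_dvd_prime_iff_eq hp Nat.prime_two).mp
      (hp.dvd_of_dvd_pow (n := 2) (by norm_num; exact hp4))
    have hp5 : ¬ p ∣ 5 * N := by
      subst hp2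
      rw [Nat.prime_two.dvd_mul, not_or]
      exact ⟨by norm_num, hpN⟩
    obtain ⟨hI, hF⟩ := h5 p hp hp5 A hA
    refine ⟨fun σ hσ => ?_, fun σ hσ => ?_⟩
    · haveI := finite_range_of_factors hρ
      obtain ⟨m, hm, hpow⟩ := (isOfFinOrder_of_finite
        (⟨ρ σ, σ, rfl⟩ : ρ.range)).exists_pow_eq_one
      have hpow' : ((ρ σ : GL (Fin 2) ℂ) : M2C) ^ m = 1 := by
        rw [← Units.val_pow_eq_pow_val, show ρ σ ^ m = 1 from congrArg Subtype.val hpow,
          Units.val_one]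
      refine Units.ext (eq_one_of_trace_det hm hpow' ?_ ?_)
      · rw [(heq σ).1, hI σ hσ]; simp
      · rw [(heq σ).2, hI σ hσ]; simp
    · rw [(heq σ).1, (heq σ).2]
      exact hF σ hσ
  · exact h4 p hp (fun h => (hp.dvd_mul.mp h).elim hp4 hpN) A hA

end FermatLib.Galois.DS

end
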