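import Fermat.Agent.Galois.DS.UnitQuot

/-!
# The rigid bases `Γ₁(4)`, `Γ₁(5)`: combinatorics of their modular units
-/

set_option autoImplicit false

noncomputable section

open CongruenceSubgroup
open scoped MatrixGroups

namespace FermatLib.Galois.DS

open FermatLib.Igusa

/-- The shift `(a₁, a₂) ↦ (a₁, j a₁ + a₂)`. -/
def pairShift (j : ℤ) (p : IdxPair) : IdxPair :=
  ((p.1.1, j * p.1.1 + p.1.2), (p.2.1, j * p.2.1 + p.2.2))

/-- Unimodular first columns. -/
def IsPrimCol {m : ℕ} (x y : ZMod m) : Prop := ∃ z w : ZMod m, x * w - z * y = 1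

/-- The column of the cusp `∞`. -/
def IsInfCol {m : ℕ} (x y : ZMod m) : Prop := y = 0 ∧ (x = 1 ∨ x = -1)

/-- The order of `torsionDiff` at a cusp with first column `(x, y)`. -/
def colOrd {m : ℕ} (p : IdxPair) (x y : ZMod m) : ℤ :=
  (min ((p.1.1 : ZMod m) * x + (p.1.2 : ZMod m) * y).valMinAbs.natAbs
    ((p.2.1 : ZMod m) * x + (p.2.2 : ZMod m) * y).valMinAbs.natAbs : ℕ)

/-- The order of a quotient of products. -/
def quotColOrd {m : ℕ} (q : List IdxPair × List IdxPair) (x y : ZMod m) : ℤ :=
  (q.1.map fun p => colOrd p x y).sum - (q.2.map fun p => colOrd p x y).sum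

/-- The weight two form without zeros on `ℍ`. -/
def eIdx : IdxPair := ((0, 1), (0, 2))

/-- Units of `Γ₁(m)` each with a single pole, at `∞`, and enough zeros at the other cusps. -/
structure BaseData (m : ℕ) where
  /-- number of units -/
  r : ℕ
  /-- the units -/
  units : Fin r → List IdxPair × List IdxPair
  /-- the unit used as coordinate -/
  main : Fin r
  length_eq : ∀ i, (units i).1.length = (units i).2.length
  isUnitPair : ∀ i, ∀ p ∈ (units i).1 ++ (units i).2, IsUnitPair m p.1 p.2
  invariant : ∀ i, ∀ j : ZMod m,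
    pclasses m ((units i).1.map (pairShift j.val)) = pclasses m (units i).1 ∧
    pclasses m ((units i).2.map (pairShift j.val)) = pclasses m (units i).2
  ord_inf : ∀ i, ∀ x y : ZMod m, IsInfCol x y → quotColOrd (units i) x y = -(m : ℤ)
  ord_nonneg : ∀ i, ∀ x y : ZMod m, IsPrimCol x y → ¬ IsInfCol x y → 0 ≤ quotColOrd (units i) x y
  exists_ord_pos : ∀ x y : ZMod m, IsPrimCol x y → ¬ IsInfCol x y →
    ∃ i, 0 < quotColOrd (units i) x y
  e_isUnitPair : IsUnitPair m eIdx.1 eIdx.2
  e_ord_inf : ∀ x y : ZMod m, IsInfCol x y → colOrd eIdx x y = 0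
  deriv_bound : ∀ x y : ZMod m, IsPrimCol x y → ¬ IsInfCol x y →
    ∃ i, colOrd eIdx x y + quotColOrd (units main) x y ≤ quotColOrd (units i) x y

theorem isUnitPair_iff_vclass (n : ℕ) (a b : ℤ × ℤ) :
    IsUnitPair n a b ↔
      vclass n a ≠ vclass n (0, 0) ∧ vclass n b ≠ vclass n (0, 0) ∧ vclass n a ≠ vclass n b := by
  simp only [IsUnitPair, ne_eq, vclass_eq_iff]

instance (n : ℕ) (a b : ℤ × ℤ) : Decidable (IsUnitPair n a b) :=
  decidable_of_iff _ (isUnitPair_iff_vclass n a b).symm

instance {m : ℕ} [NeZero m] (x y : ZMod m) : Decidable (IsPrimCol x y) := by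
  unfold IsPrimCol; infer_instance

instance {m : ℕ} (x y : ZMod m) : Decidable (IsInfCol x y) := by
  unfold IsInfCol; infer_instance

/-- The orbit `((a₁, a₂ + k a₁), (b₁, b₂ + k b₁))`. -/
def orbitList (m : ℕ) (p : IdxPair) : List IdxPair :=
  (List.range m).map fun k : ℕ => pairShift k p

/-- The data for `Γ₁(4)`. -/
def baseDataFour : BaseData 4 where
  r := 2
  units := ![(List.replicate 4 eIdx, orbitList 4 ((1, 0), (2, 1))),
    (orbitList 4 ((1, 0), (1, 1)) ++ List.replicate 4 eIdx,
      orbitList 4 ((1, 0), (2, 1)) ++ orbitList 4 ((1, 0), (2, 1)))]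
  main := 1
  length_eq := by decide +kernel
  isUnitPair := by decide +kernel
  invariant := by decide +kernel
  ord_inf := by decide +kernel
  ord_nonneg := by decide +kernel
  exists_ord_pos := by decide +kernel
  e_isUnitPair := by decide +kernel
  e_ord_inf := by decide +kernel
  deriv_bound := by decide +kernel

/-- The data for `Γ₁(5)`. -/
def baseDataFive : BaseData 5 where
  r := 3
  units := ![
    (orbitList 5 ((1, 0), (1, 1)) ++ orbitList 5 ((1, 0), (1, 1)) ++
        orbitList 5 ((1, 0), (0, 1)),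
      orbitList 5 ((1, 0), (2, 0)) ++ orbitList 5 ((1, 0), (2, 0)) ++
        orbitList 5 ((1, 0), (2, 0))),
    (List.replicate 5 eIdx ++ orbitList 5 ((1, 0), (1, 1)),
      orbitList 5 ((1, 0), (2, 0)) ++ orbitList 5 ((1, 0), (2, 0))),
    (orbitList 5 ((1, 0), (1, 1)) ++ orbitList 5 ((1, 0), (0, 1)),
      orbitList 5 ((1, 0), (2, 0)) ++ orbitList 5 ((1, 0), (2, 0)))]
  main := 0
  length_eq := by decide +kernel
  isUnitPair := by decide +kernel
  invariant := by decide +kernel
  ord_inf := by decide +kernel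
  ord_nonneg := by decide +kernel
  exists_ord_pos := by decide +kernel
  e_isUnitPair := by decide +kernel
  e_ord_inf := by decide +kernel
  deriv_bound := by decide +kernel

end FermatLib.Galois.DS
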