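import Fermat.Agent.Galois.DS.Cover
import Mathlib.Analysis.Complex.UpperHalfPlane.Manifold

/-!
# The coordinate of the base level has nowhere vanishing derivative
-/

set_option autoImplicit false
set_option linter.unusedSectionVars false

noncomputable section

open Complex UpperHalfPlane Function ModularCurve CongruenceSubgroup Filter
open scoped MatrixGroups Manifold Topology

namespace FermatLib.Galois.DS

open FermatLib.Igusa

/-- The derivative of a function on `ℍ`. -/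
def fder (f : ℍ → ℂ) (τ : ℍ) : ℂ := deriv (f ∘ ofComplex) (τ : ℂ)

theorem differentiableAt_comp_ofComplex {f : ℍ → ℂ} (hf : MDiff f) (τ : ℍ) :
    DifferentiableAt ℂ (f ∘ ofComplex) (τ : ℂ) :=
  (UpperHalfPlane.mdifferentiable_iff.mp hf).differentiableAt
    (isOpen_upperHalfPlaneSet.mem_nhds τ.im_pos)

theorem mdifferentiable_fder {f : ℍ → ℂ} (hf : MDiff f) : MDiff (fder f) := by
  rw [UpperHalfPlane.mdifferentiable_iff]
  refine ((UpperHalfPlane.mdifferentiable_iff.mp hf).deriv isOpen_upperHalfPlaneSet).congr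
    fun z hz => ?_
  simp [fder, ofComplex_apply_of_im_pos hz]

theorem fder_comp_smul {f : ℍ → ℂ} (hf : MDiff f) (γ : SL(2, ℤ)) (τ : ℍ) :
    fder (fun σ => f (γ • σ)) τ = fder f (γ • τ) / denom γ τ ^ 2 := by
  let g : GL (Fin 2) ℝ := (γ : GL (Fin 2) ℝ)
  have hdet1 : g.val.det = 1 := ((Matrix.SpecialLinearGroup.map (Int.castRingHom ℝ)) γ).2
  have hdet : 0 < g.val.det := hdet1 ▸ zero_lt_one
  have h1 := (hasStrictDerivAt_smul hdet τ).hasDerivAt
  have h2 := (differentiableAt_comp_ofComplex hf (γ • τ)).hasDerivAt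
  have he : ((fun σ => f (γ • σ)) ∘ ofComplex) =
      (f ∘ ofComplex) ∘ fun z => ((g • ofComplex z : ℍ) : ℂ) := by
    funext z
    simp only [comp_apply, ofComplex_apply]
    rfl
  rw [fder, fder, he]
  have h3 := HasDerivAt.comp (τ : ℂ) (h₂ := f ∘ ofComplex) (h := fun z => ((g • ofComplex z : ℍ) : ℂ))
    (by rw [ofComplex_apply]; exact h2) h1
  rw [h3.deriv]
  rw [hdet1, Complex.ofReal_one, mul_one_div]
  try rfl

theorem fder_periodic {n : ℕ} {f : ℍ → ℂ}
    (hper : ∀ τ τ' : ℍ, (τ' : ℂ) = τ + n → f τ' = f τ) {τ τ' : ℍ} (h : (τ' : ℂ) = τ + n) :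
    fder f τ' = fder f τ := by
  have he : (fun z => (f ∘ ofComplex) (z + n)) =ᶠ[𝓝 (τ : ℂ)] (f ∘ ofComplex) := by
    filter_upwards [isOpen_upperHalfPlaneSet.mem_nhds τ.im_pos] with z hz
    have hz' : 0 < (z + n).im := by simpa using hz
    simp only [comp_apply, ofComplex_apply_of_im_pos hz, ofComplex_apply_of_im_pos hz']
    exact hper ⟨z, hz⟩ ⟨z + n, hz'⟩ rfl
  rw [fder, fder, h, ← deriv_comp_add_const, he.deriv_eq]

/-- Differentiation does not lower the order at `i ∞`. -/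
theorem exists_hasExp_fder {n : ℕ} [NeZero n] {f : ℍ → ℂ} {F : LaurentSeries ℂ} {a : ℤ}
    (hf : HasExp n f F) (ha : ∀ k < a, F.coeff k = 0) :
    ∃ G : LaurentSeries ℂ, HasExp n (fder f) G ∧ ∀ k < a, G.coeff k = 0 := by
  have hexp := eq_single_mul_mk F (m := a) ha
  set p : PowerSeries ℂ := PowerSeries.mk fun i : ℕ => F.coeff (i + a)
  have hf' := hexp ▸ hf
  have hball := hasFPowerSeriesOnBall_discFun hf'
  set c : ℂ := 2 * Real.pi * Complex.I / n
  have hn : (n : ℂ) ≠ 0 := by exact_mod_cast NeZero.ne n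
  have hkey : ∀ τ : ℍ, fder f τ =
      c * (deriv (discFun p) (uParam n τ) * uParam n τ + a * discFun p (uParam n τ)) *
        uParam n τ ^ a := by
    intro τ
    have hu : HasDerivAt (fun z : ℂ => Periodic.qParam (n : ℝ) z) (c * uParam n τ) (τ : ℂ) := by
      have h := (((hasDerivAt_id (τ : ℂ)).const_mul (2 * Real.pi * Complex.I)).div_const
        ((n : ℝ) : ℂ)).cexp
      simp only [mul_one, id] at h
      unfold Periodic.qParam
      convert! h using 1
      simp only [c, uParam, Periodic.qParam]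
      push_cast
      ring
    have hne : uParam n τ ≠ 0 := uParam_ne_zero n τ
    have hp : HasDerivAt (discFun p) (deriv (discFun p) (uParam n τ)) (uParam n τ) :=
      (hball.analyticAt_of_mem
        (by simpa [← ofReal_norm] using norm_uParam_lt_one τ)).differentiableAt.hasDerivAt
    have hprod := ((hp.mul (hasDerivAt_zpow a (uParam n τ) (Or.inl hne)))).comp (τ : ℂ)
      (h := fun z : ℂ => Periodic.qParam (n : ℝ) z) hu
    have he : (f ∘ ofComplex) =ᶠ[𝓝 (τ : ℂ)]
        ((discFun p * fun q => q ^ a) ∘ fun z : ℂ => Periodic.qParam (n : ℝ) z) := by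
      filter_upwards [isOpen_upperHalfPlaneSet.mem_nhds τ.im_pos] with z hz
      simp only [comp_apply, ofComplex_apply_of_im_pos hz, Pi.mul_apply]
      exact eq_discFun_mul hf' ⟨z, hz⟩
    rw [fder, he.deriv_eq, hprod.deriv, zpow_sub_one₀ hne]
    field_simp
  refine exists_hasExp_of_isBoundedAtImInfty (mdifferentiable_fder hf.mdifferentiable)
    (fun τ τ' h => fder_periodic (fun σ σ' hσ => hf.periodic hσ) h) a ?_
  have hcont : ContinuousAt (fun q => c * (deriv (discFun p) q * q + a * discFun p q)) 0 := by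
    have h1 := hball.analyticAt
    have h2 := h1.deriv.continuousAt
    have h3 := h1.continuousAt
    fun_prop
  have hlim := hcont.tendsto.comp
    ((tendsto_uParam_atImInfty (n := n)).mono_right nhdsWithin_le_nhds)
  refine (hlim.congr fun τ => ?_).isBigO_one ℝ
  rw [comp_apply, hkey, mul_assoc, mul_assoc, ← zpow_add₀ (uParam_ne_zero n τ), add_neg_cancel,
    zpow_zero, mul_one]

variable {M m : ℕ} [NeZero M] [NeZero m] (D : BaseData m) (hmM : m ∣ M)

/-- The product `e · b`. -/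
def ebFun (τ : ℍ) : ℂ :=
  torsionDiff M (ePair M m).1 (ePair M m).2 τ * (D.coord hmM : ℍ → ℂ) τ

theorem ebFun_ne_zero (τ : ℍ) : ebFun D hmM τ ≠ 0 :=
  mul_ne_zero (torsionDiff_ne_zero (ePair_isUnitPair D hmM) τ)
    ((D.unit hmM D.main).toFun_ne_zero τ)

include D hmM in
theorem exists_hasExp_e (A : SL(2, ℤ)) :
    ∃ F : LaurentSeries ℂ,
      HasExp M (torsionDiff M (vecMulSL (ePair M m).1 A) (vecMulSL (ePair M m).2 A)) F ∧
        LeadUnit F ((M / m : ℕ) * colOrd eIdx ((A 0 0 : ℤ) : ZMod m) ((A 1 0 : ℤ) : ZMod m)) := by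
  obtain ⟨F, hF, hF0, hF1⟩ := exists_hasExp_torsionDiff (isLevelCoeff_id M)
    (isUnitPair_vecMulSL (ePair_isUnitPair D hmM) A)
  have hcm : coeffMap (RingHom.id ℂ) F = F := by ext; simp
  refine ⟨F, hcm ▸ hF, ?_⟩
  rw [← torsOrd_scale hmM eIdx A]
  exact ⟨hF0, hF1⟩

/-- `b'` is a constant multiple of `e · b`, with nonzero constant. -/
theorem exists_fder_coord :
    ∃ c : ℂ, c ≠ 0 ∧ ∀ τ, fder (D.coord hmM : ℍ → ℂ) τ = c * ebFun D hmM τ := by
  classical
  set b : ℍ → ℂ := (D.coord hmM : ℍ → ℂ) with hb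
  have hbd : MDiff b := (D.coord hmM).2.1
  set q : ℍ → ℂ := fun τ => fder b τ / ebFun D hmM τ with hq
  have hbinv : ∀ δ ∈ Gamma1 m, ∀ τ, b (δ • τ) = b τ := fun δ hδ τ =>
    (D.unit hmM D.main).toFun_smul_of_isInvariant (D.unit_invariant hmM D.main) hδ τ
  have hqsmul : ∀ (A : SL(2, ℤ)) (τ : ℍ), q (A • τ) = fder (fun σ => b (A • σ)) τ /
      (torsionDiff M (vecMulSL (ePair M m).1 A) (vecMulSL (ePair M m).2 A) τ * b (A • τ)) :=
    fun A τ => by
      rw [hq, fder_comp_smul hbd A τ]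
      simp only [ebFun, torsionDiff_smul]
      rw [div_div, mul_assoc]
  have hqinv : ∀ δ ∈ Gamma1 m, ∀ τ, q (δ • τ) = q τ := fun δ hδ τ => by
    obtain ⟨h1, h2⟩ := vclass_ePair hmM hδ
    rw [vclass_eq_iff] at h1 h2
    rw [hqsmul, torsionDiff_congr h1 h2, show (fun σ => b (δ • σ)) = b from funext (hbinv δ hδ),
      hbinv δ hδ]
    rfl
  have hexpA : ∀ A : SL(2, ℤ), ∃ F : LaurentSeries ℂ,
      HasExp M (fun τ => q (A • τ)) F ∧ ∀ k < 0, F.coeff k = 0 := by
    intro A
    obtain ⟨Fe, hFe, hFe'⟩ := exists_hasExp_e D hmM A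
    obtain ⟨Fb, hFb, hFb'⟩ := (D.unit hmM D.main).exists_hasExp (isLevelCoeff_id M) A
    have hcm : coeffMap (RingHom.id ℂ) Fb = Fb := by ext; simp
    rw [hcm] at hFb
    obtain ⟨i, hi⟩ : ∃ i, colOrd eIdx ((A 0 0 : ℤ) : ZMod m) ((A 1 0 : ℤ) : ZMod m) +
        quotColOrd (D.units D.main) ((A 0 0 : ℤ) : ZMod m) ((A 1 0 : ℤ) : ZMod m) ≤
        quotColOrd (D.units i) ((A 0 0 : ℤ) : ZMod m) ((A 1 0 : ℤ) : ZMod m) := by
      by_cases hA : IsBaseInf m A
      · exact ⟨D.main, by rw [D.e_ord_inf _ _ hA, zero_add]⟩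
      · exact D.deriv_bound _ _ (isPrimCol_col A) hA
    obtain ⟨Fi, hFi, hFi'⟩ := (D.unit hmM i).exists_hasExp (isLevelCoeff_id M) A
    have hcm' : coeffMap (RingHom.id ℂ) Fi = Fi := by ext; simp
    rw [hcm'] at hFi
    obtain ⟨Gi, hGi, hGi'⟩ := exists_hasExp_fder hFi hFi'.1
    obtain ⟨c, d, hc, hcd⟩ := exists_unitU_eq_affine (isLevelCoeff_id M) D hmM i
    have hc0 : c ≠ 0 := hc.ne_zero
    have hder : ∀ τ, fder (fun σ => b (A • σ)) τ =
        c⁻¹ * fder (fun σ => (D.unit hmM i).toFun (A • σ)) τ := fun τ => by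
      have he : (fun σ => (D.unit hmM i).toFun (A • σ)) = fun σ => c * b (A • σ) + d :=
        funext fun σ => congrFun (congrArg Subtype.val hcd) (A • σ)
      rw [he, fder, fder]
      rw [show ((fun σ => c * b (A • σ) + d) ∘ ofComplex) =
        fun z => c * ((fun σ => b (A • σ)) ∘ ofComplex) z + d from rfl, deriv_add_const,
        deriv_const_mul_field, inv_mul_cancel_left₀ hc0]
    obtain ⟨Ge, hGe, hGe'⟩ := (hFe'.mul hFb').exists_inv
    refine ⟨HahnSeries.single 0 c⁻¹ * Gi * Ge, ?_, fun k hk => ?_⟩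
    · have hne : ∀ τ, (torsionDiff M (vecMulSL (ePair M m).1 A) (vecMulSL (ePair M m).2 A) *
          fun τ => (D.unit hmM D.main).toFun (A • τ)) τ ≠ 0 := fun τ =>
        mul_ne_zero (torsionDiff_ne_zero (isUnitPair_vecMulSL (ePair_isUnitPair D hmM) A) τ)
          ((D.unit hmM D.main).toFun_ne_zero _)
      have hi2 := (hFe.mul hFb).inv hne
      rw [inv_eq_of_mul_eq_one_right hGe] at hi2
      refine (((HasExp.const c⁻¹).mul hGi).mul hi2).congr fun τ => ?_
      rw [hqsmul, hder]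
      simp only [Pi.mul_apply, div_eq_mul_inv]
      rfl
    · refine coeff_mul_eq_zero_of_lt (a := (D.unit hmM i).ord A) (fun j hj => ?_) hGe'.1 ?_
      · rw [HahnSeries.coeff_single_mul, sub_zero, hGi' j hj, mul_zero]
      · rw [D.unit_ord hmM, D.unit_ord hmM]
        have := mul_le_mul_of_nonneg_left hi (Int.natCast_nonneg (M / m))
        rw [mul_add] at this
        omega
  let f : levelRing (RingHom.id ℂ) M :=
    ⟨q, fun γ hγ τ => hqinv γ (Gamma1_le_Gamma1_of_dvd M hmM (gamma_le_Gamma1 M hγ)) τ,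
      fun A => by
        obtain ⟨F, hF, -⟩ := hexpA A
        exact ⟨F, by
          have hcm : coeffMap (RingHom.id ℂ) F = F := by ext; simp
          rw [hcm]; exact hF⟩⟩
  obtain ⟨r, hr⟩ := exists_eq_levelC_of_forall_coeff_eq_zero (φ := RingHom.id ℂ)
    (fun _ _ h => h) f fun A k hk => by
      obtain ⟨F, hF, hF0⟩ := hexpA A
      have h1 := (hasExp_levelExp (φ := RingHom.id ℂ) (fun _ _ h => h) A f).unique hF
      have h2 := congrArg (fun z : LaurentSeries ℂ => z.coeff k) h1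
      simpa [hF0 k hk] using h2
  have hqr : ∀ τ, fder b τ = r * ebFun D hmM τ := fun τ => by
    have h := congrFun (congrArg Subtype.val hr) τ
    change q τ = r at h
    rw [← h, hq, div_mul_cancel₀ _ (ebFun_ne_zero D hmM τ)]
  refine ⟨r, fun h0 => ?_, hqr⟩
  have hconst : ∀ τ : ℍ, b τ = b UpperHalfPlane.I := fun τ => by
    have hconv : Convex ℝ {z : ℂ | 0 < z.im} := convex_halfSpace_im_gt 0
    have := isOpen_upperHalfPlaneSet.is_const_of_deriv_eq_zero (𝕜 := ℂ)
      hconv.isPreconnected (UpperHalfPlane.mdifferentiable_iff.mp hbd)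
      (fun z hz => by
        have hz0 := hqr ⟨z, hz⟩
        rw [h0, zero_mul] at hz0
        exact hz0)
      (x := (τ : ℂ)) τ.im_pos (y := (UpperHalfPlane.I : ℂ)) UpperHalfPlane.I.im_pos
    simpa only [comp_apply, ofComplex_apply] using this
  have hP := eval_coord_injective (isLevelCoeff_id M) D hmM
    (a₁ := Polynomial.X) (a₂ := Polynomial.C (b UpperHalfPlane.I))
    (Subtype.ext (funext fun τ => by
      simp only [Polynomial.eval₂_X, Polynomial.eval₂_C]
      exact hconst τ))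
  exact Polynomial.X_ne_C _ hP

theorem fder_coord_ne_zero (τ : ℍ) : fder (D.coord hmM : ℍ → ℂ) τ ≠ 0 := by
  obtain ⟨c, hc, h⟩ := exists_fder_coord D hmM
  rw [h]
  exact mul_ne_zero hc (ebFun_ne_zero D hmM τ)

end FermatLib.Galois.DS
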