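import Fermat.Agent.Galois.DS.BaseUnits

/-!
# The ring of the base level: polynomials in the coordinate and the inverse units
-/

set_option autoImplicit false

noncomputable section

open Complex UpperHalfPlane Function ModularCurve CongruenceSubgroup
open scoped MatrixGroups

namespace FermatLib.Galois.DS

open FermatLib.Igusa

variable {M : ℕ} [NeZero M] {R : Type*} [CommRing R] (φ : R →+* ℂ)

variable (M) in
/-- Constants. -/
def cst : R →+* modRing M := (algebraMap ℂ (modRing M)).comp φ

theorem cuspExp_cst (A : SL(2, ℤ)) (r : R) :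
    cuspExp M A (cst M φ r) = HahnSeries.single 0 (φ r) := by
  rw [cst, RingHom.comp_apply, AlgHom.commutes, algebraMap_laurentSeries_eq_single]

theorem cst_mem_intSub (r : R) : cst M φ r ∈ intSub M φ := fun A =>
  ⟨HahnSeries.single 0 r, by rw [coeffMap_single, cuspExp_cst]⟩

theorem LeadUnit.pow {S : Type*} [CommRing S] {F : LaurentSeries S} {o : ℤ} (hF : LeadUnit F o)
    (n : ℕ) : LeadUnit (F ^ n) (n * o) := by
  induction n with
  | zero => simpa using leadUnit_one
  | succ n ih =>
    rw [pow_succ]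
    convert ih.mul hF using 1
    push_cast
    ring

theorem LeadUnit.prod {S : Type*} [CommRing S] {ι : Type*} (s : Finset ι)
    {F : ι → LaurentSeries S} {o : ι → ℤ} (h : ∀ i ∈ s, LeadUnit (F i) (o i)) :
    LeadUnit (∏ i ∈ s, F i) (∑ i ∈ s, o i) := by
  classical
  induction s using Finset.induction_on with
  | empty => simpa using leadUnit_one
  | insert a s ha ih =>
    rw [Finset.prod_insert ha, Finset.sum_insert ha]
    exact (h a (Finset.mem_insert_self a s)).mul
      (ih fun i hi => h i (Finset.mem_insert_of_mem hi))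

theorem coeff_mul_leadUnit {S : Type*} [CommRing S] {F G : LaurentSeries S} {a o : ℤ}
    (hF : ∀ k < a, F.coeff k = 0) (hG : LeadUnit G o) :
    (F * G).coeff (a + o) = F.coeff a * G.coeff o := by
  rw [eq_single_mul_mk F hF, eq_single_mul_mk G hG.1, mul_mul_mul_comm,
    HahnSeries.single_mul_single, one_mul, ← map_mul]
  simp only [HahnSeries.coeff_single_mul, one_mul, sub_self]
  rw [show (0 : ℤ) = ((0 : ℕ) : ℤ) from rfl]
  simp only [HahnSeries.ofPowerSeries_apply_coeff, PowerSeries.coeff_zero_eq_constantCoeff_apply]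
  rw [map_mul]

variable {m : ℕ} [NeZero m]

variable (M) (m) in
/-- `Γ₁(m)`-invariant functions. -/
def invSub : Subring (modRing M) where
  carrier := {G | ∀ γ ∈ Gamma1 m, ∀ τ : ℍ, (G : ℍ → ℂ) (γ • τ) = (G : ℍ → ℂ) τ}
  mul_mem' := fun ha hb γ hγ τ => congrArg₂ (· * ·) (ha γ hγ τ) (hb γ hγ τ)
  one_mem' := fun _ _ _ => rfl
  add_mem' := fun ha hb γ hγ τ => congrArg₂ (· + ·) (ha γ hγ τ) (hb γ hγ τ)
  zero_mem' := fun _ _ _ => rfl
  neg_mem' := fun ha γ hγ τ => congrArg Neg.neg (ha γ hγ τ)

variable (M) (m) in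
/-- The ring of the base level with coefficients in the image of `φ`. -/
def baseSub : Subring (modRing M) := intSub M φ ⊓ invSub M m

omit [NeZero m] in
theorem cst_mem_baseSub (r : R) : cst M φ r ∈ baseSub M φ m :=
  ⟨cst_mem_intSub φ r, fun _ _ _ => rfl⟩

variable {φ} (hR : IsLevelCoeff φ M) (D : BaseData m) (hmM : m ∣ M)

include hR in
theorem unitU_mem_baseSub (i : Fin D.r) : D.unitU hmM i ∈ baseSub M φ m :=
  ⟨unitFn_mem_intSub M hR _ _,
    fun _ hγ τ => (D.unit hmM i).toFun_smul_of_isInvariant (D.unit_invariant hmM i) hγ τ⟩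

include hR in
theorem unitV_mem_baseSub (i : Fin D.r) : D.unitV hmM i ∈ baseSub M φ m :=
  ⟨unitFn_mem_intSub M hR _ _,
    fun _ hγ τ => (D.unit hmM i).flip.toFun_smul_of_isInvariant
      (fun δ hδ => (D.unit_invariant hmM i δ hδ).symm) hγ τ⟩

theorem unit_ord_one (i : Fin D.r) : (D.unit hmM i).ord 1 = -(M : ℤ) := by
  rw [D.unit_ord hmM]
  rw [D.ord_inf i _ _ ⟨by simp, Or.inl (by simp)⟩]
  rw [mul_neg, ← Nat.cast_mul, Nat.div_mul_cancel hmM]

/-- A cusp is `Γ₁(m)`-equivalent to `∞`. -/
def IsBaseInf (m : ℕ) (A : SL(2, ℤ)) : Prop :=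
  IsInfCol ((A 0 0 : ℤ) : ZMod m) ((A 1 0 : ℤ) : ZMod m)

omit [NeZero M] [NeZero m] in
theorem isPrimCol_col (A : SL(2, ℤ)) :
    IsPrimCol ((A 0 0 : ℤ) : ZMod m) ((A 1 0 : ℤ) : ZMod m) :=
  ⟨((A 0 1 : ℤ) : ZMod m), ((A 1 1 : ℤ) : ZMod m), by
    have h := congrArg (Int.cast : ℤ → ZMod m) ((Matrix.det_fin_two _).symm.trans A.2)
    push_cast at h
    linear_combination h⟩

omit [NeZero m] in
theorem cuspExp_eq_one_of_isBaseInf {G : modRing M} (hG : G ∈ invSub M m) {A : SL(2, ℤ)}
    (hA : IsBaseInf m A) : cuspExp M A G = cuspExp M 1 G := by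
  obtain ⟨h10, h00⟩ := hA
  have hdet := congrArg (Int.cast : ℤ → ZMod m) ((Matrix.det_fin_two _).symm.trans A.2)
  push_cast at hdet
  rcases h00 with h | h
  · have hmem : A ∈ Gamma1 m := by
      rw [Gamma1_mem]
      exact ⟨h, by linear_combination hdet - ((A 1 1 : ℤ) : ZMod m) * h +
        ((A 0 1 : ℤ) : ZMod m) * h10, h10⟩
    exact cuspExp_eq_of_forall_apply_eq M fun τ => by rw [one_smul]; exact hG A hmem τ
  · have hmem : -A ∈ Gamma1 m := by
      rw [Gamma1_mem]
      refine ⟨?_, ?_, ?_⟩ <;>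
        simp only [Matrix.SpecialLinearGroup.coe_neg, Matrix.neg_apply, Int.cast_neg]
      · linear_combination -h
      · linear_combination hdet - ((A 1 1 : ℤ) : ZMod m) * h + ((A 0 1 : ℤ) : ZMod m) * h10
      · linear_combination -h10
    exact cuspExp_eq_of_forall_apply_eq M fun τ => by
      rw [one_smul, ← ModularGroup.SL_neg_smul]; exact hG (-A) hmem τ

theorem coeff_cuspExp_one_of_not_dvd (G : modRing M) {i : ℤ} (hi : ¬ (M : ℤ) ∣ i) :
    (cuspExp M 1 G).coeff i = 0 := by
  rw [cuspExp_one_eq]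
  exact qExpand_coeff_of_not_dvd M _ hi

include hR in
theorem exists_coord_lead :
    ∃ e : R, IsUnit e ∧ ∀ (P : Polynomial R) (n : ℕ), P.natDegree ≤ n →
      (∀ i < -((M : ℤ) * n), (cuspExp M 1 (P.eval₂ (cst M φ) (D.coord hmM))).coeff i = 0) ∧
      (cuspExp M 1 (P.eval₂ (cst M φ) (D.coord hmM))).coeff (-((M : ℤ) * n)) =
        φ (P.coeff n * e ^ n) := by
  obtain ⟨F, hF, hF'⟩ := exists_cuspExp_unitFn M hR (D.unit hmM D.main)
    (D.unit_invariant_M hmM D.main) 1
  rw [unit_ord_one D hmM] at hF'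
  refine ⟨F.coeff (-(M : ℤ)), hF'.2, fun P n hn => ?_⟩
  have hexp : cuspExp M 1 (P.eval₂ (cst M φ) (D.coord hmM)) =
      coeffMap φ (∑ i ∈ Finset.range (n + 1), HahnSeries.single 0 (P.coeff i) * F ^ i) := by
    rw [Polynomial.eval₂_eq_sum_range' (cst M φ) (by omega : P.natDegree < n + 1), map_sum,
      map_sum]
    refine Finset.sum_congr rfl fun i _ => ?_
    rw [map_mul, map_pow, map_mul, map_pow, cuspExp_cst, coeffMap_single,
      ← show cuspExp M 1 (D.coord hmM) = coeffMap φ F from hF]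
  have hlow : ∀ i ≤ n, ∀ k < -((M : ℤ) * i),
      (HahnSeries.single 0 (P.coeff i) * F ^ i).coeff k = 0 := fun i _ k hk => by
    rw [HahnSeries.coeff_single_mul, sub_zero, (hF'.pow i).1 k (by
      rw [mul_neg, mul_comm]; exact hk), mul_zero]
  refine ⟨fun i hi => ?_, ?_⟩
  · rw [hexp, coeffMap_coeff, HahnSeries.coeff_sum, Finset.sum_eq_zero, map_zero]
    intro j hj
    have hjn : j ≤ n := by simpa using Finset.mem_range_succ_iff.mp hj
    refine hlow j hjn i (lt_of_lt_of_le hi ?_)
    have : (M : ℤ) * j ≤ M * n := mul_le_mul_of_nonneg_left (by exact_mod_cast hjn) (by positivity)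
    omega
  · rw [hexp, coeffMap_coeff, HahnSeries.coeff_sum, Finset.sum_range_succ, Finset.sum_eq_zero,
      zero_add, HahnSeries.coeff_single_mul, sub_zero]
    · congr 2
      have hp : ∀ k : ℕ, (F ^ k).coeff (-((M : ℤ) * k)) = F.coeff (-(M : ℤ)) ^ k := fun k => by
        induction k with
        | zero => simp
        | succ k ih =>
          rw [pow_succ, pow_succ, show -((M : ℤ) * (k + 1 : ℕ)) = -((M : ℤ) * k) + -(M : ℤ) by
            push_cast; ring, coeff_mul_leadUnit (fun i hi => (hF'.pow k).1 i (by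
              rw [mul_neg, mul_comm]; exact hi)) hF', ih]
      exact hp n
    · intro j hj
      have hjn : j < n := Finset.mem_range.mp hj
      refine hlow j hjn.le _ ?_
      have : (M : ℤ) * j < M * n :=
        mul_lt_mul_of_pos_left (by exact_mod_cast hjn)
          (by exact_mod_cast Nat.pos_of_ne_zero (NeZero.ne M))
      omega

include hR in
theorem eval_coord_injective :
    Function.Injective fun P : Polynomial R => P.eval₂ (cst M φ) (D.coord hmM) := by
  obtain ⟨e, he, hP⟩ := exists_coord_lead hR D hmM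
  intro P Q h
  by_contra hne
  have h0 : (P - Q) ≠ 0 := sub_ne_zero.mpr hne
  have h1 := (hP (P - Q) _ le_rfl).2
  rw [Polynomial.eval₂_sub, show P.eval₂ (cst M φ) (D.coord hmM) = Q.eval₂ (cst M φ) (D.coord hmM)
    from h, sub_self, map_zero, HahnSeries.coeff_zero, eq_comm, map_eq_zero_iff _ hR.injective,
    (he.pow _).mul_left_eq_zero] at h1
  exact h0 (Polynomial.leadingCoeff_eq_zero.mp h1)

include hR in
theorem eval_mem_baseSub (P : Polynomial R) :
    P.eval₂ (cst M φ) (D.coord hmM) ∈ baseSub M φ m := by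
  rw [Polynomial.eval₂_eq_sum_range]
  exact sum_mem fun i _ => mul_mem (cst_mem_baseSub φ _) (pow_mem (unitU_mem_baseSub hR D hmM _) _)

include hR in
/-- A function with poles only at `∞` is a polynomial in the coordinate. -/
theorem exists_poly_of_poleLE {G : modRing M} (hG : G ∈ baseSub M φ m)
    (hfin : ∀ A, ¬ IsBaseInf m A → PoleLE M A G 0) {n : ℕ} (hn : PoleLE M 1 G ((M : ℤ) * n)) :
    ∃ P : Polynomial R, P.natDegree ≤ n ∧ G = P.eval₂ (cst M φ) (D.coord hmM) := by
  induction n generalizing G with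
  | zero =>
    have hall : ∀ A, PoleLE M A G 0 := fun A => by
      by_cases hA : IsBaseInf m A
      · intro i hi
        rw [cuspExp_eq_one_of_isBaseInf hG.2 hA]
        exact hn i (by simpa using hi)
      · exact hfin A hA
    let f : levelRing φ M := ⟨(G : ℍ → ℂ),
      fun γ hγ τ => G.2.2.1 γ (gamma_le_Gamma1 M hγ) τ, fun A => by
        obtain ⟨F, hF⟩ := hG.1 A
        exact ⟨F, hF ▸ hasExp_cuspExp M A G⟩⟩
    obtain ⟨r, hr⟩ := exists_eq_levelC_of_forall_coeff_eq_zero hR.injective f fun A k hk => by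
      have h1 : coeffMap φ (levelExp hR.injective A f) = cuspExp M A G :=
        (hasExp_levelExp hR.injective A f).unique (hasExp_cuspExp M A G)
      have h2 := congrArg (fun z : LaurentSeries ℂ => z.coeff k) h1
      simp only [coeffMap_coeff] at h2
      rw [hall A k (by omega)] at h2
      exact (map_eq_zero_iff _ hR.injective).mp h2
    refine ⟨Polynomial.C r, by simp, ?_⟩
    rw [Polynomial.eval₂_C]
    exact Subtype.ext (show (G : ℍ → ℂ) = _ from
      (congrArg Subtype.val hr).trans (funext fun τ => rfl))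
  | succ n ih =>
    obtain ⟨e, he, hP⟩ := exists_coord_lead hR D hmM
    obtain ⟨F, hF⟩ := hG.1 1
    set c : R := F.coeff (-((M : ℤ) * (n + 1 : ℕ))) * (↑((he.pow (n + 1)).unit⁻¹) : R) with hc
    set X := (Polynomial.C c * Polynomial.X ^ (n + 1)).eval₂ (cst M φ) (D.coord hmM) with hX
    have hdeg : (Polynomial.C c * Polynomial.X ^ (n + 1)).natDegree ≤ n + 1 :=
      (Polynomial.natDegree_C_mul_le _ _).trans (Polynomial.natDegree_X_pow_le _)
    obtain ⟨hX0, hX1⟩ := hP _ _ hdeg
    have hXb : X ∈ baseSub M φ m := eval_mem_baseSub hR D hmM _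
    have hXfin : ∀ A, ¬ IsBaseInf m A → PoleLE M A X 0 := by
      intro A hA i hi
      obtain ⟨B, hB, hB'⟩ := exists_cuspExp_unitFn M hR (D.unit hmM D.main)
        (D.unit_invariant_M hmM D.main) A
      rw [hX, Polynomial.eval₂_mul, Polynomial.eval₂_C, Polynomial.eval₂_X_pow, map_mul, map_pow,
        cuspExp_cst, show cuspExp M A (D.coord hmM) = coeffMap φ B from hB, ← map_pow,
        HahnSeries.coeff_single_mul, coeffMap_coeff, sub_zero, (hB'.pow (n + 1)).1 i ?_, map_zero,
        mul_zero]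
      have h0 := D.ord_nonneg D.main _ _ (isPrimCol_col A) hA
      rw [D.unit_ord hmM]
      calc i < -0 := hi
        _ ≤ _ := by rw [neg_zero]; positivity
    obtain ⟨P, hPdeg, hPeq⟩ := ih (G := G - X) (sub_mem hG hXb)
      (fun A hA i hi => by
        rw [map_sub, HahnSeries.coeff_sub, hfin A hA i hi, hXfin A hA i hi, sub_zero])
      (fun i hi => by
        rw [map_sub, HahnSeries.coeff_sub]
        by_cases hd : (M : ℤ) ∣ i
        · obtain ⟨j, rfl⟩ := hd
          have hM : (0 : ℤ) < M := by exact_mod_cast Nat.pos_of_ne_zero (NeZero.ne M)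
          have hj : j < -(n : ℤ) := lt_of_mul_lt_mul_left (by rw [mul_neg]; exact hi) hM.le
          rcases lt_or_eq_of_le (show j ≤ -((n + 1 : ℕ) : ℤ) by push_cast; omega) with h | h
          · have h' : (M : ℤ) * j < -((M : ℤ) * (n + 1 : ℕ)) := by
              rw [← mul_neg]; exact mul_lt_mul_of_pos_left h hM
            rw [hn _ h', hX0 _ h', sub_zero]
          · rw [h, mul_neg, hX1, ← hF, coeffMap_coeff, ← map_sub, map_eq_zero_iff _ hR.injective]
            simp only [Polynomial.coeff_C_mul, Polynomial.coeff_X_pow, if_true, mul_one, hc]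
            rw [mul_assoc, IsUnit.val_inv_mul, mul_one, sub_self]
        · rw [coeff_cuspExp_one_of_not_dvd G hd, coeff_cuspExp_one_of_not_dvd X hd, sub_zero])
    refine ⟨P + Polynomial.C c * Polynomial.X ^ (n + 1),
      (Polynomial.natDegree_add_le _ _).trans (max_le (hPdeg.trans n.le_succ) hdeg), ?_⟩
    rw [Polynomial.eval₂_add, ← hPeq, ← hX, sub_add_cancel]

include hR in
/-- Every function of the base level is a polynomial in the coordinate times inverse units. -/
theorem exists_eq_eval_mul {G : modRing M} (hG : G ∈ baseSub M φ m) :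
    ∃ (P : Polynomial R) (k : ℕ),
      G = P.eval₂ (cst M φ) (D.coord hmM) * (∏ i, D.unitV hmM i) ^ k := by
  obtain ⟨k, hk⟩ := exists_poleBound M G
  set G' := G * (∏ i, D.unitU hmM i) ^ k with hG'
  have hG'b : G' ∈ baseSub M φ m :=
    mul_mem hG (pow_mem (prod_mem fun i _ => unitU_mem_baseSub hR D hmM i) k)
  have hfin : ∀ A, ¬ IsBaseInf m A → PoleLE M A G' 0 := by
    intro A hA i hi
    choose F hF hF' using fun j => exists_cuspExp_unitFn M hR (D.unit hmM j)
      (D.unit_invariant_M hmM j) A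
    rw [hG', map_mul, map_pow, map_prod]
    simp only [BaseData.unitU, hF, ← map_prod, ← map_pow]
    refine coeff_mul_eq_zero_of_lt (hk A) (b := (k : ℤ) * ∑ j, (D.unit hmM j).ord A) (fun t ht => ?_) ?_
    · rw [coeffMap_coeff, ((LeadUnit.prod Finset.univ fun j _ => hF' j).pow k).1 t ht, map_zero]
    · obtain ⟨j₀, hj₀⟩ := D.exists_ord_pos _ _ (isPrimCol_col A) hA
      have hμ : 0 < M / m := Nat.div_pos (Nat.le_of_dvd (Nat.pos_of_ne_zero (NeZero.ne M)) hmM)
        (Nat.pos_of_ne_zero (NeZero.ne m))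
      have hone : 1 ≤ ∑ j, (D.unit hmM j).ord A := by
        refine le_trans ?_ (Finset.single_le_sum (f := fun j => (D.unit hmM j).ord A)
          (fun j _ => ?_) (Finset.mem_univ j₀))
        · rw [D.unit_ord hmM]
          exact Int.add_one_le_iff.mpr (mul_pos (by exact_mod_cast hμ) hj₀)
        · have h0 := D.ord_nonneg j _ _ (isPrimCol_col A) hA
          rw [D.unit_ord hmM]
          positivity
      have := le_mul_of_one_le_right (Int.natCast_nonneg k) hone
      omega
  obtain ⟨n, hn⟩ := exists_poleBound M G'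
  obtain ⟨P, -, hP⟩ := exists_poly_of_poleLE hR D hmM hG'b hfin (n := n) fun i hi => hn 1 i (by
    have : (n : ℤ) ≤ M * n := le_mul_of_one_le_left (Int.natCast_nonneg n)
      (by exact_mod_cast Nat.pos_of_ne_zero (NeZero.ne M))
    omega)
  refine ⟨P, k, ?_⟩
  rw [← hP, hG', mul_assoc, ← mul_pow, ← Finset.prod_mul_distrib]
  simp [BaseData.unitU_mul_unitV]

include hR in
/-- The units are affine functions of the coordinate. -/
theorem exists_unitU_eq_affine (i : Fin D.r) :
    ∃ c d : R, IsUnit c ∧ D.unitU hmM i = cst M φ c * D.coord hmM + cst M φ d := by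
  choose F hF hF' using fun A => exists_cuspExp_unitFn M hR (D.unit hmM i)
    (D.unit_invariant_M hmM i) A
  obtain ⟨P, hdeg, hP⟩ := exists_poly_of_poleLE hR D hmM (unitU_mem_baseSub hR D hmM i)
    (fun A hA t ht => by
      rw [BaseData.unitU, hF, coeffMap_coeff, (hF' A).1 t ?_, map_zero]
      have h0 := D.ord_nonneg i _ _ (isPrimCol_col A) hA
      rw [D.unit_ord hmM]
      calc t < -0 := ht
        _ ≤ _ := by rw [neg_zero]; positivity)
    (n := 1) (fun t ht => by
      rw [BaseData.unitU, hF, coeffMap_coeff, (hF' 1).1 t ?_, map_zero]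
      rw [unit_ord_one D hmM]; simpa using ht)
  refine ⟨P.coeff 1, P.coeff 0, ?_, ?_⟩
  · obtain ⟨e, he, hlead⟩ := exists_coord_lead hR D hmM
    have h1 := (hlead P 1 hdeg).2
    rw [← hP, BaseData.unitU, hF, coeffMap_coeff] at h1
    have h2 := hR.injective h1
    have hu := (hF' 1).2
    rw [unit_ord_one D hmM] at hu
    simp only [Nat.cast_one, mul_one, pow_one] at h2
    rw [h2] at hu
    exact isUnit_of_mul_isUnit_left hu
  · rw [hP, Polynomial.eq_X_add_C_of_natDegree_le_one hdeg]
    simp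

end FermatLib.Galois.DS
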