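import Fermat.Agent.Galois.DS.ExpBridge
import Fermat.Agent.Galois.DS.BaseData

/-!
# Modular units of the base level inside `modRing M`
-/

set_option autoImplicit false

noncomputable section

open Complex UpperHalfPlane Function ModularCurve CongruenceSubgroup
open scoped MatrixGroups

namespace FermatLib.Galois.DS

open FermatLib.Igusa

variable (M : ℕ) [NeZero M]

omit [NeZero M] in
theorem gamma_le_Gamma1 : CongruenceSubgroup.Gamma M ≤ Gamma1 M := fun γ hγ => by
  rw [Gamma_mem] at hγ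
  rw [Gamma1_mem]
  exact ⟨hγ.1, hγ.2.2.2, hγ.2.2.1⟩

omit [NeZero M] in
theorem Gamma1_le_Gamma1_of_dvd {m : ℕ} (h : m ∣ M) : Gamma1 M ≤ Gamma1 m := fun γ hγ => by
  rw [Gamma1_mem] at hγ ⊢
  obtain ⟨h1, h2, h3⟩ := hγ
  let f := ZMod.castHom h (ZMod m)
  exact ⟨(map_intCast f _).symm.trans ((congrArg f h1).trans (map_one f)),
    (map_intCast f _).symm.trans ((congrArg f h2).trans (map_one f)),
    (map_intCast f _).symm.trans ((congrArg f h3).trans (map_zero f))⟩

omit [NeZero M] in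
theorem apply_eq_of_congr {f : ℍ → ℂ} (hf : ∀ γ ∈ CongruenceSubgroup.Gamma M, ∀ τ : ℍ, f (γ • τ) = f τ)
    {A B : SL(2, ℤ)} (h : ∀ i j, ((A i j : ℤ) : ZMod M) = ((B i j : ℤ) : ZMod M)) (τ : ℍ) :
    f (A • τ) = f (B • τ) := by
  have hmem : A * B⁻¹ ∈ CongruenceSubgroup.Gamma M := by
    rw [Gamma_mem']
    rw [map_mul, map_inv, mul_inv_eq_one]
    ext i j
    simpa using h i j
  rw [← hf _ hmem (B • τ), ← mul_smul, inv_mul_cancel_right]

theorem cuspExp_eq_of_forall_apply_eq {A B : SL(2, ℤ)} {G G' : modRing M}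
    (h : ∀ τ : ℍ, (G : ℍ → ℂ) (A • τ) = (G' : ℍ → ℂ) (B • τ)) :
    cuspExp M A G = cuspExp M B G' :=
  cuspExp_eq_of_hasExp M ((hasExp_cuspExp M B G').congr fun τ => (h τ).symm)

theorem cuspExp_congr {A B : SL(2, ℤ)} (h : ∀ i j, ((A i j : ℤ) : ZMod M) = ((B i j : ℤ) : ZMod M))
    (G : modRing M) : cuspExp M A G = cuspExp M B G :=
  cuspExp_eq_of_forall_apply_eq M fun τ =>
    apply_eq_of_congr M (fun γ hγ => G.2.2.1 γ (gamma_le_Gamma1 M hγ)) h τ

/-- `G` has poles of order at most `k` at the cusp `A ∞`, in `exp (2 π i τ / M)`. -/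
def PoleLE (A : SL(2, ℤ)) (G : modRing M) (k : ℤ) : Prop :=
  ∀ i < -k, (cuspExp M A G).coeff i = 0

theorem exists_poleBound (G : modRing M) : ∃ k : ℕ, ∀ A : SL(2, ℤ), PoleLE M A G k := by
  classical
  let key : SL(2, ℤ) → (Fin 2 → Fin 2 → ZMod M) := fun A i j => ((A i j : ℤ) : ZMod M)
  let bd : (Fin 2 → Fin 2 → ZMod M) → ℕ := fun v =>
    if h : ∃ A, key A = v then (cuspExp M h.choose G).order.natAbs else 0
  refine ⟨Finset.univ.sup bd, fun A i hi => ?_⟩
  have h : ∃ B, key B = key A := ⟨A, rfl⟩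
  have hle : bd (key A) ≤ Finset.univ.sup bd := Finset.le_sup (Finset.mem_univ _)
  have hbd : bd (key A) = (cuspExp M h.choose G).order.natAbs := dif_pos h
  rw [hbd] at hle
  rw [← cuspExp_congr M (fun i j => congrFun (congrFun h.choose_spec i) j) G]
  exact HahnSeries.coeff_eq_zero_of_lt_order (by omega)

/-- A modular unit as an element of `modRing M`. -/
def unitFn (u : UnitQuot M) (hu : u.IsInvariant (Gamma1 M)) : modRing M :=
  ⟨u.toFun, mem_modRing_of_hasExp M (fun _ hγ τ => u.toFun_smul_of_isInvariant hu hγ τ)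
    fun A => by
      obtain ⟨F, hF, -⟩ := u.exists_hasExp (isLevelCoeff_id M) A
      exact ⟨_, hF⟩⟩

@[simp]
theorem coe_unitFn (u : UnitQuot M) (hu : u.IsInvariant (Gamma1 M)) :
    ((unitFn M u hu : modRing M) : ℍ → ℂ) = u.toFun := rfl

theorem exists_cuspExp_unitFn {R : Type*} [CommRing R] {φ : R →+* ℂ} (hR : IsLevelCoeff φ M)
    (u : UnitQuot M) (hu : u.IsInvariant (Gamma1 M)) (A : SL(2, ℤ)) :
    ∃ F : LaurentSeries R, cuspExp M A (unitFn M u hu) = coeffMap φ F ∧ LeadUnit F (u.ord A) := by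
  obtain ⟨F, hF, hF'⟩ := u.exists_hasExp hR A
  exact ⟨F, cuspExp_eq_of_hasExp M hF, hF'⟩

theorem unitFn_mem_intSub {R : Type*} [CommRing R] {φ : R →+* ℂ} (hR : IsLevelCoeff φ M)
    (u : UnitQuot M) (hu : u.IsInvariant (Gamma1 M)) : unitFn M u hu ∈ intSub M φ := fun A => by
  obtain ⟨F, hF, -⟩ := exists_cuspExp_unitFn M hR u hu A
  exact ⟨F, hF.symm⟩

/-- Scale a pair by `μ`. -/
def scalePair (μ : ℕ) (p : IdxPair) : IdxPair :=
  (((μ : ℤ) * p.1.1, (μ : ℤ) * p.1.2), ((μ : ℤ) * p.2.1, (μ : ℤ) * p.2.2))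

variable {M} {m : ℕ} [NeZero m]

omit [NeZero M] [NeZero m] in
theorem scale_dvd_iff (hmM : m ∣ M) [NeZero M] (a : ℤ) :
    (M : ℤ) ∣ (M / m : ℕ) * a ↔ (m : ℤ) ∣ a := by
  obtain ⟨μ, rfl⟩ := hmM
  have hm : 0 < m := Nat.pos_of_ne_zero fun h => NeZero.ne (m * μ) (by simp [h])
  have hμ : 0 < μ := Nat.pos_of_ne_zero fun h => NeZero.ne (m * μ) (by simp [h])
  rw [Nat.mul_div_cancel_left μ hm, Nat.cast_mul, mul_comm (m : ℤ)]
  exact mul_dvd_mul_iff_left (by exact_mod_cast hμ.ne')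

omit [NeZero m] in
theorem sameUpToSign_scale (hmM : m ∣ M) (a b : ℤ × ℤ) :
    SameUpToSign M (((M / m : ℕ) : ℤ) * a.1, ((M / m : ℕ) : ℤ) * a.2)
        (((M / m : ℕ) : ℤ) * b.1, ((M / m : ℕ) : ℤ) * b.2) ↔ SameUpToSign m a b := by
  simp only [SameUpToSign, ← mul_sub, ← mul_add, scale_dvd_iff hmM]

omit [NeZero m] in
theorem isUnitPair_scalePair (hmM : m ∣ M) {p : IdxPair} (h : IsUnitPair m p.1 p.2) :
    IsUnitPair M (scalePair (M / m) p).1 (scalePair (M / m) p).2 := by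
  refine ⟨?_, ?_, fun hh => h.2.2 ((sameUpToSign_scale hmM p.1 p.2).mp hh)⟩
  · intro hh
    exact h.1 ((sameUpToSign_scale hmM p.1 (0, 0)).mp (by simpa [scalePair] using hh))
  · intro hh
    exact h.2.1 ((sameUpToSign_scale hmM p.2 (0, 0)).mp (by simpa [scalePair] using hh))

omit [NeZero m] [NeZero M] in
theorem exists_scaleHom (hmM : m ∣ M) :
    ∃ ι : ZMod m →+ ZMod M, ∀ a : ℤ, ι (a : ZMod m) = ((((M / m : ℕ) : ℤ) * a : ℤ) : ZMod M) := by
  let f : ℤ →+ ZMod M := zmultiplesHom (ZMod M) (((M / m : ℕ) : ℤ) : ZMod M)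
  have hf : f (m : ℤ) = 0 := by
    simp only [f, zmultiplesHom_apply, zsmul_eq_mul]
    rw [← Int.cast_mul, ZMod.intCast_zmod_eq_zero_iff_dvd, ← Nat.cast_mul,
      Nat.mul_div_cancel' hmM]
  refine ⟨ZMod.lift m ⟨f, hf⟩, fun a => ?_⟩
  rw [ZMod.lift_coe]
  simp only [f, zmultiplesHom_apply, zsmul_eq_mul]
  push_cast
  ring

omit [NeZero m] [NeZero M] in
theorem pclasses_scale (hmM : m ∣ M) {L L' : List IdxPair} (h : pclasses m L = pclasses m L') :
    pclasses M (L.map (scalePair (M / m))) = pclasses M (L'.map (scalePair (M / m))) := by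
  classical
  obtain ⟨ι, hι⟩ := exists_scaleHom (M := M) hmM
  let g : Finset (ZMod m × ZMod m) → Finset (ZMod M × ZMod M) := fun s =>
    s.image (Prod.map ι ι)
  have hv : ∀ a : ℤ × ℤ,
      g (vclass m a) = vclass M (((M / m : ℕ) : ℤ) * a.1, ((M / m : ℕ) : ℤ) * a.2) := fun a => by
    simp only [g, vclass, Finset.image_insert, Finset.image_singleton, Prod.map_apply, map_neg, hι]
  have hp : ∀ p : IdxPair, Prod.map g g (pclass m p) = pclass M (scalePair (M / m) p) := fun p => by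
    simp only [pclass, Prod.map_apply, hv, scalePair]
  have key : ∀ K : List IdxPair,
      pclasses M (K.map (scalePair (M / m))) = (pclasses m K).map (Prod.map g g) := fun K => by
    simp [pclasses, List.map_map, Function.comp_def, hp]
  rw [key, key, h]

omit [NeZero M] [NeZero m] in
theorem pairMulSL_scalePair (μ : ℕ) (γ : SL(2, ℤ)) (p : IdxPair) :
    pairMulSL γ (scalePair μ p) = scalePair μ (pairMulSL γ p) := by
  simp only [pairMulSL, scalePair, vecMulSL, Prod.mk.injEq]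
  refine ⟨⟨?_, ?_⟩, ⟨?_, ?_⟩⟩ <;> ring

omit [NeZero M] in
theorem pclasses_pairMulSL_of_mem_Gamma1 {γ : SL(2, ℤ)} (hγ : γ ∈ Gamma1 m) (L : List IdxPair) :
    pclasses m (L.map (pairMulSL γ)) =
      pclasses m (L.map (pairShift ((γ 0 1 : ℤ) : ZMod m).val)) := by
  rw [Gamma1_mem] at hγ
  obtain ⟨h1, h2, h3⟩ := hγ
  simp only [pclasses, List.map_map]
  congr 1
  refine List.map_congr_left fun p _ => ?_
  simp only [Function.comp_apply, pclass, pairMulSL, pairShift, vclass, vecMulSL]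
  push_cast
  simp [h1, h2, h3, mul_comm]

theorem absMod_scale (hmM : m ∣ M) (a : ℤ) :
    absMod M (((M / m : ℕ) : ℤ) * a) = (M / m) * absMod m a := by
  obtain ⟨μ, rfl⟩ := hmM
  have hm : 0 < m := Nat.pos_of_ne_zero (NeZero.ne m)
  rw [Nat.mul_div_cancel_left μ hm]
  obtain ⟨h1, h2⟩ := (ZMod.valMinAbs_spec (a : ZMod m) _).mp rfl
  have key : ((((μ : ℤ) * a : ℤ)) : ZMod (m * μ)).valMinAbs = (μ : ℤ) * (a : ZMod m).valMinAbs := by
    rw [ZMod.valMinAbs_spec]
    refine ⟨?_, ?_⟩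
    · rw [ZMod.intCast_eq_intCast_iff_dvd_sub]
      have := (ZMod.intCast_eq_intCast_iff_dvd_sub a _ m).mp h1
      rw [← mul_sub]
      push_cast
      rw [mul_comm (m : ℤ)]
      exact mul_dvd_mul_left _ this
    · have hμ : (0 : ℤ) < μ := by
        exact_mod_cast Nat.pos_of_ne_zero fun h => NeZero.ne (m * μ) (by simp [h])
      obtain ⟨h2a, h2b⟩ := h2
      push_cast
      constructor
      · nlinarith
      · nlinarith
  simp only [absMod, key, Int.natAbs_mul, Int.natAbs_natCast]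

theorem torsOrd_scale (hmM : m ∣ M) (p : IdxPair) (γ : SL(2, ℤ)) :
    torsOrd M (vecMulSL (scalePair (M / m) p).1 γ) (vecMulSL (scalePair (M / m) p).2 γ) =
      (M / m : ℕ) * colOrd p ((γ 0 0 : ℤ) : ZMod m) ((γ 1 0 : ℤ) : ZMod m) := by
  have h : ∀ a : ℤ × ℤ, absMod m (a.1 * γ 0 0 + a.2 * γ 1 0) =
      ((a.1 : ZMod m) * ((γ 0 0 : ℤ) : ZMod m) +
        (a.2 : ZMod m) * ((γ 1 0 : ℤ) : ZMod m)).valMinAbs.natAbs := fun a => by
    simp [absMod]
  simp only [torsOrd, colOrd, vecMulSL, scalePair, mul_assoc, ← mul_add, absMod_scale hmM, h]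
  rw [Nat.mul_min_mul_left]
  push_cast
  rfl

namespace BaseData

variable (D : BaseData m) (hmM : m ∣ M)

/-- The `i`-th base unit at level `M`. -/
def unit (i : Fin D.r) : UnitQuot M where
  num := (D.units i).1.map (scalePair (M / m))
  den := (D.units i).2.map (scalePair (M / m))
  length_eq := by simp [D.length_eq i]
  num_isUnitPair := by
    intro p hp
    obtain ⟨q, hq, rfl⟩ := List.mem_map.mp hp
    exact isUnitPair_scalePair hmM (D.isUnitPair i q (List.mem_append_left _ hq))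
  den_isUnitPair := by
    intro p hp
    obtain ⟨q, hq, rfl⟩ := List.mem_map.mp hp
    exact isUnitPair_scalePair hmM (D.isUnitPair i q (List.mem_append_right _ hq))

theorem unit_invariant (i : Fin D.r) : (D.unit hmM i).IsInvariant (Gamma1 m) := fun γ hγ => by
  have h : ∀ L : List IdxPair, (∀ j : ZMod m,
      pclasses m (L.map (pairShift j.val)) = pclasses m L) →
      pclasses M ((L.map (scalePair (M / m))).map (pairMulSL γ)) =
        pclasses M (L.map (scalePair (M / m))) := fun L hL => by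
    rw [List.map_map, show (pairMulSL γ ∘ scalePair (M / m)) =
      scalePair (M / m) ∘ pairMulSL γ from funext fun p => pairMulSL_scalePair _ γ p,
      ← List.map_map]
    exact pclasses_scale hmM ((pclasses_pairMulSL_of_mem_Gamma1 hγ L).trans (hL _))
  exact ⟨h _ fun j => (D.invariant i j).1, h _ fun j => (D.invariant i j).2⟩

theorem unit_invariant_M (i : Fin D.r) : (D.unit hmM i).IsInvariant (Gamma1 M) :=
  fun γ hγ => D.unit_invariant hmM i γ (Gamma1_le_Gamma1_of_dvd M hmM hγ)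

theorem unit_ord (i : Fin D.r) (γ : SL(2, ℤ)) :
    (D.unit hmM i).ord γ =
      (M / m : ℕ) * quotColOrd (D.units i) ((γ 0 0 : ℤ) : ZMod m) ((γ 1 0 : ℤ) : ZMod m) := by
  simp only [UnitQuot.ord, prodOrd, unit, List.map_map, Function.comp_def, torsOrd_scale hmM,
    quotColOrd, List.sum_map_mul_left]
  ring

/-- The base units as functions. -/
def unitU (i : Fin D.r) : modRing M := unitFn M (D.unit hmM i) (D.unit_invariant_M hmM i)

/-- Their reciprocals. -/
def unitV (i : Fin D.r) : modRing M :=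
  unitFn M (D.unit hmM i).flip fun γ hγ => (D.unit_invariant_M hmM i γ hγ).symm

theorem unitU_mul_unitV (i : Fin D.r) : D.unitU hmM i * D.unitV hmM i = 1 := by
  refine Subtype.ext (funext fun τ => ?_)
  exact congrFun (congrArg Subtype.val
    ((D.unit hmM i).toLevelRing_mul_flip (isLevelCoeff_id M))) τ

/-- The coordinate. -/
def coord : modRing M := D.unitU hmM D.main

end BaseData

end FermatLib.Galois.DS
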