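import Fermat.Agent.Galois.DS.Cover
import Fermat.Agent.Igusa.LevelUnitsConj

/-!
# Coefficientwise conjugation of modular units and of `modRing M`
-/

set_option autoImplicit false
set_option linter.unusedSectionVars false

noncomputable section

open Complex UpperHalfPlane Function ModularCurve CongruenceSubgroup
open scoped MatrixGroups

namespace FermatLib.Galois.DS

open FermatLib.Igusa

/-- Multiply both second coordinates by `s`. -/
def pairConj (s : ℤ) (p : IdxPair) : IdxPair := (scaleSnd s p.1, scaleSnd s p.2)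

variable {M : ℕ} [NeZero M]

/-- `A' ≡ diag(1, s) A diag(1, s)⁻¹ (mod M)`. -/
def IsConjMat (M : ℕ) (s : ℤ) (A A' : SL(2, ℤ)) : Prop :=
  ((A' 0 0 : ℤ) : ZMod M) = (A 0 0 : ℤ) ∧ (s : ZMod M) * (A' 0 1 : ℤ) = (A 0 1 : ℤ) ∧
    ((A' 1 0 : ℤ) : ZMod M) = (s : ZMod M) * (A 1 0 : ℤ) ∧
    ((A' 1 1 : ℤ) : ZMod M) = (A 1 1 : ℤ)

theorem isConjMat_one (s : ℤ) : IsConjMat M s 1 1 := by simp [IsConjMat]

theorem exists_isConjMat {s : ℤ} (hs : IsUnit (s : ZMod M)) (A : SL(2, ℤ)) :
    ∃ A', IsConjMat M s A A' := by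
  obtain ⟨u, hu⟩ := hs
  have hdet := congrArg (Int.cast : ℤ → ZMod M) ((Matrix.det_fin_two _).symm.trans A.2)
  push_cast at hdet
  obtain ⟨g, h1, h2, h3, h4⟩ := exists_lift_modM M
    (a := ((A 0 0 : ℤ) : ZMod M)) (b := ↑u⁻¹ * ((A 0 1 : ℤ) : ZMod M))
    (c := (s : ZMod M) * (A 1 0 : ℤ)) (d := ((A 1 1 : ℤ) : ZMod M)) (by
      rw [← hu]
      linear_combination hdet - ((A 0 1 : ℤ) : ZMod M) * (A 1 0 : ℤ) * u.inv_mul)
  refine ⟨g, h1, ?_, h3, h4⟩
  rw [h2, ← hu, ← mul_assoc, Units.mul_inv, one_mul]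

theorem exists_conj_exponent (σ : ℂ →+* ℂ) :
    ∃ s : ℤ, σ (zetaU M) = zetaU M ^ s ∧ IsUnit (s : ZMod M) := by
  have h := (isPrimitiveRoot_zetaU M).map_of_injective σ.injective
  obtain ⟨i, -, hi, he⟩ := ((isPrimitiveRoot_zetaU M).isPrimitiveRoot_iff).mp h
  refine ⟨i, by rw [← he, zpow_natCast], ?_⟩
  exact_mod_cast (ZMod.isUnit_iff_coprime i M).mpr hi

omit [NeZero M] in
theorem vclass_conj_mul {s : ℤ} {A A' : SL(2, ℤ)} (h : IsConjMat M s A A') (a : ℤ × ℤ) :
    vclass M (vecMulSL (scaleSnd s a) A) = vclass M (scaleSnd s (vecMulSL a A')) := by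
  obtain ⟨h1, h2, h3, h4⟩ := h
  have e1 : (((vecMulSL (scaleSnd s a) A).1 : ℤ) : ZMod M) =
      ((scaleSnd s (vecMulSL a A')).1 : ℤ) := by
    simp only [vecMulSL, scaleSnd]
    push_cast
    rw [h1, h3]
    ring
  have e2 : (((vecMulSL (scaleSnd s a) A).2 : ℤ) : ZMod M) =
      ((scaleSnd s (vecMulSL a A')).2 : ℤ) := by
    simp only [vecMulSL, scaleSnd]
    push_cast
    rw [h4, ← h2]
    ring
  simp only [vclass, e1, e2]

omit [NeZero M] in
theorem pclass_conj_mul {s : ℤ} {A A' : SL(2, ℤ)} (h : IsConjMat M s A A') (p : IdxPair) :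
    pclass M (pairMulSL A (pairConj s p)) = pclass M (pairConj s (pairMulSL A' p)) := by
  simp only [pclass, pairMulSL, pairConj, vclass_conj_mul h]

omit [NeZero M] in
theorem pclasses_map_pairConj {s : ℤ} {L L' : List IdxPair} (h : pclasses M L = pclasses M L') :
    pclasses M (L.map (pairConj s)) = pclasses M (L'.map (pairConj s)) := by
  classical
  let g : Finset (ZMod M × ZMod M) → Finset (ZMod M × ZMod M) := fun t =>
    t.image fun v => (v.1, (s : ZMod M) * v.2)
  have hv : ∀ a : ℤ × ℤ, g (vclass M a) = vclass M (scaleSnd s a) := fun a => by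
    simp [g, vclass, scaleSnd, Finset.image_insert, Finset.image_singleton]
  have hp : ∀ p : IdxPair, Prod.map g g (pclass M p) = pclass M (pairConj s p) := fun p => by
    simp only [pclass, Prod.map_apply, hv, pairConj]
  have key : ∀ K : List IdxPair,
      pclasses M (K.map (pairConj s)) = (pclasses M K).map (Prod.map g g) := fun K => by
    simp [pclasses, List.map_map, Function.comp_def, hp]
  rw [key, key, h]

omit [NeZero M] in
theorem pclasses_conj_mul {s : ℤ} {A A' : SL(2, ℤ)} (h : IsConjMat M s A A') (L : List IdxPair) :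
    pclasses M ((L.map (pairConj s)).map (pairMulSL A)) =
      pclasses M ((L.map (pairMulSL A')).map (pairConj s)) := by
  simp only [pclasses, List.map_map, Function.comp_def, pclass_conj_mul h]

theorem isUnitPair_pairConj {σ : ℂ →+* ℂ} {s : ℤ} (hs : σ (zetaU M) = zetaU M ^ s)
    (hu : IsUnit (s : ZMod M)) {p : IdxPair} (h : IsUnitPair M p.1 p.2) :
    IsUnitPair M (pairConj s p).1 (pairConj s p).2 := by
  refine ⟨not_sameUpToSign_scaleSnd hs h.1, not_sameUpToSign_scaleSnd hs h.2.1, fun hh => h.2.2 ?_⟩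
  simp only [SameUpToSign, pairConj, scaleSnd, ← ZMod.intCast_zmod_eq_zero_iff_dvd] at hh ⊢
  push_cast at hh ⊢
  simpa only [← mul_sub, ← mul_add, hu.mul_right_eq_zero] using hh

/-- The conjugate of a quotient of products. -/
def UnitQuot.conj (u : UnitQuot M) {σ : ℂ →+* ℂ} {s : ℤ} (hs : σ (zetaU M) = zetaU M ^ s)
    (hu : IsUnit (s : ZMod M)) : UnitQuot M where
  num := u.num.map (pairConj s)
  den := u.den.map (pairConj s)
  length_eq := by simp [u.length_eq]
  num_isUnitPair := by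
    intro p hp
    obtain ⟨q, hq, rfl⟩ := List.mem_map.mp hp
    exact isUnitPair_pairConj hs hu (u.num_isUnitPair q hq)
  den_isUnitPair := by
    intro p hp
    obtain ⟨q, hq, rfl⟩ := List.mem_map.mp hp
    exact isUnitPair_pairConj hs hu (u.den_isUnitPair q hq)

theorem UnitQuot.conj_invariant {u : UnitQuot M} (hinv : u.IsInvariant (Gamma1 M)) {σ : ℂ →+* ℂ}
    {s : ℤ} (hs : σ (zetaU M) = zetaU M ^ s) (hu : IsUnit (s : ZMod M)) :
    (u.conj hs hu).IsInvariant (Gamma1 M) := fun γ hγ => by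
  obtain ⟨γ', hγ'⟩ := exists_isConjMat hu γ
  have hmem : γ' ∈ Gamma1 M := by
    obtain ⟨h1, -, h3, h4⟩ := hγ'
    rw [Gamma1_mem] at hγ ⊢
    exact ⟨h1.trans hγ.1, h4.trans hγ.2.1, h3.trans (by rw [hγ.2.2, mul_zero])⟩
  exact ⟨(pclasses_conj_mul hγ' _).trans (pclasses_map_pairConj (hinv γ' hmem).1),
    (pclasses_conj_mul hγ' _).trans (pclasses_map_pairConj (hinv γ' hmem).2)⟩

theorem hasExp_prodFun_conj {σ : ℂ →+* ℂ} {s : ℤ} (hs : σ (zetaU M) = zetaU M ^ s)
    {L : List IdxPair} (hL : ∀ p ∈ L, IsUnitPair M p.1 p.2) :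
    ∀ {F : LaurentSeries ℂ}, HasExp M (prodFun M L) F →
      HasExp M (prodFun M (L.map (pairConj s))) (coeffMap σ F) := by
  induction L with
  | nil =>
    intro F hF
    have h1 : HasExp M (prodFun M []) 1 := HasExp.one.congr fun τ => by simp [prodFun]
    rw [hF.unique h1, map_one]
    exact HasExp.one.congr fun τ => by simp [prodFun]
  | cons p L ih =>
    intro F hF
    obtain ⟨G, hG, -⟩ := exists_hasExp_prodFun (isLevelCoeff_id M)
      (fun q hq => hL q (List.mem_cons_of_mem _ hq))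
    obtain ⟨E, hE, -, -⟩ := exists_hasExp_torsionDiff (isLevelCoeff_id M) (hL p List.mem_cons_self)
    have hid : ∀ z : LaurentSeries ℂ, coeffMap (RingHom.id ℂ) z = z := fun z => by ext; simp
    rw [hid] at hG hE
    have hF' : F = E * G := hF.unique ((hE.mul hG).congr fun τ => by simp [prodFun])
    rw [hF', map_mul]
    exact ((torsionDiff_conj hs (hL p List.mem_cons_self) hE).mul
      (ih (fun q hq => hL q (List.mem_cons_of_mem _ hq)) hG)).congr fun τ => by
        simp [prodFun, pairConj, scaleSnd]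

theorem cuspExp_conj_unit (u : UnitQuot M) (hinv : u.IsInvariant (Gamma1 M)) {σ : ℂ →+* ℂ}
    {s : ℤ} (hs : σ (zetaU M) = zetaU M ^ s) (hu : IsUnit (s : ZMod M)) {A A' : SL(2, ℤ)}
    (h : IsConjMat M s A A') :
    cuspExp M A (unitFn M (u.conj hs hu) (UnitQuot.conj_invariant hinv hs hu)) =
      coeffMap σ (cuspExp M A' (unitFn M u hinv)) := by
  have hid : ∀ z : LaurentSeries ℂ, coeffMap (RingHom.id ℂ) z = z := fun z => by ext; simp
  obtain ⟨N, hN, -⟩ := exists_hasExp_prodFun (isLevelCoeff_id M) (u.translate A').num_isUnitPair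
  obtain ⟨E, hE, -⟩ := exists_hasExp_prodFun (isLevelCoeff_id M) (u.translate A').den_isUnitPair
  rw [hid] at hN hE
  have hE' := hE.inv (prodFun_ne_zero M (u.translate A').den_isUnitPair)
  have h1 : cuspExp M A' (unitFn M u hinv) = N * E⁻¹ :=
    cuspExp_eq_of_hasExp M ((hN.mul hE').congr fun τ => by
      rw [coe_unitFn, u.toFun_smul, UnitQuot.toFun, div_eq_mul_inv, Pi.mul_apply])
  rw [h1, map_mul, map_inv₀]
  have hNc := hasExp_prodFun_conj hs (u.translate A').num_isUnitPair hN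
  have hEc := hasExp_prodFun_conj hs (u.translate A').den_isUnitPair hE
  have hne : ∀ τ, prodFun M ((u.translate A').den.map (pairConj s)) τ ≠ 0 :=
    prodFun_ne_zero M (fun p hp => by
      obtain ⟨q, hq, rfl⟩ := List.mem_map.mp hp
      exact isUnitPair_pairConj hs hu ((u.translate A').den_isUnitPair q hq))
  refine cuspExp_eq_of_hasExp M ((hNc.mul (hEc.inv hne)).congr fun τ => ?_)
  rw [coe_unitFn, UnitQuot.toFun_smul, UnitQuot.toFun, div_eq_mul_inv, Pi.mul_apply]
  simp only [UnitQuot.translate, UnitQuot.conj]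
  rw [prodFun_congr M (pclasses_conj_mul h u.num), prodFun_congr M (pclasses_conj_mul h u.den)]

/-- `G'` is the conjugate of `G` at every cusp. -/
def ConjAll (σ : ℂ →+* ℂ) (s : ℤ) (G G' : modRing M) : Prop :=
  ∀ A A' : SL(2, ℤ), IsConjMat M s A A' →
    cuspExp M A G' = coeffMap σ (cuspExp M A' G)

theorem ConjAll.add {σ : ℂ →+* ℂ} {s : ℤ} {G G' H H' : modRing M} (h₁ : ConjAll σ s G G')
    (h₂ : ConjAll σ s H H') : ConjAll σ s (G + H) (G' + H') := fun A A' h => by
  rw [map_add, map_add, map_add, h₁ A A' h, h₂ A A' h]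

theorem ConjAll.mul {σ : ℂ →+* ℂ} {s : ℤ} {G G' H H' : modRing M} (h₁ : ConjAll σ s G G')
    (h₂ : ConjAll σ s H H') : ConjAll σ s (G * H) (G' * H') := fun A A' h => by
  rw [map_mul, map_mul, map_mul, h₁ A A' h, h₂ A A' h]

theorem conjAll_cst (σ : ℂ →+* ℂ) (s : ℤ) (c : ℂ) :
    ConjAll σ s (cst M (RingHom.id ℂ) c) (cst M (RingHom.id ℂ) (σ c)) := fun A A' _ => by
  rw [cuspExp_cst, cuspExp_cst, coeffMap_single]
  rfl

theorem ConjAll.prod {σ : ℂ →+* ℂ} {s : ℤ} {ι : Type*} (t : Finset ι) {G G' : ι → modRing M}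
    (h : ∀ i ∈ t, ConjAll σ s (G i) (G' i)) : ConjAll σ s (∏ i ∈ t, G i) (∏ i ∈ t, G' i) :=
  fun A A' hA => by
    rw [map_prod, map_prod, map_prod]
    exact Finset.prod_congr rfl fun i hi => h i hi A A' hA

theorem ConjAll.sum {σ : ℂ →+* ℂ} {s : ℤ} {ι : Type*} (t : Finset ι) {G G' : ι → modRing M}
    (h : ∀ i ∈ t, ConjAll σ s (G i) (G' i)) : ConjAll σ s (∑ i ∈ t, G i) (∑ i ∈ t, G' i) :=
  fun A A' hA => by
    rw [map_sum, map_sum, map_sum]
    exact Finset.sum_congr rfl fun i hi => h i hi A A' hA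

theorem ConjAll.pow {σ : ℂ →+* ℂ} {s : ℤ} {G G' : modRing M} (h : ConjAll σ s G G') (k : ℕ) :
    ConjAll σ s (G ^ k) (G' ^ k) := fun A A' hA => by
  rw [map_pow, map_pow, map_pow, h A A' hA]

theorem exists_conjAll {m : ℕ} [NeZero m] (D : BaseData m) (hmM : m ∣ M) (hM : 1 < M)
    {σ : ℂ →+* ℂ} {s : ℤ} (hs : σ (zetaU M) = zetaU M ^ s) (hu : IsUnit (s : ZMod M))
    (G : modRing M) : ∃ G', ConjAll σ s G G' := by
  classical
  have hunit : ∀ (u : UnitQuot M) (hinv : u.IsInvariant (Gamma1 M)),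
      ∃ G', ConjAll σ s (unitFn M u hinv) G' := fun u hinv =>
    ⟨_, fun _ _ h => cuspExp_conj_unit u hinv hs hu h⟩
  have hx : ∃ X, ConjAll σ s (xEl D hmM hM) X := by
    by_cases hsame : SameUpToSign M (0, 1) (ePair M m).1
    · refine ⟨0, fun A A' _ => ?_⟩
      have h0 : xEl D hmM hM = 0 := Subtype.ext (funext fun τ => by
        show xVec M m (0, 1) τ = 0
        rw [xVec, torsionDiff_congr hsame (b' := (ePair M m).1) (Or.inl ⟨by simp, by simp⟩)]
        simp [torsionDiff])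
      simp [h0]
    · let u : UnitQuot M :=
        { num := [((0, 1), (ePair M m).1)]
          den := [ePair M m]
          length_eq := rfl
          num_isUnitPair := by
            intro p hp; rw [List.mem_singleton] at hp; subst hp
            exact ⟨by simpa [vecMulSL_one] using not_sameUpToSign_row_zero hM 1,
              (ePair_isUnitPair D hmM).1, hsame⟩
          den_isUnitPair := by
            intro p hp; rw [List.mem_singleton] at hp; subst hp
            exact ePair_isUnitPair D hmM }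
      have hinv : u.IsInvariant (Gamma1 M) := fun γ hγ => by
        obtain ⟨h1, h2⟩ := vclass_ePair hmM (Gamma1_le_Gamma1_of_dvd M hmM hγ)
        have h3 : vclass M (vecMulSL (0, 1) γ) = vclass M (0, 1) := by
          rw [vclass_eq_iff]
          rw [Gamma1_mem] at hγ
          refine Or.inl ?_
          simp only [vecMulSL, ← ZMod.intCast_zmod_eq_zero_iff_dvd]
          push_cast
          simp [hγ.2.1, hγ.2.2]
        simp [u, pclasses, pclass, pairMulSL, h1, h2, h3]
      obtain ⟨X, hX⟩ := hunit u hinv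
      refine ⟨X, ?_⟩
      rwa [show xEl D hmM hM = unitFn M u hinv from Subtype.ext (funext fun τ => by
        show xVec M m (0, 1) τ = u.toFun τ
        simp [u, UnitQuot.toFun, prodFun, xVec])]
  obtain ⟨X, hX⟩ := hx
  obtain ⟨B, hB⟩ := hunit (D.unit hmM D.main) (D.unit_invariant_M hmM D.main)
  choose V hV using fun i => hunit (D.unit hmM i).flip
    (fun γ hγ => (D.unit_invariant_M hmM i γ hγ).symm)
  obtain ⟨q, hq, hG, -⟩ := exists_interp (φ := RingHom.id ℂ) D hmM hM (isLevelCoeff_id M)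
    (mem_intSub_id M G)
  choose P k hP using fun i => exists_eq_eval_mul (isLevelCoeff_id M) D hmM (hq i)
  refine ⟨∑ i ∈ Finset.range (Fintype.card (Orb M m)),
    ((∑ j ∈ Finset.range ((P i).natDegree + 1),
      cst M (RingHom.id ℂ) (σ ((P i).coeff j)) * B ^ j) * (∏ l, V l) ^ k i) * X ^ i, ?_⟩
  rw [hG]
  refine ConjAll.sum _ fun i _ => ConjAll.mul ?_ (hX.pow i)
  rw [hP i]
  refine ConjAll.mul ?_ ((ConjAll.prod _ fun l _ => hV l).pow _)
  rw [Polynomial.eval₂_eq_sum_range]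
  exact ConjAll.sum _ fun j _ => (conjAll_cst σ s _).mul (hB.pow j)

theorem isConjFn_of_cuspExp_one {σ : ℂ ≃+* ℂ} {G G' : modRing M}
    (h1 : cuspExp M 1 G' = coeffMap (σ : ℂ →+* ℂ) (cuspExp M 1 G)) : IsConjFn M σ G G' := by
  rw [cuspExp_one_eq, cuspExp_one_eq] at h1
  refine qExpand_injective M ?_
  rw [h1]
  ext k
  by_cases hk : (M : ℤ) ∣ k
  · obtain ⟨j, rfl⟩ := hk
    rw [coeffMap_coeff, qExpand_coeff_mul, qExpand_coeff_mul, coeffMap_coeff]
  · rw [coeffMap_coeff, qExpand_coeff_of_not_dvd M _ hk, qExpand_coeff_of_not_dvd M _ hk, map_zero]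

theorem ConjAll.isConjFn {σ : ℂ ≃+* ℂ} {s : ℤ} {G G' : modRing M}
    (h : ConjAll (σ : ℂ →+* ℂ) s G G') : IsConjFn M σ G G' :=
  isConjFn_of_cuspExp_one (h 1 1 (isConjMat_one s))

theorem conjAll_of_isConjFn {m : ℕ} [NeZero m] (D : BaseData m) (hmM : m ∣ M) (hM : 1 < M)
    {σ : ℂ ≃+* ℂ} {s : ℤ} (hs : (σ : ℂ →+* ℂ) (zetaU M) = zetaU M ^ s) (hu : IsUnit (s : ZMod M))
    {G G' : modRing M} (h : IsConjFn M σ G G') : ConjAll (σ : ℂ →+* ℂ) s G G' := by
  obtain ⟨G'', hG''⟩ := exists_conjAll D hmM hM hs hu G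
  rwa [show G' = G'' from qExp1_injective M (h.trans hG''.isConjFn.symm)]

end FermatLib.Galois.DS
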