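import Fermat.Agent.Galois.DS.CoverDefs
import Mathlib.LinearAlgebra.Lagrange

/-!
# `modRing M` is generated over the base level by `x`; the étale relation
-/

set_option autoImplicit false
set_option linter.unusedSectionVars false

noncomputable section

open Complex UpperHalfPlane Function ModularCurve CongruenceSubgroup
open scoped MatrixGroups

namespace FermatLib.Galois.DS

open FermatLib.Igusa

variable {M m : ℕ} [NeZero M] [NeZero m] {R : Type*} [CommRing R] {φ : R →+* ℂ}

/-- An invariant element of `levelRing` is an element of the base ring. -/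
theorem exists_mem_baseSub_of_invariant (hmM : m ∣ M) (f : levelRing φ M)
    (hf : ∀ δ ∈ Gamma1 m, δ⁻¹ • f = f) :
    ∃ G : modRing M, G ∈ baseSub M φ m ∧ ∀ τ, (G : ℍ → ℂ) τ = (f : ℍ → ℂ) τ := by
  have hinv : ∀ δ ∈ Gamma1 m, ∀ τ : ℍ, (f : ℍ → ℂ) (δ • τ) = (f : ℍ → ℂ) τ := fun δ hδ τ => by
    conv_rhs => rw [← hf δ hδ, coe_levelSmul, inv_inv]
  have hmem : (f : ℍ → ℂ) ∈ modRing M := mem_modRing_of_hasExp M
    (fun γ hγ τ => hinv γ (Gamma1_le_Gamma1_of_dvd M hmM hγ) τ) fun A => by
      obtain ⟨F, hF⟩ := f.2.2 A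
      exact ⟨_, hF⟩
  refine ⟨⟨_, hmem⟩, ⟨fun A => ?_, fun δ hδ τ => hinv δ hδ τ⟩, fun τ => rfl⟩
  obtain ⟨F, hF⟩ := f.2.2 A
  exact ⟨F, (cuspExp_eq_of_hasExp M (G := ⟨_, hmem⟩) hF).symm⟩

variable (D : BaseData m) (hmM : m ∣ M) (hM : 1 < M) (hR : IsLevelCoeff φ M)

/-- Right translation as a permutation of the orbit. -/
def Orb.actEquiv {δ : SL(2, ℤ)} (hδ : δ ∈ Gamma1 m) : Orb M m ≃ Orb M m where
  toFun c := c.act δ hδ
  invFun c := c.act δ⁻¹ (inv_mem hδ)
  left_inv c := c.act_inv hδ
  right_inv c := by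
    have h := c.act_inv (inv_mem hδ)
    simp only [inv_inv] at h
    exact h

/-- `1 / ∏ (x_c - x_c')`. -/
def lagWeight (c : Orb M m) : levelRing φ M :=
  ∏ c' ∈ Finset.univ.erase c, Ring.inverse (xOrb D hmM hM hR c - xOrb D hmM hM hR c')

/-- The Lagrange basis. -/
def lagBasis (c : Orb M m) : Polynomial (levelRing φ M) :=
  Polynomial.C (lagWeight D hmM hM hR c) *
    ∏ c' ∈ Finset.univ.erase c, (Polynomial.X - Polynomial.C (xOrb D hmM hM hR c'))

theorem natDegree_lagBasis_lt (c : Orb M m) :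
    (lagBasis D hmM hM hR c).natDegree < Fintype.card (Orb M m) := by
  have hpos : 0 < Fintype.card (Orb M m) := Fintype.card_pos_iff.mpr ⟨c⟩
  refine lt_of_le_of_lt ((Polynomial.natDegree_C_mul_le _ _).trans
    ((Polynomial.natDegree_prod_le _ _).trans (Finset.sum_le_card_nsmul _ _ 1 fun c' _ => ?_))) ?_
  · exact (Polynomial.natDegree_X_sub_C_le _)
  · simp [Finset.card_erase_of_mem, hpos]

theorem eval_lagBasis (c c₀ : Orb M m) :
    (lagBasis D hmM hM hR c).eval (xOrb D hmM hM hR c₀) = if c = c₀ then 1 else 0 := by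
  rw [lagBasis, Polynomial.eval_mul, Polynomial.eval_C, Polynomial.eval_prod]
  split
  · subst c₀
    rw [lagWeight, ← Finset.prod_mul_distrib]
    refine Finset.prod_eq_one fun c' hc' => ?_
    rw [Polynomial.eval_sub, Polynomial.eval_X, Polynomial.eval_C]
    exact Ring.inverse_mul_cancel _
      (isUnit_xOrb_sub D hmM hM hR (Finset.ne_of_mem_erase hc').symm)
  · rename_i hne
    rw [Finset.prod_eq_zero (i := c₀) (Finset.mem_erase.mpr ⟨Ne.symm hne, Finset.mem_univ _⟩)
      (by simp), mul_zero]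

/-- The action of a matrix on `levelRing` as a ring homomorphism. -/
def levelSmulHom (δ : SL(2, ℤ)) : levelRing φ M →+* levelRing φ M :=
  MulSemiringAction.toRingHom SL(2, ℤ) _ δ

theorem levelSmulHom_apply (δ : SL(2, ℤ)) (f : levelRing φ M) : levelSmulHom δ f = δ • f := rfl

theorem map_lagBasis (c : Orb M m) {δ : SL(2, ℤ)} (hδ : δ ∈ Gamma1 m) :
    (lagBasis D hmM hM hR c).map (levelSmulHom δ⁻¹) = lagBasis D hmM hM hR (c.act δ hδ) := by
  have herase : (Finset.univ.erase c).image (Orb.actEquiv hδ) =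
      Finset.univ.erase (c.act δ hδ) := by
    rw [Finset.image_erase (Orb.actEquiv hδ).injective,
      Finset.image_univ_of_surjective (Orb.actEquiv hδ).surjective]
    rfl
  have hinv : ∀ z : levelRing φ M, IsUnit z →
      levelSmulHom δ⁻¹ (Ring.inverse z) = Ring.inverse (levelSmulHom δ⁻¹ z) := fun z hz => by
    refine (hz.map (levelSmulHom δ⁻¹)).mul_left_cancel ?_
    rw [← map_mul, Ring.mul_inverse_cancel _ hz, map_one,
      Ring.mul_inverse_cancel _ (hz.map (levelSmulHom δ⁻¹))]
  rw [lagBasis, Polynomial.map_mul, Polynomial.map_C, Polynomial.map_prod, lagBasis, ← herase,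
    Finset.prod_image (fun a _ b _ h => (Orb.actEquiv hδ).injective h)]
  congr 1
  · congr 1
    rw [lagWeight, map_prod, lagWeight, ← herase,
      Finset.prod_image (fun a _ b _ h => (Orb.actEquiv hδ).injective h)]
    refine Finset.prod_congr rfl fun c' hc' => ?_
    rw [hinv _ (isUnit_xOrb_sub D hmM hM hR (Finset.ne_of_mem_erase hc').symm), map_sub,
      levelSmulHom_apply, levelSmulHom_apply, smul_xOrb D hmM hM hR c hδ,
      smul_xOrb D hmM hM hR c' hδ]
    rfl
  · refine Finset.prod_congr rfl fun c' _ => ?_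
    rw [Polynomial.map_sub, Polynomial.map_X, Polynomial.map_C, levelSmulHom_apply,
      smul_xOrb D hmM hM hR c' hδ]
    rfl

/-- Interpolation: every function is a polynomial in `x` over the base. -/
theorem exists_interp {G : modRing M} (hG : G ∈ intSub M φ) :
    ∃ q : ℕ → modRing M, (∀ i, q i ∈ baseSub M φ m) ∧
      G = ∑ i ∈ Finset.range (Fintype.card (Orb M m)), q i * xEl D hmM hM ^ i ∧
      ∀ i τ, (q i : ℍ → ℂ) τ = ∑ c : Orb M m,
        (G : ℍ → ℂ) (c.rep • τ) *
          ((((lagBasis D hmM hM hR c).coeff i : levelRing φ M) : ℍ → ℂ) τ) := by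
  set Q : Polynomial (levelRing φ M) :=
    ∑ c : Orb M m, Polynomial.C (pullOrb hG c) * lagBasis D hmM hM hR c with hQ
  have hQinv : ∀ δ ∈ Gamma1 m, Q.map (levelSmulHom δ⁻¹) = Q := fun δ hδ => by
    rw [hQ, Polynomial.map_sum]
    refine Fintype.sum_equiv (Orb.actEquiv hδ) _ _ fun c => ?_
    rw [Polynomial.map_mul, Polynomial.map_C, levelSmulHom_apply, smul_pullOrb hG c hδ,
      map_lagBasis D hmM hM hR c hδ]
    rfl
  choose q hq hqv using fun i => exists_mem_baseSub_of_invariant (m := m) hmM (Q.coeff i)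
    fun δ hδ => by
      conv_rhs => rw [← hQinv δ hδ]
      rw [Polynomial.coeff_map, levelSmulHom_apply]
  refine ⟨q, hq, ?_, fun i τ => ?_⟩
  · have hdeg : Q.natDegree < Fintype.card (Orb M m) := by
      refine lt_of_le_of_lt (Polynomial.natDegree_sum_le_of_forall_le _ _
        (n := Fintype.card (Orb M m) - 1) fun c _ => ?_) ?_
      · have := natDegree_lagBasis_lt D hmM hM hR c
        exact (Polynomial.natDegree_C_mul_le _ _).trans (by omega)
      · have hpos : 0 < Fintype.card (Orb M m) := Fintype.card_pos_iff.mpr ⟨Orb.one⟩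
        omega
    have heval : Q.eval (xOrb D hmM hM hR (Orb.one : Orb M m)) =
        pullOrb hG (Orb.one : Orb M m) := by
      rw [hQ, Polynomial.eval_finsetSum, Finset.sum_eq_single (Orb.one : Orb M m)]
      · rw [Polynomial.eval_mul, eval_lagBasis, if_pos rfl, Polynomial.eval_C, mul_one]
      · intro c _ hc
        rw [Polynomial.eval_mul, eval_lagBasis, if_neg hc, mul_zero]
      · intro h; exact absurd (Finset.mem_univ _) h
    have hone : ∀ (H : modRing M) (τ : ℍ),
        (H : ℍ → ℂ) ((Orb.one : Orb M m).rep • τ) = (H : ℍ → ℂ) τ := fun H τ => by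
      have h := apply_eq_of_vclass_eq H.2.2.1
        (γ := (Orb.one : Orb M m).rep) (γ' := 1) (Orb.one : Orb M m).vclass_rep τ
      rwa [one_smul] at h
    refine Subtype.ext (funext fun τ => ?_)
    have h1 := congrFun (congrArg Subtype.val heval) τ
    rw [Polynomial.eval_eq_sum_range' hdeg, coe_pullOrb, hone] at h1
    rw [← h1]
    simp only [AddSubmonoidClass.coe_finsetSum, Finset.sum_apply, MulMemClass.coe_mul,
      SubmonoidClass.coe_pow, Pi.mul_apply, Pi.pow_apply, hqv]
    refine Finset.sum_congr rfl fun i _ => ?_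
    rw [coe_xOrb, ← coe_xEl D hmM hM, hone]
  · rw [hqv, hQ, Polynomial.finsetSum_coeff]
    simp only [AddSubmonoidClass.coe_finsetSum, Finset.sum_apply, Polynomial.coeff_C_mul,
      MulMemClass.coe_mul, Pi.mul_apply, coe_pullOrb]

include hR in
/-- The equation of `x` over the base. -/
theorem exists_coverPoly :
    ∃ P : Polynomial (modRing M), P.Monic ∧ P.natDegree ≤ Fintype.card (Orb M m) ∧
      (∀ i, P.coeff i ∈ baseSub M φ m) ∧
      P.eval (xEl D hmM hM) = 0 ∧
      (∃ s ∈ intSub M φ, P.derivative.eval (xEl D hmM hM) * s = 1) ∧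
      ∀ (τ : ℍ) (z : ℂ), (∑ i ∈ Finset.range (Fintype.card (Orb M m) + 1),
          (P.coeff i : ℍ → ℂ) τ * z ^ i) =
        ∏ c : Orb M m, (z - (xFun (M := M) (m := m)) (c.rep • τ)) := by
  classical
  set Q : Polynomial (levelRing φ M) :=
    ∏ c : Orb M m, (Polynomial.X - Polynomial.C (xOrb D hmM hM hR c)) with hQ
  have hQinv : ∀ δ ∈ Gamma1 m, Q.map (levelSmulHom δ⁻¹) = Q := fun δ hδ => by
    rw [hQ, Polynomial.map_prod]
    refine Fintype.prod_equiv (Orb.actEquiv hδ) _ _ fun c => ?_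
    rw [Polynomial.map_sub, Polynomial.map_X, Polynomial.map_C, levelSmulHom_apply,
      smul_xOrb D hmM hM hR c hδ]
    rfl
  choose q hq hqv using fun i => exists_mem_baseSub_of_invariant (m := m) hmM (Q.coeff i)
    fun δ hδ => by
      conv_rhs => rw [← hQinv δ hδ]
      rw [Polynomial.coeff_map, levelSmulHom_apply]
  set d := Fintype.card (Orb M m)
  have hmon : Q.Monic := Polynomial.monic_prod_of_monic _ _ fun c _ => Polynomial.monic_X_sub_C _
  have hdom : Nontrivial (levelRing φ M) := ⟨⟨0, 1, fun h => by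
    have := congrFun (congrArg Subtype.val h) UpperHalfPlane.I
    simp at this⟩⟩
  have hdeg : Q.natDegree = d := by
    rw [hQ, Polynomial.natDegree_prod_of_monic _ _ fun c _ => Polynomial.monic_X_sub_C _]
    simp [d]
  set P : Polynomial (modRing M) := ∑ i ∈ Finset.range (d + 1), Polynomial.monomial i (q i)
    with hP
  have hcoeff : ∀ i, i ≤ d → P.coeff i = q i := fun i hi => by
    simp [hP, Polynomial.finsetSum_coeff, Polynomial.coeff_monomial, hi]
  have hcoeff' : ∀ i, d < i → P.coeff i = 0 := fun i hi => by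
    simp only [hP, Polynomial.finsetSum_coeff, Polynomial.coeff_monomial]
    exact Finset.sum_eq_zero fun j hj => if_neg (by have := Finset.mem_range.mp hj; omega)
  have hqd : q d = 1 := Subtype.ext (funext fun τ => by
    rw [hqv, ← hdeg, hmon.coeff_natDegree]; rfl)
  have hone : ∀ (H : modRing M) (τ : ℍ),
      (H : ℍ → ℂ) ((Orb.one : Orb M m).rep • τ) = (H : ℍ → ℂ) τ := fun H τ => by
    have h := apply_eq_of_vclass_eq H.2.2.1
      (γ := (Orb.one : Orb M m).rep) (γ' := 1) (Orb.one : Orb M m).vclass_rep τ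
    rwa [one_smul] at h
  have hnum : ∀ (τ : ℍ) (z : ℂ), (∑ i ∈ Finset.range (d + 1), (P.coeff i : ℍ → ℂ) τ * z ^ i) =
      ∏ c : Orb M m, (z - (xFun (M := M) (m := m)) (c.rep • τ)) := fun τ z => by
    let ev : levelRing φ M →+* ℂ := (Pi.evalRingHom (fun _ : ℍ => ℂ) τ).comp (levelRing φ M).subtype
    have h1 : (Q.map ev).eval z = ∏ c : Orb M m, (z - (xFun (M := M) (m := m)) (c.rep • τ)) := by
      rw [hQ, Polynomial.map_prod, Polynomial.eval_prod]
      simp [ev, coe_xOrb]
    rw [← h1, Polynomial.eval_eq_sum_range' (n := d + 1)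
      (lt_of_le_of_lt Polynomial.natDegree_map_le (by omega))]
    refine Finset.sum_congr rfl fun i hi => ?_
    rw [hcoeff i (by have := Finset.mem_range.mp hi; omega), Polynomial.coeff_map, hqv]
    rfl
  have hmonP : P.Monic := by
    refine Polynomial.monic_of_natDegree_le_of_coeff_eq_one d ?_ (by rw [hcoeff d le_rfl, hqd])
    exact Polynomial.natDegree_le_iff_coeff_eq_zero.mpr hcoeff'
  refine ⟨P, hmonP, Polynomial.natDegree_le_iff_coeff_eq_zero.mpr hcoeff', fun i => ?_, ?_, ?_,
    hnum⟩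
  · rcases le_or_gt i d with h | h
    · rw [hcoeff i h]; exact hq i
    · rw [hcoeff' i h]; exact zero_mem _
  · refine Subtype.ext (funext fun τ => ?_)
    rw [Polynomial.eval_eq_sum_range' (n := d + 1)
      (Nat.lt_succ_of_le (Polynomial.natDegree_le_iff_coeff_eq_zero.mpr hcoeff'))]
    simp only [AddSubmonoidClass.coe_finsetSum, Finset.sum_apply, MulMemClass.coe_mul,
      SubmonoidClass.coe_pow, Pi.mul_apply, Pi.pow_apply, coe_xEl]
    rw [hnum]
    refine Finset.prod_eq_zero (Finset.mem_univ (Orb.one : Orb M m)) ?_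
    rw [← coe_xEl D hmM hM, hone, sub_self]
  · set w : levelRing φ M := ∏ c ∈ Finset.univ.erase (Orb.one : Orb M m),
      (xOrb D hmM hM hR Orb.one - xOrb D hmM hM hR c) with hw
    have hwu : IsUnit w := IsUnit.prod_iff.mpr fun c hc =>
      isUnit_xOrb_sub D hmM hM hR (Finset.ne_of_mem_erase hc).symm
    have hwQ : Q.derivative.eval (xOrb D hmM hM hR Orb.one) = w := by
      rw [hQ, ← Finset.mul_prod_erase _ _ (Finset.mem_univ (Orb.one : Orb M m)),
        Polynomial.derivative_mul, Polynomial.derivative_X_sub_C, one_mul, Polynomial.eval_add,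
        Polynomial.eval_mul, Polynomial.eval_sub, Polynomial.eval_X, Polynomial.eval_C, sub_self,
        zero_mul, add_zero, Polynomial.eval_prod, hw]
      simp
    have hder : ∀ τ : ℍ, ((P.derivative.eval (xEl D hmM hM) : modRing M) : ℍ → ℂ) τ =
        (w : ℍ → ℂ) τ := fun τ => by
      let ev : levelRing φ M →+* ℂ :=
        (Pi.evalRingHom (fun _ : ℍ => ℂ) τ).comp (levelRing φ M).subtype
      let ev' : modRing M →+* ℂ :=
        (Pi.evalRingHom (fun _ : ℍ => ℂ) τ).comp (modRing M).val.toRingHom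
      have hPQ : P.map ev' = Q.map ev := Polynomial.ext fun i => by
        rw [Polynomial.coeff_map, Polynomial.coeff_map]
        rcases le_or_gt i d with h | h
        · rw [hcoeff i h]; exact hqv i τ
        · rw [hcoeff' i h, map_zero, Polynomial.coeff_eq_zero_of_natDegree_lt (by omega), map_zero]
      have h2 : ev' (P.derivative.eval (xEl D hmM hM)) =
          ev (Q.derivative.eval (xOrb D hmM hM hR Orb.one)) := by
        rw [← Polynomial.eval_map_apply, ← Polynomial.eval_map_apply, ← Polynomial.derivative_map,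
          ← Polynomial.derivative_map, hPQ]
        congr 1
        show (xEl D hmM hM : ℍ → ℂ) τ = (xFun (M := M) (m := m)) ((Orb.one : Orb M m).rep • τ)
        rw [← coe_xEl D hmM hM, hone]
      rw [hwQ] at h2
      exact h2
    have hsinv : ∀ γ ∈ Gamma1 M, ∀ τ : ℍ,
        ((hwu.unit⁻¹ : (levelRing φ M)ˣ) : levelRing φ M).1 (γ • τ) =
        ((hwu.unit⁻¹ : (levelRing φ M)ˣ) : levelRing φ M).1 τ := fun γ hγ τ => by
      have hmul : ∀ σ : ℍ, (w : ℍ → ℂ) σ *
          ((hwu.unit⁻¹ : (levelRing φ M)ˣ) : levelRing φ M).1 σ = 1 := fun σ => by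
        exact congrFun (congrArg Subtype.val hwu.mul_val_inv) σ
      have hwe : (w : ℍ → ℂ) (γ • τ) = (w : ℍ → ℂ) τ := by
        rw [← hder, ← hder, (P.derivative.eval (xEl D hmM hM) : modRing M).2.2.1 γ hγ]
      have h3 := hmul (γ • τ)
      rw [hwe] at h3
      have hne : (w : ℍ → ℂ) τ ≠ 0 := left_ne_zero_of_mul_eq_one (hmul τ)
      exact mul_left_cancel₀ hne (h3.trans (hmul τ).symm)
    let s : modRing M := ⟨_, mem_modRing_of_hasExp M hsinv fun A => by
      obtain ⟨F, hF⟩ := ((hwu.unit⁻¹ : (levelRing φ M)ˣ) : levelRing φ M).2.2 A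
      exact ⟨_, hF⟩⟩
    refine ⟨s, fun A => ?_, Subtype.ext (funext fun τ => ?_)⟩
    · obtain ⟨F, hF⟩ := ((hwu.unit⁻¹ : (levelRing φ M)ˣ) : levelRing φ M).2.2 A
      exact ⟨F, (cuspExp_eq_of_hasExp M (G := s) hF).symm⟩
    · show ((P.derivative.eval (xEl D hmM hM) : modRing M) : ℍ → ℂ) τ * s.1 τ = 1
      rw [hder]
      exact congrFun (congrArg Subtype.val hwu.mul_val_inv) τ

end FermatLib.Galois.DS
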