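import Fermat.Agent.Galois.DS.BaseRing

/-!
# `modRing M` over the base level: definitions and the conjugates of the coordinate `x`
-/

set_option autoImplicit false
set_option linter.unusedSectionVars false

noncomputable section

open Complex UpperHalfPlane Function ModularCurve CongruenceSubgroup
open scoped MatrixGroups

namespace FermatLib.Galois.DS

open FermatLib.Igusa

variable (M m : ℕ) [NeZero M] [NeZero m]

/-- The pair of `e`. -/
def ePair : IdxPair := scalePair (M / m) eIdx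

/-- `(℘(a) - ℘(w)) / (℘(w) - ℘(2w))`, `w = 1/m`. -/
def xVec (a : ℤ × ℤ) (τ : ℍ) : ℂ :=
  torsionDiff M a (ePair M m).1 τ / torsionDiff M (ePair M m).1 (ePair M m).2 τ

/-- The vectors of the orbit of `(0, 1)` under `Γ₁(m)`, modulo `M` and sign. -/
def Orb : Type :=
  {c : Finset (ZMod M × ZMod M) // ∃ γ ∈ Gamma1 m, vclass M (vecMulSL (0, 1) γ) = c}

instance : Fintype (Orb M m) :=
  letI := Classical.decPred fun c : Finset (ZMod M × ZMod M) =>
    ∃ γ ∈ Gamma1 m, vclass M (vecMulSL (0, 1) γ) = c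
  Subtype.fintype _

instance : DecidableEq (Orb M m) := Classical.decEq _

/-- A matrix representing an element of the orbit. -/
def Orb.rep (c : Orb M m) : SL(2, ℤ) := c.2.choose

variable {M m}

theorem Orb.rep_mem (c : Orb M m) : c.rep ∈ Gamma1 m := c.2.choose_spec.1

theorem Orb.vclass_rep (c : Orb M m) : vclass M (vecMulSL (0, 1) c.rep) = c.1 :=
  c.2.choose_spec.2

/-- The base point. -/
def Orb.one : Orb M m := ⟨_, 1, one_mem _, rfl⟩

theorem vclass_vecMulSL_eq {a b : ℤ × ℤ} (h : vclass M a = vclass M b) (δ : SL(2, ℤ)) :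
    vclass M (vecMulSL a δ) = vclass M (vecMulSL b δ) :=
  (vclass_eq_iff M _ _).mpr (sameUpToSign_vecMulSL ((vclass_eq_iff M _ _).mp h) δ)

/-- Right translation on the orbit. -/
def Orb.act (c : Orb M m) (δ : SL(2, ℤ)) (hδ : δ ∈ Gamma1 m) : Orb M m :=
  ⟨vclass M (vecMulSL (0, 1) (c.rep * δ)), c.rep * δ, mul_mem c.rep_mem hδ, rfl⟩

theorem Orb.vclass_act (c : Orb M m) {δ : SL(2, ℤ)} (hδ : δ ∈ Gamma1 m) :
    vclass M (vecMulSL (vecMulSL (0, 1) c.rep) δ) =
      vclass M (vecMulSL (0, 1) (c.act δ hδ).rep) := by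
  rw [(c.act δ hδ).vclass_rep, ← vecMulSL_mul]
  rfl

theorem Orb.act_inv (c : Orb M m) {δ : SL(2, ℤ)} (hδ : δ ∈ Gamma1 m) :
    (c.act δ hδ).act δ⁻¹ (inv_mem hδ) = c := by
  refine Subtype.ext ?_
  show vclass M (vecMulSL (0, 1) ((c.act δ hδ).rep * δ⁻¹)) = c.1
  rw [vecMulSL_mul, vclass_vecMulSL_eq (c.vclass_act hδ).symm δ⁻¹, ← vecMulSL_mul,
    mul_inv_cancel, vecMulSL_one, c.vclass_rep]

theorem eq_or_neg_mem_Gamma1_of_vclass {A : SL(2, ℤ)}
    (h : vclass M (vecMulSL (0, 1) A) = vclass M (0, 1)) : A ∈ Gamma1 M ∨ -A ∈ Gamma1 M := by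
  have hdet := congrArg (Int.cast : ℤ → ZMod M) ((Matrix.det_fin_two _).symm.trans A.2)
  push_cast at hdet
  rcases (vclass_eq_iff M _ _).mp h with ⟨h1, h2⟩ | ⟨h1, h2⟩ <;>
    simp only [vecMulSL, ← ZMod.intCast_zmod_eq_zero_iff_dvd] at h1 h2 <;> push_cast at h1 h2 <;>
    simp only [zero_mul, one_mul, zero_add, sub_zero, add_zero] at h1 h2
  · left
    rw [Gamma1_mem]
    exact ⟨by linear_combination hdet - ((A 0 0 : ℤ) : ZMod M) * h2 +
      ((A 0 1 : ℤ) : ZMod M) * h1, sub_eq_zero.mp h2, h1⟩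
  · right
    rw [Gamma1_mem]
    refine ⟨?_, ?_, ?_⟩ <;>
      simp only [Matrix.SpecialLinearGroup.coe_neg, Matrix.neg_apply, Int.cast_neg]
    · linear_combination hdet - ((A 0 0 : ℤ) : ZMod M) * h2 + ((A 0 1 : ℤ) : ZMod M) * h1
    · linear_combination -h2
    · linear_combination -h1

theorem apply_eq_of_vclass_eq {G : ℍ → ℂ} (hG : ∀ γ ∈ Gamma1 M, ∀ τ : ℍ, G (γ • τ) = G τ)
    {γ γ' : SL(2, ℤ)} (h : vclass M (vecMulSL (0, 1) γ) = vclass M (vecMulSL (0, 1) γ')) (τ : ℍ) :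
    G (γ • τ) = G (γ' • τ) := by
  have h' := vclass_vecMulSL_eq h γ'⁻¹
  rw [← vecMulSL_mul, ← vecMulSL_mul, mul_inv_cancel, vecMulSL_one] at h'
  rcases eq_or_neg_mem_Gamma1_of_vclass h' with hm | hm
  · rw [← hG _ hm (γ' • τ), ← mul_smul, inv_mul_cancel_right]
  · rw [← hG _ hm (γ' • τ), ← mul_smul, neg_mul, inv_mul_cancel_right, ModularGroup.SL_neg_smul]

theorem vclass_ePair (hmM : m ∣ M) {γ : SL(2, ℤ)} (hγ : γ ∈ Gamma1 m) :
    vclass M (vecMulSL (ePair M m).1 γ) = vclass M (ePair M m).1 ∧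
      vclass M (vecMulSL (ePair M m).2 γ) = vclass M (ePair M m).2 := by
  rw [Gamma1_mem] at hγ
  obtain ⟨-, h2, h3⟩ := hγ
  have key : ∀ k : ℤ, SameUpToSign m (vecMulSL (0, k) γ) (0, k) := fun k => by
    left
    simp only [vecMulSL, ← ZMod.intCast_zmod_eq_zero_iff_dvd]
    push_cast
    simp [h2, h3]
  constructor
  · rw [vclass_eq_iff]
    have := (sameUpToSign_scale hmM _ _).mpr (key 1)
    simpa [ePair, scalePair, eIdx, vecMulSL, mul_assoc] using this
  · rw [vclass_eq_iff]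
    have := (sameUpToSign_scale hmM _ _).mpr (key 2)
    simpa [ePair, scalePair, eIdx, vecMulSL, mul_assoc] using this

theorem xVec_congr {a b : ℤ × ℤ} (h : vclass M a = vclass M b) : xVec M m a = xVec M m b := by
  funext τ
  rw [xVec, xVec, torsionDiff_congr ((vclass_eq_iff M a b).mp h)
    ((vclass_eq_iff M _ _).mp (rfl : vclass M (ePair M m).1 = _))]

theorem xVec_smul (hmM : m ∣ M) (a : ℤ × ℤ) {γ : SL(2, ℤ)} (hγ : γ ∈ Gamma1 m) (τ : ℍ) :
    xVec M m a (γ • τ) = xVec M m (vecMulSL a γ) τ := by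
  obtain ⟨h1, h2⟩ := vclass_ePair hmM hγ
  rw [vclass_eq_iff] at h1 h2
  rw [xVec, xVec, torsionDiff_smul, torsionDiff_smul,
    mul_div_mul_left _ _ (pow_ne_zero 2 (denom_ne_zero _ τ)),
    torsionDiff_congr (a' := vecMulSL a γ) (Or.inl ⟨by simp, by simp⟩) h1,
    torsionDiff_congr h1 h2]

/-- The coordinate `x` as a function. -/
def xFun : ℍ → ℂ := xVec M m (0, 1)

theorem xFun_smul_rep (hmM : m ∣ M) (c : Orb M m) (τ : ℍ) :
    (xFun (M := M) (m := m)) (c.rep • τ) = xVec M m (vecMulSL (0, 1) c.rep) τ :=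
  xVec_smul hmM _ c.rep_mem τ

theorem not_sameUpToSign_row_zero (hM : 1 < M) (γ : SL(2, ℤ)) :
    ¬ SameUpToSign M (vecMulSL (0, 1) γ) (0, 0) := by
  intro h
  have hd := (Matrix.det_fin_two _).symm.trans γ.2
  have hdiv : (M : ℤ) ∣ γ 1 0 ∧ (M : ℤ) ∣ γ 1 1 := by
    rcases h with h | h <;> simpa [vecMulSL] using h
  have h1 : (M : ℤ) ∣ 1 := by
    rw [← hd]
    exact dvd_sub (hdiv.2.mul_left _) (hdiv.1.mul_left _)
  have := Int.eq_one_of_dvd_one (Int.natCast_nonneg M) h1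
  omega

theorem ePair_isUnitPair (D : BaseData m) (hmM : m ∣ M) :
    IsUnitPair M (ePair M m).1 (ePair M m).2 :=
  isUnitPair_scalePair hmM D.e_isUnitPair

/-- The difference of two conjugates of `x`. -/
def diffQuot (D : BaseData m) (hmM : m ∣ M) (hM : 1 < M) {c c' : Orb M m} (hne : c ≠ c') :
    UnitQuot M where
  num := [(vecMulSL (0, 1) c.rep, vecMulSL (0, 1) c'.rep)]
  den := [ePair M m]
  length_eq := rfl
  num_isUnitPair := by
    intro p hp
    rw [List.mem_singleton] at hp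
    subst hp
    refine ⟨not_sameUpToSign_row_zero hM _, not_sameUpToSign_row_zero hM _, fun h => hne ?_⟩
    refine Subtype.ext ?_
    rw [← c.vclass_rep, ← c'.vclass_rep]
    exact (vclass_eq_iff M _ _).mpr h
  den_isUnitPair := by
    intro p hp
    rw [List.mem_singleton] at hp
    subst hp
    exact ePair_isUnitPair D hmM

theorem diffQuot_toFun (D : BaseData m) (hmM : m ∣ M) (hM : 1 < M) {c c' : Orb M m}
    (hne : c ≠ c') (τ : ℍ) :
    (diffQuot D hmM hM hne).toFun τ =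
      xVec M m (vecMulSL (0, 1) c.rep) τ - xVec M m (vecMulSL (0, 1) c'.rep) τ := by
  simp only [UnitQuot.toFun, diffQuot, prodFun, List.map_cons, List.map_nil, List.prod_cons,
    List.prod_nil, mul_one, xVec]
  rw [← sub_div]
  congr 1
  simp only [torsionDiff, ← sub_div]
  ring

section Elements

variable {R : Type*} [CommRing R] {φ : R →+* ℂ}

theorem exists_hasExp_xVec (hR : IsLevelCoeff φ M) (D : BaseData m) (hmM : m ∣ M) {a : ℤ × ℤ}
    (ha : ¬ SameUpToSign M a (0, 0)) (A : SL(2, ℤ)) :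
    ∃ F : LaurentSeries R, HasExp M (fun τ => xVec M m a (A • τ)) (coeffMap φ F) := by
  by_cases hw : SameUpToSign M a (ePair M m).1
  · refine ⟨0, ?_⟩
    rw [map_zero]
    refine HasExp.zero.congr fun τ => ?_
    rw [xVec, torsionDiff_congr hw (b' := (ePair M m).1) (Or.inl ⟨by simp, by simp⟩)]
    simp [torsionDiff]
  · let u : UnitQuot M :=
      { num := [(a, (ePair M m).1)]
        den := [ePair M m]
        length_eq := rfl
        num_isUnitPair := by
          intro p hp; rw [List.mem_singleton] at hp; subst hp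
          exact ⟨ha, (ePair_isUnitPair D hmM).1, hw⟩
        den_isUnitPair := by
          intro p hp; rw [List.mem_singleton] at hp; subst hp
          exact ePair_isUnitPair D hmM }
    obtain ⟨F, hF, -⟩ := u.exists_hasExp hR A
    exact ⟨F, hF.congr fun τ => by simp [u, UnitQuot.toFun, prodFun, xVec]⟩

theorem xFun_smul_Gamma1 (hmM : m ∣ M) {γ : SL(2, ℤ)} (hγ : γ ∈ Gamma1 M) (τ : ℍ) :
    (xFun (M := M) (m := m)) (γ • τ) = xFun (M := M) (m := m) τ := by
  rw [xFun, xVec_smul hmM _ (Gamma1_le_Gamma1_of_dvd M hmM hγ)]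
  refine congrFun (xVec_congr ((vclass_eq_iff M _ _).mpr (Or.inl ?_))) τ
  rw [Gamma1_mem] at hγ
  simp only [vecMulSL, ← ZMod.intCast_zmod_eq_zero_iff_dvd]
  push_cast
  simp [hγ.2.1, hγ.2.2]

variable (D : BaseData m) (hmM : m ∣ M) (hM : 1 < M)

/-- The coordinate `x`. -/
def xEl : modRing M :=
  ⟨xFun (M := M) (m := m), mem_modRing_of_hasExp M (fun _ hγ τ => xFun_smul_Gamma1 hmM hγ τ)
    fun A => by
      obtain ⟨F, hF⟩ := exists_hasExp_xVec (isLevelCoeff_id M) D hmM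
        (by simpa [vecMulSL_one] using not_sameUpToSign_row_zero hM 1) A
      exact ⟨_, hF⟩⟩

theorem coe_xEl : ((xEl D hmM hM : modRing M) : ℍ → ℂ) = xFun (M := M) (m := m) := rfl

theorem xEl_mem_intSub (hR : IsLevelCoeff φ M) : xEl D hmM hM ∈ intSub M φ := fun A => by
  obtain ⟨F, hF⟩ := exists_hasExp_xVec hR D hmM
    (by simpa [vecMulSL_one] using not_sameUpToSign_row_zero hM 1) A
  exact ⟨F, (cuspExp_eq_of_hasExp M hF).symm⟩

/-- `x ∘ γ_c` at level `M`. -/
def xOrb (hR : IsLevelCoeff φ M) (c : Orb M m) : levelRing φ M :=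
  ⟨fun τ => (xFun (M := M) (m := m)) (c.rep • τ), fun γ hγ τ => by
      beta_reduce
      rw [xFun_smul_rep hmM, xFun_smul_rep hmM,
        xVec_smul hmM _ (Gamma1_le_Gamma1_of_dvd M hmM (gamma_le_Gamma1 M hγ))]
      exact congrFun (xVec_congr (congrArg Prod.fst
        (pclass_pairMulSL_of_mem_Gamma hγ (vecMulSL (0, 1) c.rep, vecMulSL (0, 1) c.rep)))) τ,
    fun A => by
      obtain ⟨F, hF⟩ := exists_hasExp_xVec hR D hmM
        (not_sameUpToSign_row_zero hM c.rep) A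
      exact ⟨F, hF.congr fun τ => by beta_reduce; rw [xFun_smul_rep hmM]⟩⟩

theorem coe_xOrb (hR : IsLevelCoeff φ M) (c : Orb M m) (τ : ℍ) :
    ((xOrb D hmM hM hR c : levelRing φ M) : ℍ → ℂ) τ =
      (xFun (M := M) (m := m)) (c.rep • τ) := rfl

theorem isUnit_xOrb_sub (hR : IsLevelCoeff φ M) {c c' : Orb M m} (hne : c ≠ c') :
    IsUnit (xOrb D hmM hM hR c - xOrb D hmM hM hR c') := by
  have h : xOrb D hmM hM hR c - xOrb D hmM hM hR c' = (diffQuot D hmM hM hne).toLevelRing hR :=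
    Subtype.ext (funext fun τ => by
      rw [UnitQuot.coe_toLevelRing, diffQuot_toFun, ← xFun_smul_rep hmM, ← xFun_smul_rep hmM]
      rfl)
  rw [h]
  exact IsUnit.of_mul_eq_one _ ((diffQuot D hmM hM hne).toLevelRing_mul_flip hR)

/-- `G ∘ γ_c` at level `M`. -/
def pullOrb {G : modRing M} (hG : G ∈ intSub M φ) (c : Orb M m) : levelRing φ M :=
  ⟨fun τ => (G : ℍ → ℂ) (c.rep • τ), fun γ hγ τ => by
      have hm : c.rep * γ * c.rep⁻¹ ∈ CongruenceSubgroup.Gamma M :=
        (Gamma_normal M).conj_mem γ hγ c.rep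
      beta_reduce
      rw [← G.2.2.1 _ (gamma_le_Gamma1 M hm) (c.rep • τ), ← mul_smul, ← mul_smul,
        inv_mul_cancel_right],
    fun A => by
      obtain ⟨F, hF⟩ := hG (c.rep * A)
      exact ⟨F, hF ▸ (hasExp_cuspExp M (c.rep * A) G).congr fun τ => by beta_reduce; rw [mul_smul]⟩⟩

omit [NeZero m] in
theorem coe_pullOrb {G : modRing M} (hG : G ∈ intSub M φ) (c : Orb M m) (τ : ℍ) :
    ((pullOrb hG c : levelRing φ M) : ℍ → ℂ) τ = (G : ℍ → ℂ) (c.rep • τ) := rfl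

theorem smul_xOrb (hR : IsLevelCoeff φ M) (c : Orb M m) {δ : SL(2, ℤ)} (hδ : δ ∈ Gamma1 m) :
    δ⁻¹ • xOrb D hmM hM hR c = xOrb D hmM hM hR (c.act δ hδ) :=
  Subtype.ext (funext fun τ => by
    rw [coe_levelSmul, inv_inv, coe_xOrb, coe_xOrb, xFun_smul_rep hmM, xFun_smul_rep hmM,
      xVec_smul hmM _ hδ]
    exact congrFun (xVec_congr (c.vclass_act hδ)) τ)

theorem smul_pullOrb {G : modRing M} (hG : G ∈ intSub M φ) (c : Orb M m) {δ : SL(2, ℤ)}
    (hδ : δ ∈ Gamma1 m) : δ⁻¹ • pullOrb hG c = pullOrb hG (c.act δ hδ) :=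
  Subtype.ext (funext fun τ => by
    rw [coe_levelSmul, inv_inv, coe_pullOrb, coe_pullOrb, ← mul_smul]
    exact apply_eq_of_vclass_eq G.2.2.1 (by rw [(c.act δ hδ).vclass_rep]; rfl) τ)

end Elements

end FermatLib.Galois.DS
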