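import Fermat.Agent.Galois.DS.LevelRing
import Fermat.Agent.Igusa.LevelUnitsDefs
import Fermat.Agent.Modular.Gamma0Coset
import Mathlib.RingTheory.RootsOfUnity.Lemmas
import Mathlib.RingTheory.LocalRing.MaximalIdeal.Basic

/-!
# Cusp expansions of `modRing M` as expansions in `exp (2 π i τ / M)`
-/

set_option autoImplicit false

noncomputable section

open Complex UpperHalfPlane Function ModularCurve CongruenceSubgroup Filter
open scoped MatrixGroups ModularForm Manifold

namespace FermatLib.Galois.DS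

open FermatLib.Igusa FermatLib.Modular

theorem uParam_one_eq (τ : ℍ) : uParam 1 τ = Periodic.qParam 1 (τ : ℂ) := by
  simp [uParam]

theorem hasExp_qExpansion {G : ℍ → ℂ} (hG : G ∈ qMero) (hb : IsBoundedAtImInfty G) :
    HasExp 1 G (HahnSeries.ofPowerSeries ℤ ℂ (qExpansion 1 G)) := by
  have h0 : HahnSeries.ofPowerSeries ℤ ℂ (qExpansion 1 G) =
      HahnSeries.single 0 1 * HahnSeries.ofPowerSeries ℤ ℂ (qExpansion 1 G) := by simp
  rw [h0, hasExp_single_mul_iff]
  intro τ
  simpa [smul_eq_mul, uParam_one_eq] using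
    UpperHalfPlane.hasSum_qExpansion one_pos (periodic_comp_ofComplex_of_vadd hG.1) hG.2.1 hb τ

theorem hasExp_discriminant_one : HasExp 1 ModularForm.discriminant qExpDelta :=
  hasExp_qExpansion discriminant_mem_qMero
    ModularForm.discriminant_isZeroAtImInfty.isBoundedAtImInfty

theorem hasExp_qExpL {G : ℍ → ℂ} (hG : G ∈ qMero) : HasExp 1 G (qExpL G) := by
  obtain ⟨m, hm⟩ := hG.2.2
  have h1 := hasExp_qExpansion (mul_mem hG (pow_mem discriminant_mem_qMero m)) hm
  have h2 := (hasExp_discriminant_one.pow m).inv fun τ =>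
    pow_ne_zero m (ModularForm.discriminant_ne_zero τ)
  have h3 : HasExp 1 G (HahnSeries.ofPowerSeries ℤ ℂ
      (qExpansion 1 (G * ModularForm.discriminant ^ m)) * (qExpDelta ^ m)⁻¹) :=
    (h1.mul h2).congr fun τ => by
      simp only [Pi.mul_apply, Pi.pow_apply]
      rw [mul_inv_cancel_right₀ (pow_ne_zero m (ModularForm.discriminant_ne_zero τ))]
  rwa [← qExpL_mul_pow hG hm, mul_inv_cancel_right₀ (pow_ne_zero m qExpDelta_ne_zero)] at h3

theorem coeff_mul_eq_zero_of_lt {R : Type*} [CommRing R] {F G : LaurentSeries R} {a b k : ℤ}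
    (hF : ∀ i < a, F.coeff i = 0) (hG : ∀ i < b, G.coeff i = 0) (hk : k < a + b) :
    (F * G).coeff k = 0 := by
  rw [HahnSeries.coeff_mul]
  refine Finset.sum_eq_zero fun ij hij => ?_
  rcases lt_or_ge ij.1 a with h | h
  · rw [hF _ h, zero_mul]
  · have hs : ij.1 + ij.2 = k := (Finset.mem_antidiagonal.mp hij).2.2
    rw [hG _ (by omega), mul_zero]

theorem coeff_qExpDelta_pow_eq_zero (m : ℕ) : ∀ k < (m : ℤ), (qExpDelta ^ m).coeff k = 0 := by
  induction m with
  | zero =>
    intro k hk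
    rw [pow_zero, ← HahnSeries.C_one, HahnSeries.C_apply,
      HahnSeries.coeff_single_of_ne (by omega)]
  | succ m ih =>
    intro k hk
    rw [pow_succ]
    refine coeff_mul_eq_zero_of_lt ih (b := 1) (fun i hi => ?_) (by push_cast at hk ⊢; omega)
    rcases lt_or_ge i 0 with h | h
    · exact ofPowerSeries_coeff_of_neg _ h
    · rw [show i = ((0 : ℕ) : ℤ) by push_cast; omega, qExpDelta,
        HahnSeries.ofPowerSeries_apply_coeff]
      rw [UpperHalfPlane.qExpansion_coeff_zero one_pos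
        (analyticAt_cuspFunction_of_mem discriminant_mem_qMero
          ModularForm.discriminant_isZeroAtImInfty.isBoundedAtImInfty)
        (periodic_comp_ofComplex_of_vadd discriminant_vadd_one)]
      exact ModularForm.discriminant_isZeroAtImInfty.valueAtInfty_eq_zero

section

variable (M : ℕ) [NeZero M]

theorem uParam_heckeDiag_smul (τ : ℍ) :
    uParam M (ModularForm.heckeDiagMatrix M • τ) = uParam 1 τ := by
  rw [uParam, uParam, ModularForm.coe_heckeDiagMatrix_smul (NeZero.ne M)]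
  rw [Periodic.qParam, Periodic.qParam]
  congr 1
  have hM : (M : ℂ) ≠ 0 := by exact_mod_cast NeZero.ne M
  push_cast
  field_simp

theorem hasExp_cuspExp (A : SL(2, ℤ)) (G : modRing M) :
    HasExp M (fun τ => (G : ℍ → ℂ) (A • τ)) (cuspExp M A G) := fun τ => by
  have h := hasExp_qExpL (cuspFun_mem_qMero M A G.2)
    ((ModularForm.heckeDiagMatrix M)⁻¹ • τ)
  rw [← uParam_heckeDiag_smul M ((ModularForm.heckeDiagMatrix M)⁻¹ • τ), smul_inv_smul] at h
  simp only [cuspFun, smul_inv_smul] at h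
  exact h

theorem cuspExp_eq_of_hasExp {A : SL(2, ℤ)} {G : modRing M} {F : LaurentSeries ℂ}
    (h : HasExp M (fun τ => (G : ℍ → ℂ) (A • τ)) F) : cuspExp M A G = F :=
  (hasExp_cuspExp M A G).unique h

omit [NeZero M] in
theorem hasExp_qExp1 (G : modRing M) : HasExp 1 (G : ℍ → ℂ) (qExp1 M G) :=
  hasExp_qExpL (weakMod_le_qMero (modularGroup_T_mem_Gamma1 M) G.2)

theorem cuspExp_one_eq (G : modRing M) : cuspExp M 1 G = qExpand ℂ M (qExp1 M G) := by
  refine cuspExp_eq_of_hasExp M (F := qExpand ℂ M (qExp1 M G)) ?_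
  exact ((hasExp_qExp1 M G).scale (n := M)).congr fun τ => by rw [one_smul]

theorem coeff_qExpand_eq_zero_of_lt {R : Type*} [CommRing R] {F : LaurentSeries R} {b : ℤ}
    (hF : ∀ k < b, F.coeff k = 0) {k : ℤ} (hk : k < (M : ℤ) * b) :
    (qExpand R M F).coeff k = 0 := by
  by_cases hd : (M : ℤ) ∣ k
  · obtain ⟨j, rfl⟩ := hd
    rw [qExpand_coeff_mul]
    exact hF j (lt_of_mul_lt_mul_left hk (Int.natCast_nonneg M))
  · exact qExpand_coeff_of_not_dvd M F hd

/-- A `Γ₁(M)`-invariant function with an expansion at every cusp is in `modRing M`. -/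
theorem mem_modRing_of_hasExp {f : ℍ → ℂ} (hinv : ∀ γ ∈ Gamma1 M, ∀ τ : ℍ, f (γ • τ) = f τ)
    (hexp : ∀ A : SL(2, ℤ), ∃ F : LaurentSeries ℂ, HasExp M (fun τ => f (A • τ)) F) :
    f ∈ modRing M := by
  refine mem_weakMod.mpr ⟨?_, hinv, fun A => ?_⟩
  · obtain ⟨F, hF⟩ := hexp 1
    exact (hF.congr fun τ => by rw [one_smul]).mdifferentiable
  · obtain ⟨F, hF⟩ := hexp A
    obtain ⟨a, ha⟩ : ∃ a : ℤ, ∀ k < a, F.coeff k = 0 :=
      ⟨F.order, fun k hk => HahnSeries.coeff_eq_zero_of_lt_order hk⟩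
    refine ⟨a.natAbs,
      (hF.mul ((hasExp_discriminant_one.pow a.natAbs).scale (n := M))).isBoundedAtImInfty
        fun k hk => coeff_mul_eq_zero_of_lt ha (b := (M : ℤ) * a.natAbs) ?_ ?_⟩
    · intro j hj
      exact coeff_qExpand_eq_zero_of_lt M (b := (a.natAbs : ℤ)) (coeff_qExpDelta_pow_eq_zero _) hj
    · have h1 : (a.natAbs : ℤ) ≤ (M : ℤ) * a.natAbs :=
        le_mul_of_one_le_left (by positivity) (by exact_mod_cast Nat.pos_of_ne_zero (NeZero.ne M))
      omega

end

section Coeff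

variable (M : ℕ) [NeZero M]

/-- Functions whose expansions at all cusps have coefficients in the image of `φ`. -/
def intSub {R : Type*} [CommRing R] (φ : R →+* ℂ) : Subring (modRing M) where
  carrier := {G | ∀ A : SL(2, ℤ), cuspExp M A G ∈ (coeffMap φ).range}
  mul_mem' := fun ha hb A => by rw [map_mul]; exact mul_mem (ha A) (hb A)
  one_mem' := fun A => by rw [map_one]; exact one_mem _
  add_mem' := fun ha hb A => by rw [map_add]; exact add_mem (ha A) (hb A)
  zero_mem' := fun A => by rw [map_zero]; exact zero_mem _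
  neg_mem' := fun ha A => by rw [map_neg]; exact neg_mem (ha A)

theorem mem_intSub_id (G : modRing M) : G ∈ intSub M (RingHom.id ℂ) := fun A =>
  ⟨cuspExp M A G, by ext; simp⟩

theorem isLevelCoeff_id : IsLevelCoeff (RingHom.id ℂ) M where
  injective := fun _ _ h => h
  exists_zeta := ⟨zetaU M, rfl, fun k hk w hw => by
    refine isUnit_iff_ne_zero.mpr fun h0 => hk ?_
    rw [h0, map_zero, eq_comm, sub_eq_zero, eq_comm] at hw
    exact ((isPrimitiveRoot_zetaU M).zpow_eq_one_iff_dvd k).mp hw⟩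

/-- Coefficient rings: `M` invertible and containing the `M`-th roots of unity. -/
theorem isLevelCoeff_of_isUnit {S : Subring ℂ} (hζ : zetaU M ∈ S) (hM : IsUnit ((M : S))) :
    IsLevelCoeff S.subtype M where
  injective := Subtype.val_injective
  exists_zeta := by
    refine ⟨⟨zetaU M, hζ⟩, rfl, fun k hk w hw => ?_⟩
    set z : S := ⟨zetaU M, hζ⟩
    have hz : IsPrimitiveRoot z M := IsPrimitiveRoot.of_map_of_injective (f := S.subtype)
      (isPrimitiveRoot_zetaU M) Subtype.val_injective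
    have hkm : (0 : ℤ) ≤ k % M := Int.emod_nonneg k (by exact_mod_cast NeZero.ne M)
    obtain ⟨j, hj⟩ : ∃ j : ℕ, (j : ℤ) = k % M := ⟨(k % M).toNat, Int.toNat_of_nonneg hkm⟩
    have hjM : j < M := by
      have := Int.emod_lt_of_pos k (b := (M : ℤ)) (by exact_mod_cast Nat.pos_of_ne_zero (NeZero.ne M))
      omega
    have hj0 : 0 < j := by
      rcases Nat.eq_zero_or_pos j with rfl | h
      · exact absurd (Int.dvd_of_emod_eq_zero hj.symm) hk
      · exact h
    have hw' : w = 1 - z ^ j := by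
      apply Subtype.ext
      show (w : ℂ) = _
      rw [show (w : ℂ) = S.subtype w from rfl, hw]
      push_cast
      congr 1
      rw [← zpow_natCast, hj]
      conv_lhs => rw [← Int.mul_ediv_add_emod k M, zpow_add₀ (zetaU_ne_zero M), zpow_mul,
        zpow_natCast, (isPrimitiveRoot_zetaU M).pow_eq_one, one_zpow, one_mul]
    obtain ⟨M', hM'⟩ : ∃ M', M = M' + 1 := ⟨M - 1, by omega⟩
    have hprod : ∏ i ∈ Finset.range M', (1 - z ^ (i + 1)) = (M : S) := by
      subst hM'
      rw [hz.prod_one_sub_pow_eq_order]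
      push_cast
      rfl
    have hdvd : w ∣ (M : S) := by
      rw [← hprod, hw', show j = j - 1 + 1 by omega]
      exact Finset.dvd_prod_of_mem _ (Finset.mem_range.mpr (by omega))
    exact isUnit_of_dvd_unit hdvd hM

omit [NeZero M] in
theorem isUnit_natCast_of_prime_mem {O : Subring ℂ} [IsLocalRing O] {p : ℕ} (hp : p.Prime)
    (hpM : ¬ p ∣ M) (hpO : (p : O) ∈ IsLocalRing.maximalIdeal O) : IsUnit ((M : O)) := by
  obtain ⟨x, y, hxy⟩ := Int.isCoprime_iff_gcd_eq_one.mpr
    (show Int.gcd (M : ℤ) (p : ℤ) = 1 by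
      rw [Int.gcd_natCast_natCast, Nat.gcd_comm]; exact hp.coprime_iff_not_dvd.mpr hpM)
  by_contra hn
  have hmem : (1 : O) ∈ IsLocalRing.maximalIdeal O := by
    have h := congrArg (Int.cast : ℤ → O) hxy
    push_cast at h
    rw [← h]
    exact add_mem (Ideal.mul_mem_left _ _ hn) (Ideal.mul_mem_left _ _ hpO)
  exact hmem isUnit_one

theorem isLevelCoeff_subtype {O : Subring ℂ} [IsLocalRing O] {p : ℕ} (hp : p.Prime)
    (hpM : ¬ p ∣ M) (hpO : (p : O) ∈ IsLocalRing.maximalIdeal O)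
    (hζ : Complex.exp (2 * Real.pi * Complex.I / M) ∈ O) : IsLevelCoeff O.subtype M :=
  isLevelCoeff_of_isUnit M hζ (isUnit_natCast_of_prime_mem M hp hpM hpO)

/-- Lifting to `SL(2, ℤ)`. -/
theorem exists_lift_modM {a b c d : ZMod M} (h : a * d - b * c = 1) :
    ∃ g : SL(2, ℤ), ((g 0 0 : ℤ) : ZMod M) = a ∧ ((g 0 1 : ℤ) : ZMod M) = b ∧
      ((g 1 0 : ℤ) : ZMod M) = c ∧ ((g 1 1 : ℤ) : ZMod M) = d := by
  obtain ⟨g, hg⟩ := exists_colMod_eq (N := M) (a := a) (c := c)
    ⟨d, -b, by linear_combination h⟩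
  simp only [colMod, Prod.mk.injEq] at hg
  have hdet : ((g 0 0 : ℤ) : ZMod M) * (g 1 1 : ℤ) - (g 0 1 : ℤ) * (g 1 0 : ℤ) = 1 := by
    exact_mod_cast congrArg (Int.cast : ℤ → ZMod M) ((Matrix.det_fin_two _).symm.trans g.2)
  rw [hg.1, hg.2] at hdet
  set t : ZMod M := d * (b - (g 0 1 : ℤ)) - b * (d - (g 1 1 : ℤ))
  obtain ⟨j, hj⟩ := ZMod.intCast_surjective t
  refine ⟨g * ModularGroup.T ^ j, ?_, ?_, ?_, ?_⟩ <;>
    simp [Matrix.SpecialLinearGroup.coe_mul, ModularGroup.coe_T_zpow, Matrix.mul_apply,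
      Fin.sum_univ_two, hg, hj, t]
  · linear_combination (b - ((g 0 1 : ℤ) : ZMod M)) * h - b * (h - hdet)
  · linear_combination (d - ((g 1 1 : ℤ) : ZMod M)) * h - d * (h - hdet)

end Coeff

end FermatLib.Galois.DS
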