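import Mathlib.LinearAlgebra.Projectivization.Action
import Mathlib.GroupTheory.GroupAction.Quotient
import Mathlib.LinearAlgebra.Eigenspace.Minpoly
import Mathlib.LinearAlgebra.Eigenspace.Triangularizable
import Mathlib.LinearAlgebra.Charpoly.Basic
import Mathlib.FieldTheory.IsAlgClosed.Basic
import Mathlib.GroupTheory.Index

/-!
# Finite groups acting on a plane, in order prime to the characteristic

Such a group either has a subgroup of index at most two with two common eigenlines, or has at
most sixty elements modulo scalars (the fixed-point count on the projective line).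
-/

set_option autoImplicit false
set_option linter.style.haveILetI false

noncomputable section

open scoped LinearAlgebra.Projectivization
open MulAction Module

namespace FermatLib.Galois.DS

variable {k : Type*} [Field k] [IsAlgClosed k] {V : Type*} [AddCommGroup V] [Module k V]
  [Module.Finite k V]

/-- An endomorphism of finite order prime to the characteristic of a plane which is not a scalar
has two independent eigenvectors with distinct eigenvalues. -/
theorem exists_two_eigenvectors (hV : finrank k V = 2) (f : End k V) {m : ℕ} (hm : (m : k) ≠ 0)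
    (hf : f ^ m = 1) (hns : ∀ c : k, f ≠ c • 1) :
    ∃ (a b : k) (v w : V), a ≠ b ∧ v ≠ 0 ∧ w ≠ 0 ∧ f v = a • v ∧ f w = b • w ∧
      ∀ (u : V) (c : k), u ≠ 0 → f u = c • u → u ∈ Submodule.span k {v} ∨ u ∈ Submodule.span k {w} := by
  have : Nontrivial V := Module.nontrivial_of_finrank_eq_succ hV
  obtain ⟨a, ha⟩ := End.exists_eigenvalue f
  obtain ⟨v, hv⟩ := ha.exists_hasEigenvector
  have hfv : f v = a • v := hv.apply_eq_smul
  set g : End k V := f - a • 1 with hg
  have hgv : g v = 0 := by simp [hg, hfv]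
  have hg0 : g ≠ 0 := fun h => hns a (sub_eq_zero.mp h)
  have hker : LinearMap.ker g = Submodule.span k {v} := by
    refine (Submodule.eq_of_le_of_finrank_le ((Submodule.span_singleton_le_iff_mem _ _).mpr hgv) ?_).symm
    rw [finrank_span_singleton hv.2]
    by_contra hlt
    have h2 : LinearMap.ker g = ⊤ :=
      Submodule.eq_top_of_finrank_eq (le_antisymm (Submodule.finrank_le _) (by omega))
    exact hg0 (LinearMap.ker_eq_top.mp h2)
  have hrange : finrank k (LinearMap.range g) = 1 := by
    have := g.finrank_range_add_finrank_ker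
    rw [hker, finrank_span_singleton hv.2, hV] at this
    omega
  obtain ⟨⟨w, hwr⟩, hw0, hwspan⟩ := finrank_eq_one_iff'.mp hrange
  have hw : w ≠ 0 := fun h => hw0 (Subtype.ext h)
  have hcomm : g (f w - a • w) = g (g w) := by simp [hg]
  obtain ⟨c, hc⟩ := hwspan ⟨g w, LinearMap.mem_range_self g w⟩
  have hgw : g w = c • w := (congrArg Subtype.val hc).symm
  have hc0 : c ≠ 0 := by
    intro h0
    -- `g` would square to zero, so `f` would be unipotent times a scalar
    have hsq : g * g = 0 := by
      ext u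
      obtain ⟨d, hd⟩ := hwspan ⟨g u, LinearMap.mem_range_self g u⟩
      have : g u = d • w := (congrArg Subtype.val hd).symm
      simp [this, hgw, h0]
    have hpow : ∀ i : ℕ, f ^ i = a ^ i • (1 : End k V) + ((i : k) * a ^ (i - 1)) • g := by
      intro i
      induction i with
      | zero => simp
      | succ i ih =>
        rw [pow_succ, ih, show f = a • (1 : End k V) + g by simp [hg]]
        rcases i with _ | i
        · simp
        · simp only [add_mul, mul_add, smul_mul_assoc, mul_smul_comm, hsq, smul_zero, add_zero,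
            one_mul, mul_one, Nat.add_sub_cancel]
          push_cast
          module
    have h1 := hpow m
    rw [hf] at h1
    have h2 := congrArg (fun e : End k V => e v) h1
    simp [hgv] at h2
    have ham : a ^ m = 1 := by
      by_contra hne
      have h3 : (1 - a ^ m) • v = 0 := by rw [sub_smul, one_smul, ← h2, sub_self]
      exact hv.2 ((smul_eq_zero.mp h3).resolve_left (sub_ne_zero.mpr (Ne.symm hne)))
    rw [ham, one_smul, left_eq_add] at h1
    have ha0 : a ≠ 0 := by
      intro h0'
      have hm0 : m ≠ 0 := fun h => hm (by simp [h])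
      simp [h0', zero_pow hm0] at ham
    exact hg0 ((smul_eq_zero.mp h1).resolve_left (mul_ne_zero hm (pow_ne_zero _ ha0)))
  have hfw : f w = (a + c) • w := by
    have : f w - a • w = c • w := by simpa [hg] using hgw
    rw [add_smul, ← this]; abel
  refine ⟨a, a + c, v, w, by simp [hc0], hv.2, hw, hfv, hfw, fun u d hu hfu => ?_⟩
  have hgu : g u = (d - a) • u := by simp [hg, hfu, sub_smul]
  rcases eq_or_ne d a with rfl | hda
  · left
    rw [← hker, LinearMap.mem_ker, hgu, sub_self, zero_smul]
  · right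
    obtain ⟨e, he⟩ := hwspan ⟨g u, LinearMap.mem_range_self g u⟩
    have : (d - a) • u = e • w := by rw [← hgu]; exact (congrArg Subtype.val he).symm
    rw [Submodule.mem_span_singleton]
    exact ⟨(d - a)⁻¹ * e, by rw [mul_smul, ← this, inv_smul_smul₀ (sub_ne_zero.mpr hda)]⟩

/-- The numerical part of the fixed point count. -/
theorem le_sixty {n x y z : ℕ}
    (hx : 2 * x = n ∨ 3 * x = n ∨ 4 * x = n ∨ 5 * x = n ∨ 6 * x ≤ n)
    (hy : 2 * y = n ∨ 3 * y = n ∨ 4 * y = n ∨ 5 * y = n ∨ 6 * y ≤ n)
    (hz : 2 * z = n ∨ 3 * z = n ∨ 4 * z = n ∨ 5 * z = n ∨ 6 * z ≤ n)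
    (hx2 : 2 < x) (hy2 : 2 < y) (hz2 : 2 < z) (hsum : x + y + z = n + 2) : n ≤ 60 := by
  rcases hx with hx | hx | hx | hx | hx <;> rcases hy with hy | hy | hy | hy | hy <;> omega

variable {G : Type*} [Group G] [Finite G]

/-- **Fixed point count.** -/
theorem exists_index_le_two_eigenlines_or_card_le (hV : finrank k V = 2)
    (ρ : G →* End k V) (hG : (Nat.card G : k) ≠ 0) :
    (∃ (D : Subgroup G) (v w : V), D.index ≤ 2 ∧ D.index ≠ 0 ∧ LinearIndependent k ![v, w] ∧
      ∀ g ∈ D, ∃ a b : k, ρ g v = a • v ∧ ρ g w = b • w) ∨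
    Nat.card G ≤ 60 * Nat.card {g : G // ∃ c : k, ρ g = c • 1} := by
  classical
  letI : DistribMulAction G V := DistribMulAction.compHom V ρ
  haveI : SMulCommClass G k V := ⟨fun g c x => map_smul (ρ g) c x⟩
  have hsmul : ∀ (g : G) (x : V), g • x = ρ g x := fun g x => rfl
  have hfix : ∀ (g : G) (x : ℙ k V), g • x = x ↔ ∃ c : k, ρ g x.rep = c • x.rep := by
    intro g x
    conv_lhs => rw [← x.mk_rep, Projectivization.smul_mk, Projectivization.mk_eq_mk_iff']
    simp only [hsmul, eq_comm]
  let Z : Subgroup G :=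
    { carrier := {g | ∃ c : k, ρ g = c • 1}
      one_mem' := ⟨1, by simp⟩
      mul_mem' := by
        rintro g h ⟨c, hc⟩ ⟨d, hd⟩
        exact ⟨c * d, by rw [map_mul, hc, hd, smul_mul_smul_comm, one_mul]⟩
      inv_mem' := by
        rintro g ⟨c, hc⟩
        have hc0 : c ≠ 0 := by
          rintro rfl
          have : Nontrivial V := Module.nontrivial_of_finrank_eq_succ hV
          have h1 : ρ g * ρ g⁻¹ = 1 := by rw [← map_mul]; simp
          rw [hc, zero_smul, zero_mul] at h1
          exact zero_ne_one h1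
        refine ⟨c⁻¹, ?_⟩
        have h1 : ρ g * ρ g⁻¹ = 1 := by rw [← map_mul]; simp
        rw [hc, smul_mul_assoc, one_mul] at h1
        rw [← h1, inv_smul_smul₀ hc0] }
  have hZ : Nat.card {g : G // ∃ c : k, ρ g = c • 1} = Nat.card Z := rfl
  rw [hZ]
  have hpair : ∀ g : G, g ∉ Z → ∃ x y : ℙ k V, x ≠ y ∧ g • x = x ∧ g • y = y ∧
      ∀ z : ℙ k V, g • z = z → z = x ∨ z = y := by
    intro g hg
    obtain ⟨a, b, v, w, hab, hv, hw, hgv, hgw, hall⟩ := exists_two_eigenvectors hV (ρ g) hG
      (by rw [← map_pow, pow_card_eq_one', map_one]) (fun c hc => hg ⟨c, hc⟩)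
    have key : ∀ (u : V) (hu : u ≠ 0) (c : k), ρ g u = c • u →
        g • Projectivization.mk k u hu = Projectivization.mk k u hu := by
      intro u hu c hc
      rw [Projectivization.smul_mk, Projectivization.mk_eq_mk_iff']
      exact ⟨c, hc.symm⟩
    refine ⟨_, _, ?_, key v hv a hgv, key w hw b hgw, fun z hz => ?_⟩
    · intro h
      obtain ⟨t, ht⟩ := (Projectivization.mk_eq_mk_iff' _ _ _ _ _).mp h
      have h1 : a • v = b • v := by
        rw [← hgv, ← ht, map_smul, hgw, smul_comm]
      exact hab (smul_left_injective k hv h1)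
    · obtain ⟨c, hc⟩ := (hfix g z).mp hz
      rcases hall z.rep c z.rep_nonzero hc with h | h
      all_goals obtain ⟨t, ht⟩ := Submodule.mem_span_singleton.mp h
      · left; conv_lhs => rw [← z.mk_rep]
        exact (Projectivization.mk_eq_mk_iff' _ _ _ _ _).mpr ⟨t, ht⟩
      · right; conv_lhs => rw [← z.mk_rep]
        exact (Projectivization.mk_eq_mk_iff' _ _ _ _ _).mpr ⟨t, ht⟩
  have hlines : ∀ (D : Subgroup G) (x y : ℙ k V), D.index ≤ 2 → D.index ≠ 0 → x ≠ y →
      (∀ g ∈ D, g • x = x ∧ g • y = y) →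
      ∃ (D : Subgroup G) (v w : V), D.index ≤ 2 ∧ D.index ≠ 0 ∧ LinearIndependent k ![v, w] ∧
        ∀ g ∈ D, ∃ a b : k, ρ g v = a • v ∧ ρ g w = b • w := by
    intro D x y h2 h0 hxy hD
    refine ⟨D, x.rep, y.rep, h2, h0, ?_, fun g hg => ?_⟩
    · rw [LinearIndependent.pair_iff' x.rep_nonzero]
      intro t ht
      refine hxy ?_
      rw [← x.mk_rep, ← y.mk_rep, eq_comm, Projectivization.mk_eq_mk_iff']
      exact ⟨t, ht⟩
    · obtain ⟨a, ha⟩ := (hfix g x).mp (hD g hg).1
      obtain ⟨b, hb⟩ := (hfix g y).mp (hD g hg).2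
      exact ⟨a, b, ha, hb⟩
  by_cases hall : ∀ g : G, g ∈ Z
  · right
    have : Z = ⊤ := eq_top_iff.mpr fun g _ => hall g
    rw [this, Subgroup.card_top]
    omega
  -- the finite set of fixed points of non-scalars
  let X : Set (ℙ k V) := {x | ∃ g : G, g ∉ Z ∧ g • x = x}
  have hXfin : X.Finite := by
    have : X ⊆ ⋃ g ∈ {g : G | g ∉ Z}, {x | g • x = x} := fun x ⟨g, hg, hx⟩ =>
      Set.mem_biUnion hg hx
    refine Set.Finite.subset (Set.Finite.biUnion (Set.toFinite _) fun g hg => ?_) this
    obtain ⟨x, y, -, -, -, h⟩ := hpair g hg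
    exact (Set.toFinite {x, y}).subset fun z hz => h z hz
  have hZx : ∀ g ∈ Z, ∀ x : ℙ k V, g • x = x := by
    rintro g ⟨c, hc⟩ x
    exact (hfix g x).mpr ⟨c, by rw [hc]; simp⟩
  have hXstab : ∀ (g : G) (x : ℙ k V), x ∈ X → g • x ∈ X := by
    rintro g x ⟨h, hh, hx⟩
    refine ⟨g * h * g⁻¹, ?_, by rw [← mul_smul, inv_mul_cancel_right, mul_smul, hx]⟩
    intro hc
    obtain ⟨c, hc⟩ := hc
    refine hh ⟨c, ?_⟩
    have : ρ h = ρ g⁻¹ * ρ (g * h * g⁻¹) * ρ g := by rw [← map_mul, ← map_mul]; group
    rw [this, hc, mul_smul_comm, mul_one, smul_mul_assoc, ← map_mul, inv_mul_cancel, map_one]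
  letI : MulAction G X :=
    { smul := fun g x => ⟨g • (x : ℙ k V), hXstab g x x.2⟩
      one_smul := fun x => Subtype.ext (one_smul G (x : ℙ k V))
      mul_smul := fun g h x => Subtype.ext (mul_smul g h (x : ℙ k V)) }
  haveI : Fintype X := hXfin.fintype
  haveI : Fintype G := Fintype.ofFinite G
  let Ω := Quotient (orbitRel G X)
  haveI : Fintype Ω := Fintype.ofFinite Ω
  let d : Ω → ℕ := fun ω => (stabilizer G ω.out).index
  have hcardX : Fintype.card X = ∑ ω : Ω, d ω := by
    rw [Fintype.card_congr (selfEquivSigmaOrbitsQuotientStabilizer G X), Fintype.card_sigma]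
    refine Finset.sum_congr rfl fun ω _ => ?_
    rw [← Nat.card_eq_fintype_card]; rfl
  have hburn := sum_card_fixedBy_eq_card_orbits_mul_card_group G X
  have hfb : ∀ g : G, Fintype.card (fixedBy X g) = if g ∈ Z then Fintype.card X else 2 := by
    intro g
    split_ifs with hg
    · exact Fintype.card_congr (Equiv.subtypeUnivEquiv fun x => Subtype.ext (hZx g hg x))
    · obtain ⟨x, y, hxy, hx, hy, h⟩ := hpair g hg
      have : (Finset.univ.filter fun z : X => g • z = z) =
          {⟨x, g, hg, hx⟩, ⟨y, g, hg, hy⟩} := by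
        ext z
        simp only [Finset.mem_filter, Finset.mem_univ, true_and, Finset.mem_insert,
          Finset.mem_singleton, Subtype.ext_iff]
        refine ⟨fun hz => h _ hz, ?_⟩
        rintro (hz | hz) <;> exact (by rw [show ((g • z : X) : ℙ k V) = g • (z : ℙ k V) from rfl, hz]; assumption)
      rw [Fintype.card_of_subtype (Finset.univ.filter fun z : X => g • z = z) (fun z => by simp),
        this, Finset.card_pair (fun e => hxy (congrArg Subtype.val e))]
  simp only [hfb, Finset.sum_ite, Finset.sum_const, smul_eq_mul] at hburn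
  set n := Z.index with hn
  have hzc : (Finset.univ.filter fun g : G => g ∈ Z).card = Nat.card Z := by
    rw [Nat.card_eq_fintype_card, Fintype.card_subtype]
  have hGc : Fintype.card G = n * Nat.card Z := by
    rw [← Nat.card_eq_fintype_card, hn, mul_comm, Subgroup.card_mul_index]
  have hzc' : (Finset.univ.filter fun g : G => g ∉ Z).card = (n - 1) * Nat.card Z := by
    rw [Finset.filter_not, Finset.card_sdiff_of_subset (Finset.filter_subset _ _), hzc,
      Finset.card_univ, hGc, Nat.sub_mul, one_mul]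
  rw [hzc, hzc', hGc, hcardX] at hburn
  have hz0 : 0 < Nat.card Z := Nat.card_pos
  have heq : ∑ ω : Ω, d ω + 2 * (n - 1) = Fintype.card Ω * n := by
    apply Nat.eq_of_mul_eq_mul_left hz0
    calc Nat.card Z * (∑ ω : Ω, d ω + 2 * (n - 1))
        = Nat.card Z * ∑ ω : Ω, d ω + (n - 1) * Nat.card Z * 2 := by ring
      _ = Fintype.card Ω * (n * Nat.card Z) := by rw [hburn]
      _ = Nat.card Z * (Fintype.card Ω * n) := by ring
  have hd : ∀ ω : Ω, ∃ e, 2 ≤ e ∧ d ω * e = n ∧ 0 < d ω := by
    intro ω
    obtain ⟨g, hg, hgx⟩ := ω.out.2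
    have hle : Z ≤ stabilizer G ω.out := fun h hh => Subtype.ext (hZx h hh _)
    refine ⟨Z.relIndex (stabilizer G ω.out), ?_, ?_,
      Nat.pos_of_ne_zero Subgroup.index_ne_zero_of_finite⟩
    · by_contra hlt
      have h1 : Z.relIndex (stabilizer G ω.out) = 1 := by
        have : Z.relIndex (stabilizer G ω.out) ≠ 0 := Subgroup.index_ne_zero_of_finite
        omega
      exact hg (Subgroup.relIndex_eq_one.mp h1 (Subtype.ext hgx))
    · rw [mul_comm]; exact Subgroup.relIndex_mul_index hle
  have hn2 : 2 ≤ n := by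
    have h0 : n ≠ 0 := Subgroup.index_ne_zero_of_finite
    have h1 : n ≠ 1 := fun h => hall fun g => (Subgroup.index_eq_one.mp h) ▸ Subgroup.mem_top g
    omega
  by_cases hsmall : ∃ ω : Ω, d ω ≤ 2
  · -- a point with stabilizer of index at most two
    left
    obtain ⟨ω, hω⟩ := hsmall
    obtain ⟨g, hg, hgx⟩ := ω.out.2
    obtain ⟨p, q, hpq, hp, hq, hpqall⟩ := hpair g hg
    set S := stabilizer G ω.out
    by_cases hSfix : ∀ y : X, y ≠ ω.out → ∃ s ∈ S, s • y ≠ y
    swap
    · push Not at hSfix
      obtain ⟨y, hy, hSy⟩ := hSfix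
      exact hlines S ω.out y hω Subgroup.index_ne_zero_of_finite
        (fun e => hy (Subtype.ext e.symm)) fun s hs =>
        ⟨congrArg Subtype.val hs, congrArg Subtype.val (hSy s hs)⟩
    exfalso
    have hnormal : S.Normal := by
      rcases (show S.index = 1 ∨ S.index = 2 by
        have : S.index ≠ 0 := Subgroup.index_ne_zero_of_finite
        change S.index ≤ 2 at hω; omega) with h | h
      · rw [Subgroup.index_eq_one.mp h]; infer_instance
      · exact Subgroup.normal_of_index_eq_two h
    -- the other fixed point of `g` is fixed by all of `S`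
    obtain ⟨r, hr, hrx, hronly⟩ : ∃ r : ℙ k V, r ≠ (ω.out : ℙ k V) ∧ g • r = r ∧
        ∀ z : ℙ k V, g • z = z → z = (ω.out : ℙ k V) ∨ z = r := by
      rcases hpqall _ hgx with h | h
      · exact ⟨q, h ▸ hpq.symm, hq, fun z hz => (hpqall z hz).imp (fun e => e.trans h.symm) id⟩
      · exact ⟨p, h ▸ hpq, hp, fun z hz => (hpqall z hz).symm.imp (fun e => e.trans h.symm) id⟩
    obtain ⟨s, hs, hsy⟩ := hSfix ⟨r, g, hg, hrx⟩ (fun e => hr (congrArg Subtype.val e))
    -- if the orbit of the point is not a singleton, its partner is `r`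
    by_cases hS : S = ⊤
    · have hall' : ∀ h : G, h • (ω.out : ℙ k V) = ω.out := fun h =>
        congrArg Subtype.val (show h ∈ S from hS ▸ Subgroup.mem_top h)
      -- two orbits of size one
      have hr' : ∃ ω' : Ω, ω' ≠ ω ∧ d ω' ≤ 1 := by
        refine ⟨Quotient.mk _ ⟨r, g, hg, hrx⟩, ?_, ?_⟩
        · intro e
          rw [← Quotient.out_eq ω] at e
          obtain ⟨h, hh⟩ := Quotient.exact e
          exact hr (by rw [show r = h • (ω.out : ℙ k V) from (congrArg Subtype.val hh).symm, hall' h])
        · by_contra hgt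
          have hone : d ω = 1 := by simp only [d]; rw [show stabilizer G ω.out = ⊤ from hS]; simp
          set ω' : Ω := Quotient.mk _ ⟨r, g, hg, hrx⟩
          have hne : ω' ≠ ω := by
            intro e; rw [e, hone] at hgt; omega
          have hsum2 : ∀ x : Ω, x ≠ ω → 2 * d x ≤ n := fun x _ => by
            obtain ⟨e, he, hde, -⟩ := hd x
            rw [← hde, mul_comm 2]; exact Nat.mul_le_mul_left _ he
          have hsplit : ∑ x : Ω, d x = d ω + ∑ x ∈ Finset.univ.erase ω, d x :=
            (Finset.add_sum_erase _ _ (Finset.mem_univ ω)).symm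
          have hle : 2 * ∑ x ∈ Finset.univ.erase ω, d x ≤ (Fintype.card Ω - 1) * n := by
            rw [Finset.mul_sum, ← Finset.card_univ, ← Finset.card_erase_of_mem (Finset.mem_univ ω),
              ← smul_eq_mul (a := (Finset.univ.erase ω).card)]
            exact Finset.sum_le_card_nsmul _ _ _ fun x hx => hsum2 x (Finset.ne_of_mem_erase hx)
          have hcard : 2 ≤ Fintype.card Ω := Fintype.one_lt_card_iff.mpr ⟨_, _, hne⟩
          have hmem : d ω' ≤ ∑ x ∈ Finset.univ.erase ω, d x :=
            Finset.single_le_sum (fun x _ => Nat.zero_le _) (Finset.mem_erase.mpr ⟨hne, Finset.mem_univ _⟩)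
          have h3 : Fintype.card Ω ≤ 2 := by
            by_contra h3
            nlinarith [Nat.sub_add_cancel (show 1 ≤ Fintype.card Ω by omega),
              Nat.sub_add_cancel (show 1 ≤ n by omega)]
          have hΩ2 : Fintype.card Ω = 2 := by omega
          rw [hΩ2, hsplit, hone] at heq
          omega
      obtain ⟨ω', hne, hω'⟩ := hr'
      have htop : stabilizer G ω'.out = ⊤ := Subgroup.index_eq_one.mp (by
        have : (stabilizer G ω'.out).index ≠ 0 := Subgroup.index_ne_zero_of_finite
        simp only [d] at hω'; omega)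
      have hfix' : g • (ω'.out : ℙ k V) = ω'.out :=
        congrArg Subtype.val (show g ∈ stabilizer G ω'.out from htop ▸ Subgroup.mem_top g)
      rcases hronly _ hfix' with e | e
      · exact hne (by rw [← Quotient.out_eq ω', Subtype.ext e, Quotient.out_eq])
      · refine hsy (Subtype.ext ?_)
        show s • r = r
        rw [← e]
        exact congrArg Subtype.val (show s ∈ stabilizer G ω'.out from htop ▸ Subgroup.mem_top s)
    · obtain ⟨h, hh⟩ : ∃ h : G, h ∉ S := by
        by_contra hc; push Not at hc; exact hS (eq_top_iff.mpr fun x _ => hc x)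
      have hfixS : ∀ t ∈ S, t • (h • (ω.out : ℙ k V)) = h • (ω.out : ℙ k V) := by
        intro t ht
        have := hnormal.conj_mem t ht h⁻¹
        have h2 : (h⁻¹ * t * h⁻¹⁻¹) • (ω.out : ℙ k V) = ω.out := congrArg Subtype.val this
        rw [inv_inv, mul_smul, mul_smul, inv_smul_eq_iff] at h2
        exact h2
      have hgS : g ∈ S := Subtype.ext hgx
      rcases hronly _ (hfixS g hgS) with e | e
      · exact hh (Subtype.ext e)
      · refine hsy (Subtype.ext ?_)
        show s • r = r
        rw [← e]; exact hfixS s hs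
  · right
    push Not at hsmall
    rw [Nat.card_eq_fintype_card, hGc]
    refine Nat.mul_le_mul_right _ ?_
    have hhalf : ∀ ω, 2 * d ω ≤ n := fun ω => by
      obtain ⟨e, he, hde, -⟩ := hd ω
      rw [← hde, mul_comm 2]; exact Nat.mul_le_mul_left _ he
    have hbig : 2 * ∑ ω : Ω, d ω ≤ Fintype.card Ω * n := by
      rw [Finset.mul_sum, ← Finset.card_univ, ← smul_eq_mul (a := Finset.univ.card)]
      exact Finset.sum_le_card_nsmul _ _ _ fun x _ => hhalf x
    have hlow : 3 * Fintype.card Ω ≤ ∑ ω : Ω, d ω := by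
      rw [mul_comm, ← Finset.card_univ, ← smul_eq_mul (a := Finset.univ.card)]
      exact Finset.card_nsmul_le_sum _ _ _ fun x _ => hsmall x
    have hr3 : Fintype.card Ω ≤ 3 := by
      by_contra h3
      nlinarith [Nat.sub_add_cancel (show 1 ≤ n by omega)]
    have hcases : ∀ ω, 2 * d ω = n ∨ 3 * d ω = n ∨ 4 * d ω = n ∨ 5 * d ω = n ∨ 6 * d ω ≤ n := by
      intro ω
      obtain ⟨e, he, hde, -⟩ := hd ω
      rcases Nat.lt_or_ge e 6 with h6 | h6
      · interval_cases e <;> omega
      · right; right; right; right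
        rw [← hde, mul_comm 6]; exact Nat.mul_le_mul_left _ h6
    obtain ⟨eqv⟩ : Nonempty (Ω ≃ Fin (Fintype.card Ω)) := ⟨Fintype.equivFin Ω⟩
    have hsum : ∑ ω : Ω, d ω = ∑ i, d (eqv.symm i) := (Equiv.sum_comp eqv.symm d).symm
    generalize Fintype.card Ω = r at eqv hsum heq hlow hr3
    interval_cases r
    · simp only [Fin.sum_univ_zero] at hsum; omega
    · simp only [Fin.sum_univ_one] at hsum; omega
    · simp only [Fin.sum_univ_two] at hsum; omega
    · simp only [Fin.sum_univ_three] at hsum
      exact le_sixty (hcases (eqv.symm 0)) (hcases (eqv.symm 1)) (hcases (eqv.symm 2))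
        (hsmall _) (hsmall _) (hsmall _) (by omega)

end FermatLib.Galois.DS

end
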