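import Mathlib.LinearAlgebra.FreeModule.PID
import Mathlib.RingTheory.LocalRing.ResidueField.Basic
import Fermat.Prelude.Def_ModularCurve_JqCoeff
import Fermat.Agent.Galois.DS.KummerRep
import Fermat.Agent.Galois.DS.LevelData

/-!
# Integral expansions at a good place

The ring `intRing M O`: expansions over `O`, their reductions, lattices of bounded poles.
-/

set_option autoImplicit false
set_option linter.unusedSectionVars false

noncomputable section

open UpperHalfPlane CongruenceSubgroup ModularCurve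
open scoped MatrixGroups

namespace FermatLib.Galois.DS

open FermatLib.Modular

variable {M : ℕ} [NeZero M] {O : Subring ℂ} [IsDiscreteValuationRing O]

variable (M O) in
/-- `O` is a complete place of good reduction for `Γ₁(M)`, containing `ζ_M`. -/
structure GoodPlace : Prop where
  hM : 4 ∣ M ∨ 5 ∣ M
  hM5 : 5 ≤ M
  exists_prime : ∃ p : ℕ, p.Prime ∧ ¬ p ∣ M ∧ (p : O) ∈ IsLocalRing.maximalIdeal O
  hζ : Complex.exp (2 * Real.pi * Complex.I / M) ∈ O

instance instCommRingIntRing : CommRing (intRing M O) := inferInstance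

instance instAddCommGroupIntRing : AddCommGroup (intRing M O) :=
  (instCommRingIntRing (M := M) (O := O)).toAddCommGroup

instance instModuleIntRing : Module O (intRing M O) := Algebra.toModule

theorem mem_coeff (A : SL(2, ℤ)) (G : intRing M O) (n : ℤ) :
    (cuspExp M A (G : modRing M)).coeff n ∈ O :=
  (mem_intRing_iff M O _).mp G.2 A n

theorem eq_coeffMap_cuspExp (A : SL(2, ℤ)) (G : intRing M O) :
    ∃ x : LaurentSeries O, coeffMap O.subtype x = cuspExp M A (G : modRing M) := G.2 A

theorem coeffMap_subtype_injective : Function.Injective (coeffMap O.subtype) := fun x y h =>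
  HahnSeries.ext (funext fun n => Subtype.ext (by
    have := congrArg (fun z => HahnSeries.coeff z n) h
    simp only [coeffMap_coeff] at this
    exact this))

variable (M O) in
/-- The expansion at a cusp with coefficients in `O`. -/
def cuspExpO (A : SL(2, ℤ)) : intRing M O →+* LaurentSeries O where
  toFun G := (eq_coeffMap_cuspExp A G).choose
  map_one' := coeffMap_subtype_injective (by
    rw [(eq_coeffMap_cuspExp A 1).choose_spec, OneMemClass.coe_one, map_one, map_one])
  map_mul' G H := coeffMap_subtype_injective (by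
    rw [(eq_coeffMap_cuspExp A (G * H)).choose_spec, map_mul, (eq_coeffMap_cuspExp A G).choose_spec,
      (eq_coeffMap_cuspExp A H).choose_spec, MulMemClass.coe_mul, map_mul])
  map_zero' := coeffMap_subtype_injective (by
    rw [(eq_coeffMap_cuspExp A 0).choose_spec, ZeroMemClass.coe_zero, map_zero, map_zero])
  map_add' G H := coeffMap_subtype_injective (by
    rw [(eq_coeffMap_cuspExp A (G + H)).choose_spec, map_add, (eq_coeffMap_cuspExp A G).choose_spec,
      (eq_coeffMap_cuspExp A H).choose_spec, AddMemClass.coe_add, map_add])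

theorem coeffMap_cuspExpO (A : SL(2, ℤ)) (G : intRing M O) :
    coeffMap O.subtype (cuspExpO M O A G) = cuspExp M A (G : modRing M) :=
  (eq_coeffMap_cuspExp A G).choose_spec

theorem coe_coeff_cuspExpO (A : SL(2, ℤ)) (G : intRing M O) (n : ℤ) :
    ((cuspExpO M O A G).coeff n : ℂ) = (cuspExp M A (G : modRing M)).coeff n := by
  rw [← coeffMap_cuspExpO, coeffMap_coeff]
  rfl

variable (M O) in
/-- The reduced expansion at a cusp. -/
def redExp (A : SL(2, ℤ)) : intRing M O →+* LaurentSeries (IsLocalRing.ResidueField O) :=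
  (coeffMap (IsLocalRing.residue O)).comp (cuspExpO M O A)

theorem coeff_redExp (A : SL(2, ℤ)) (G : intRing M O) (n : ℤ) :
    (redExp M O A G).coeff n = IsLocalRing.residue O ((cuspExpO M O A G).coeff n) := by
  rw [redExp, RingHom.comp_apply, coeffMap_coeff]

theorem coe_algebraMap_mul (c : O) (G : intRing M O) :
    ((algebraMap O (intRing M O) c * G : intRing M O) : modRing M) = (c : ℂ) • (G : modRing M) := by
  rw [Algebra.smul_def]
  rfl

theorem cuspExp_algebraMap_mul (A : SL(2, ℤ)) (c : O) (G : intRing M O) (n : ℤ) :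
    (cuspExpO M O A (algebraMap O (intRing M O) c * G)).coeff n =
      c * (cuspExpO M O A G).coeff n :=
  Subtype.ext (by
    rw [coe_coeff_cuspExpO, coe_algebraMap_mul, coeff_map_smul, Subring.coe_mul, coe_coeff_cuspExpO])

/-- Divisibility by a scalar is read on the coefficients. -/
theorem algebraMap_dvd_iff {c : O} (hc : c ≠ 0) (G : intRing M O) :
    algebraMap O (intRing M O) c ∣ G ↔ ∀ (A : SL(2, ℤ)) (n : ℤ), c ∣ (cuspExpO M O A G).coeff n := by
  constructor
  · rintro ⟨H, rfl⟩ A n
    exact ⟨_, cuspExp_algebraMap_mul A c H n⟩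
  intro h
  have hc' : (c : ℂ) ≠ 0 := fun h0 => hc (Subtype.ext h0)
  have hmem : ((c : ℂ)⁻¹ • (G : modRing M)) ∈ intRing M O := by
    rw [mem_intRing_iff]
    intro A n
    obtain ⟨d, hd⟩ := h A n
    rw [coeff_map_smul, ← coe_coeff_cuspExpO A G, hd, Subring.coe_mul, inv_mul_cancel_left₀ hc']
    exact d.2
  refine ⟨⟨_, hmem⟩, Subtype.ext ?_⟩
  rw [coe_algebraMap_mul, smul_inv_smul₀ hc']

theorem algebraMap_dvd_iff_redExp {ϖ : O} (hϖ : Irreducible ϖ) (G : intRing M O) :
    algebraMap O (intRing M O) ϖ ∣ G ↔ ∀ A : SL(2, ℤ), redExp M O A G = 0 := by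
  rw [algebraMap_dvd_iff hϖ.ne_zero]
  refine forall_congr' fun A => ?_
  have key : ∀ n, ϖ ∣ (cuspExpO M O A G).coeff n ↔ (redExp M O A G).coeff n = 0 := fun n => by
    rw [coeff_redExp, IsLocalRing.residue_eq_zero_iff,
      Irreducible.maximalIdeal_eq hϖ, Ideal.mem_span_singleton]
  refine ⟨fun h => HahnSeries.ext (funext fun n => (key n).mp (h n)), fun h n => (key n).mpr ?_⟩
  rw [h]
  rfl

/-- The invariance of the expansions under `Γ₁(M)` on the left. -/
theorem cuspExp_mul_left {γ : SL(2, ℤ)} (hγ : γ ∈ Gamma1 M) (A : SL(2, ℤ)) :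
    cuspExp M (γ * A) = cuspExp M A := by
  refine AlgHom.ext fun G => ?_
  rw [cuspExp_apply, cuspExp_apply]
  congr 1
  funext τ
  simp only [cuspFun, mul_smul]
  exact (mem_weakMod.mp G.2).2.1 γ hγ _

/-- The poles are bounded uniformly in the cusp. -/
theorem exists_pole_bound (G : modRing M) : ∃ n : ℕ, G ∈ polarSpace M n := by
  classical
  haveI : Fintype (SL(2, ℤ) ⧸ Gamma1 M) := Subgroup.fintypeQuotientOfFiniteIndex
  refine ⟨Finset.univ.sup fun c : SL(2, ℤ) ⧸ Gamma1 M =>
    (-(cuspExp M c.out⁻¹ G).order).toNat, ?_⟩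
  rw [mem_polarSpace]
  intro A i hi
  obtain ⟨h, hh⟩ := QuotientGroup.mk_out_eq_mul (Gamma1 M) A⁻¹
  have hA : A = (h : SL(2, ℤ)) * (QuotientGroup.mk (s := Gamma1 M) A⁻¹).out⁻¹ := by
    rw [hh]; group
  rw [hA, cuspExp_mul_left h.2]
  refine HahnSeries.coeff_eq_zero_of_lt_order (lt_of_lt_of_le hi ?_)
  have := Finset.le_sup (s := Finset.univ)
    (f := fun c : SL(2, ℤ) ⧸ Gamma1 M => (-(cuspExp M c.out⁻¹ G).order).toNat)
    (Finset.mem_univ (QuotientGroup.mk (s := Gamma1 M) A⁻¹))
  omega

/-- `j` lies in every `intRing`. -/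
def jInt : intRing M O :=
  ⟨⟨jFun, jFun_mem_weakMod _⟩, by
    rw [mem_intRing_iff]
    intro A n
    have h1 : cuspFun M A jFun = fun τ => jFun (ModularForm.heckeDiagMatrix M • τ) := by
      funext τ; simp only [cuspFun, jFun_smul]
    rw [cuspExp_apply]
    show (qExpL (cuspFun M A jFun)).coeff n ∈ O
    rw [h1, ← jScaleFun_one]
    have h2 : (fun τ => jScaleFun 1 (ModularForm.heckeDiagMatrix M • τ)) = jScaleFun M := by
      funext τ
      rw [jScaleFun_one]
      rfl
    rw [h2, qExpL_jScaleFun, coeffEmb, coeffMap_coeff]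
    by_cases hd : (M : ℤ) ∣ n
    · obtain ⟨k, rfl⟩ := hd
      rw [qExpand_coeff_mul, ← jqModC_rat, jqModC_eq_map_intCast]
      simp [intCast_mem]
    · rw [qExpand_coeff_of_not_dvd M _ hd, map_zero]
      exact zero_mem _⟩

theorem coeff_redExp_jInt (A : SL(2, ℤ)) :
    (redExp M O A (jInt (M := M) (O := O))).coeff (-(M : ℤ)) = 1 := by
  rw [coeff_redExp]
  have : (cuspExpO M O A (jInt (M := M) (O := O))).coeff (-(M : ℤ)) = 1 := by
    refine Subtype.ext ?_
    rw [coe_coeff_cuspExpO]
    show (qExpL (cuspFun M A jFun)).coeff _ = _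
    have h1 : cuspFun M A jFun = jScaleFun M := by
      funext τ; simp only [cuspFun, jFun_smul]; rfl
    rw [h1, qExpL_jScaleFun, coeffEmb, coeffMap_coeff, show -(M : ℤ) = (M : ℤ) * (-1) by ring,
      qExpand_coeff_mul, coeff_jq_neg_one, map_one]
    rfl
  rw [this, map_one]

section Lattice

variable (M O) in
/-- Integral functions with poles of order at most `n`. -/
def polarLattice (n : ℕ) : Submodule O (intRing M O) where
  carrier := {G | (G : modRing M) ∈ polarSpace M n}
  add_mem' := fun ha hb => (polarSpace M n).add_mem ha hb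
  zero_mem' := (polarSpace M n).zero_mem
  smul_mem' := fun c G hG => by
    show ((c • G : intRing M O) : modRing M) ∈ polarSpace M n
    rw [Algebra.smul_def, coe_algebraMap_mul]
    exact (polarSpace M n).smul_mem _ hG

theorem finite_polarLattice (n : ℕ) : Module.Finite O (polarLattice M O n) := by
  obtain ⟨B, hB⟩ := exists_coeff_injective M n
  let φ : polarLattice M O n →ₗ[O] (Finset.Ico (-(n : ℤ)) B → O) :=
    { toFun := fun G i => (cuspExpO M O 1 (G : intRing M O)).coeff ((M : ℤ) * i)
      map_add' := fun G H => by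
        funext i
        rw [Submodule.coe_add, RingHom.map_add]
        rfl
      map_smul' := fun c G => by
        funext i
        show (cuspExpO M O 1 ((c • G : polarLattice M O n) : intRing M O)).coeff _ = _
        rw [Submodule.coe_smul, Algebra.smul_def, cuspExp_algebraMap_mul]
        rfl }
  haveI : IsNoetherianRing O := inferInstance
  refine Module.Finite.of_injective φ fun G H h => ?_
  refine Subtype.ext (Subtype.ext (sub_eq_zero.mp (hB _ ((polarSpace M n).sub_mem G.2 H.2)
    fun i hi => ?_)))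
  have h1 : ((cuspExpO M O 1 (G : intRing M O)).coeff ((M : ℤ) * i) : ℂ) =
      ((cuspExpO M O 1 (H : intRing M O)).coeff ((M : ℤ) * i) : ℂ) :=
    congrArg Subtype.val (congrFun h ⟨i, hi⟩)
  rw [coe_coeff_cuspExpO, coe_coeff_cuspExpO, cuspExp_eq_of_isInftyCusp M (isInftyCusp_one M),
    cuspExp_eq_of_isInftyCusp M (isInftyCusp_one M), qExpand_coeff_mul, qExpand_coeff_mul] at h1
  rw [map_sub, HahnSeries.coeff_sub, sub_eq_zero]
  exact h1

theorem pow_dvd_sub_of_le {R : Type*} [CommRing R] {ϖ : R} {c : ℕ → R}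
    (h : ∀ k, ϖ ^ k ∣ c (k + 1) - c k) {m k : ℕ} (hmk : m ≤ k) : ϖ ^ m ∣ c k - c m := by
  induction k, hmk using Nat.le_induction with
  | base => simp
  | succ k hk ih =>
    rw [← sub_add_sub_cancel _ (c k) _]
    exact dvd_add ((pow_dvd_pow ϖ hk).trans (h k)) ih

variable [IsAdicComplete (IsLocalRing.maximalIdeal O) O]

theorem exists_limit {ϖ : O} (hϖ : Irreducible ϖ) {c : ℕ → O}
    (h : ∀ k, ϖ ^ k ∣ c (k + 1) - c k) : ∃ L : O, ∀ k, ϖ ^ k ∣ L - c k := by
  have hI : ∀ k, (IsLocalRing.maximalIdeal O ^ k • ⊤ : Submodule O O) = Ideal.span {ϖ ^ k} :=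
    fun k => by rw [smul_eq_mul, Ideal.mul_top, hϖ.maximalIdeal_eq, Ideal.span_singleton_pow]
  obtain ⟨L, hL⟩ := IsPrecomplete.prec (I := IsLocalRing.maximalIdeal O) (M := O) inferInstance
    (f := c) fun {m k} hmk => by
    rw [hI, SModEq.sub_mem, Ideal.mem_span_singleton, ← dvd_neg, neg_sub]
    exact pow_dvd_sub_of_le h hmk
  refine ⟨L, fun k => ?_⟩
  have := hL k
  rw [hI, SModEq.sub_mem, Ideal.mem_span_singleton, ← dvd_neg, neg_sub] at this
  exact this

/-- Congruent lattice elements converge in the lattice. -/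
theorem exists_lattice_limit {ϖ : O} (hϖ : Irreducible ϖ) (n : ℕ) {H : ℕ → polarLattice M O n}
    (h : ∀ k, ∃ D : polarLattice M O n, H (k + 1) - H k = ϖ ^ k • D) :
    ∃ E : polarLattice M O n, ∀ k, ∃ D : polarLattice M O n, E - H k = ϖ ^ k • D := by
  classical
  haveI := finite_polarLattice (M := M) (O := O) n
  haveI : Module.IsTorsionFree O (polarLattice M O n) := by
    refine ⟨fun c hc G G' hGG' => ?_⟩
    have hc0 : (c : ℂ) ≠ 0 := fun h0 => hc.ne_zero (Subtype.ext h0)
    have h1 := congrArg (fun z : polarLattice M O n => ((z : intRing M O) : modRing M)) hGG'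
    simp only [Submodule.coe_smul, Algebra.smul_def, coe_algebraMap_mul] at h1
    exact Subtype.ext (Subtype.ext (smul_right_injective (modRing M) hc0 h1))
  obtain ⟨m, b⟩ := Module.basisOfFiniteTypeTorsionFree' (R := O) (M := polarLattice M O n)
  have hcoord : ∀ (i : Fin m) k, ϖ ^ k ∣ b.repr (H (k + 1)) i - b.repr (H k) i := fun i k => by
    obtain ⟨D, hD⟩ := h k
    refine ⟨b.repr D i, ?_⟩
    rw [← Finsupp.sub_apply,
      show b.repr (H (k + 1)) - b.repr (H k) = b.repr (H (k + 1) - H k) from
        (b.repr.toLinearMap.map_sub _ _).symm, hD, LinearEquiv.map_smul]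
    rfl
  choose L hL using fun i => exists_limit hϖ (c := fun k => b.repr (H k) i) (hcoord i)
  refine ⟨b.equivFun.symm L, fun k => ?_⟩
  choose d hd using fun i => hL i k
  refine ⟨b.equivFun.symm d, b.equivFun.injective (funext fun i => ?_)⟩
  rw [show b.equivFun (b.equivFun.symm L - H k) =
      b.equivFun (b.equivFun.symm L) - b.equivFun (H k) from b.equivFun.toLinearMap.map_sub _ _,
    LinearEquiv.map_smul, LinearEquiv.apply_symm_apply, LinearEquiv.apply_symm_apply]
  exact hd i

end Lattice

end FermatLib.Galois.DS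

end
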