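import Fermat.Agent.Galois.DS.BaseDeriv
import Mathlib.FieldTheory.IsAlgClosed.Basic
import Mathlib.Analysis.Complex.Polynomial.Basic
import Mathlib.FieldTheory.AlgebraicClosure

/-!
# Primes of the level rings and points of the upper half plane
-/

set_option autoImplicit false
set_option linter.unusedSectionVars false

noncomputable section

open Complex UpperHalfPlane Function ModularCurve CongruenceSubgroup
open scoped MatrixGroups Manifold

namespace FermatLib.Galois.DS

open FermatLib.Igusa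

variable {M m : ℕ} [NeZero M] [NeZero m] {R : Type*} [CommRing R] {φ : R →+* ℂ}
variable (D : BaseData m) (hmM : m ∣ M) (hM : 1 < M) (hR : IsLevelCoeff φ M)

/-- Pseudo-division by a polynomial. -/
theorem exists_pseudoDiv {A : Type*} [CommRing A] (h : Polynomial A) (hd : 0 < h.natDegree)
    (Q : Polynomial A) : ∃ (k : ℕ) (q r : Polynomial A),
      Polynomial.C h.leadingCoeff ^ k * Q = q * h + r ∧ r.natDegree < h.natDegree := by
  induction hn : Q.natDegree using Nat.strong_induction_on generalizing Q with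
  | _ n ih =>
    subst hn
    by_cases hlt : Q.natDegree < h.natDegree
    · exact ⟨0, 0, Q, by simp, hlt⟩
    push Not at hlt
    set Q' := Polynomial.C h.leadingCoeff * Q -
      Polynomial.C Q.leadingCoeff * Polynomial.X ^ (Q.natDegree - h.natDegree) * h with hQ'
    have hle : Q'.natDegree < Q.natDegree := by
      have h1 : Q'.natDegree ≤ Q.natDegree := by
        refine (Polynomial.natDegree_sub_le _ _).trans (max_le (Polynomial.natDegree_C_mul_le _ _) ?_)
        refine Polynomial.natDegree_mul_le.trans ?_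
        have := (Polynomial.natDegree_C_mul_le Q.leadingCoeff
          (Polynomial.X ^ (Q.natDegree - h.natDegree))).trans (Polynomial.natDegree_X_pow_le _)
        omega
      refine lt_of_le_of_ne h1 fun heq => ?_
      have h2 : Q'.coeff Q.natDegree = 0 := by
        simp only [hQ', Polynomial.coeff_sub, Polynomial.coeff_C_mul, mul_assoc,
          Polynomial.coeff_X_pow_mul', Nat.sub_le, if_true,
          show Q.natDegree - (Q.natDegree - h.natDegree) = h.natDegree by omega,
          Polynomial.coeff_natDegree]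
        ring
      rw [← heq, Polynomial.coeff_natDegree, Polynomial.leadingCoeff_eq_zero] at h2
      rw [h2, Polynomial.natDegree_zero] at heq
      omega
    obtain ⟨k, q, r, hqr, hr⟩ := ih _ hle Q' rfl
    refine ⟨k + 1, q + Polynomial.C h.leadingCoeff ^ k *
      (Polynomial.C Q.leadingCoeff * Polynomial.X ^ (Q.natDegree - h.natDegree)), r, ?_, hr⟩
    rw [pow_succ, mul_assoc, show Polynomial.C h.leadingCoeff * Q = Q' +
      Polynomial.C Q.leadingCoeff * Polynomial.X ^ (Q.natDegree - h.natDegree) * h by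
        rw [hQ', sub_add_cancel], mul_add, hqr]
    ring

/-- `G ↦ G τ`. -/
def evalHom (τ : ℍ) : modRing M →+* ℂ :=
  (Pi.evalRingHom (fun _ : ℍ => ℂ) τ).comp (modRing M).val.toRingHom

theorem evalHom_apply (τ : ℍ) (G : modRing M) : evalHom τ G = (G : ℍ → ℂ) τ := rfl

theorem evalHom_eval_coord (τ : ℍ) (P : Polynomial R) :
    evalHom τ (P.eval₂ (cst M φ) (D.coord hmM)) = P.eval₂ φ ((D.coord hmM : ℍ → ℂ) τ) := by
  rw [Polynomial.hom_eval₂]
  rfl

/-- The coordinate takes every value omitted by none of the units. -/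
theorem exists_coord_eq {β : ℂ} (hβ : ∀ (i : Fin D.r) (c d : ℂ),
      D.unitU hmM i = cst M (RingHom.id ℂ) c * D.coord hmM + cst M (RingHom.id ℂ) d →
        c * β + d ≠ 0) :
    ∃ τ : ℍ, (D.coord hmM : ℍ → ℂ) τ = β := by
  classical
  by_contra! hne
  set g : modRing M := D.coord hmM - cst M (RingHom.id ℂ) β with hg
  have hgτ : ∀ τ, (g : ℍ → ℂ) τ ≠ 0 := fun τ => sub_ne_zero.mpr (hne τ)
  have hgb : g ∈ baseSub M (RingHom.id ℂ) m :=
    sub_mem (unitU_mem_baseSub (isLevelCoeff_id M) D hmM _) (cst_mem_baseSub _ _)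
  let w : modRing M := ⟨fun τ => ((g : ℍ → ℂ) τ)⁻¹, mem_modRing_of_hasExp M
    (fun γ hγ τ => by rw [g.2.2.1 γ hγ τ]) fun A =>
      ⟨_, (hasExp_cuspExp M A g).inv fun τ => hgτ _⟩⟩
  have hwb : w ∈ baseSub M (RingHom.id ℂ) m :=
    ⟨mem_intSub_id M w, fun γ hγ τ => congrArg Inv.inv (hgb.2 γ hγ τ)⟩
  obtain ⟨P, k, hP⟩ := exists_eq_eval_mul (isLevelCoeff_id M) D hmM hwb
  choose c d hc hcd using fun i => exists_unitU_eq_affine (isLevelCoeff_id M) D hmM i
  have hgw : g * w = 1 := Subtype.ext (funext fun τ => mul_inv_cancel₀ (hgτ τ))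
  have hUV : (∏ i, D.unitU hmM i) ^ k * (∏ i, D.unitV hmM i) ^ k = 1 := by
    rw [← mul_pow, ← Finset.prod_mul_distrib]
    simp [BaseData.unitU_mul_unitV]
  have key : (Polynomial.X - Polynomial.C β) * P =
      (∏ i, (Polynomial.C (c i) * Polynomial.X + Polynomial.C (d i))) ^ k := by
    refine eval_coord_injective (isLevelCoeff_id M) D hmM ?_
    simp only [Polynomial.eval₂_mul, Polynomial.eval₂_sub, Polynomial.eval₂_X, Polynomial.eval₂_C,
      Polynomial.eval₂_pow, Polynomial.eval₂_finsetProd, Polynomial.eval₂_add, ← hcd]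
    calc g * P.eval₂ (cst M (RingHom.id ℂ)) (D.coord hmM)
        = g * P.eval₂ (cst M (RingHom.id ℂ)) (D.coord hmM) *
            ((∏ i, D.unitU hmM i) ^ k * (∏ i, D.unitV hmM i) ^ k) := by rw [hUV, mul_one]
      _ = g * w * (∏ i, D.unitU hmM i) ^ k := by rw [hP]; ring
      _ = _ := by rw [hgw, one_mul]
  have h0 := congrArg (Polynomial.eval β) key
  simp only [Polynomial.eval_mul, Polynomial.eval_sub, Polynomial.eval_X, Polynomial.eval_C,
    sub_self, zero_mul, Polynomial.eval_pow, Polynomial.eval_prod, Polynomial.eval_add] at h0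
  exact pow_ne_zero k (Finset.prod_ne_zero_iff.mpr fun i _ => hβ i (c i) (d i) (hcd i)) h0.symm

variable (φ) in
/-- Constants in `intSub`. -/
def cstI : R →+* intSub M φ := (cst M φ).codRestrict _ (cst_mem_intSub φ)

include D hmM hM hR in
/-- A homomorphism to `ℂ` is the evaluation at a point. -/
theorem exists_point_of_hom (ψ : intSub M φ →+* ℂ) (hψ : ∀ r, ψ (cstI φ r) = φ r) :
    ∃ τ : ℍ, ∀ G : intSub M φ, ψ G = ((G : modRing M) : ℍ → ℂ) τ := by
  classical
  let bI : intSub M φ := ⟨D.coord hmM, (unitU_mem_baseSub hR D hmM _).1⟩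
  let uI : Fin D.r → intSub M φ := fun i => ⟨D.unitU hmM i, (unitU_mem_baseSub hR D hmM i).1⟩
  let vI : Fin D.r → intSub M φ := fun i => ⟨D.unitV hmM i, (unitV_mem_baseSub hR D hmM i).1⟩
  have huv : ∀ i, ψ (uI i) * ψ (vI i) = 1 := fun i => by
    rw [← map_mul, ← map_one ψ]
    exact congrArg ψ (Subtype.ext (D.unitU_mul_unitV hmM i))
  choose c d hc hcd using fun i => exists_unitU_eq_affine hR D hmM i
  have hu : ∀ i, ψ (uI i) = φ (c i) * ψ bI + φ (d i) := fun i => by
    rw [← hψ, ← hψ, ← map_mul, ← map_add]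
    exact congrArg ψ (Subtype.ext (hcd i))
  obtain ⟨τ₀, hτ₀⟩ := exists_coord_eq D hmM (β := ψ bI) fun i c' d' h' => by
    have h2 : cst M (RingHom.id ℂ) c' * D.coord hmM + cst M (RingHom.id ℂ) d' =
        cst M (RingHom.id ℂ) (φ (c i)) * D.coord hmM + cst M (RingHom.id ℂ) (φ (d i)) :=
      h'.symm.trans (hcd i)
    have h3 : Polynomial.C c' * Polynomial.X + Polynomial.C d' =
        Polynomial.C (φ (c i)) * Polynomial.X + Polynomial.C (φ (d i)) :=
      eval_coord_injective (isLevelCoeff_id M) D hmM (by simpa using h2)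
    have h4 := congrArg (Polynomial.eval (ψ bI)) h3
    simp only [Polynomial.eval_add, Polynomial.eval_mul, Polynomial.eval_C, Polynomial.eval_X] at h4
    rw [h4, ← hu]
    exact left_ne_zero_of_mul_eq_one (huv i)
  have huτ : ∀ i, ψ (vI i) = (D.unitV hmM i : ℍ → ℂ) τ₀ := fun i => by
    have h1 : (D.unitU hmM i : ℍ → ℂ) τ₀ * (D.unitV hmM i : ℍ → ℂ) τ₀ = 1 :=
      congrFun (congrArg Subtype.val (D.unitU_mul_unitV hmM i)) τ₀
    have h2 : (D.unitU hmM i : ℍ → ℂ) τ₀ = ψ (uI i) := by
      rw [hu i, hcd i, ← hτ₀]; rfl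
    rw [h2] at h1
    exact mul_left_cancel₀ (left_ne_zero_of_mul_eq_one (huv i)) ((huv i).trans h1.symm)
  have hbase : ∀ G : intSub M φ, (G : modRing M) ∈ baseSub M φ m →
      ψ G = ((G : modRing M) : ℍ → ℂ) τ₀ := fun G hG => by
    obtain ⟨P, k, hP⟩ := exists_eq_eval_mul hR D hmM hG
    have hG' : G = P.eval₂ (cstI φ) bI * (∏ i, vI i) ^ k := Subtype.ext (by
      rw [hP]
      push_cast
      rw [← (intSub M φ).subtype_apply (P.eval₂ (cstI φ) bI), Polynomial.hom_eval₂]
      rfl)
    rw [hG', map_mul, map_pow, map_prod, Polynomial.hom_eval₂, ← evalHom_apply τ₀,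
      ← hG', hP, map_mul, map_pow, map_prod, evalHom_eval_coord, hτ₀]
    simp only [huτ, evalHom_apply]
    congr 2
    exact RingHom.ext hψ
  obtain ⟨P, -, hdeg, hPb, hPx, -, hPprod⟩ := exists_coverPoly D hmM hM hR
  let xI : intSub M φ := ⟨xEl D hmM hM, xEl_mem_intSub D hmM hM hR⟩
  let cI : ℕ → intSub M φ := fun i => ⟨P.coeff i, (hPb i).1⟩
  have hdeg' : P.natDegree < Fintype.card (Orb M m) + 1 := Nat.lt_succ_of_le hdeg
  have hsum : ∑ i ∈ Finset.range (Fintype.card (Orb M m) + 1), cI i * xI ^ i = 0 :=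
    Subtype.ext (by
      push_cast
      rw [← hPx, Polynomial.eval_eq_sum_range' hdeg']
      try rfl)
  have h0 := congrArg ψ hsum
  simp only [map_sum, map_mul, map_pow, map_zero, hbase (cI _) (hPb _)] at h0
  rw [hPprod τ₀ (ψ xI)] at h0
  obtain ⟨o, -, ho⟩ := Finset.prod_eq_zero_iff.mp h0
  rw [sub_eq_zero] at ho
  refine ⟨o.rep • τ₀, fun G => ?_⟩
  obtain ⟨q, hq, hGq, -⟩ := exists_interp D hmM hM hR G.2
  let qI : ℕ → intSub M φ := fun i => ⟨q i, (hq i).1⟩
  have hG' : G = ∑ i ∈ Finset.range (Fintype.card (Orb M m)), qI i * xI ^ i := Subtype.ext (by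
    rw [hGq]
    push_cast
    rfl)
  rw [← evalHom_apply (o.rep • τ₀), hGq, map_sum, hG', map_sum]
  refine Finset.sum_congr rfl fun i _ => ?_
  rw [map_mul, map_pow, map_mul, map_pow, hbase (qI i) (hq i), ho]
  congr 1
  exact ((hq i).2 _ o.rep_mem τ₀).symm

end FermatLib.Galois.DS
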