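import Fermat.Agent.Galois.DS.Points

/-!
# Primes of the level rings: local generators and simple zeros
-/

set_option autoImplicit false
set_option linter.unusedSectionVars false

noncomputable section

open Complex UpperHalfPlane Function ModularCurve CongruenceSubgroup
open scoped MatrixGroups Manifold

namespace FermatLib.Galois.DS

open FermatLib.Igusa

variable {M m : ℕ} [NeZero M] [NeZero m] {R : Type*} [CommRing R] {φ : R →+* ℂ}
variable (D : BaseData m) (hmM : m ∣ M) (hM : 1 < M) (hR : IsLevelCoeff φ M)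

theorem analyticAt_ofComplex_comp {f : ℍ → ℂ} (hf : MDiff f) (τ : ℍ) :
    AnalyticAt ℂ (f ∘ ofComplex) (τ : ℂ) :=
  (UpperHalfPlane.mdifferentiable_iff.mp hf).analyticOnNhd isOpen_upperHalfPlaneSet _ τ.im_pos

theorem isDomain_modRing_cusp : IsDomain (modRing M) :=
  (cuspExp_injective M 1).isDomain (cuspExp M 1)

/-- A simple root of `P` gives a simple zero of `P(b)`. -/
theorem ordAt_eval_coord {P : Polynomial R} {τ : ℍ}
    (h0 : P.eval₂ φ ((D.coord hmM : ℍ → ℂ) τ) = 0)
    (h1 : P.derivative.eval₂ φ ((D.coord hmM : ℍ → ℂ) τ) ≠ 0) :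
    ordAt ((P.eval₂ (cst M φ) (D.coord hmM) : modRing M) : ℍ → ℂ) τ = 1 := by
  set b : ℍ → ℂ := (D.coord hmM : ℍ → ℂ) with hb
  set G : modRing M := P.eval₂ (cst M φ) (D.coord hmM)
  have he : ((G : ℍ → ℂ) ∘ ofComplex) = fun z => (P.map φ).eval ((b ∘ ofComplex) z) := by
    funext z
    rw [comp_apply, Polynomial.eval_map, ← evalHom_apply, evalHom_eval_coord]
    rfl
  have hb' : HasDerivAt (b ∘ ofComplex) (fder b τ) (τ : ℂ) :=
    (differentiableAt_comp_ofComplex (D.coord hmM).2.1 τ).hasDerivAt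
  have hd : HasDerivAt ((G : ℍ → ℂ) ∘ ofComplex)
      ((P.map φ).derivative.eval (b τ) * fder b τ) (τ : ℂ) := by
    rw [he]
    have := (Polynomial.hasDerivAt (P.map φ) ((b ∘ ofComplex) (τ : ℂ))).comp (τ : ℂ) hb'
    rw [comp_apply, ofComplex_apply] at this
    exact this
  rw [ordAt, analyticOrderNatAt, (analyticAt_ofComplex_comp G.2.1 τ).analyticOrderAt_eq_one_of_zero_deriv_ne_zero
    (by rw [comp_apply, ofComplex_apply, ← evalHom_apply, evalHom_eval_coord]; exact h0)
    (by
      rw [hd.deriv, Polynomial.derivative_map, Polynomial.eval_map]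
      exact mul_ne_zero h1 (fder_coord_ne_zero D hmM τ))]
  rfl

include D hmM hR in
/-- The norm to the base. -/
theorem exists_norm {G : intSub M φ} (hG : G ≠ 0) :
    ∃ N G' : intSub M φ, (N : modRing M) ∈ baseSub M φ m ∧ N = G * G' ∧ N ≠ 0 := by
  classical
  set T := ∏ c : Orb M m, pullOrb G.2 c with hT
  obtain ⟨N, hN, hNv⟩ := exists_mem_baseSub_of_invariant (m := m) hmM T fun δ hδ => by
    rw [hT, ← levelSmulHom_apply, map_prod]
    refine Fintype.prod_equiv (Orb.actEquiv hδ) _ _ fun c => ?_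
    rw [levelSmulHom_apply, smul_pullOrb G.2 c hδ]
    rfl
  set S := ∏ c ∈ Finset.univ.erase (Orb.one : Orb M m), pullOrb G.2 c with hS
  have hTS : T = pullOrb G.2 (Orb.one : Orb M m) * S :=
    (Finset.mul_prod_erase _ _ (Finset.mem_univ _)).symm
  have hone : ∀ τ, ((pullOrb G.2 (Orb.one : Orb M m) : levelRing φ M) : ℍ → ℂ) τ =
      ((G : modRing M) : ℍ → ℂ) τ := fun τ => by
    have h := apply_eq_of_vclass_eq (G : modRing M).2.2.1
      (γ := (Orb.one : Orb M m).rep) (γ' := 1) (Orb.one : Orb M m).vclass_rep τ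
    rw [one_smul] at h
    rw [coe_pullOrb]
    exact h
  have hSinv : ∀ γ ∈ Gamma1 M, ∀ τ, (S : ℍ → ℂ) (γ • τ) = (S : ℍ → ℂ) τ := fun γ hγ => by
    have hγm := Gamma1_le_Gamma1_of_dvd M hmM hγ
    have hSS : γ⁻¹ • S = S := by
      rw [hS, ← levelSmulHom_apply, map_prod]
      refine Finset.prod_equiv (Orb.actEquiv hγm) (fun c => ?_) fun c _ => ?_
      · have h1 : Orb.actEquiv hγm (Orb.one : Orb M m) = Orb.one := by
          refine Subtype.ext ?_
          show vclass M (vecMulSL (0, 1) ((Orb.one : Orb M m).rep * γ)) = _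
          rw [vecMulSL_mul, vclass_vecMulSL_eq (Orb.one : Orb M m).vclass_rep γ]
          show vclass M (vecMulSL (vecMulSL (0, 1) 1) γ) = vclass M (vecMulSL (0, 1) 1)
          rw [vecMulSL_one, vclass_eq_iff]
          refine Or.inl ?_
          rw [Gamma1_mem] at hγ
          simp only [vecMulSL, ← ZMod.intCast_zmod_eq_zero_iff_dvd]
          push_cast
          simp [hγ.2.1, hγ.2.2]
        simp only [Finset.mem_erase, Finset.mem_univ, and_true]
        exact not_congr ⟨fun h => by rw [h, h1], fun h => (Orb.actEquiv hγm).injective (h.trans h1.symm)⟩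
      · rw [levelSmulHom_apply, smul_pullOrb G.2 c hγm]
        rfl
    intro τ
    conv_rhs => rw [← hSS, coe_levelSmul, inv_inv]
  let G' : modRing M := ⟨S, mem_modRing_of_hasExp M hSinv fun A => by
    obtain ⟨F, hF⟩ := S.2.2 A
    exact ⟨_, hF⟩⟩
  have hG' : G' ∈ intSub M φ := fun A => by
    obtain ⟨F, hF⟩ := S.2.2 A
    exact ⟨F, (cuspExp_eq_of_hasExp M (G := G') hF).symm⟩
  refine ⟨⟨N, hN.1⟩, ⟨G', hG'⟩, hN, Subtype.ext (Subtype.ext (funext fun τ => ?_)), fun h0 => ?_⟩
  · show (N : ℍ → ℂ) τ = ((G : modRing M) : ℍ → ℂ) τ * (S : ℍ → ℂ) τ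
    rw [hNv, hTS, ← hone τ]
    rfl
  · have hdom := isDomain_levelRing (n := M) hR.injective
    have hT0 : T ≠ 0 := Finset.prod_ne_zero_iff.mpr fun c _ hc => hG (Subtype.ext (Subtype.ext
      (funext fun τ => by
        have h1 := congrFun (congrArg Subtype.val hc) (c.rep⁻¹ • τ)
        rw [coe_pullOrb, smul_inv_smul] at h1
        exact h1)))
    apply hT0
    refine Subtype.ext (funext fun τ => ?_)
    rw [← hNv τ]
    exact congrFun (congrArg Subtype.val (congrArg Subtype.val h0)) τ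

/-- Locally at a prime, an extension generated by a simple root is unramified. -/
theorem exists_local_mem_of_simple_root {S : Type*} [CommRing S] (B : Subring S) (x : S)
    (Φ : Polynomial B) (hmon : Φ.Monic) (h0 : Φ.eval₂ B.subtype x = 0)
    (h1 : IsUnit (Φ.derivative.eval₂ B.subtype x))
    (hgen : ∀ a : S, ∃ Q : Polynomial B, Q.eval₂ B.subtype x = a)
    (P : Ideal S) [P.IsPrime] {a : S} (ha : a ∈ P) :
    ∃ s ∉ P, s * a ∈ Ideal.span {z | z ∈ P ∧ z ∈ B} := by
  classical
  let ev : Polynomial B →+* S := Polynomial.eval₂RingHom B.subtype x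
  have hC : ∀ b : B, ev (Polynomial.C b) = b := fun b => Polynomial.eval₂_C _ _
  have hX : ev Polynomial.X = x := Polynomial.eval₂_X _ _
  have hP1 : (1 : S) ∉ P := fun h =>
    (inferInstance : P.IsPrime).ne_top ((Ideal.eq_top_iff_one P).mpr h)
  have hΦ1 : ev Φ.derivative ∉ P := fun hin =>
    (inferInstance : P.IsPrime).ne_top (Ideal.eq_top_of_isUnit_mem P hin h1)
  have hbad : ∃ d : ℕ, ∃ h : Polynomial B, h.natDegree = d ∧ ev h ∈ P ∧
      ∃ i, (h.coeff i : S) ∉ P := by
    refine ⟨_, Φ, rfl, ?_, Φ.natDegree, ?_⟩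
    · show Φ.eval₂ B.subtype x ∈ P
      rw [h0]; exact zero_mem _
    · rw [hmon.coeff_natDegree]; exact hP1
  obtain ⟨h, hhd, hhP, hhi⟩ := Nat.find_spec hbad
  set J : Ideal S := Ideal.span {z | z ∈ P ∧ z ∈ B} with hJ
  have hJP : J ≤ P := Ideal.span_le.mpr fun _ hz => hz.1
  have hsum : ∀ Q : Polynomial B, (∀ i, (Q.coeff i : S) ∈ J) → ev Q ∈ J := fun Q hQ => by
    show Q.eval₂ B.subtype x ∈ J
    rw [Polynomial.eval₂_eq_sum_range]
    exact sum_mem fun i _ => Ideal.mul_mem_right _ _ (hQ i)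
  have hsmall : ∀ r : Polynomial B, r.natDegree < h.natDegree → ev r ∈ P →
      ev r ∈ J ∧ ev r.derivative ∈ J := by
    intro r hr hrP
    have hall : ∀ i, (r.coeff i : S) ∈ J := fun i => by
      by_contra hc
      refine Nat.find_min hbad (hhd ▸ hr) ⟨r, rfl, hrP, i, fun hin => hc ?_⟩
      exact Ideal.subset_span ⟨hin, (r.coeff i).2⟩
    refine ⟨hsum r hall, hsum _ fun i => ?_⟩
    rw [Polynomial.coeff_derivative]
    exact Ideal.mul_mem_right _ _ (hall (i + 1))
  have hlc : (h.leadingCoeff : S) ∉ P := fun hlc => by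
    obtain ⟨i, hi⟩ := hhi
    have hne : i ≠ h.natDegree := fun he => hi (he ▸ hlc)
    have hd0 : h.natDegree ≠ 0 := fun h0 => hi (by
      rw [Polynomial.coeff_eq_zero_of_natDegree_lt (by omega)]
      exact zero_mem _)
    refine Nat.find_min hbad (m := h.eraseLead.natDegree) (hhd ▸ ?_) ⟨h.eraseLead, rfl, ?_, i, ?_⟩
    · exact lt_of_le_of_lt h.eraseLead_natDegree_le (by omega)
    · have he := congrArg ev h.eraseLead_add_C_mul_X_pow
      rw [map_add, map_mul, map_pow, hC, hX] at he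
      rw [eq_sub_of_add_eq he]
      exact sub_mem hhP (P.mul_mem_right _ hlc)
    · rwa [Polynomial.eraseLead_coeff_of_ne _ hne]
  have hpos : 0 < h.natDegree := by
    rcases Nat.eq_zero_or_pos h.natDegree with h0 | h0
    · refine absurd ?_ hlc
      rw [Polynomial.eq_C_of_natDegree_eq_zero h0] at hhP ⊢
      rw [hC] at hhP
      rwa [Polynomial.leadingCoeff_C]
    · exact h0
  obtain ⟨k, q, r, hqr, hr⟩ := exists_pseudoDiv h hpos Φ
  have e1 : 0 = ev q * ev h + ev r := by
    have := congrArg ev hqr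
    rwa [map_mul, map_pow, hC, map_add, map_mul, show ev Φ = 0 from h0, mul_zero] at this
  have hrP : ev r ∈ P := by
    rw [show ev r = -(ev q * ev h) from eq_neg_of_add_eq_zero_right e1.symm]
    exact neg_mem (P.mul_mem_left _ hhP)
  obtain ⟨hrJ, hr'J⟩ := hsmall r hr hrP
  have hq : ev q ∉ P := fun hqP => by
    have e2 := congrArg (fun Q => ev (Polynomial.derivative Q)) hqr
    beta_reduce at e2
    rw [← Polynomial.C_pow, Polynomial.derivative_C_mul, Polynomial.derivative_add,
      Polynomial.derivative_mul, map_mul, hC, map_add, map_add, map_mul, map_mul] at e2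
    push_cast at e2
    have hmem : (h.leadingCoeff : S) ^ k * ev Φ.derivative ∈ P :=
      e2 ▸ add_mem (add_mem (P.mul_mem_left _ hhP) (P.mul_mem_right _ hqP)) (hJP hr'J)
    rcases (inferInstance : P.IsPrime).mem_or_mem hmem with h' | h'
    · exact hlc ((inferInstance : P.IsPrime).mem_of_pow_mem k h')
    · exact hΦ1 h'
  obtain ⟨Q, rfl⟩ := hgen a
  obtain ⟨j, q', r', hqr', hr'⟩ := exists_pseudoDiv h hpos Q
  have e3 : (h.leadingCoeff : S) ^ j * ev Q = ev q' * ev h + ev r' := by
    have := congrArg ev hqr'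
    rwa [map_mul, map_pow, hC, map_add, map_mul] at this
  have hr'P : ev r' ∈ P := by
    rw [show ev r' = (h.leadingCoeff : S) ^ j * ev Q - ev q' * ev h by rw [e3, add_sub_cancel_left]]
    exact sub_mem (P.mul_mem_left _ ha) (P.mul_mem_left _ hhP)
  refine ⟨ev q * (h.leadingCoeff : S) ^ j, fun hmem => ?_, ?_⟩
  · rcases (inferInstance : P.IsPrime).mem_or_mem hmem with h' | h'
    · exact hq h'
    · exact hlc ((inferInstance : P.IsPrime).mem_of_pow_mem j h')
  · show ev q * (h.leadingCoeff : S) ^ j * ev Q ∈ J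
    rw [show ev q * (h.leadingCoeff : S) ^ j * ev Q = -ev r * ev q' + ev q * ev r' by
      linear_combination ev q * e3 - ev q' * e1]
    exact add_mem (Ideal.mul_mem_right _ _ (neg_mem hrJ))
      (Ideal.mul_mem_left _ _ (hsmall r' hr' hr'P).1)

/-- The elements of a prime which come from the base. -/
def basePart (P : Ideal (intSub M φ)) (m : ℕ) [NeZero m] : Ideal (intSub M φ) :=
  Ideal.span {z | z ∈ P ∧ (z : modRing M) ∈ baseSub M φ m}

include D hmM hM hR in
/-- Locally a prime is generated by its base part. -/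
theorem exists_local_mem (P : Ideal (intSub M φ)) [P.IsPrime] {a : intSub M φ} (ha : a ∈ P) :
    ∃ s ∉ P, s * a ∈ basePart P m := by
  classical
  let B : Subring (intSub M φ) := (baseSub M φ m).comap (intSub M φ).subtype
  let x : intSub M φ := ⟨xEl D hmM hM, xEl_mem_intSub D hmM hM hR⟩
  obtain ⟨Φ, hmon, hdeg, hΦb, hΦx, ⟨w, hw, hΦw⟩, -⟩ := exists_coverPoly D hmM hM hR
  let j : B →+* modRing M := (intSub M φ).subtype.comp B.subtype
  have hj : Function.Injective j := Subtype.val_injective.comp Subtype.val_injective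
  have hlift : Φ ∈ Polynomial.lifts j := by
    rw [Polynomial.lifts_iff_coeff_lifts]
    exact fun i => ⟨⟨⟨Φ.coeff i, (hΦb i).1⟩, hΦb i⟩, rfl⟩
  obtain ⟨ΦB, hΦmap, -, hmonB⟩ := Polynomial.lifts_and_degree_eq_and_monic hlift hmon
  have hev : ∀ Q : Polynomial B, ((Q.eval₂ B.subtype x : intSub M φ) : modRing M) =
      (Q.map j).eval (xEl D hmM hM) := fun Q => by
    rw [Polynomial.eval_map]
    exact Polynomial.hom_eval₂ Q B.subtype (intSub M φ).subtype x
  refine exists_local_mem_of_simple_root B x ΦB hmonB (Subtype.ext ?_) ?_ (fun a => ?_) P ha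
  · rw [hev, hΦmap, hΦx]; rfl
  · refine IsUnit.of_mul_eq_one ⟨w, hw⟩ (Subtype.ext ?_)
    show ((ΦB.derivative.eval₂ B.subtype x : intSub M φ) : modRing M) * w = 1
    rw [hev, ← Polynomial.derivative_map, hΦmap, hΦw]
  · obtain ⟨f, hf, hfa, -⟩ := exists_interp D hmM hM hR a.2
    refine ⟨∑ i ∈ Finset.range (Fintype.card (Orb M m)),
      Polynomial.monomial i (⟨⟨f i, (hf i).1⟩, hf i⟩ : B), Subtype.ext ?_⟩
    rw [hev, hfa, Polynomial.map_sum, Polynomial.eval_finsetSum]
    refine Finset.sum_congr rfl fun i _ => ?_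
    rw [Polynomial.map_monomial, Polynomial.eval_monomial]
    rfl

end FermatLib.Galois.DS
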