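import Mathlib.RingTheory.Jacobson.Ring
import Fermat.Agent.Galois.DS.Integral
import Fermat.Agent.Galois.DS.SpecialFibre

/-!
# Reduction of `intRing M O`: the special fibre is integral

Every reduced expansion map is injective modulo the uniformiser, so integrality is detected by
the expansion at `∞`.
-/

set_option autoImplicit false
set_option linter.unusedSectionVars false
set_option linter.style.haveILetI false

noncomputable section

open UpperHalfPlane CongruenceSubgroup ModularCurve
open scoped MatrixGroups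

namespace FermatLib.Galois.DS

variable {M : ℕ} [NeZero M] {O : Subring ℂ} [IsDiscreteValuationRing O]
  [IsAdicComplete (IsLocalRing.maximalIdeal O) O]

section Laurent

variable {S : Type*} [CommRing S]

theorem single_dvd_iff_forall (c : S) (x : LaurentSeries S) :
    HahnSeries.single 0 c ∣ x ↔ ∀ i, c ∣ x.coeff i := by
  classical
  constructor
  · rintro ⟨y, rfl⟩ i
    exact ⟨y.coeff i, HahnSeries.coeff_single_zero_mul⟩
  intro h
  choose d hd using h
  set d' : ℤ → S := fun i => if x.coeff i = 0 then 0 else d i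
  refine ⟨⟨d', x.isPWO_support.mono fun i hi => ?_⟩, ?_⟩
  · rw [HahnSeries.mem_support]
    intro h0
    exact hi (if_pos h0)
  · ext i
    rw [HahnSeries.coeff_single_zero_mul]
    show x.coeff i = c * d' i
    by_cases h0 : x.coeff i = 0
    · simp [d', h0]
    · rw [hd i]; simp [d', h0]

theorem eval₂_C_ne_zero {k : Type*} [Field k] {J : LaurentSeries k} (hJ : J ≠ 0) (hord : J.order < 0)
    {P : Polynomial k} (hP : P.Monic) :
    Polynomial.eval₂ (HahnSeries.C : k →+* LaurentSeries k) J P ≠ 0 := by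
  intro h
  set d := P.natDegree
  have h1 := congrArg (fun z : LaurentSeries k => z.coeff ((d : ℤ) * J.order)) h
  simp only [Polynomial.eval₂_eq_sum_range, HahnSeries.coeff_sum, HahnSeries.C_apply,
    HahnSeries.coeff_single_zero_mul, HahnSeries.coeff_zero] at h1
  have hJd : (J ^ d).order = (d : ℤ) * J.order := by
    rw [HahnSeries.order_pow, nsmul_eq_mul]
  rw [Finset.sum_range_succ, Finset.sum_eq_zero, zero_add, show P.coeff d = 1 from hP, one_mul,
    ← hJd] at h1
  · exact HahnSeries.coeff_order_eq_zero.not.mpr (pow_ne_zero d hJ) h1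
  · intro i hi
    rw [HahnSeries.coeff_eq_zero_of_lt_order, mul_zero]
    rw [HahnSeries.order_pow, nsmul_eq_mul]
    have : (i : ℤ) < (d : ℤ) := by exact_mod_cast Finset.mem_range.mp hi
    nlinarith

end Laurent

theorem redExp_algebraMap (A : SL(2, ℤ)) (c : O) :
    redExp M O A (algebraMap O (intRing M O) c) = HahnSeries.C (IsLocalRing.residue O c) := by
  ext n
  have h := cuspExp_algebraMap_mul (M := M) A c 1 n
  rw [mul_one, map_one] at h
  rw [coeff_redExp, h, map_mul, HahnSeries.C_apply, HahnSeries.coeff_one, HahnSeries.coeff_single]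
  split_ifs <;> simp

variable {ϖ : O} (hϖ : Irreducible ϖ)
include hϖ

local notation "πR" => algebraMap O (intRing M O) ϖ

theorem redExp_pi (A : SL(2, ℤ)) : redExp M O A πR = 0 := by
  rw [redExp_algebraMap, show IsLocalRing.residue O ϖ = 0 from
    (IsLocalRing.residue_eq_zero_iff ϖ).mpr (hϖ.maximalIdeal_eq ▸ Ideal.mem_span_singleton_self ϖ),
    map_zero]

theorem not_isUnit_pi : ¬ IsUnit πR := fun h => by
  have := h.map (redExp M O 1)
  rw [redExp_pi hϖ] at this
  exact not_isUnit_zero this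

theorem pi_dvd_of_pow (a : intRing M O) (n : ℕ) (h : πR ∣ a ^ n) : πR ∣ a := by
  rw [algebraMap_dvd_iff_redExp hϖ] at h ⊢
  intro A
  rcases Nat.eq_zero_or_pos n with rfl | hn
  · exact absurd (h A) (by rw [pow_zero, map_one]; exact one_ne_zero)
  · exact (pow_eq_zero_iff hn.ne').mp (by rw [← map_pow]; exact h A)

variable (hg : GoodPlace M O)
include hg

omit hϖ in
theorem GoodPlace.isNoetherianRing : IsNoetherianRing (intRing M O) := by
  obtain ⟨p, hp, hpM, hpO⟩ := hg.exists_prime
  haveI := finiteType_intRing M O hg.hM hg.hM5 hp hpM hpO hg.hζ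
  exact Algebra.FiniteType.isNoetherianRing O _

theorem isTwoGenerated_pi (x : Ideal (intRing M O)) (hx : x.IsMaximal) (hπ : πR ∈ x) :
    IsTwoGenerated πR x := by
  obtain ⟨p, hp, hpM, hpO⟩ := hg.exists_prime
  exact exists_two_generators M O hg.hM hg.hM5 hp hpM hpO hg.hζ hϖ x hπ

omit hg in
theorem eq_zero_of_forall_pow_dvd {c : O} (h : ∀ k : ℕ, ϖ ^ k ∣ c) : c = 0 := by
  by_contra hc
  obtain ⟨m, u, rfl⟩ := IsDiscreteValuationRing.eq_unit_mul_pow_irreducible hc hϖ
  have h1 := h (m + 1)
  rw [pow_succ, mul_comm (u : O)] at h1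
  exact hϖ.not_isUnit (isUnit_of_dvd_unit
    ((mul_dvd_mul_iff_left (pow_ne_zero m hϖ.ne_zero)).mp h1) u.isUnit)

omit hg in
theorem eq_zero_of_forall_pi_pow_dvd {G : intRing M O} (h : ∀ k : ℕ, πR ^ k ∣ G) : G = 0 := by
  have h0 : (G : modRing M) = 0 := by
    refine cuspExp_injective M 1 ?_
    rw [map_zero]
    ext n
    have hc : (cuspExpO M O 1 G).coeff n = 0 := eq_zero_of_forall_pow_dvd hϖ fun k => by
      have := h k
      rw [← map_pow, algebraMap_dvd_iff (pow_ne_zero k hϖ.ne_zero)] at this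
      exact this 1 n
    rw [← coe_coeff_cuspExpO, hc, HahnSeries.coeff_zero]
    rfl
  exact Subtype.ext h0

/-- The special fibre is connected. -/
theorem pi_dvd_or_of_idempotent {e : intRing M O} (he : πR ∣ e * e - e) :
    πR ∣ e ∨ πR ∣ 1 - e := by
  obtain ⟨p, hp, hpM, hpO⟩ := hg.exists_prime
  obtain ⟨f, hf0, hfid, hfstep⟩ := exists_idempotent_lift he
  -- no poles modulo `ϖ ^ (k + 1)`
  have hpole : ∀ (k : ℕ) (A : SL(2, ℤ)) (i : ℤ), i < -((0 : ℕ) : ℤ) →
      ∃ b : O, (cuspExp M A (f k : modRing M)).coeff i = (ϖ : ℂ) ^ (k + 1) * b := by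
    intro k A i hi
    set E := cuspExpO M O A (f k)
    set π' : LaurentSeries O := HahnSeries.single 0 ϖ
    have hπ' : ∀ m : ℕ, π' ^ m = HahnSeries.single 0 (ϖ ^ m) := fun m => by
      rw [HahnSeries.single_pow, smul_zero]
    have hid : π' ^ (k + 1) ∣ E * E - E := by
      rw [hπ', single_dvd_iff_forall, ← map_mul, ← map_sub]
      intro j
      have := hfid k
      rw [← map_pow, algebraMap_dvd_iff (pow_ne_zero _ hϖ.ne_zero)] at this
      exact this A j
    obtain ⟨c, hc, hc0, hEc⟩ : ∃ c : LaurentSeries O, c * c = c ∧ c.coeff i = 0 ∧ π' ∣ E - c := by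
      have hd : π' ∣ E * E - E := (dvd_pow_self π' k.succ_ne_zero).trans hid
      rw [single_dvd_iff_forall] at hd
      have hres : IsIdempotentElem (redExp M O A (f k)) := by
        refine sub_eq_zero.mp ?_
        rw [← map_mul, ← map_sub]
        ext j
        rw [coeff_redExp, map_sub, map_mul, HahnSeries.coeff_zero, IsLocalRing.residue_eq_zero_iff,
          hϖ.maximalIdeal_eq, Ideal.mem_span_singleton]
        exact hd j
      have key : ∀ (x : LaurentSeries O) (j : ℤ),
          IsLocalRing.residue O (x.coeff j) = 0 → ϖ ∣ x.coeff j := fun x j h => by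
        rwa [IsLocalRing.residue_eq_zero_iff, hϖ.maximalIdeal_eq, Ideal.mem_span_singleton] at h
      rcases IsIdempotentElem.iff_eq_zero_or_one.mp hres with h | h
      · refine ⟨0, by simp, rfl, (single_dvd_iff_forall _ _).mpr fun j => key _ _ ?_⟩
        rw [sub_zero, ← coeff_redExp, h, HahnSeries.coeff_zero]
      · refine ⟨1, by simp, ?_, (single_dvd_iff_forall _ _).mpr fun j => key _ _ ?_⟩
        · rw [HahnSeries.coeff_one, if_neg]; omega
        · rw [HahnSeries.coeff_sub, map_sub, ← coeff_redExp, h, HahnSeries.coeff_one,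
            HahnSeries.coeff_one, apply_ite (IsLocalRing.residue O), map_one, map_zero, sub_self]
    have h1 := pow_dvd_sub_of_idempotent hc hEc hid
    rw [hπ', single_dvd_iff_forall] at h1
    obtain ⟨b, hb⟩ := h1 i
    rw [HahnSeries.coeff_sub, hc0, sub_zero] at hb
    refine ⟨b, ?_⟩
    rw [← coe_coeff_cuspExpO, hb]
    push_cast
    rfl
  obtain ⟨n', hn'⟩ := exists_approx_bounded_poles M O hg.hM hg.hM5 hp hpM hpO hg.hζ hϖ 0
  choose H G₁ hH hHpole using fun k => hn' (k + 1) (f k) (hpole k)
  have hHmem : ∀ k, H k ∈ polarLattice M O n' := fun k => hHpole k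
  have hcl : ∀ k, πR ^ (k + 1) ∣ f k - H k := fun k => ⟨G₁ k, by
    conv_lhs => rw [hH k]
    rw [add_sub_cancel_left]⟩
  obtain ⟨E, hE⟩ := exists_lattice_limit (M := M) hϖ n' (H := fun k => ⟨H k, hHmem k⟩) fun k => by
    have h1 : πR ^ (k + 1) ∣ H (k + 1) - H k := by
      rw [show H (k + 1) - H k = (f k - H k) - (f (k + 1) - H (k + 1)) + (f (k + 1) - f k) by ring]
      exact dvd_add (dvd_sub (hcl k) ((pow_dvd_pow _ (Nat.le_succ _)).trans (hcl (k + 1))))
        (hfstep k)
    obtain ⟨D, hD⟩ := (pow_dvd_pow πR (Nat.le_succ k)).trans h1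
    have hDmem : D ∈ polarLattice M O n' := by
      intro A i hi
      have h2 : ((H (k + 1) - H k : intRing M O) : modRing M) ∈ polarSpace M n' :=
        (polarLattice M O n').sub_mem (hHmem (k + 1)) (hHmem k)
      rw [hD, ← map_pow, coe_algebraMap_mul] at h2
      have h3 := h2 A i hi
      rw [coeff_map_smul] at h3
      exact (mul_eq_zero.mp h3).resolve_left fun h0 =>
        pow_ne_zero k hϖ.ne_zero (Subtype.ext h0)
    refine ⟨⟨D, hDmem⟩, Subtype.ext ?_⟩
    show H (k + 1) - H k = ϖ ^ k • D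
    rw [hD, Algebra.smul_def, map_pow]
  have hEf : ∀ k, πR ^ k ∣ (E : intRing M O) - f k := fun k => by
    obtain ⟨D, hD⟩ := hE k
    have h1 : (E : intRing M O) - H k = πR ^ k * (D : intRing M O) := by
      have := congrArg (fun z : polarLattice M O n' => (z : intRing M O)) hD
      simpa [Algebra.smul_def, map_pow] using this
    rw [show (E : intRing M O) - f k = ((E : intRing M O) - H k) - (f k - H k) by ring]
    exact dvd_sub ⟨_, h1⟩ ((pow_dvd_pow _ (Nat.le_succ _)).trans (hcl k))
  have hEid : (E : intRing M O) * E - E = 0 := eq_zero_of_forall_pi_pow_dvd hϖ fun k => by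
    rw [show (E : intRing M O) * E - E = ((E : intRing M O) - f k) * (E + f k - 1) +
      (f k * f k - f k) by ring]
    exact dvd_add (dvd_mul_of_dvd_left (hEf k) _)
      ((pow_dvd_pow _ (Nat.le_succ _)).trans (hfid k))
  have h10 : πR ∣ (E : intRing M O) - e := by
    have h1 := hEf 1
    have h2 := hfstep 0
    rw [pow_one] at h1
    rw [zero_add, pow_one, hf0] at h2
    rw [show (E : intRing M O) - e = ((E : intRing M O) - f 1) + (f 1 - e) by ring]
    exact dvd_add h1 h2
  rcases IsIdempotentElem.iff_eq_zero_or_one.mp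
    (show IsIdempotentElem (E : intRing M O) from sub_eq_zero.mp hEid) with h | h
  · rw [h, zero_sub, dvd_neg] at h10; exact Or.inl h10
  · rw [h] at h10; exact Or.inr h10

/-- **The special fibre is integral.** -/
theorem prime_pi : Prime πR := by
  haveI := hg.isNoetherianRing
  have h := prime_span_of_twoGenerated (π := πR) (not_isUnit_pi hϖ) (pi_dvd_of_pow hϖ)
    (fun e => pi_dvd_or_of_idempotent hϖ hg) (isTwoGenerated_pi hϖ hg)
  refine (Ideal.span_singleton_prime ?_).mp h
  intro h0
  have h1 : ((πR : intRing M O) : modRing M) = 0 := by rw [h0]; rfl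
  rw [show ((πR : intRing M O) : modRing M) = algebraMap ℂ (modRing M) (ϖ : ℂ) from rfl,
    map_eq_zero_iff _ (algebraMap ℂ (modRing M)).injective] at h1
  exact hϖ.ne_zero (Subtype.ext h1)

/-- **Each reduced expansion is injective modulo the uniformiser.** -/
theorem redExp_eq_zero_iff (A : SL(2, ℤ)) (G : intRing M O) :
    redExp M O A G = 0 ↔ πR ∣ G := by
  refine ⟨fun hG => ?_, fun ⟨H, hH⟩ => by rw [hH, map_mul, redExp_pi hϖ, zero_mul]⟩
  by_contra hndvd
  haveI := hg.isNoetherianRing
  set P := RingHom.ker (redExp M O A) with hP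
  haveI : P.IsPrime := RingHom.ker_isPrime _
  have hlt : Ideal.span {πR} < P := by
    refine lt_of_le_of_ne ?_ fun h => hndvd (Ideal.mem_span_singleton.mp (h.symm ▸ hG))
    rw [Ideal.span_singleton_le_iff_mem]
    exact redExp_pi hϖ A
  haveI hmax := isMaximal_of_span_lt
    ((Ideal.span_singleton_prime (prime_pi hϖ hg).ne_zero).mpr (prime_pi hϖ hg))
    (isTwoGenerated_pi hϖ hg) hlt
  letI := Ideal.Quotient.field P
  set ι : intRing M O ⧸ P →+* LaurentSeries (IsLocalRing.ResidueField O) :=
    RingHom.kerLift (redExp M O A) with hι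
  set s : O →+* intRing M O ⧸ P := (Ideal.Quotient.mk P).comp (algebraMap O (intRing M O))
  have hs : ∀ a ∈ IsLocalRing.maximalIdeal O, s a = 0 := by
    intro a ha
    rw [hϖ.maximalIdeal_eq, Ideal.mem_span_singleton] at ha
    obtain ⟨b, rfl⟩ := ha
    rw [map_mul]
    refine mul_eq_zero_of_left ?_ _
    exact Ideal.Quotient.eq_zero_iff_mem.mpr (redExp_pi hϖ A)
  set t : IsLocalRing.ResidueField O →+* intRing M O ⧸ P :=
    Ideal.Quotient.lift (IsLocalRing.maximalIdeal O) s hs
  have hft : s.FiniteType := by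
    obtain ⟨p, hp, hpM, hpO⟩ := hg.exists_prime
    haveI := finiteType_intRing M O hg.hM hg.hM5 hp hpM hpO hg.hζ
    exact (RingHom.FiniteType.of_surjective _ Ideal.Quotient.mk_surjective).comp
      (RingHom.finiteType_algebraMap.mpr inferInstance)
  have hfin : t.Finite := RingHom.finite_iff_finiteType_of_isJacobsonRing.mpr
    (RingHom.FiniteType.of_comp_finiteType (f := IsLocalRing.residue O) (by
      rwa [show t.comp (IsLocalRing.residue O) = s from RingHom.ext fun a => rfl]))
  obtain ⟨Q, hQ, hQ0⟩ := hfin.to_isIntegral (Ideal.Quotient.mk P (jInt (M := M) (O := O)))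
  have hcomp : ι.comp t = HahnSeries.C := by
    refine RingHom.ext fun x => ?_
    obtain ⟨a, rfl⟩ := IsLocalRing.residue_surjective x
    show redExp M O A (algebraMap O (intRing M O) a) = _
    rw [redExp_algebraMap]
  have h0 := congrArg ι hQ0
  rw [Polynomial.hom_eval₂, hcomp, map_zero] at h0
  have hJ := coeff_redExp_jInt (M := M) (O := O) A
  have hne : redExp M O A (jInt (M := M) (O := O)) ≠ 0 := fun h => by
    rw [h] at hJ; exact zero_ne_one hJ
  refine eval₂_C_ne_zero hne ?_ hQ h0
  refine lt_of_le_of_lt (HahnSeries.order_le_of_coeff_ne_zero (g := -(M : ℤ))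
    (by rw [hJ]; exact one_ne_zero)) ?_
  have : 0 < M := Nat.pos_of_ne_zero (NeZero.ne M)
  omega

/-- Integrality is detected at `∞`. -/
theorem mem_intRing_of_qExp1 {G : modRing M} (hG : ∀ n, (qExp1 M G).coeff n ∈ O) :
    G ∈ intRing M O := by
  obtain ⟨p, hp, hpM, hpO⟩ := hg.exists_prime
  obtain ⟨c, hc, hcG⟩ := exists_smul_mem_intRing M O hg.hM hg.hM5 hp hpM hpO hg.hζ G
    fun n => ⟨⟨_, hG n⟩, 1, one_ne_zero, by simp⟩
  obtain ⟨m, u, rfl⟩ := IsDiscreteValuationRing.eq_unit_mul_pow_irreducible hc hϖ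
  suffices h : ∀ m : ℕ, ((ϖ ^ m : O) : ℂ) • G ∈ intRing M O → G ∈ intRing M O by
    refine h m ?_
    have h1 := (intRing M O).smul_mem hcG ((u⁻¹ : Oˣ) : O)
    rwa [smul_smul, ← mul_assoc, Units.inv_mul, one_mul] at h1
  intro m
  induction m with
  | zero => intro h; simpa using h
  | succ m ih =>
    intro h
    set H : intRing M O := ⟨_, h⟩
    have hH : redExp M O 1 H = 0 := by
      ext i
      rw [coeff_redExp, HahnSeries.coeff_zero, IsLocalRing.residue_eq_zero_iff,
        hϖ.maximalIdeal_eq, Ideal.mem_span_singleton]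
      have h1 : ((cuspExpO M O 1 H).coeff i : ℂ) =
          ((ϖ ^ (m + 1) : O) : ℂ) * (cuspExp M 1 G).coeff i := by
        rw [coe_coeff_cuspExpO]
        exact coeff_map_smul M _ _ _ _
      obtain ⟨b, hb⟩ : ∃ b : O, (cuspExp M 1 G).coeff i = (b : ℂ) := by
        rw [cuspExp_eq_of_isInftyCusp M (isInftyCusp_one M)]
        by_cases hd : (M : ℤ) ∣ i
        · obtain ⟨j, rfl⟩ := hd
          rw [qExpand_coeff_mul]
          exact ⟨⟨_, hG j⟩, rfl⟩
        · rw [qExpand_coeff_of_not_dvd M _ hd]
          exact ⟨0, rfl⟩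
      rw [hb, ← Subring.coe_mul] at h1
      rw [Subtype.ext h1, pow_succ', mul_assoc]
      exact dvd_mul_right _ _
    obtain ⟨H', hH'⟩ := (redExp_eq_zero_iff hϖ hg 1 H).mp hH
    refine ih ?_
    have h2 : ((ϖ ^ (m + 1) : O) : ℂ) • G = (ϖ : ℂ) • (H' : modRing M) := by
      rw [← coe_algebraMap_mul, ← hH']
    rw [pow_succ', Subring.coe_mul, mul_smul] at h2
    rw [smul_right_injective (modRing M) (show (ϖ : ℂ) ≠ 0 from fun h0 =>
      hϖ.ne_zero (Subtype.ext h0)) h2]
    exact H'.2

end FermatLib.Galois.DS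

end
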