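import Mathlib.Analysis.SpecialFunctions.Trigonometric.Cotangent
import Mathlib.Analysis.Complex.Periodic
import Mathlib.Analysis.PSeries

/-!
# The function `π cot (π x)`

Its behaviour at `±i∞` and the row sums it gives.
-/

set_option autoImplicit false

noncomputable section

open Complex Filter Topology
open scoped Real

namespace FermatLib.Galois.DS

/-- `exp (2 π i x)`. -/
def expTwoPiI (x : ℂ) : ℂ := Complex.exp (2 * π * I * x)

theorem norm_expTwoPiI (x : ℂ) : ‖expTwoPiI x‖ = Real.exp (-(2 * π * x.im)) := by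
  simp [expTwoPiI, Complex.norm_exp]

theorem expTwoPiI_add (x y : ℂ) : expTwoPiI (x + y) = expTwoPiI x * expTwoPiI y := by
  rw [expTwoPiI, expTwoPiI, expTwoPiI, ← Complex.exp_add]; ring_nf

theorem expTwoPiI_neg (x : ℂ) : expTwoPiI (-x) = (expTwoPiI x)⁻¹ := by
  rw [expTwoPiI, expTwoPiI, ← Complex.exp_neg]; ring_nf

theorem expTwoPiI_ne_zero (x : ℂ) : expTwoPiI x ≠ 0 := Complex.exp_ne_zero _

theorem expTwoPiI_int (n : ℤ) : expTwoPiI n = 1 := by
  rw [expTwoPiI, mul_comm, Complex.exp_int_mul_two_pi_mul_I]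

theorem expTwoPiI_nat_mul (n : ℕ) (x : ℂ) : expTwoPiI (n * x) = expTwoPiI x ^ n := by
  rw [expTwoPiI, expTwoPiI, ← Complex.exp_nat_mul]; ring_nf

/-- `π cot (π x)`; the value at integers is `0`. -/
def cotC (x : ℂ) : ℂ := -(π * I) * ((expTwoPiI x + 1) / (1 - expTwoPiI x))

theorem pi_mul_cot_pi (x : ℂ) : π * cot (π * x) = cotC x := by
  rw [Complex.cot_pi_eq_exp_ratio, cotC, expTwoPiI, div_mul_eq_div_div, Complex.div_I]
  ring

theorem cotC_neg (x : ℂ) : cotC (-x) = -cotC x := by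
  rw [cotC, cotC, expTwoPiI_neg]
  by_cases h : expTwoPiI x = 1
  · simp [h]
  · have h0 := expTwoPiI_ne_zero x
    have h1 : (1 : ℂ) - expTwoPiI x ≠ 0 := sub_ne_zero.mpr (Ne.symm h)
    have h2 : expTwoPiI x - 1 ≠ 0 := sub_ne_zero.mpr h
    field_simp
    ring

theorem cotC_zero : cotC 0 = 0 := by simp [cotC, expTwoPiI]

theorem cotC_add_int (x : ℂ) (n : ℤ) : cotC (x + n) = cotC x := by
  simp [cotC, expTwoPiI_add, expTwoPiI_int]

theorem exp_neg_two_pi_mul_le_half {y : ℝ} (hy : 1 ≤ y) : Real.exp (-(2 * π * y)) ≤ 1 / 2 := by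
  have h1 := Real.add_one_le_exp (2 * π * y)
  have h2 : 1 ≤ 2 * π * y := by nlinarith [Real.two_le_pi]
  rw [Real.exp_neg, one_div]
  gcongr
  linarith

theorem norm_cotC_add_le {x : ℂ} (hx : 1 ≤ x.im) :
    ‖cotC x + π * I‖ ≤ 4 * π * Real.exp (-(2 * π * x.im)) := by
  set z := expTwoPiI x with hz
  have hn : ‖z‖ ≤ 1 / 2 := by
    rw [hz, norm_expTwoPiI]; exact exp_neg_two_pi_mul_le_half hx
  have h1 : (1 : ℝ) / 2 ≤ ‖1 - z‖ := by
    have := norm_sub_norm_le (1 : ℂ) z
    rw [norm_one] at this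
    linarith
  have h0 : (1 : ℂ) - z ≠ 0 := fun h => by
    rw [h, norm_zero] at h1
    linarith
  have heq : cotC x + π * I = -(2 * π * I) * (z / (1 - z)) := by
    rw [cotC, ← hz]
    field_simp
    ring
  rw [heq, norm_mul, norm_div, ← norm_expTwoPiI, ← hz]
  have h2 : ‖-(2 * π * I)‖ = 2 * π := by simp [abs_of_pos Real.pi_pos]
  rw [h2]
  calc 2 * π * (‖z‖ / ‖1 - z‖) ≤ 2 * π * (‖z‖ / (1 / 2)) := by gcongr
    _ = _ := by ring

theorem norm_cotC_sub_le {x : ℂ} (hx : x.im ≤ -1) :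
    ‖cotC x - π * I‖ ≤ 4 * π * Real.exp (2 * π * x.im) := by
  have h := norm_cotC_add_le (x := -x) (by simp; linarith)
  rw [cotC_neg, show -cotC x + π * I = -(cotC x - π * I) by ring, norm_neg] at h
  simpa using h

theorem norm_cotC_le {x : ℂ} (hx : 1 ≤ |x.im|) : ‖cotC x‖ ≤ 5 * π := by
  have hpi : ‖(π : ℂ) * I‖ = π := by simp [abs_of_pos Real.pi_pos]
  rcases le_abs.mp hx with h | h
  · have h1 := norm_cotC_add_le h
    have h2 := norm_sub_le (cotC x + π * I) (π * I)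
    rw [add_sub_cancel_right, hpi] at h2
    have h3 := exp_neg_two_pi_mul_le_half h
    nlinarith [Real.pi_pos]
  · have h1 := norm_cotC_sub_le (x := x) (by linarith)
    have h2 := norm_add_le (cotC x - π * I) (π * I)
    rw [sub_add_cancel, hpi] at h2
    have h3 := exp_neg_two_pi_mul_le_half (y := -x.im) (by linarith)
    rw [show -(2 * π * -x.im) = 2 * π * x.im by ring] at h3
    nlinarith [Real.pi_pos]

/-- The second difference appearing in the row sums. -/
def cotDiff (u a : ℂ) : ℂ := cotC (2 * u - a) - 2 * cotC (u - a) + cotC (-a)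

theorem norm_cotDiff_le {u a : ℂ} {d : ℝ} (hd : 1 ≤ d)
    (h : (d ≤ (2 * u - a).im ∧ d ≤ (u - a).im ∧ d ≤ (-a).im) ∨
      ((2 * u - a).im ≤ -d ∧ (u - a).im ≤ -d ∧ (-a).im ≤ -d)) :
    ‖cotDiff u a‖ ≤ 16 * π * Real.exp (-(2 * π * d)) := by
  obtain ⟨c, hc⟩ : ∃ c : ℂ, ∀ x ∈ ({2 * u - a, u - a, -a} : Set ℂ),
      ‖cotC x + c‖ ≤ 4 * π * Real.exp (-(2 * π * d)) := by
    rcases h with ⟨h1, h2, h3⟩ | ⟨h1, h2, h3⟩
    · refine ⟨π * I, fun x hx => ?_⟩
      have hx' : d ≤ x.im := by rcases hx with rfl | rfl | rfl <;> assumption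
      refine (norm_cotC_add_le (hd.trans hx')).trans ?_
      gcongr
    · refine ⟨-(π * I), fun x hx => ?_⟩
      have hx' : x.im ≤ -d := by rcases hx with rfl | rfl | rfl <;> assumption
      rw [← sub_eq_add_neg]
      refine (norm_cotC_sub_le (hx'.trans (by linarith))).trans ?_
      gcongr
      nlinarith [Real.pi_pos]
  have h1 := hc (2 * u - a) (by simp)
  have h2 := hc (u - a) (by simp)
  have h3 := hc (-a) (by simp)
  rw [cotDiff, show cotC (2 * u - a) - 2 * cotC (u - a) + cotC (-a) =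
    (cotC (2 * u - a) + c) - 2 * (cotC (u - a) + c) + (cotC (-a) + c) by ring]
  refine (norm_add_le _ _).trans ?_
  have h4 := norm_sub_le (cotC (2 * u - a) + c) (2 * (cotC (u - a) + c))
  rw [norm_mul, Complex.norm_ofNat] at h4
  linarith

/-- One term of the Mittag-Leffler series of `π cot (π x)` over `ℤ`. -/
def cotSummand (x : ℂ) (n : ℤ) : ℂ := 1 / (x - n) + 1 / n

theorem summable_cotSummand (x : ℂ) : Summable (cotSummand x) := by
  have hev : ∀ᶠ n : ℤ in cofinite, (⌈2 * ‖x‖⌉₊ + 1 : ℤ) < |n| := by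
    refine eventually_cofinite.mpr (Set.Finite.subset (Set.finite_Icc (-(⌈2 * ‖x‖⌉₊ + 1 : ℤ))
      (⌈2 * ‖x‖⌉₊ + 1)) fun n hn => ?_)
    simp only [Set.mem_ofPred_eq, not_lt] at hn
    exact abs_le.mp hn
  refine Summable.of_norm_bounded_eventually
    ((Real.summable_one_div_int_pow.mpr one_lt_two).mul_left (2 * ‖x‖)) ?_
  filter_upwards [hev] with n hn
  have hn' : 2 * ‖x‖ + 1 < |(n : ℝ)| := by
    have h1 : ((⌈2 * ‖x‖⌉₊ : ℤ) + 1 : ℝ) < |(n : ℝ)| := by exact_mod_cast hn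
    have h2 := Nat.le_ceil (2 * ‖x‖)
    push_cast at h1
    linarith
  have hn0 : (n : ℂ) ≠ 0 := by
    intro h0
    rw [Int.cast_eq_zero] at h0
    simp [h0] at hn'
    linarith [norm_nonneg x]
  have hxn : |(n : ℝ)| / 2 ≤ ‖x - n‖ := by
    have h3 := norm_sub_norm_le (n : ℂ) x
    rw [Complex.norm_intCast, norm_sub_rev] at h3
    linarith
  have hpos : (0 : ℝ) < |(n : ℝ)| := by linarith [norm_nonneg x]
  have hxn0 : x - n ≠ 0 := fun h => by rw [h, norm_zero] at hxn; linarith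
  have heq : cotSummand x n = x / ((x - n) * n) := by
    rw [cotSummand]
    field_simp
    ring
  rw [heq, norm_div, norm_mul, Complex.norm_intCast]
  calc ‖x‖ / (‖x - n‖ * |(n : ℝ)|) ≤ ‖x‖ / (|(n : ℝ)| / 2 * |(n : ℝ)|) := by gcongr
    _ = 2 * ‖x‖ * (1 / (n : ℝ) ^ 2) := by rw [← sq_abs (n : ℝ)]; ring

theorem hasSum_cotSummand {x : ℂ} (hx : x ∈ integerComplement ∨ x = 0) :
    HasSum (cotSummand x) (cotC x) := by
  rcases hx with hx | rfl
  · have hs := summable_cotSummand x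
    rw [hs.hasSum_iff]
    have hi : Function.Injective (fun n : ℕ => (n : ℤ)) := Nat.cast_injective
    have h1 : Summable fun n : ℕ => cotSummand x n := hs.comp_injective hi
    have h2 : Summable fun n : ℕ => cotSummand x (-((n : ℤ) + 1)) :=
      hs.comp_injective fun a b h => by simpa using h
    rw [tsum_of_nat_of_neg_add_one h1 h2, h1.tsum_eq_zero_add, add_assoc,
      ← ((summable_nat_add_iff 1).mpr h1).tsum_add h2, ← pi_mul_cot_pi]
    have h3 := cot_series_rep' hx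
    have h4 : ∀ n : ℕ, cotSummand x ((n + 1 : ℕ) : ℤ) + cotSummand x (-((n : ℤ) + 1)) =
        1 / (x - (n + 1)) + 1 / (x + (n + 1)) := by
      intro n
      simp only [cotSummand]
      push_cast
      rw [sub_neg_eq_add, div_neg]
      ring
    simp only [h4, ← h3]
    simp [cotSummand]
  · have h0 : cotSummand 0 = fun _ => 0 := by
      funext n
      simp [cotSummand, div_neg]
    rw [h0, cotC_zero]
    exact hasSum_zero

end FermatLib.Galois.DS

end
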