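import Fermat.Agent.Galois.DS.ResidualCot
import Mathlib.NumberTheory.ModularForms.EisensteinSeries.IsBoundedAtImInfty
import Mathlib.NumberTheory.ModularForms.SlashActions
import Mathlib.NumberTheory.ModularForms.CongruenceSubgroups
import Mathlib.NumberTheory.DirichletCharacter.Basic
import Mathlib.Algebra.Field.ZMod
import Mathlib.RingTheory.Int.Basic

/-!
# Weight one Eisenstein series

`ζ (2 u) - 2 ζ (u)` for the Weierstrass zeta function of `ℤ τ + ℤ`, as an absolutely convergent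
lattice sum, and its character combinations at `ℓ`-division points.
-/

set_option autoImplicit false

noncomputable section

open UpperHalfPlane hiding I
open Complex Filter Topology EisensteinSeries CongruenceSubgroup Matrix
open scoped Real MatrixGroups ModularForm

namespace FermatLib.Galois.DS

/-- The term of `ζ (2 u) - 2 ζ (u)` at the lattice point `l`. -/
def kTerm (l u : ℂ) : ℂ := 1 / (2 * u - l) - 2 / (u - l) - 1 / l

theorem kTerm_smul (j l u : ℂ) : kTerm (j * l) (j * u) = j⁻¹ * kTerm l u := by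
  simp only [kTerm, show 2 * (j * u) - j * l = j * (2 * u - l) by ring,
    show j * u - j * l = j * (u - l) by ring, div_eq_mul_inv, _root_.mul_inv_rev]
  ring

theorem norm_kTerm_le {l u : ℂ} (h : 4 * ‖u‖ < ‖l‖) :
    ‖kTerm l u‖ ≤ 8 * ‖u‖ ^ 2 * (‖l‖⁻¹) ^ 3 := by
  have hu := norm_nonneg u
  have h2 : ‖l‖ / 2 ≤ ‖2 * u - l‖ := by
    have := norm_sub_norm_le l (2 * u)
    rw [norm_mul, Complex.norm_ofNat, norm_sub_rev] at this
    linarith
  have h1 : ‖l‖ / 2 ≤ ‖u - l‖ := by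
    have := norm_sub_norm_le l u
    rw [norm_sub_rev] at this
    linarith
  have hpos : 0 < ‖l‖ := by linarith
  have e0 : l ≠ 0 := norm_pos_iff.mp hpos
  have e1 : u - l ≠ 0 := norm_pos_iff.mp (by linarith)
  have e2 : 2 * u - l ≠ 0 := norm_pos_iff.mp (by linarith)
  have heq : kTerm l u = -(2 * u ^ 2) / ((2 * u - l) * (u - l) * l) := by
    rw [kTerm]
    field_simp
    ring
  rw [heq, norm_div, norm_mul, norm_mul, norm_neg, norm_mul, Complex.norm_ofNat, norm_pow]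
  calc 2 * ‖u‖ ^ 2 / (‖2 * u - l‖ * ‖u - l‖ * ‖l‖)
      ≤ 2 * ‖u‖ ^ 2 / (‖l‖ / 2 * (‖l‖ / 2) * ‖l‖) := by gcongr
    _ = _ := by field_simp; ring

/-- The lattice point with coordinates `v`. -/
def latPt (τ : ℍ) (v : Fin 2 → ℤ) : ℂ := v 0 * (τ : ℂ) + v 1

/-- `ζ (2 u) - 2 ζ (u)` for the lattice `ℤ τ + ℤ`. -/
def eisK (τ : ℍ) (u : ℂ) : ℂ := ∑' v : Fin 2 → ℤ, kTerm (latPt τ v) u

theorem summable_kTerm (τ : ℍ) (u : ℂ) :
    Summable fun v : Fin 2 → ℤ => kTerm (latPt τ v) u := by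
  refine Summable.of_norm_bounded_eventually
    ((summable_norm_eisSummand le_rfl τ).mul_left (8 * ‖u‖ ^ 2)) ?_
  have hev : ∀ᶠ v : Fin 2 → ℤ in cofinite, 4 * ‖u‖ < ‖latPt τ v‖ := by
    refine eventually_cofinite.mpr (Set.Finite.subset
      (isCompact_closedBall (0 : Fin 2 → ℤ) (4 * ‖u‖ / r τ)).finite_of_discrete fun v hv => ?_)
    rw [mem_closedBall_zero_iff, le_div_iff₀ (r_pos τ)]
    by_cases h0 : v = 0
    · simp [h0]
    · have h1 := r_mul_max_le τ h0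
      simp only [Set.mem_ofPred_eq, not_lt, latPt] at hv
      linarith
  filter_upwards [hev] with v hv
  refine (norm_kTerm_le hv).trans_eq ?_
  simp [eisSummand, latPt, zpow_neg]

theorem latPt_smul (A : SL(2, ℤ)) (τ : ℍ) (v : Fin 2 → ℤ) :
    latPt (A • τ) v = ((A 1 0 : ℤ) * (τ : ℂ) + (A 1 1 : ℤ))⁻¹ * latPt τ (v ᵥ* A.1) := by
  have hj : ((A 1 0 : ℤ) * (τ : ℂ) + (A 1 1 : ℤ)) ≠ 0 := by
    have := UpperHalfPlane.denom_ne_zero (A : GL (Fin 2) ℝ) τ
    rwa [ModularGroup.denom_apply] at this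
  have key : ∀ a b c d t x y : ℂ, c * t + d ≠ 0 →
      x * ((a * t + b) / (c * t + d)) + y = (c * t + d)⁻¹ * ((x * a + y * c) * t + (x * b + y * d)) := by
    intro a b c d t x y h
    have h' : t * c + d ≠ 0 := by rwa [mul_comm t c]
    field_simp
    ring
  simp only [latPt, UpperHalfPlane.coe_specialLinearGroup_apply, Matrix.vecMul, dotProduct,
    Fin.sum_univ_two, eq_intCast, Complex.ofReal_intCast]
  push_cast
  exact key _ _ _ _ _ _ _ hj

theorem eisK_smul (A : SL(2, ℤ)) (τ : ℍ) (u : ℂ) :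
    eisK (A • τ) u = ((A 1 0 : ℤ) * (τ : ℂ) + (A 1 1 : ℤ)) *
      eisK τ (((A 1 0 : ℤ) * (τ : ℂ) + (A 1 1 : ℤ)) * u) := by
  set j := ((A 1 0 : ℤ) * (τ : ℂ) + (A 1 1 : ℤ))
  have hj : j ≠ 0 := by
    have := UpperHalfPlane.denom_ne_zero (A : GL (Fin 2) ℝ) τ
    rwa [ModularGroup.denom_apply] at this
  have hA : A.1 * (A⁻¹ : SL(2, ℤ)).1 = 1 := congrArg Subtype.val (mul_inv_cancel A)
  have hA' : (A⁻¹ : SL(2, ℤ)).1 * A.1 = 1 := congrArg Subtype.val (inv_mul_cancel A)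
  let e : (Fin 2 → ℤ) ≃ (Fin 2 → ℤ) :=
    { toFun := fun v ↦ v ᵥ* A.1
      invFun := fun v ↦ v ᵥ* (A⁻¹ : SL(2, ℤ)).1
      left_inv := fun v ↦ by simp only [vecMul_vecMul, hA, vecMul_one]
      right_inv := fun v ↦ by simp only [vecMul_vecMul, hA', vecMul_one] }
  rw [eisK, eisK, ← e.tsum_eq fun v => kTerm (latPt τ v) (j * u), ← tsum_mul_left]
  refine tsum_congr fun v => ?_
  have h := kTerm_smul j⁻¹ (latPt τ (e v)) (j * u)
  rw [inv_mul_cancel_left₀ hj, inv_inv] at h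
  rw [← h, latPt_smul]
  rfl

/-- `2 u` is not a lattice point. -/
def LatOff (τ : ℍ) (u : ℂ) : Prop := ∀ m n : ℤ, 2 * u ≠ m * (τ : ℂ) + n

theorem LatOff.add {τ : ℍ} {u : ℂ} (h : LatOff τ u) (m n : ℤ) :
    LatOff τ (u + (m * (τ : ℂ) + n)) := fun a b he => h (a - 2 * m) (b - 2 * n) (by
  push_cast
  linear_combination he)

theorem LatOff.mem_integerComplement {τ : ℍ} {u : ℂ} (h : LatOff τ u) (m : ℤ) :
    2 * u - m * (τ : ℂ) ∈ integerComplement ∧ u - m * (τ : ℂ) ∈ integerComplement := by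
  constructor <;> rintro ⟨n, hn⟩
  · exact h m n (by linear_combination -hn)
  · exact h (2 * m) (2 * n) (by push_cast; linear_combination -2 * hn)

/-- The row decomposition. -/
theorem hasSum_eisK {τ : ℍ} {u : ℂ} (h : LatOff τ u) :
    HasSum (fun m : ℤ => cotDiff u (m * (τ : ℂ))) (eisK τ u) := by
  have h1 : HasSum (fun p : ℤ × ℤ => kTerm (latPt τ ((finTwoArrowEquiv ℤ).symm p)) u)
      (eisK τ u) := (finTwoArrowEquiv ℤ).symm.hasSum_iff.mpr (summable_kTerm τ u).hasSum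
  refine h1.prod_fiberwise fun m => ?_
  have h3 : -((m : ℂ) * (τ : ℂ)) ∈ integerComplement ∨ -((m : ℂ) * (τ : ℂ)) = 0 := by
    by_cases hm : m = 0
    · simp [hm]
    · left
      rintro ⟨n, hn⟩
      have := congrArg Complex.im hn
      simp [hm, τ.im_ne_zero] at this
  have hs := ((hasSum_cotSummand (Or.inl (h.mem_integerComplement m).1)).sub
    ((hasSum_cotSummand (Or.inl (h.mem_integerComplement m).2)).mul_left 2)).add
    (hasSum_cotSummand h3)
  refine hs.congr_fun fun n => ?_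
  simp only [kTerm, cotSummand, latPt, finTwoArrowEquiv_symm_apply, Matrix.cons_val_zero,
    Matrix.cons_val_one]
  rw [show -((m : ℂ) * τ) - n = -((m : ℂ) * τ + n) by ring, div_neg,
    sub_sub (2 * u), sub_sub u]
  ring

theorem eisK_add_int {τ : ℍ} {u : ℂ} (h : LatOff τ u) (n : ℤ) :
    eisK τ (u + n) = eisK τ u := by
  have h' : LatOff τ (u + n) := by simpa using h.add 0 n
  rw [← (hasSum_eisK h').tsum_eq, ← (hasSum_eisK h).tsum_eq]
  refine tsum_congr fun m => ?_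
  rw [cotDiff, cotDiff, show 2 * (u + n) - m * (τ : ℂ) = 2 * u - m * τ + ((2 * n : ℤ) : ℂ) by
    push_cast; ring, cotC_add_int,
    show u + n - m * (τ : ℂ) = u - m * τ + (n : ℂ) by ring, cotC_add_int]

theorem summable_exp_neg_mul_abs {c : ℝ} (hc : 0 < c) :
    Summable fun m : ℤ => Real.exp (-(c * |(m : ℝ)|)) := by
  have h : Summable fun n : ℕ => Real.exp ((n : ℝ) * -c) :=
    Real.summable_exp_nat_mul_iff.mpr (by linarith)
  refine Summable.of_nat_of_neg ?_ ?_ <;>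
  · refine h.congr fun n => ?_
    simp [mul_comm]

theorem eisK_add_tau {τ : ℍ} {u : ℂ} (h : LatOff τ u) :
    eisK τ (u + (τ : ℂ)) = eisK τ u := by
  have h' : LatOff τ (u + τ) := by simpa using h.add 1 0
  set P : ℤ → ℂ := fun m =>
    cotC (2 * u - ((m : ℂ) - 1) * τ) - cotC (-((m : ℂ) * τ)) with hP
  set y := τ.im with hy
  set K := |2 * u.im + y| with hK
  have hy0 : 0 < y := τ.im_pos
  have hPs : Summable P := by
    refine Summable.of_norm_bounded_eventually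
      ((summable_exp_neg_mul_abs (show 0 < 2 * π * y by positivity)).mul_left
        (8 * π * Real.exp (2 * π * K))) ?_
    have hev : ∀ᶠ m : ℤ in cofinite, K + 1 ≤ |(m : ℝ)| * y := by
      refine eventually_cofinite.mpr (Set.Finite.subset
        (Set.finite_Icc (-⌈(K + 1) / y⌉) ⌈(K + 1) / y⌉) fun m hm => ?_)
      simp only [Set.mem_ofPred_eq, not_le, ← lt_div_iff₀ hy0] at hm
      have h1 : |(m : ℝ)| < (⌈(K + 1) / y⌉ : ℝ) := hm.trans_le (Int.le_ceil _)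
      exact abs_le.mp (by exact_mod_cast h1.le)
    filter_upwards [hev] with m hm
    set d := |(m : ℝ)| * y - K with hd
    have hd1 : 1 ≤ d := by rw [hd]; linarith
    have e1 : (2 * u - ((m : ℂ) - 1) * τ).im = 2 * u.im + y - m * y := by
      simp [hy]; ring
    have e2 : (-((m : ℂ) * (τ : ℂ))).im = -(m * y) := by simp [hy]
    have hexp : 4 * π * Real.exp (-(2 * π * d)) + 4 * π * Real.exp (-(2 * π * d)) =
        8 * π * Real.exp (2 * π * K) * Real.exp (-(2 * π * y * |(m : ℝ)|)) := by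
      rw [mul_assoc (8 * π), ← Real.exp_add, hd]; ring_nf
    rw [← hexp, hP]
    beta_reduce
    rcases le_total 0 (m : ℝ) with hm0 | hm0
    · rw [abs_of_nonneg hm0] at hd hm
      have b1 := norm_cotC_sub_le (x := 2 * u - ((m : ℂ) - 1) * τ)
        (by rw [e1]; linarith [le_abs_self (2 * u.im + y)])
      have b2 := norm_cotC_sub_le (x := -((m : ℂ) * τ))
        (by rw [e2]; linarith [abs_nonneg (2 * u.im + y)])
      rw [e1] at b1; rw [e2] at b2
      refine le_trans ?_ (add_le_add (b1.trans ?_) (b2.trans ?_))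
      · rw [show cotC (2 * u - ((m : ℂ) - 1) * τ) - cotC (-((m : ℂ) * τ)) =
          (cotC (2 * u - ((m : ℂ) - 1) * τ) - π * I) - (cotC (-((m : ℂ) * τ)) - π * I) by ring]
        exact norm_sub_le _ _
      · gcongr; nlinarith [Real.pi_pos, le_abs_self (2 * u.im + y)]
      · gcongr; nlinarith [Real.pi_pos, abs_nonneg (2 * u.im + y)]
    · rw [abs_of_nonpos hm0] at hd hm
      have b1 := norm_cotC_add_le (x := 2 * u - ((m : ℂ) - 1) * τ)
        (by rw [e1]; linarith [neg_abs_le (2 * u.im + y)])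
      have b2 := norm_cotC_add_le (x := -((m : ℂ) * τ))
        (by rw [e2]; linarith [abs_nonneg (2 * u.im + y)])
      rw [e1] at b1; rw [e2] at b2
      refine le_trans ?_ (add_le_add (b1.trans ?_) (b2.trans ?_))
      · rw [show cotC (2 * u - ((m : ℂ) - 1) * τ) - cotC (-((m : ℂ) * τ)) =
          (cotC (2 * u - ((m : ℂ) - 1) * τ) + π * I) - (cotC (-((m : ℂ) * τ)) + π * I) by ring]
        exact norm_sub_le _ _
      · gcongr; nlinarith [Real.pi_pos, neg_abs_le (2 * u.im + y)]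
      · gcongr; nlinarith [Real.pi_pos, abs_nonneg (2 * u.im + y)]
  set Φ : ℤ → ℂ := fun m => cotDiff u (m * (τ : ℂ)) + P m with hΦ
  have hΦs : Summable Φ := (hasSum_eisK h).summable.add hPs
  have hshift : HasSum (fun m : ℤ => Φ (m - 1) - Φ m) 0 := by
    have := ((Equiv.subRight (1 : ℤ)).hasSum_iff.mpr hΦs.hasSum).sub hΦs.hasSum
    rw [sub_self] at this
    exact this
  have hd := (hasSum_eisK h').sub (hasSum_eisK h)
  have heq : ∀ m : ℤ, cotDiff (u + τ) (m * (τ : ℂ)) - cotDiff u (m * (τ : ℂ)) =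
      Φ (m - 1) - Φ m := by
    intro m
    simp only [hΦ, hP, cotDiff]
    push_cast
    ring_nf
  exact sub_eq_zero.mp ((hd.congr_fun fun m => (heq m).symm).unique hshift)

theorem eisK_add_lat {τ : ℍ} {u : ℂ} (h : LatOff τ u) (m n : ℤ) :
    eisK τ (u + (m * (τ : ℂ) + n)) = eisK τ u := by
  have key : ∀ m : ℤ, eisK τ (u + m * (τ : ℂ)) = eisK τ u := by
    intro m
    induction m using Int.induction_on with
    | zero => simp
    | succ k ih =>
      rw [← ih, show u + ((k : ℤ) + 1 : ℤ) * (τ : ℂ) = u + (k : ℤ) * (τ : ℂ) + τ by push_cast; ring]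
      exact eisK_add_tau (by simpa using h.add k 0)
    | pred k ih =>
      rw [← ih, show u + (-(k : ℤ) : ℤ) * (τ : ℂ) = u + (-(k : ℤ) - 1 : ℤ) * (τ : ℂ) + τ by
        push_cast; ring]
      exact (eisK_add_tau (by simpa using h.add (-(k : ℤ) - 1) 0)).symm
  rw [← add_assoc, eisK_add_int (by simpa using h.add m 0), key]

section Division

variable {ℓ : ℕ} [Fact ℓ.Prime]

theorem latOff_div (hℓ : ℓ ≠ 2) (τ : ℍ) {r s : ℤ} (h : ¬ ((ℓ : ℤ) ∣ r ∧ (ℓ : ℤ) ∣ s)) :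
    LatOff τ ((r * (τ : ℂ) + s) / ℓ) := by
  intro m n he
  have hℓ0 : (ℓ : ℂ) ≠ 0 := Nat.cast_ne_zero.mpr (NeZero.ne ℓ)
  have he' : (2 * r - m * ℓ : ℤ) * (τ : ℂ) = (n * ℓ - 2 * s : ℤ) := by
    field_simp at he
    push_cast
    linear_combination he
  have h1 : (2 * r - m * ℓ : ℤ) = 0 := by
    have := congrArg Complex.im he'
    simp only [Complex.mul_im, Complex.intCast_re, Complex.intCast_im, zero_mul, add_zero,
      mul_eq_zero] at this
    exact_mod_cast this.resolve_right τ.im_ne_zero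
  have h2 : (n * ℓ - 2 * s : ℤ) = 0 := by
    rw [h1, Int.cast_zero, zero_mul] at he'
    exact_mod_cast he'.symm
  have hp : Prime (ℓ : ℤ) := Int.prime_iff_natAbs_prime.mpr (by simpa using Fact.out (p := ℓ.Prime))
  have h2' : ¬ (ℓ : ℤ) ∣ 2 := fun hd => hℓ ((Nat.prime_dvd_prime_iff_eq Fact.out Nat.prime_two).mp
    (by exact_mod_cast hd))
  exact h ⟨(hp.dvd_mul.mp ⟨m, by linarith⟩).resolve_left h2',
    (hp.dvd_mul.mp ⟨n, by linarith⟩).resolve_left h2'⟩

theorem eisK_div_congr (hℓ : ℓ ≠ 2) (τ : ℍ) {r s r' s' : ℤ}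
    (h : ¬ ((ℓ : ℤ) ∣ r ∧ (ℓ : ℤ) ∣ s)) (hr : (ℓ : ℤ) ∣ r' - r) (hs : (ℓ : ℤ) ∣ s' - s) :
    eisK τ ((r' * (τ : ℂ) + s') / ℓ) = eisK τ ((r * (τ : ℂ) + s) / ℓ) := by
  obtain ⟨a, ha⟩ := hr
  obtain ⟨b, hb⟩ := hs
  rw [← eisK_add_lat (latOff_div hℓ τ h) a b]
  congr 1
  have hℓ0 : (ℓ : ℂ) ≠ 0 := Nat.cast_ne_zero.mpr (NeZero.ne ℓ)
  rw [eq_add_of_sub_eq ha, eq_add_of_sub_eq hb]
  field_simp
  push_cast
  ring

theorem isBoundedAtImInfty_eisK_div (hℓ : ℓ ≠ 2) {r s : ℤ}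
    (h : ¬ ((ℓ : ℤ) ∣ r ∧ (ℓ : ℤ) ∣ s)) :
    IsBoundedAtImInfty fun τ : ℍ => eisK τ ((r * (τ : ℂ) + s) / ℓ) := by
  have hp : ℓ.Prime := Fact.out
  obtain ⟨r0, hr0, hdvd⟩ : ∃ r0 : ℤ, 2 * |r0| < ℓ ∧ (ℓ : ℤ) ∣ r0 - r := by
    refine ⟨Int.bmod r ℓ, ?_, Int.dvd_bmod_sub_self⟩
    have h1 := Int.le_bmod (x := r) hp.pos
    have h2 := Int.bmod_lt (x := r) hp.pos
    obtain ⟨k, hk⟩ := hp.odd_of_ne_two hℓ
    rcases abs_choice (Int.bmod r ℓ) with h3 | h3 <;> rw [h3] <;> omega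
  have h0 : ¬ ((ℓ : ℤ) ∣ r0 ∧ (ℓ : ℤ) ∣ s) := fun hh => h ⟨by simpa using dvd_sub hh.1 hdvd, hh.2⟩
  set B := ‖cotC (2 * s / ℓ)‖ + 2 * ‖cotC (s / ℓ)‖ + 15 * π with hB
  rw [UpperHalfPlane.isBoundedAtImInfty_iff]
  refine ⟨∑' m : ℤ, (16 * π * Real.exp (-(2 * π * |(m : ℝ)|)) + if m = 0 then B else 0), ℓ,
    fun τ hτ => ?_⟩
  have hℓpos : (0 : ℝ) < ℓ := by exact_mod_cast hp.pos
  rw [← eisK_div_congr hℓ τ h hdvd (by simp : (ℓ : ℤ) ∣ s - s),
    ← (hasSum_eisK (latOff_div hℓ τ h0)).tsum_eq]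
  refine tsum_of_norm_bounded
    (((summable_exp_neg_mul_abs Real.two_pi_pos).mul_left (16 * π)).add
      (hasSum_ite_eq 0 B).summable).hasSum fun m => ?_
  set u := ((r0 : ℂ) * τ + s) / ℓ with hu
  have hy := τ.im_pos
  have hu_im : u.im = r0 * τ.im / ℓ := by
    simp [hu, Complex.div_natCast_im]
  by_cases hm : m = 0
  · subst hm
    rw [if_pos rfl]
    refine le_trans ?_ (le_add_of_nonneg_left (by positivity))
    rw [hB, cotDiff, Int.cast_zero, zero_mul, neg_zero, cotC_zero, add_zero, sub_zero, sub_zero]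
    refine (norm_sub_le _ _).trans ?_
    rw [norm_mul, Complex.norm_ofNat]
    rcases eq_or_ne r0 0 with hr | hr
    · simp [hu, hr, mul_div_assoc]
      linarith [Real.pi_pos]
    · have hr' : (1 : ℝ) ≤ |(r0 : ℝ)| := by exact_mod_cast Int.one_le_abs hr
      have h1 : 1 ≤ |u.im| := by
        rw [hu_im, abs_div, abs_mul, abs_of_pos hy, abs_of_pos hℓpos, le_div_iff₀ hℓpos, one_mul]
        nlinarith
      have h2 : 1 ≤ |(2 * u).im| := by
        simp only [Complex.mul_im, Complex.re_ofNat, Complex.im_ofNat, zero_mul, add_zero, abs_mul,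
          abs_two]
        linarith
      have b1 := norm_cotC_le h1
      have b2 := norm_cotC_le h2
      linarith [norm_nonneg (cotC (2 * s / ℓ : ℂ)), norm_nonneg (cotC (s / ℓ : ℂ)), Real.pi_pos]
  · rw [if_neg hm, add_zero]
    have hm1 : (1 : ℝ) ≤ |(m : ℝ)| := by exact_mod_cast Int.one_le_abs hm
    refine (norm_cotDiff_le (d := |(m : ℝ)| * τ.im / ℓ) ?_ ?_).trans ?_
    · rw [le_div_iff₀ hℓpos]; nlinarith
    · have e1 : (2 * u - m * (τ : ℂ)).im = (2 * r0 - m * ℓ) * τ.im / ℓ := by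
        simp [hu_im]; field_simp
      have e2 : (u - m * (τ : ℂ)).im = (r0 - m * ℓ) * τ.im / ℓ := by
        simp [hu_im]; field_simp
      have e3 : (-((m : ℂ) * (τ : ℂ))).im = -(m * ℓ) * τ.im / ℓ := by
        simp; field_simp
      rw [e1, e2, e3]
      have hℓ1 : (1 : ℤ) ≤ ℓ := by exact_mod_cast hp.pos
      rcases lt_or_gt_of_ne hm with hm' | hm'
      · left
        have k1 : -m ≤ 2 * r0 - m * ℓ := by nlinarith [neg_abs_le r0, abs_nonneg r0]
        have k2 : -m ≤ r0 - m * ℓ := by nlinarith [neg_abs_le r0, abs_nonneg r0]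
        have k3 : -m ≤ -(m * ℓ) := by nlinarith
        rw [abs_of_neg (by exact_mod_cast hm')]
        refine ⟨?_, ?_, ?_⟩ <;> gcongr
        · exact_mod_cast k1
        · exact_mod_cast k2
        · have : -(m : ℝ) ≤ -((m : ℝ) * ℓ) := by exact_mod_cast k3
          linarith
      · right
        have k1 : 2 * r0 - m * ℓ ≤ -m := by nlinarith [le_abs_self r0, abs_nonneg r0]
        have k2 : r0 - m * ℓ ≤ -m := by nlinarith [le_abs_self r0, abs_nonneg r0]
        have k3 : -(m * ℓ) ≤ -m := by nlinarith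
        rw [abs_of_pos (by exact_mod_cast hm'), ← neg_div, ← neg_mul]
        refine ⟨?_, ?_, ?_⟩ <;> gcongr
        · exact_mod_cast k1
        · exact_mod_cast k2
        · have : -((m : ℝ) * ℓ) ≤ -(m : ℝ) := by exact_mod_cast k3
          linarith
    · gcongr
      rw [le_div_iff₀ hℓpos]
      nlinarith

/-- The combination of division values attached to an odd character. -/
def eisE0 (χ : DirichletCharacter ℂ ℓ) (τ : ℍ) : ℂ :=
  ∑ a : ZMod ℓ, χ⁻¹ a * eisK τ ((a.val : ℂ) / ℓ)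

theorem eisE0_slash_apply (χ : DirichletCharacter ℂ ℓ) (A : SL(2, ℤ)) (τ : ℍ) :
    (eisE0 χ ∣[(1 : ℤ)] A) τ = ∑ a : ZMod ℓ, χ⁻¹ a *
      eisK τ ((((A 1 0 * (a.val : ℤ) : ℤ) : ℂ) * τ + ((A 1 1 * (a.val : ℤ) : ℤ) : ℂ)) / ℓ) := by
  rw [ModularForm.SL_slash_apply, zpow_neg_one, ModularGroup.denom_apply, eisE0, Finset.sum_mul]
  refine Finset.sum_congr rfl fun a _ => ?_
  have hj : ((A 1 0 : ℤ) * (τ : ℂ) + (A 1 1 : ℤ)) ≠ 0 := by
    have := UpperHalfPlane.denom_ne_zero (A : GL (Fin 2) ℝ) τ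
    rwa [ModularGroup.denom_apply] at this
  rw [eisK_smul, mul_assoc, mul_comm _ (eisK _ _), mul_assoc, mul_inv_cancel₀ hj, mul_one]
  congr 2
  push_cast
  ring

theorem eisE0_slash (hℓ : ℓ ≠ 2) (χ : DirichletCharacter ℂ ℓ) {A : SL(2, ℤ)}
    (hA : A ∈ Gamma0 ℓ) :
    eisE0 χ ∣[(1 : ℤ)] A = χ ((A 1 1 : ℤ) : ZMod ℓ) • eisE0 χ := by
  funext τ
  rw [eisE0_slash_apply, Pi.smul_apply, smul_eq_mul, eisE0, Finset.mul_sum]
  set d : ZMod ℓ := ((A 1 1 : ℤ) : ZMod ℓ)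
  have hc : ((A 1 0 : ℤ) : ZMod ℓ) = 0 := Gamma0_mem.mp hA
  have hd : d ≠ 0 := by
    intro hd
    have := congrArg (Int.cast : ℤ → ZMod ℓ) (Matrix.SpecialLinearGroup.det_coe A)
    rw [Matrix.det_fin_two] at this
    push_cast at this
    rw [hc, show ((A 1 1 : ℤ) : ZMod ℓ) = 0 from hd, mul_zero, mul_zero, sub_zero] at this
    exact zero_ne_one this
  refine Fintype.sum_equiv (Equiv.mulLeft₀ d hd) _ _ fun a => ?_
  rw [show (Equiv.mulLeft₀ d hd) a = d * a from rfl, map_mul, ← mul_assoc, ← mul_assoc, MulChar.inv_apply' χ d, ← map_mul,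
    mul_inv_cancel₀ hd, map_one, one_mul]
  by_cases ha : a = 0
  · simp [ha]
  congr 1
  have h0 : ¬ ((ℓ : ℤ) ∣ 0 ∧ (ℓ : ℤ) ∣ ((d * a).val : ℤ)) := fun hh => by
    have := (ZMod.intCast_zmod_eq_zero_iff_dvd _ _).mpr hh.2
    rw [Int.cast_natCast, ZMod.natCast_val, ZMod.cast_id] at this
    exact mul_ne_zero hd ha this
  rw [show (((d * a).val : ℕ) : ℂ) / ℓ =
    (((0 : ℤ) : ℂ) * τ + (((d * a).val : ℤ) : ℂ)) / ℓ by simp]
  refine eisK_div_congr hℓ τ h0 ?_ ?_ <;> rw [← ZMod.intCast_zmod_eq_zero_iff_dvd]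
  · simp [hc]
  · simp [d]

theorem isBoundedAtImInfty_eisE0_slash (hℓ : ℓ ≠ 2) (χ : DirichletCharacter ℂ ℓ)
    (A : SL(2, ℤ)) : IsBoundedAtImInfty (eisE0 χ ∣[(1 : ℤ)] A) := by
  rw [show eisE0 χ ∣[(1 : ℤ)] A = ∑ a : ZMod ℓ, fun τ : ℍ => χ⁻¹ a *
      eisK τ ((((A 1 0 * (a.val : ℤ) : ℤ) : ℂ) * τ + ((A 1 1 * (a.val : ℤ) : ℤ) : ℂ)) / ℓ) from
    funext fun τ => by rw [eisE0_slash_apply, Finset.sum_apply]]
  refine Finset.sum_induction _ _ (fun _ _ h1 h2 => h1.add h2)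
    ((Filter.zero_zeroAtFilter _).boundedAtFilter) fun a _ => ?_
  by_cases ha : a = 0
  · simp only [ha, MulChar.map_zero, zero_mul]
    exact (Filter.zero_zeroAtFilter _).boundedAtFilter
  refine (isBoundedAtImInfty_eisK_div hℓ fun hh => ha ?_).const_mul_left _
  rw [← ZMod.intCast_zmod_eq_zero_iff_dvd, ← ZMod.intCast_zmod_eq_zero_iff_dvd] at hh
  simp only [Int.cast_mul, Int.cast_natCast, ZMod.natCast_zmod_val, mul_eq_zero] at hh
  by_contra hne
  have := congrArg (Int.cast : ℤ → ZMod ℓ) (Matrix.SpecialLinearGroup.det_coe A)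
  rw [Matrix.det_fin_two] at this
  push_cast at this
  rw [hh.1.resolve_right hne, hh.2.resolve_right hne, mul_zero, mul_zero, sub_zero] at this
  exact zero_ne_one this

end Division

end FermatLib.Galois.DS

end
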