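import Fermat.Agent.Galois.DS.ResidualPeriods
import Fermat.Prelude.Thm_UpperHalfPlane_qCoeff_heckeT
import Fermat.Prelude.Thm_UpperHalfPlane_qCoeff_heckeU
import Fermat.Prelude.Thm_ModularForm_periodic_heckeT_comp_ofComplex
import Fermat.Prelude.Thm_ModularForm_periodic_heckeU_comp_ofComplex
import Fermat.Prelude.Thm_ModularForm_mdifferentiable_heckeT
import Fermat.Prelude.Thm_ModularForm_mdifferentiable_heckeU
import Fermat.Prelude.Thm_ModularForm_isBoundedAtImInfty_heckeT
import Fermat.Prelude.Thm_ModularForm_isBoundedAtImInfty_heckeU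

/-!
# `T p` on weight two forms with character

`F ∣ γ = ψ (γ₁₁) • F` on `Γ₀(M)`; the operator `opFun1` is preserved and has the usual action on
`q`-expansions.
-/

set_option autoImplicit false

noncomputable section

open UpperHalfPlane hiding I
open CongruenceSubgroup ModularCurve ModularCurve.Period Filter
open scoped MatrixGroups Topology Manifold ModularForm Real

namespace FermatLib.Galois.DS

open FermatLib.Modular

local notation "M2Z" => Matrix (Fin 2) (Fin 2) ℤ

variable {M : ℕ}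

/-- A nebentypus, as a function of an integer. -/
structure IsCharFun (M : ℕ) (ψ : ℤ → ℂ) : Prop where
  congr : ∀ a b : ℤ, (M : ℤ) ∣ a - b → ψ a = ψ b
  map_mul : ∀ a b : ℤ, ψ (a * b) = ψ a * ψ b
  map_one : ψ 1 = 1

theorem IsCharFun.ne_zero {ψ : ℤ → ℂ} (hψ : IsCharFun M ψ) {a : ℤ} (ha : IsCoprime a (M : ℤ)) :
    ψ a ≠ 0 := by
  obtain ⟨u, v, h⟩ := ha
  intro h0
  have h1 := hψ.congr (u * a) 1 ⟨-v, by linear_combination h⟩
  rw [hψ.map_mul, h0, mul_zero, hψ.map_one] at h1
  exact zero_ne_one h1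

/-- Weight two forms with character `ψ`. -/
def charSpace (M : ℕ) (ψ : ℤ → ℂ) : Submodule ℂ (ℍ → ℂ) where
  carrier := {F | F ∈ cusp1Space M ∧
    ∀ γ ∈ Gamma0 M, F ∣[(2 : ℤ)] γ = ψ ((γ : SL(2, ℤ)) 1 1) • F}
  zero_mem' := ⟨zero_mem _, fun γ _ => by rw [SlashAction.zero_slash, smul_zero]⟩
  add_mem' := fun ⟨h1, h2⟩ ⟨k1, k2⟩ =>
    ⟨add_mem h1 k1, fun γ hγ => by rw [SlashAction.add_slash, h2 γ hγ, k2 γ hγ, smul_add]⟩
  smul_mem' := fun c _ ⟨h1, h2⟩ =>
    ⟨Submodule.smul_mem _ c h1, fun γ hγ => by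
      rw [ModularForm.SL_smul_slash, h2 γ hγ, smul_comm]⟩

variable [NeZero M] {F : ℍ → ℂ} {ψ : ℤ → ℂ}

/-- A member of `cusp1Space` as a cusp form. -/
def toCusp1 (hF : F ∈ cusp1Space M) : CuspForm (Gamma1 M) 2 where
  toFun := F
  slash_action_eq' := by
    rintro g ⟨γ, hγ, rfl⟩
    exact hF.2.1 γ hγ
  holo' := hF.1
  zero_at_cusps' := by
    intro c hc
    rw [Subgroup.IsArithmetic.isCusp_iff_isCusp_SL2Z] at hc
    rw [OnePoint.isZeroAt_iff_forall_SL2Z hc]
    exact fun γ _ => hF.2.2 γ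

theorem cusp1_periodic_one (hF : F ∈ cusp1Space M) : Function.Periodic (F ∘ ofComplex) 1 := by
  have h := SlashInvariantFormClass.periodic_comp_ofComplex (toCusp1 hF)
    (show (1 : ℝ) ∈ ((Gamma1 M : Subgroup SL(2, ℤ)) : Subgroup (GL (Fin 2) ℝ)).strictPeriods by simp)
  rw [Complex.ofReal_one] at h
  exact h

omit [NeZero M] in
theorem cusp1_isBoundedAtImInfty (hF : F ∈ cusp1Space M) : IsBoundedAtImInfty F := by
  have h := hF.2.2 1
  rw [SlashAction.slash_one] at h
  exact h.boundedAtFilter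

theorem cusp1_analyticAt (hF : F ∈ cusp1Space M) : AnalyticAt ℂ (cuspFunction 1 F) 0 :=
  analyticAt_cuspFunction_zero one_pos (by simpa using cusp1_periodic_one hF) hF.1
    (cusp1_isBoundedAtImInfty hF)

theorem qCoeff_add_of_mem {G : ℍ → ℂ} (hF : F ∈ cusp1Space M) (hG : G ∈ cusp1Space M) (n : ℕ) :
    ModularFormClass.qCoeff (F + G) n =
      ModularFormClass.qCoeff F n + ModularFormClass.qCoeff G n := by
  simp [ModularFormClass.qCoeff, qExpansion_add (cusp1_analyticAt hF) (cusp1_analyticAt hG)]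

theorem qCoeff_smul_of_mem (hF : F ∈ cusp1Space M) (c : ℂ) (n : ℕ) :
    ModularFormClass.qCoeff (c • F) n = c * ModularFormClass.qCoeff F n := by
  simp [ModularFormClass.qCoeff, qExpansion_smul (cusp1_analyticAt hF)]

/-- The weight of a representative. -/
def repWeight (ψ : ℤ → ℂ) (p : ℕ) : Option (Fin p) → ℂ
  | some _ => 1
  | none => ψ p

omit [NeZero M] in
theorem repWeight_mul (hψ : IsCharFun M ψ) (p : ℕ) (x : Option (Fin p)) :
    repWeight ψ p x * ψ (heckeRepInt p x 1 1) = ψ p := by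
  cases x <;> simp [repWeight, heckeRepInt, hψ.map_one]

omit [NeZero M] in
theorem slash_rep1GL (hF : F ∈ charSpace M ψ) (p : ℕ) (h : Nat.Coprime p M) (x : Option (Fin p)) :
    F ∣[(2 : ℤ)] rep1GL M p h x = repWeight ψ p x • (F ∣[(2 : ℤ)] heckeRepGL p x) := by
  rw [rep1GL, SlashAction.slash_mul]
  cases x with
  | some j => simp [cosetTwist, repWeight]
  | none =>
    rw [show F ∣[(2 : ℤ)] (Matrix.SpecialLinearGroup.mapGL ℝ (cosetTwist M p h none : SL(2, ℤ)) :
        GL (Fin 2) ℝ) = ψ p • F from hF.2 _ (diamondMat M p h).2, heckeRepGL,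
      ModularForm.smul_slash, ModularForm.σ_heckeDiagMatrix]
    rfl

omit [NeZero M] in
theorem heckeRepGL_mul {p : ℕ} (hp : p ≠ 0) (x y : Option (Fin p)) (γ g : SL(2, ℤ))
    (h : heckeRepInt p x * (γ : M2Z) = (g : M2Z) * heckeRepInt p y) :
    heckeRepGL p x * Matrix.SpecialLinearGroup.mapGL ℝ γ =
      Matrix.SpecialLinearGroup.mapGL ℝ g * heckeRepGL p y := by
  apply Units.ext
  rw [Units.val_mul, Units.val_mul, val_heckeRepGL hp, val_heckeRepGL hp, val_mapGL_int,
    val_mapGL_int, ← map_intCast_mul, ← map_intCast_mul, h]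

theorem opFun1_mem_charSpace (hψ : IsCharFun M ψ) (hF : F ∈ charSpace M ψ) {p : ℕ} (hp : p.Prime)
    (h : Nat.Coprime p M) : opFun1 M p h F ∈ charSpace M ψ := by
  classical
  refine ⟨opFun1_mem hp h hF.1, fun γ hγ => ?_⟩
  have hpM : ¬ p ∣ M := (Nat.Prime.coprime_iff_not_dvd hp).mp h
  have hex : ∀ x : Option (Fin p), ∃ (y : Option (Fin p)) (g : Gamma0 M),
      heckeRepInt p x * (γ : M2Z) = ((g : SL(2, ℤ)) : M2Z) * heckeRepInt p y := by
    intro x
    obtain ⟨⟨y, _⟩, g, hg⟩ := exists_eq_mul_rep (N := M) hp (heckeRepInt p x * (γ : M2Z))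
      (by rw [Matrix.det_mul, det_heckeRepInt, Matrix.SpecialLinearGroup.det_coe, mul_one])
      (by
        simp only [Matrix.mul_apply, Fin.sum_univ_two, heckeRepInt_one_zero, zero_mul, zero_add]
        exact (dvd_apply_one_zero (⟨γ, hγ⟩ : Gamma0 M)).mul_left _)
      (fun h' => absurd h' hpM)
    exact ⟨y, g, hg⟩
  choose e g hg using hex
  have he : Function.Injective e := by
    intro x x' hxx
    have h1 := hg x
    have h2 := hg x'
    rw [hxx] at h1
    refine heckeRepInt_eq_of_mul_eq hp.one_lt x x'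
      ((g x' : SL(2, ℤ)) * (g x : SL(2, ℤ))⁻¹) ?_
    have hγ' : (γ : M2Z) * ((γ⁻¹ : SL(2, ℤ)) : M2Z) = 1 := congrArg Subtype.val (mul_inv_cancel γ)
    have h3 : (((g x' : SL(2, ℤ)) * (g x : SL(2, ℤ))⁻¹ : SL(2, ℤ)) : M2Z) *
        (heckeRepInt p x * (γ : M2Z)) = heckeRepInt p x' * (γ : M2Z) := by
      rw [h1, h2, ← Matrix.mul_assoc, ← Matrix.SpecialLinearGroup.coe_mul, inv_mul_cancel_right]
    have h4 := congrArg (· * ((γ⁻¹ : SL(2, ℤ)) : M2Z)) h3
    simpa only [Matrix.mul_assoc, hγ', Matrix.mul_one] using h4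
  rw [opFun1, SlashAction.sum_slash, Finset.smul_sum]
  refine Fintype.sum_equiv (Equiv.ofBijective e (Finite.injective_iff_bijective.mp he)) _ _
    fun x => ?_
  simp only [Equiv.ofBijective_apply, slash_rep1GL hF]
  rw [ModularForm.SL_smul_slash]
  have hslash : (F ∣[(2 : ℤ)] heckeRepGL p x) ∣[(2 : ℤ)] γ =
      ψ ((g x : SL(2, ℤ)) 1 1) • (F ∣[(2 : ℤ)] heckeRepGL p (e x)) := by
    rw [ModularForm.SL_slash, ← SlashAction.slash_mul]
    change F ∣[(2 : ℤ)] (heckeRepGL p x * Matrix.SpecialLinearGroup.mapGL ℝ γ) = _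
    rw [heckeRepGL_mul hp.ne_zero x (e x) γ _ (hg x), SlashAction.slash_mul,
      show F ∣[(2 : ℤ)] (Matrix.SpecialLinearGroup.mapGL ℝ (g x : SL(2, ℤ)) : GL (Fin 2) ℝ) =
        ψ ((g x : SL(2, ℤ)) 1 1) • F from hF.2 _ (g x).2, ModularForm.smul_slash]
    congr 1
    rw [UpperHalfPlane.σ, if_pos (by
      cases e x with
      | some j => exact ModularForm.det_heckeMatrix_pos p j
      | none => exact ModularForm.det_heckeDiagMatrix_pos p)]
    rfl
  rw [hslash, smul_smul, smul_smul]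
  congr 1
  have h11 := congrFun (congrFun (hg x) 1) 1
  simp only [Matrix.mul_apply, Fin.sum_univ_two, heckeRepInt_one_zero, zero_mul, zero_add] at h11
  have hmod := hψ.congr (heckeRepInt p x 1 1 * γ 1 1)
    ((g x : SL(2, ℤ)) 1 1 * heckeRepInt p (e x) 1 1) (by
      rw [h11, add_sub_cancel_right]
      exact (dvd_apply_one_zero (g x)).mul_right _)
  rw [hψ.map_mul, hψ.map_mul] at hmod
  have hy : ψ (heckeRepInt p (e x) 1 1) ≠ 0 := by
    have := repWeight_mul hψ p (e x)
    intro h0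
    rw [h0, mul_zero] at this
    exact hψ.ne_zero (Nat.isCoprime_iff_coprime.mpr h) this.symm
  refine mul_right_cancel₀ hy ?_
  rw [mul_assoc, ← hmod, ← mul_assoc, repWeight_mul hψ, mul_assoc, repWeight_mul hψ, mul_comm]

theorem qCoeff_opFun1 (hF : F ∈ charSpace M ψ) {p : ℕ} (hp : p.Prime)
    (h : Nat.Coprime p M) (n : ℕ) :
    ModularFormClass.qCoeff (opFun1 M p h F) n = ModularFormClass.qCoeff F (p * n) +
      ψ p * p * (if p ∣ n then ModularFormClass.qCoeff F (n / p) else 0) := by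
  have hper := cusp1_periodic_one hF.1
  have hbdd := cusp1_isBoundedAtImInfty hF.1
  have hop : opFun1 M p h F =
      ψ p • ModularForm.heckeT 2 p F + (1 - ψ p) • ModularForm.heckeU 2 p F := by
    rw [opFun1, Finset.sum_congr rfl fun x _ => slash_rep1GL hF p h x, Fintype.sum_option]
    simp only [repWeight, one_smul, heckeRepGL]
    rw [Fin.sum_univ_eq_sum_range (fun j => F ∣[(2 : ℤ)] ModularForm.heckeMatrix p j),
      ModularForm.heckeT_eq_heckeU_add, ← ModularForm.heckeU_def, smul_add, sub_smul, one_smul]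
    abel
  have aT : AnalyticAt ℂ (cuspFunction 1 (ModularForm.heckeT 2 p F)) 0 :=
    analyticAt_cuspFunction_zero one_pos
      (by simpa using ModularForm.periodic_heckeT_comp_ofComplex hper 2 p)
      (ModularForm.mdifferentiable_heckeT hF.1.1 2 p)
      (ModularForm.isBoundedAtImInfty_heckeT hbdd 2 p)
  have aU : AnalyticAt ℂ (cuspFunction 1 (ModularForm.heckeU 2 p F)) 0 :=
    analyticAt_cuspFunction_zero one_pos
      (by simpa using ModularForm.periodic_heckeU_comp_ofComplex hper 2 p)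
      (ModularForm.mdifferentiable_heckeU hF.1.1 2 p)
      (ModularForm.isBoundedAtImInfty_heckeU hbdd 2 p)
  have hsum : ∀ a b : ℂ, ModularFormClass.qCoeff
      (a • ModularForm.heckeT 2 p F + b • ModularForm.heckeU 2 p F) n =
      a * ModularFormClass.qCoeff (ModularForm.heckeT 2 p F) n +
        b * ModularFormClass.qCoeff (ModularForm.heckeU 2 p F) n := by
    intro a b
    have a1 : AnalyticAt ℂ (cuspFunction 1 (a • ModularForm.heckeT 2 p F)) 0 := by
      rw [cuspFunction_smul aT.continuousAt]; exact aT.const_smul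
    have a2 : AnalyticAt ℂ (cuspFunction 1 (b • ModularForm.heckeU 2 p F)) 0 := by
      rw [cuspFunction_smul aU.continuousAt]; exact aU.const_smul
    simp [ModularFormClass.qCoeff, qExpansion_add a1 a2, qExpansion_smul aT, qExpansion_smul aU]
  rw [hop, hsum, UpperHalfPlane.qCoeff_heckeT hper hF.1.1 hbdd 2 hp.ne_zero,
    UpperHalfPlane.qCoeff_heckeU hper hF.1.1 hbdd 2 hp.ne_zero, ModularForm.coeffHeckeT,
    ModularForm.coeffHeckeU, mul_comm n p]
  split_ifs with hd <;> norm_num <;> ring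

end FermatLib.Galois.DS

end
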