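import Mathlib.RingTheory.PowerSeries.Ideal
import Mathlib.RingTheory.PowerSeries.Inverse
import Mathlib.RingTheory.Localization.AtPrime.Basic
import Fermat.Agent.Galois.DS.Reduction

/-!
# Horizontal divisors near the special fibre

Multiplicities of primes not over `ϖ` come from orders at points of `ℍ`.
-/

set_option autoImplicit false
set_option linter.unusedSectionVars false
set_option linter.style.haveILetI false

noncomputable section

open UpperHalfPlane CongruenceSubgroup ModularCurve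
open scoped MatrixGroups

namespace FermatLib.Galois.DS

theorem eq_of_pow_mul_eq {S : Type*} [CommRing S] [IsDomain S] {π : S} (hπ : Prime π) {m k : ℕ}
    {A B : S} (hA : ¬ π ∣ A) (hB : ¬ π ∣ B) (h : π ^ m * A = π ^ k * B) : m = k := by
  have key : ∀ {m k : ℕ} {A B : S}, ¬ π ∣ A → π ^ m * A = π ^ k * B → k ≤ m := by
    intro m k A B hA h
    by_contra hlt
    obtain ⟨d, rfl⟩ := Nat.exists_eq_add_of_lt (not_le.mp hlt)
    rw [pow_add, pow_add, pow_one, mul_assoc, mul_assoc] at h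
    exact hA ⟨π ^ d * B, by rw [mul_left_cancel₀ (pow_ne_zero m hπ.ne_zero) h]; ring⟩
  exact le_antisymm (key hB h.symm) (key hA h)

variable {M : ℕ} [NeZero M] {O : Subring ℂ} [IsDiscreteValuationRing O]
  [IsAdicComplete (IsLocalRing.maximalIdeal O) O] {ϖ : O}

theorem coe_ne_zero_of_ne_zero {a : intRing M O} (ha : a ≠ 0) :
    ((a : modRing M) : ℍ → ℂ) ≠ 0 :=
  (coe_ne_zero_iff M).mpr fun h => ha (Subtype.ext h)

/-- `s g = u ^ (ord g) c` at a point. -/
theorem exists_factor_at_point {P : Ideal (intRing M O)} [P.IsPrime] {τ : ℍ} {u : intRing M O}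
    (hu : ordAt ((u : modRing M) : ℍ → ℂ) τ = 1)
    (hP : ∀ a : intRing M O, a ∈ P ↔ ((a : modRing M) : ℍ → ℂ) τ = 0)
    (hdiv : ∀ a ∈ P, ∃ s ∉ P, u ∣ s * a) {g : intRing M O} (hg : g ≠ 0) :
    ∃ s c : intRing M O, s ∉ P ∧ c ∉ P ∧
      s * g = u ^ ordAt ((g : modRing M) : ℍ → ℂ) τ * c := by
  induction hn : ordAt ((g : modRing M) : ℍ → ℂ) τ using Nat.strong_induction_on generalizing g with
  | _ n ih =>
    by_cases hgP : g ∈ P
    · obtain ⟨s, hs, g₁, hg₁⟩ := hdiv g hgP
      have hs0 : s ≠ 0 := fun h => hs (h ▸ P.zero_mem)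
      have hg₁0 : g₁ ≠ 0 := by
        rintro rfl
        rw [mul_zero] at hg₁
        exact mul_ne_zero hs0 hg hg₁
      have hu0 : u ≠ 0 := by
        rintro rfl
        rw [zero_mul] at hg₁
        exact mul_ne_zero hs0 hg hg₁
      have hord : ordAt ((s : modRing M) : ℍ → ℂ) τ + ordAt ((g : modRing M) : ℍ → ℂ) τ =
          ordAt ((u : modRing M) : ℍ → ℂ) τ + ordAt ((g₁ : modRing M) : ℍ → ℂ) τ := by
        rw [← ordAt_mul (mdiff_modRing M _) (mdiff_modRing M _) (coe_ne_zero_of_ne_zero hs0)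
            (coe_ne_zero_of_ne_zero hg) τ,
          ← ordAt_mul (mdiff_modRing M _) (mdiff_modRing M _) (coe_ne_zero_of_ne_zero hu0)
            (coe_ne_zero_of_ne_zero hg₁0) τ]
        exact congrArg (fun z : intRing M O => ordAt ((z : modRing M) : ℍ → ℂ) τ) hg₁
      rw [ordAt_eq_zero_of_ne_zero (fun h => hs ((hP s).mpr h)), hu, hn] at hord
      obtain ⟨s', c, hs', hc, heq⟩ := ih _ (by omega) hg₁0 rfl
      refine ⟨s' * s, c, fun h => (Ideal.IsPrime.mem_or_mem ‹_› h).elim hs' hs, hc, ?_⟩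
      rw [mul_assoc, hg₁, show n = ordAt ((g₁ : modRing M) : ℍ → ℂ) τ + 1 by omega, pow_succ]
      linear_combination u * heq
    · refine ⟨1, g, fun h => Ideal.IsPrime.ne_top ‹_› ((Ideal.eq_top_iff_one P).mpr h), hgP, ?_⟩
      rw [← hn, ordAt_eq_zero_of_ne_zero (fun h => hgP ((hP g).mpr h))]; simp

/-- Horizontal multiplicities are divisible by `ℓ`. -/
theorem dvd_multiplicity_of_ordAt (hg0 : GoodPlace M O) (hϖ : Irreducible ϖ) {ℓ : ℕ}
    {S : Type*} [CommRing S] [IsDomain S] [WfDvdMonoid S] (φ : intRing M O →+* S) {π : S}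
    (hπ : Prime π) (hπϖ : ¬ π ∣ φ (algebraMap O (intRing M O) ϖ)) {g : intRing M O} (hg : g ≠ 0)
    (hord : ∀ τ, ℓ ∣ ordAt ((g : modRing M) : ℍ → ℂ) τ) {k : ℕ} {c : S} (hc : ¬ π ∣ c)
    (h : φ g = π ^ k * c) : ℓ ∣ k := by
  rcases Nat.eq_zero_or_pos k with rfl | hk
  · exact dvd_zero _
  set P : Ideal (intRing M O) := (Ideal.span {π}).comap φ with hPdef
  haveI hspan : (Ideal.span {π}).IsPrime := (Ideal.span_singleton_prime hπ.ne_zero).mpr hπ
  haveI : P.IsPrime := Ideal.IsPrime.comap φ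
  have hmem : ∀ a, a ∈ P ↔ π ∣ φ a := fun a => by
    rw [hPdef, Ideal.mem_comap, Ideal.mem_span_singleton]
  have hgP : g ∈ P := (hmem g).mpr (h ▸ dvd_mul_of_dvd_left (dvd_pow_self π hk.ne') c)
  have hP0 : P ≠ ⊥ := fun hbot => hg (by rw [← Ideal.mem_bot, ← hbot]; exact hgP)
  obtain ⟨p, hp, hpM, hpO⟩ := hg0.exists_prime
  obtain ⟨τ, u, hu, hu1, hPτ, hdiv⟩ :=
    exists_point_of_prime M O hg0.hM hg0.hM5 hp hpM hpO hg0.hζ hϖ P hP0
      (fun hm => hπϖ ((hmem _).mp hm))
  obtain ⟨s, c', hs, hc', heq⟩ := exists_factor_at_point hu1 hPτ hdiv hg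
  set m := ordAt ((g : modRing M) : ℍ → ℂ) τ with hm
  have hsc : ¬ π ∣ φ s * c := fun hd => (hπ.dvd_or_dvd hd).elim (fun h' => hs ((hmem s).mpr h')) hc
  have h1 : π ^ k * (φ s * c) = φ u ^ m * φ c' := by
    rw [← map_pow, ← map_mul, ← heq, map_mul, h]; ring
  have hu0 : φ u ≠ 0 := fun h0 => by
    rw [h0] at h1
    rcases Nat.eq_zero_or_pos m with hm0 | hm0
    · rw [hm0, pow_zero, one_mul] at h1
      exact hc' ((hmem c').mpr (h1 ▸ dvd_mul_of_dvd_left (dvd_pow_self π hk.ne') _))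
    · rw [zero_pow hm0.ne', zero_mul] at h1
      exact hsc (by rw [(mul_eq_zero.mp h1).resolve_left (pow_ne_zero _ hπ.ne_zero)]; exact dvd_zero _)
  obtain ⟨j, w, hw, huw⟩ := WfDvdMonoid.max_power_factor hu0 hπ.irreducible
  rw [huw, mul_pow, mul_assoc, ← pow_mul] at h1
  have hwc : ¬ π ∣ w ^ m * φ c' := fun hd => (hπ.dvd_or_dvd hd).elim
    (fun h' => hw (hπ.dvd_of_dvd_pow h')) fun h' => hc' ((hmem c').mpr h')
  rw [eq_of_pow_mul_eq hπ hsc hwc h1]
  exact dvd_mul_of_dvd_right (hord τ) j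

section PowerSeries

theorem map_residue_eq_zero_iff (hϖ : Irreducible ϖ) (q : PowerSeries O) :
    PowerSeries.map (IsLocalRing.residue O) q = 0 ↔ PowerSeries.C ϖ ∣ q := by
  have key : ∀ x : O, IsLocalRing.residue O x = 0 ↔ ϖ ∣ x := fun x => by
    rw [IsLocalRing.residue_eq_zero_iff, hϖ.maximalIdeal_eq, Ideal.mem_span_singleton]
  constructor
  · intro h
    choose d hd using fun n => (key _).mp (by
      have := congrArg (PowerSeries.coeff n) h
      rwa [PowerSeries.coeff_map, map_zero] at this)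
    exact ⟨PowerSeries.mk d, PowerSeries.ext fun n => by
      rw [PowerSeries.coeff_C_mul, PowerSeries.coeff_mk, ← hd n]⟩
  · rintro ⟨r, rfl⟩
    rw [map_mul, PowerSeries.map_C, (key ϖ).mpr dvd_rfl, map_zero, zero_mul]

theorem prime_powerSeries_C (hϖ : Irreducible ϖ) : Prime (PowerSeries.C ϖ : PowerSeries O) := by
  refine ⟨fun h => hϖ.ne_zero ?_, fun hu => ?_, fun a b hab => ?_⟩
  · have := congrArg PowerSeries.constantCoeff h
    simpa using this
  · have := hu.map PowerSeries.constantCoeff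
    rw [PowerSeries.constantCoeff_C] at this
    exact hϖ.not_isUnit this
  · rw [← map_residue_eq_zero_iff hϖ, map_mul, mul_eq_zero] at hab
    simpa [map_residue_eq_zero_iff hϖ] using hab

theorem coeffMap_residue_eq_zero_iff (hϖ : Irreducible ϖ) (x : LaurentSeries O) :
    coeffMap (IsLocalRing.residue O) x = 0 ↔ HahnSeries.single 0 ϖ ∣ x := by
  rw [single_dvd_iff_forall]
  have key : ∀ i, (coeffMap (IsLocalRing.residue O) x).coeff i = 0 ↔ ϖ ∣ x.coeff i := fun i => by
    rw [coeffMap_coeff, IsLocalRing.residue_eq_zero_iff, hϖ.maximalIdeal_eq,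
      Ideal.mem_span_singleton]
  exact ⟨fun h i => (key i).mp (by rw [h]; rfl),
    fun h => HahnSeries.ext (funext fun i => (key i).mpr (h i))⟩

theorem prime_single (hϖ : Irreducible ϖ) :
    Prime (HahnSeries.single 0 ϖ : LaurentSeries O) := by
  refine ⟨HahnSeries.single_ne_zero hϖ.ne_zero, fun hu => ?_, fun a b hab => ?_⟩
  · have h := hu.map (coeffMap (IsLocalRing.residue O))
    rw [(coeffMap_residue_eq_zero_iff hϖ _).mpr dvd_rfl] at h
    exact not_isUnit_zero h
  · rw [← coeffMap_residue_eq_zero_iff hϖ, map_mul, mul_eq_zero] at hab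
    simpa [coeffMap_residue_eq_zero_iff hϖ] using hab

theorem coeffMap_ofPowerSeries {R S : Type*} [CommRing R] [CommRing S] (f : R →+* S)
    (q : PowerSeries R) :
    coeffMap f (HahnSeries.ofPowerSeries ℤ R q) =
      HahnSeries.ofPowerSeries ℤ S (PowerSeries.map f q) := by
  ext i
  rw [coeffMap_coeff]
  rcases lt_or_ge i 0 with hi | hi
  · rw [ofPowerSeries_coeff_of_neg _ hi, ofPowerSeries_coeff_of_neg _ hi, map_zero]
  · obtain ⟨n, rfl⟩ := Int.eq_ofNat_of_zero_le hi
    rw [HahnSeries.ofPowerSeries_apply_coeff, HahnSeries.ofPowerSeries_apply_coeff,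
      PowerSeries.coeff_map]

/-- An `ℓ`-th power in `k((t))` congruence gives a unit root modulo `ϖ`. -/
theorem exists_unit_root_mod (hϖ : Irreducible ϖ) {ℓ : ℕ} (hℓ : ℓ ≠ 0) {U : PowerSeries O}
    (hU : IsUnit U) {x : LaurentSeries (IsLocalRing.ResidueField O)}
    (hx : x ^ ℓ = coeffMap (IsLocalRing.residue O) (HahnSeries.ofPowerSeries ℤ O U)) :
    ∃ v : PowerSeries O, IsUnit v ∧ PowerSeries.C ϖ ∣ U - v ^ ℓ ∧
      coeffMap (IsLocalRing.residue O) (HahnSeries.ofPowerSeries ℤ O v) = x := by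
  classical
  have hUu := hU.map (PowerSeries.map (IsLocalRing.residue O))
  have hord : x.order = 0 := by
    have h0 : (coeffMap (IsLocalRing.residue O) (HahnSeries.ofPowerSeries ℤ O U)).order = 0 := by
      rw [coeffMap_ofPowerSeries]
      have hc : PowerSeries.constantCoeff (PowerSeries.map (IsLocalRing.residue O) U) ≠ 0 :=
        (PowerSeries.isUnit_iff_constantCoeff.mp hUu).ne_zero
      refine le_antisymm (HahnSeries.order_le_of_coeff_ne_zero ?_) ?_
      · rw [show (0 : ℤ) = ((0 : ℕ) : ℤ) from rfl, HahnSeries.ofPowerSeries_apply_coeff,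
          PowerSeries.coeff_zero_eq_constantCoeff]
        exact hc
      · by_contra hneg
        refine HahnSeries.coeff_order_eq_zero.not.mpr ?_
          (ofPowerSeries_coeff_of_neg _ (not_le.mp hneg))
        intro h0
        exact hUu.ne_zero (HahnSeries.ofPowerSeries_injective (by rw [h0, map_zero]))
    have h1 := congrArg HahnSeries.order hx
    rw [HahnSeries.order_pow, h0, nsmul_eq_mul] at h1
    exact (mul_eq_zero.mp h1).resolve_left (by exact_mod_cast hℓ)
  have hxps : x = HahnSeries.ofPowerSeries ℤ _ x.powerSeriesPart := by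
    conv_lhs => rw [← LaurentSeries.single_order_mul_powerSeriesPart x, hord]
    rw [HahnSeries.single_zero_one, one_mul]
  choose r hr using fun n => IsLocalRing.residue_surjective
    (PowerSeries.coeff n x.powerSeriesPart)
  have hmap : PowerSeries.map (IsLocalRing.residue O) (PowerSeries.mk r) = x.powerSeriesPart :=
    PowerSeries.ext fun n => by rw [PowerSeries.coeff_map, PowerSeries.coeff_mk, hr]
  have hv : coeffMap (IsLocalRing.residue O) (HahnSeries.ofPowerSeries ℤ O (PowerSeries.mk r)) = x := by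
    rw [coeffMap_ofPowerSeries, hmap, ← hxps]
  have hpow : PowerSeries.map (IsLocalRing.residue O) (PowerSeries.mk r) ^ ℓ =
      PowerSeries.map (IsLocalRing.residue O) U := by
    refine HahnSeries.ofPowerSeries_injective (Γ := ℤ) ?_
    rw [map_pow, hmap, ← hxps, hx, coeffMap_ofPowerSeries]
  refine ⟨PowerSeries.mk r, ?_, ?_, hv⟩
  · have h1 : IsUnit (PowerSeries.map (IsLocalRing.residue O) (PowerSeries.mk r)) :=
      (isUnit_pow_iff hℓ).mp (hpow ▸ hUu)
    rw [PowerSeries.isUnit_iff_constantCoeff] at h1 ⊢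
    rw [← PowerSeries.coeff_zero_eq_constantCoeff, PowerSeries.coeff_map] at h1
    rw [← PowerSeries.coeff_zero_eq_constantCoeff]
    exact (isUnit_map_iff (IsLocalRing.residue O) _).mp h1
  · rw [← map_residue_eq_zero_iff hϖ, map_sub, map_pow, hpow, sub_self]

end PowerSeries

end FermatLib.Galois.DS

end
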